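/-
PROJECT R (row 37 by S43), gate `LG1Hyp`, brick IG, item (IG-1) of the relative lift C2 (helper3):
**THE TOWER `E'' = ℚ̄(X₁(N; r)) ⊆ E' = ℚ̄(X₁(N r))` INSIDE `ℚ̄((q))`.**

* `gamma1_mul_le_Gml` : `Γ₁(N r) ≤ Γ₁(N) ⊓ Γ₀(r)`;
* `F1pBar_le_F1Bar_mul` : `laurentBaseChange ℚ̄ (F1p N r) ≤ F1Bar (N r)` (analytic: `ℂ·F1p N r`
  consists of modular functions of level `Γ₁(N) ⊓ Γ₀(r)` (main's `ES/Descent.baseChange_F1p_le`),
  these are modular functions of level `Γ₁(N r)`, i.e. elements of `ℂ·F1 (N r)` (`RepEq`), and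
  membership descends to `ℚ̄` by helper16's `Wr/MemDescent`);
* `diamondAut_apply_of_mem` : the diamonds of the `r`-part (`d ≡ 1 mod N`) fix `E''` pointwise;
* `relfinrank_F1pBar_F1Bar_mul` : `[E' : E''] = r - 1` for `5 ≤ N`.
-/
import Mathlib
import Fermat.Agent.S48.B.B1.Main
import Fermat.Agent.S48.B.ES.Descent
import Fermat.Agent.S48.B.ES.DegreeBridge1
import Fermat.Agent.S37.ES.DegreeBeta
import Fermat.Agent.S43.LG1.Wr.MemDescent

set_option autoImplicit false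
set_option linter.unusedSectionVars false

noncomputable section

namespace Fermat.Agent.S43.LG1.Ig.Tower

open ModularCurve IntermediateField CongruenceSubgroup UpperHalfPlane
open Fermat.Agent.S20 Fermat.Agent.S23.QRing
open Fermat.Agent.S48.B.Defs.Model Fermat.Agent.S48.B.B1
open Fermat.Agent.S48.B.ES.RepG Fermat.Agent.S48.B.ES.AtkinLehner
open Fermat.Agent.S48.B.ES.DiamondUnique Fermat.Agent.S48.B.ES.DegreeBeta1
open Fermat.Agent.S28.StepDeg (kJ)
open scoped ModularForm MatrixGroups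

local notation "Kb" => AlgebraicClosure ℚ

variable (N r : ℕ) [NeZero N] [NeZero r]

/-! ### the groups -/

/-- reduction of an integer congruence from `N r` to `N` -/
theorem intCast_eq_of_mul {a b : ℤ} (h : (a : ZMod (N * r)) = (b : ZMod (N * r))) :
    (a : ZMod N) = (b : ZMod N) := by
  rw [ZMod.intCast_eq_intCast_iff_dvd_sub] at h ⊢
  exact dvd_trans ⟨(r : ℤ), by push_cast; ring⟩ h

/-- reduction of an integer congruence from `N r` to `r` -/
theorem intCast_eq_of_mul' {a b : ℤ} (h : (a : ZMod (N * r)) = (b : ZMod (N * r))) :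
    (a : ZMod r) = (b : ZMod r) := by
  rw [ZMod.intCast_eq_intCast_iff_dvd_sub] at h ⊢
  exact dvd_trans ⟨(N : ℤ), by push_cast; ring⟩ h

/-- `Γ₁(N r) ≤ Γ₁(N) ⊓ Γ₀(r)` -/
theorem gamma1_mul_le_Gml : Gamma1 (N * r) ≤ Gml N r := by
  intro γ hγ
  rw [Gamma1_mem] at hγ
  obtain ⟨h00, h11, h10⟩ := hγ
  refine ⟨?_, ?_⟩
  · show γ ∈ Gamma1 N
    rw [Gamma1_mem]
    refine ⟨?_, ?_, ?_⟩
    · have := intCast_eq_of_mul N r (a := γ 0 0) (b := 1) (by simpa using h00)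
      simpa using this
    · have := intCast_eq_of_mul N r (a := γ 1 1) (b := 1) (by simpa using h11)
      simpa using this
    · have := intCast_eq_of_mul N r (a := γ 1 0) (b := 0) (by simpa using h10)
      simpa using this
  · show γ ∈ Gamma0 r
    rw [Gamma0_mem]
    have := intCast_eq_of_mul' N r (a := γ 1 0) (b := 0) (by simpa using h10)
    simpa using this

/-! ### the inclusion `E'' ⊆ E'` -/

variable {N r}

/-- **`ℚ̄(X₁(N; r)) ⊆ ℚ̄(X₁(N r))`** inside `ℚ̄((q))`. -/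
theorem F1pBar_le_F1Bar_mul (hrN : r.Coprime N) : F1pBar N r ≤ F1Bar (N * r) := by
  set ι : Kb →+* ℂ := Fermat.Agent.S48.B.ES.Descent.iotaC with hι
  intro y hy
  refine Fermat.Agent.S43.LG1.Wr.MemDescent.mem_F1Bar_of_coeffMap_mem (N * r) ι ?_
  have h1 : coeffMap ι y ∈ laurentBaseChange ℂ (F1p N r) :=
    Fermat.Agent.S48.B.B1.RepEq1.coeffMap_mem_laurentBaseChange_of_embedding ι hy
  have h2 : coeffMap ι y ∈ repFieldG (Gml N r) :=
    Fermat.Agent.S48.B.ES.Descent.baseChange_F1p_le hrN (Main.repLe N) h1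
  obtain ⟨k, A, B, hr⟩ := h2
  have h3 : Seams.IsRepOf1 (N * r) (coeffMap ι y) k A B :=
    Fermat.Agent.S48.B.ES.Descent.isRepOf1_of_isRepOfG (N * r)
      (isRepOfG_mono (gamma1_mul_le_Gml N r) hr)
  have h4 : coeffMap ι y ∈ Seams.repSet1 (N * r) := ⟨k, A, B, h3⟩
  rw [← Main.repEq (N * r)] at h4
  exact h4

/-! ### the diamonds of the `r`-part fix `E''` pointwise -/

/-- a form on `Γ` is invariant under the slash by the elements of `Γ` -/
theorem slash_eq_of_mem {Γ : Subgroup SL(2, ℤ)} {k : ℤ} {A : ℍ → ℂ} (hA : IsMF (GG Γ) k A)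
    {σ : SL(2, ℤ)} (hσ : σ ∈ Γ) : A ∣[k] σ = A := by
  obtain ⟨F, rfl⟩ := hA
  rw [ModularForm.SL_slash]
  exact SlashInvariantFormClass.slash_action_eq F _ ⟨σ, hσ, rfl⟩

/-- an element of `Γ₀(N r)` whose upper left entry is `≡ 1 mod N` lies in `Γ₁(N) ⊓ Γ₀(r)` -/
theorem mem_Gml_of_mem_Gamma0 {σ : SL(2, ℤ)} (hσ : σ ∈ Gamma0 (N * r))
    (h00 : ((σ 0 0 : ℤ) : ZMod N) = 1) : σ ∈ Gml N r := by
  rw [Gamma0_mem] at hσ
  have h10N : ((σ 1 0 : ℤ) : ZMod N) = 0 := by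
    have := intCast_eq_of_mul N r (a := σ 1 0) (b := 0) (by simpa using hσ)
    simpa using this
  have h10r : ((σ 1 0 : ℤ) : ZMod r) = 0 := by
    have := intCast_eq_of_mul' N r (a := σ 1 0) (b := 0) (by simpa using hσ)
    simpa using this
  refine ⟨?_, ?_⟩
  · show σ ∈ Gamma1 N
    rw [Gamma1_mem]
    refine ⟨h00, ?_, h10N⟩
    have hdet : σ 0 0 * σ 1 1 - σ 0 1 * σ 1 0 = 1 := by
      have := σ.det_coe
      rw [Matrix.det_fin_two] at this
      exact this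
    have h1 : (((σ 0 0 * σ 1 1 - σ 0 1 * σ 1 0 : ℤ)) : ZMod N) = 1 := by
      rw [hdet]
      simp
    push_cast at h1
    rw [h00, h10N, mul_zero, sub_zero, one_mul] at h1
    exact h1
  · show σ ∈ Gamma0 r
    rw [Gamma0_mem]
    exact h10r

/-- **The diamonds of the `r`-part (`d ≡ 1 mod N`) fix `ℚ̄(X₁(N; r))` pointwise.** -/
theorem diamondAut_apply_of_mem (hrN : r.Coprime N) (d : (ZMod (N * r))ˣ)
    (hd : ((((d : ZMod (N * r)).val : ℕ) : ZMod N)) = 1) (x : ↥(F1Bar (N * r)))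
    (hx : (x : LaurentSeries Kb) ∈ F1pBar N r) : diamondAut (N * r) Kb d x = x := by
  set ι : Kb →+* ℂ := Fermat.Agent.S48.B.ES.Descent.iotaC with hι
  obtain ⟨σ, hσ0, hσd⟩ := Fermat.Agent.S48.B.B1.Diamond.exists_mem_Gamma0 (M := N * r) d
  obtain ⟨δ', hδ', han⟩ := Main.diamondAn (N * r) σ hσ0 d hσd
  -- `σ ∈ Γ₁(N) ⊓ Γ₀(r)`
  have h00 : ((σ 0 0 : ℤ) : ZMod N) = 1 := by
    have h1 : (((((d : ZMod (N * r)).val : ℕ) : ℤ)) : ZMod (N * r)) = ((σ 0 0 : ℤ) : ZMod (N * r)) := by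
      rw [← hσd]
      simp
    have h2 := intCast_eq_of_mul N r h1
    rw [← h2]
    simpa using hd
  have hσ : σ ∈ Gml N r := mem_Gml_of_mem_Gamma0 hσ0 h00
  -- a representative of level `Γ₁(N) ⊓ Γ₀(r)`
  set X : ↥(laurentBaseChange ℂ (F1 (N * r))) := baseChangeMap ι (F1 (N * r)) x with hX
  have hXc : (X : LaurentSeries ℂ) = coeffMap ι (x : LaurentSeries Kb) := rfl
  have h1 : coeffMap ι (x : LaurentSeries Kb) ∈ laurentBaseChange ℂ (F1p N r) :=
    Fermat.Agent.S48.B.B1.RepEq1.coeffMap_mem_laurentBaseChange_of_embedding ι hx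
  obtain ⟨k, A, B, hr⟩ : coeffMap ι (x : LaurentSeries Kb) ∈ repFieldG (Gml N r) :=
    Fermat.Agent.S48.B.ES.Descent.baseChange_F1p_le hrN (Main.repLe N) h1
  have h3 : Seams.IsRepOf1 (N * r) (X : LaurentSeries ℂ) k A B :=
    Fermat.Agent.S48.B.ES.Descent.isRepOf1_of_isRepOfG (N * r)
      (isRepOfG_mono (gamma1_mul_le_Gml N r) hr)
  have h4 := han X k A B h3
  rw [slash_eq_of_mem hr.ha hσ, slash_eq_of_mem hr.hb hσ] at h4
  have h5 : Seams.IsRepOf1 (N * r) ((δ' X : ↥(laurentBaseChange ℂ (F1 (N * r)))) :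
      LaurentSeries ℂ) k A B := ⟨h3.ha, h3.hb, h3.hb0, h4⟩
  have h6 : ((δ' X : ↥(laurentBaseChange ℂ (F1 (N * r)))) : LaurentSeries ℂ) =
      (X : LaurentSeries ℂ) := Fermat.Agent.S48.B.B1.Diamond.eq_of_isRepOf1 h5 h3
  -- back to `ℚ̄`
  have h7 := isDiamondAut_coeffMap_apply ι (Main.isDiamondAut_diamondAut (N * r) Kb d) hδ' x
  rw [← hX, h6, hXc] at h7
  exact Subtype.ext (coeffMap_injective_of_ringHom ι h7)

/-! ### the degree -/

/-- `d₁(N r) = d₁(N) (r + 1) (r - 1)` for a prime `r ∤ N`, `5 ≤ N` -/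
theorem d1_mul_prime (hr : r.Prime) (hrN : ¬ r ∣ N) (hN : 5 ≤ N) :
    Seams.d1 (N * r) = Seams.d1 N * (r + 1) * (r - 1) := by
  have h2 : 2 ∣ N.totient * dedekindPsi N := ((Main.counts1 N) hN).2.1
  have hcop : N.Coprime r := (Nat.Coprime.symm ((Nat.Prime.coprime_iff_not_dvd hr).2 hrN))
  unfold Seams.d1
  rw [Nat.totient_mul hcop, Nat.totient_prime hr,
    Fermat.Agent.S37.ES.DegreeBeta.dedekindPsi_mul_prime_of_not_dvd N hr hrN]
  obtain ⟨c, hc⟩ := h2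
  have e1 : N.totient * (r - 1) * (dedekindPsi N * (r + 1)) =
      2 * (c * (r + 1) * (r - 1)) := by
    calc N.totient * (r - 1) * (dedekindPsi N * (r + 1))
        = (N.totient * dedekindPsi N) * ((r + 1) * (r - 1)) := by ring
      _ = 2 * (c * (r + 1) * (r - 1)) := by rw [hc]; ring
  rw [e1, hc, Nat.mul_div_cancel_left _ (by norm_num : 0 < 2),
    Nat.mul_div_cancel_left _ (by norm_num : 0 < 2)]

/-- **`[ℚ̄(X₁(N r)) : ℚ̄(X₁(N; r))] = r - 1`** inside `ℚ̄((q))`, for a prime `r ∤ N`, `5 ≤ N`. -/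
theorem relfinrank_F1pBar_F1Bar_mul (hr : r.Prime) (hrN : ¬ r ∣ N) (hN : 5 ≤ N) :
    IntermediateField.relfinrank (F1pBar N r) (F1Bar (N * r)) = r - 1 := by
  have hcop : r.Coprime N := (Nat.Prime.coprime_iff_not_dvd hr).2 hrN
  have hNr : 5 ≤ N * r := le_trans hN (Nat.le_mul_of_pos_right N hr.pos)
  have h := IntermediateField.relfinrank_mul_relfinrank (kJ_le_F1pBar N r)
    (F1pBar_le_F1Bar_mul hcop)
  have hE'' := (Fermat.Agent.S48.B.ES.DegreeBridge1.inputs_of_seams hr hrN (Main.deg1 N)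
    (Main.deg1p N r)).2
  have hE' : IntermediateField.relfinrank (kJ Kb) (F1Bar (N * r)) = Nat.card (Seams.Q1 (N * r)) :=
    (Fermat.Agent.S48.B.ES.DegreeBridge1.relfinrank_kJ_F1Bar (N * r)).trans (Main.deg1 (N * r)).2
  rw [hE'', hE', ((Main.counts1 N) hN).1, ((Main.counts1 (N * r)) hNr).1,
    d1_mul_prime hr hrN hN] at h
  have hpos : 0 < Seams.d1 N * (r + 1) := by
    have h1 : 0 < Seams.d1 N := by
      rw [← ((Main.counts1 N) hN).1]
      exact Fermat.Agent.S48.B.ES.DegreeBridge1.card_Q1_pos (Main.deg1 N)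
    positivity
  exact Nat.eq_of_mul_eq_mul_left hpos h

end Fermat.Agent.S43.LG1.Ig.Tower
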