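/-
PROJECT R (row 37 by S43), gate `LG1Hyp`, brick IG, item (IG-1) of the relative lift C2, second half
(helper3): **`E' = ℚ̄(X₁(N r))` AS A CYCLIC EXTENSION OF `E'' = ℚ̄(X₁(N; r))` OF DEGREE `r - 1`.**

* `towerAlgebra` (local instance under `[Fact (r.Coprime N)]`), `isScalarTower_tower`,
  `finrank_tower`;
* `sigmaOf d hd` : the diamond of `d ≡ 1 mod N` as an `E''`-algebra automorphism of `E'`;
* `eq_one_of_diamondAut_eq_refl` : the `r`-part acts faithfully (`3 ≤ N`, from `frickeInj`);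
* `exists_generator` : a generator `d₀` of the `r`-part, of order `r - 1`;
* `exists_sigma` : the package `(σ, σ ^ (r - 1) = 1, fixed field = E'')` for the relative lift.
-/
import Mathlib
import Fermat.Agent.S43.LG1.Ig.Tower

set_option autoImplicit false
set_option linter.unusedSectionVars false

noncomputable section

namespace Fermat.Agent.S43.LG1.Ig.TowerAlg

open ModularCurve IntermediateField
open Fermat.Agent.S48.B.Defs.Model Fermat.Agent.S48.B.B1
open Fermat.Agent.S48.B.ES.DiamondUnique Fermat.Agent.S48.B.ES.DegreeBeta1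
open Fermat.Agent.S43.LG1.Ig.Tower

local notation "Kb" => AlgebraicClosure ℚ

variable (N r : ℕ) [NeZero N] [NeZero r]

/-! ### the algebra structure -/

/-- the inclusion `E'' → E'` -/
def incl [hc : Fact (r.Coprime N)] : ↥(F1pBar N r) →ₐ[Kb] ↥(F1Bar (N * r)) :=
  IntermediateField.inclusion (F1pBar_le_F1Bar_mul hc.out)

theorem coe_incl [hc : Fact (r.Coprime N)] (y : ↥(F1pBar N r)) :
    ((incl N r y : ↥(F1Bar (N * r))) : LaurentSeries Kb) = (y : LaurentSeries Kb) :=
  IntermediateField.coe_inclusion _ _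

/-- `E' = ℚ̄(X₁(N r))` as an algebra over `E'' = ℚ̄(X₁(N; r))` (use as a local instance) -/
@[reducible] def towerAlgebra [hc : Fact (r.Coprime N)] :
    Algebra ↥(F1pBar N r) ↥(F1Bar (N * r)) :=
  (incl N r).toRingHom.toAlgebra

attribute [local instance] towerAlgebra

variable [hc : Fact (r.Coprime N)]

theorem algebraMap_eq (y : ↥(F1pBar N r)) :
    algebraMap ↥(F1pBar N r) ↥(F1Bar (N * r)) y = incl N r y := rfl

theorem coe_algebraMap (y : ↥(F1pBar N r)) :
    ((algebraMap ↥(F1pBar N r) ↥(F1Bar (N * r)) y : ↥(F1Bar (N * r))) : LaurentSeries Kb) =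
      (y : LaurentSeries Kb) := by
  rw [algebraMap_eq, coe_incl]

/-- the tower `ℚ̄ ⊆ E'' ⊆ E'` -/
theorem isScalarTower_tower : IsScalarTower Kb ↥(F1pBar N r) ↥(F1Bar (N * r)) :=
  IsScalarTower.of_algebraMap_eq fun c => ((incl N r).commutes c).symm

/-- an element of `E'` lies in the image of `E''` iff its series lies in `E''` -/
theorem mem_range_algebraMap_iff (x : ↥(F1Bar (N * r))) :
    (∃ y : ↥(F1pBar N r), algebraMap ↥(F1pBar N r) ↥(F1Bar (N * r)) y = x) ↔
      (x : LaurentSeries Kb) ∈ F1pBar N r := by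
  constructor
  · rintro ⟨y, rfl⟩
    rw [coe_algebraMap]
    exact y.2
  · intro hx
    exact ⟨⟨x, hx⟩, Subtype.ext (coe_algebraMap N r _)⟩

/-- **`[E' : E''] = r - 1`**, `finrank` form -/
theorem finrank_tower (hr : r.Prime) (hrN : ¬ r ∣ N) (hN : 5 ≤ N) :
    Module.finrank ↥(F1pBar N r) ↥(F1Bar (N * r)) = r - 1 := by
  have h := Fermat.Agent.S37.ES.DegreeBeta.finrankAlong_eq_relfinrank
    (AlgHom.id Kb (LaurentSeries Kb)) (incl N r) (fun x => coe_incl N r x)
  rw [IntermediateField.map_id, relfinrank_F1pBar_F1Bar_mul hr hrN hN] at h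
  exact h

/-- `E'` is finite over `E''` -/
theorem finiteDimensional_tower (hr : r.Prime) (hrN : ¬ r ∣ N) (hN : 5 ≤ N) (hr2 : 2 < r) :
    FiniteDimensional ↥(F1pBar N r) ↥(F1Bar (N * r)) := by
  refine Module.finite_of_finrank_pos ?_
  rw [finrank_tower N r hr hrN hN]
  omega

/-! ### the diamonds of the `r`-part as automorphisms over `E''` -/

/-- the diamond of `d ≡ 1 mod N` as an `E''`-algebra automorphism of `E'` -/
def sigmaOf (d : (ZMod (N * r))ˣ) (hd : ((((d : ZMod (N * r)).val : ℕ) : ZMod N)) = 1) :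
    ↥(F1Bar (N * r)) ≃ₐ[↥(F1pBar N r)] ↥(F1Bar (N * r)) :=
  AlgEquiv.ofRingEquiv (f := (diamondAut (N * r) Kb d).toRingEquiv) fun y =>
    diamondAut_apply_of_mem hc.out d hd _ (by rw [coe_algebraMap]; exact y.2)

theorem sigmaOf_apply (d : (ZMod (N * r))ˣ) (hd : ((((d : ZMod (N * r)).val : ℕ) : ZMod N)) = 1)
    (x : ↥(F1Bar (N * r))) : sigmaOf N r d hd x = diamondAut (N * r) Kb d x := rfl

/-- powers of `sigmaOf` are the diamonds of the powers -/
theorem sigmaOf_pow_apply (d : (ZMod (N * r))ˣ)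
    (hd : ((((d : ZMod (N * r)).val : ℕ) : ZMod N)) = 1) (k : ℕ) (x : ↥(F1Bar (N * r))) :
    (sigmaOf N r d hd ^ k) x = diamondAut (N * r) Kb (d ^ k) x := by
  induction k generalizing x with
  | zero =>
    rw [pow_zero, pow_zero, Fermat.Agent.S48.B.B1.DiamondUnique.diamondAut_one
      (Main.wpForms (N * r)) (Main.repLe (N * r))]
    rfl
  | succ k ih =>
    rw [pow_succ', pow_succ', Fermat.Agent.S48.B.B1.DiamondUnique.diamondAut_mul
      (Main.wpForms (N * r)) (Main.repLe (N * r))]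
    show sigmaOf N r d hd ((sigmaOf N r d hd ^ k) x) = _
    rw [ih, sigmaOf_apply]
    rfl

/-! ### faithfulness of the `r`-part -/

omit hc in
/-- **the `r`-part of the diamonds acts faithfully on `ℚ̄(X₁(N r))`** (`3 ≤ N`) -/
theorem eq_one_of_diamondAut_eq_refl (hN : 3 ≤ N) (d : (ZMod (N * r))ˣ)
    (hd : ((((d : ZMod (N * r)).val : ℕ) : ZMod N)) = 1)
    (h : ∀ x : ↥(F1Bar (N * r)), diamondAut (N * r) Kb d x = x) : d = 1 := by
  have hNr : 1 < N * r := by
    have : 0 < r := Nat.pos_of_ne_zero (NeZero.ne r)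
    nlinarith
  have : Fact (1 < N * r) := ⟨hNr⟩
  have h1 : (1 : ZMod (N * r)) ≠ 0 := one_ne_zero
  have hspec := Main.isDiamondAut_diamondAut (N * r) Kb d
  have h2 := apply_hGen hspec 1 h1
  rw [h] at h2
  have h3 := congrArg Subtype.val h2
  have h4 : frickeH ℚ (N * r) 1 = frickeH ℚ (N * r) ((d : ZMod (N * r)) * 1) :=
    (coeffEmb Kb).injective h3
  rcases Main.frickeInj (N * r) 1 _ h1 (unit_mul_ne_zero d h1) h4 with h5 | h5
  · rw [mul_one] at h5
    exact Units.ext h5.symm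
  · exfalso
    rw [mul_one] at h5
    -- `d = -1` contradicts `d ≡ 1 mod N`, `3 ≤ N`
    have h6 : ((((d : ZMod (N * r)).val : ℕ) : ℤ) : ZMod (N * r)) = (((-1 : ℤ)) : ZMod (N * r)) := by
      push_cast
      rw [ZMod.natCast_zmod_val]
      exact (neg_eq_iff_eq_neg.mp h5.symm)
    have h7 := intCast_eq_of_mul N r h6
    push_cast at h7
    rw [hd] at h7
    have h8 : ((2 : ℕ) : ZMod N) = 0 := by
      push_cast
      calc (2 : ZMod N) = 1 + 1 := by norm_num
        _ = -1 + 1 := by rw [← h7]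
        _ = 0 := by ring
    have h9 := (ZMod.natCast_eq_zero_iff 2 N).1 h8
    have := Nat.le_of_dvd (by norm_num) h9
    omega

/-! ### a generator of the `r`-part -/

section Generator

omit hc

/-- `(ℤ/N r)ˣ ≃ (ℤ/N)ˣ × (ℤ/r)ˣ` -/
def crtUnits (h : N.Coprime r) : (ZMod (N * r))ˣ ≃* (ZMod N)ˣ × (ZMod r)ˣ :=
  (Units.mapEquiv (ZMod.chineseRemainder h).toMulEquiv).trans MulEquiv.prodUnits

theorem coe_crtUnits_fst (h : N.Coprime r) (d : (ZMod (N * r))ˣ) :
    (((crtUnits N r h d).1 : (ZMod N)ˣ) : ZMod N) = ZMod.cast (d : ZMod (N * r)) := by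
  show (ZMod.chineseRemainder h (d : ZMod (N * r))).1 = _
  have h1 : ZMod.chineseRemainder h (d : ZMod (N * r)) =
      ZMod.castHom (show N.lcm r ∣ N * r by simp [Nat.lcm_dvd_iff]) (ZMod N × ZMod r)
        (d : ZMod (N * r)) := rfl
  rw [h1, ZMod.castHom_apply, Prod.fst_zmod_cast]

/-- the `r`-part in terms of the Chinese remainder theorem -/
theorem rpart_iff (h : N.Coprime r) (d : (ZMod (N * r))ˣ) :
    ((((d : ZMod (N * r)).val : ℕ) : ZMod N)) = 1 ↔ (crtUnits N r h d).1 = 1 := by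
  rw [ZMod.natCast_val, ← coe_crtUnits_fst N r h d]
  exact ⟨fun h1 => Units.ext h1, fun h1 => by rw [h1]; rfl⟩

/-- **a generator of the `r`-part**, of order `r - 1` -/
theorem exists_generator (hr : r.Prime) (hrN : ¬ r ∣ N) :
    ∃ d₀ : (ZMod (N * r))ˣ, ((((d₀ : ZMod (N * r)).val : ℕ) : ZMod N)) = 1 ∧
      orderOf d₀ = r - 1 ∧
      ∀ d : (ZMod (N * r))ˣ, ((((d : ZMod (N * r)).val : ℕ) : ZMod N)) = 1 →
        d ∈ Subgroup.zpowers d₀ := by
  have : Fact r.Prime := ⟨hr⟩
  have hcop : N.Coprime r := ((Nat.Prime.coprime_iff_not_dvd hr).2 hrN).symm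
  obtain ⟨g, hg⟩ := IsCyclic.exists_generator (α := (ZMod r)ˣ)
  have hgo : orderOf g = r - 1 := by
    rw [orderOf_eq_card_of_forall_mem_zpowers hg, Nat.card_eq_fintype_card, ZMod.card_units]
  set e := crtUnits N r hcop with he
  refine ⟨e.symm (1, g), ?_, ?_, ?_⟩
  · rw [rpart_iff N r hcop, ← he, MulEquiv.apply_symm_apply]
  · rw [← MulEquiv.orderOf_eq e, MulEquiv.apply_symm_apply, Prod.orderOf, orderOf_one, hgo,
      Nat.lcm_one_left]
  · intro d hd
    rw [rpart_iff N r hcop, ← he] at hd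
    obtain ⟨k, hk⟩ := Subgroup.mem_zpowers_iff.1 (hg (e d).2)
    refine Subgroup.mem_zpowers_iff.2 ⟨k, ?_⟩
    apply e.injective
    rw [map_zpow, MulEquiv.apply_symm_apply]
    refine Prod.ext ?_ ?_
    · rw [hd]
      simp
    · simpa using hk

end Generator

/-! ### the package for the relative lift -/

section Package

omit hc in
/-- the `r`-part is stable under powers -/
theorem rpart_pow (h : N.Coprime r) {d : (ZMod (N * r))ˣ}
    (hd : ((((d : ZMod (N * r)).val : ℕ) : ZMod N)) = 1) (k : ℕ) :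
    (((((d ^ k : (ZMod (N * r))ˣ) : ZMod (N * r)).val : ℕ) : ZMod N)) = 1 := by
  rw [rpart_iff N r h] at hd ⊢
  rw [map_pow, Prod.pow_fst, hd, one_pow]

/-- `sigmaOf d` has the order of `d` (`3 ≤ N`) -/
theorem orderOf_sigmaOf (hN : 3 ≤ N) (d : (ZMod (N * r))ˣ)
    (hd : ((((d : ZMod (N * r)).val : ℕ) : ZMod N)) = 1) :
    orderOf (sigmaOf N r d hd) = orderOf d := by
  refine orderOf_eq_orderOf_iff.2 fun k => ⟨fun h => ?_, fun h => ?_⟩
  · refine eq_one_of_diamondAut_eq_refl N r hN (d ^ k) (rpart_pow N r hc.out.symm hd k) fun x => ?_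
    rw [← sigmaOf_pow_apply N r d hd k x, h]
    rfl
  · refine AlgEquiv.ext fun x => ?_
    rw [sigmaOf_pow_apply, h, Fermat.Agent.S48.B.B1.DiamondUnique.diamondAut_one
      (Main.wpForms (N * r)) (Main.repLe (N * r))]
    rfl

set_option synthInstance.maxHeartbeats 400000 in
/-- **the cyclic cover `E' / E''`**: a generator `d₀` of the `r`-part, of order `r - 1`, whose
diamond `σ` satisfies `σ ^ (r - 1) = 1` and has fixed field `E''`. -/
theorem exists_sigma (hr : r.Prime) (hrN : ¬ r ∣ N) (hN : 5 ≤ N) (hr2 : 2 < r) :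
    ∃ (d₀ : (ZMod (N * r))ˣ) (hd₀ : ((((d₀ : ZMod (N * r)).val : ℕ) : ZMod N)) = 1),
      orderOf d₀ = r - 1 ∧
      (∀ d : (ZMod (N * r))ˣ, ((((d : ZMod (N * r)).val : ℕ) : ZMod N)) = 1 →
        d ∈ Subgroup.zpowers d₀) ∧
      (∀ h : ↥(F1Bar (N * r)), (sigmaOf N r d₀ hd₀ ^ (r - 1)) h = h) ∧
      ∀ h : ↥(F1Bar (N * r)), sigmaOf N r d₀ hd₀ h = h →
        ∃ h0 : ↥(F1pBar N r), algebraMap ↥(F1pBar N r) ↥(F1Bar (N * r)) h0 = h := by
  obtain ⟨d₀, hd₀, hord, hgen⟩ := exists_generator N r hr hrN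
  refine ⟨d₀, hd₀, hord, hgen, fun h => ?_, fun h hh => ?_⟩
  · rw [sigmaOf_pow_apply, ← hord, pow_orderOf_eq_one,
      Fermat.Agent.S48.B.B1.DiamondUnique.diamondAut_one (Main.wpForms (N * r))
        (Main.repLe (N * r))]
    rfl
  · have := finiteDimensional_tower N r hr hrN hN hr2
    set σ := sigmaOf N r d₀ hd₀ with hσ
    set H : Subgroup (↥(F1Bar (N * r)) ≃ₐ[↥(F1pBar N r)] ↥(F1Bar (N * r))) :=
      Subgroup.zpowers σ with hH
    set K := IntermediateField.fixedField H with hK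
    have h1 : Module.finrank ↥K ↥(F1Bar (N * r)) = r - 1 := by
      rw [hK, IntermediateField.finrank_fixedField_eq_card, hH, Nat.card_zpowers,
        orderOf_sigmaOf N r (by omega) d₀ hd₀, hord]
    have h2 := Module.finrank_mul_finrank ↥(F1pBar N r) ↥K ↥(F1Bar (N * r))
    rw [h1, finrank_tower N r hr hrN hN] at h2
    have h3 : Module.finrank ↥(F1pBar N r) ↥K = 1 := by
      have hpos : 0 < r - 1 := by omega
      exact Nat.eq_of_mul_eq_mul_right hpos (by rw [h2, one_mul])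
    have h4 : K = ⊥ := IntermediateField.finrank_eq_one_iff.1 h3
    have h5 : h ∈ K := by
      rw [hK, IntermediateField.mem_fixedField_iff]
      intro f hf
      obtain ⟨k, rfl⟩ := Subgroup.mem_zpowers_iff.1 hf
      -- `σ h = h` gives `σ ^ k h = h`
      have hfix : σ • h = h := hh
      have : (σ ^ k) • h = h := by
        have hmem : σ ∈ MulAction.stabilizer
            (↥(F1Bar (N * r)) ≃ₐ[↥(F1pBar N r)] ↥(F1Bar (N * r))) h := hfix
        exact (Subgroup.zpow_mem _ hmem k)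
      exact this
    rw [h4, IntermediateField.mem_bot] at h5
    exact h5

end Package

end Fermat.Agent.S43.LG1.Ig.TowerAlg
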