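/-
PROJECT R (row 37 by S43), gate `LG1Hyp`, brick IG-W (helper7; helper17's G-FINAL cut, (M3)):
**A FRICKE AUTOMORPHISM OF `E' = ℚ̄(X₁(N r))` THAT EXTENDS THE ATKIN-LEHNER AUTOMORPHISM `W1` OF
`E'' = ℚ̄(X₁(N; r))`.**

`w₀ = Wr/Main.wEquiv D ι` is the descended slash by `W = (r, m; N r, r d₀) = γ · diag(r, 1)`,
`γ = (1, m; N, r d₀) ∈ Γ₁(N)`.  For a function `g` of level `Γ₁(N)` :

* `wHom_incl_alpha`    : `w₀ (α g) = β g` (`a ∣ W = a ∣ diag(r,1)` for a form `a` on `Γ₁(N)`);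
* `diamond_incl_alpha` : `⟨d⟩_{N r} (α g) = α (⟨d mod N⟩_N g)` (the slash by `σ ∈ Γ₀(N r) ⊆ Γ₀(N)`);
* `wHom_incl_beta`     : `w₀ (β g) = w₀ (w₀ (α g)) = ⟨r + m N⟩ (α g) = α (⟨r⟩_N g)`.

Hence `w := w₀⁻¹` satisfies `w (α g) = β (⟨r⁻¹⟩ g)`, `w (β g) = α g`, the two equations that
characterise `W1` (`C1/Seam.W1_alpha`, `W1_beta`), and `IsFricke N r` is stable under inversion:

* `isFricke_symm`          : `IsFricke N r w → IsFricke N r w.symm`;
* **`exists_fricke_extends`** : `∃ w, IsFricke N r w ∧ ∀ x : E'', w (incl x) = incl (W1 x)`.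
-/
import Mathlib
import Fermat.Agent.S43.LG1.Wr.Main
import Fermat.Agent.S43.LG1.Ig.TowerAlg
import Fermat.Agent.S43.LG1.C1.Seam
import Fermat.Agent.S43.LG1.OfSeams
import Fermat.Agent.S48.B.ES.CuspSub

set_option autoImplicit false
set_option linter.unusedSectionVars false

noncomputable section

namespace Fermat.Agent.S43.LG1.Ig.FrickeW1

open ModularCurve IntermediateField CongruenceSubgroup UpperHalfPlane ModularForm
open Fermat.Agent.S20 Fermat.Agent.S23.QRing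
open Fermat.Agent.S48.B.Defs.Model Fermat.Agent.S48.B.ES.DiamondUnique
open Fermat.Agent.S48.B.ES.DegreeBeta1
open Fermat.Agent.S48.B.B1.Seams Fermat.Agent.S48.B.B1.RepHom1 Fermat.Agent.S48.B.B1.RepAll1
open Fermat.Agent.S43.LG1.Wr.NormAct Fermat.Agent.S43.LG1.Wr.Matrix Fermat.Agent.S43.LG1.Wr.RelC
open Fermat.Agent.S43.LG1.Wr.LevelOne Fermat.Agent.S43.LG1.Wr.Descent
open Fermat.Agent.S43.LG1.Fricke.Seam Fermat.Agent.S43.LG1.OfSeams
open Fermat.Agent.S43.LG1.Ig.Tower Fermat.Agent.S43.LG1.Ig.TowerAlg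
open Fermat.Agent.S43.LG1.C1.Seam
open scoped MatrixGroups ModularForm

local notation "Kb" => AlgebraicClosure ℚ

/-! ### forms of level `Γ₁(N)` at level `Γ₁(N r)` -/

section Level

variable {N r : ℕ} [NeZero N] [NeZero r]

theorem G1_mul_le : G1 (N * r) ≤ G1 N :=
  Subgroup.map_mono fun _ hγ => (gamma1_mul_le_Gml N r hγ).1

/-- a representative of level `Γ₁(N)` is a representative of level `Γ₁(N r)` -/
theorem isRepOf1_mul {x : LaurentSeries ℂ} {k : ℤ} {a b : ℍ → ℂ} (h : IsRepOf1 N x k a b) :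
    IsRepOf1 (N * r) x k a b :=
  ⟨h.ha.mono G1_mul_le, h.hb.mono G1_mul_le, h.hb0, h.eq⟩

/-- `γ = (1, m; N, r d₀) ∈ Γ₁(N)` -/
theorem gamA_mem_Gamma1 (D : WDatum N r) : gamA D 1 N (one_mul N) ∈ Gamma1 N := by
  rw [Gamma1_mem]
  have e00 : (gamA D 1 N (one_mul N)) 0 0 = 1 := rfl
  have e11 : (gamA D 1 N (one_mul N)) 1 1 = (r : ℤ) * D.d0 := rfl
  have e10 : (gamA D 1 N (one_mul N)) 1 0 = ((N : ℕ) : ℤ) := rfl
  refine ⟨by rw [e00]; simp, ?_, by rw [e10]; simp⟩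
  rw [e11]
  have h := congrArg (Int.cast : ℤ → ZMod N) D.h
  push_cast at h ⊢
  rw [ZMod.natCast_self, zero_mul, sub_zero] at h
  exact h

/-- `W = γ · diag(r, 1)` -/
theorem W_eq (D : WDatum N r) :
    W D = Matrix.SpecialLinearGroup.mapGL ℝ (gamA D 1 N (one_mul N)) * heckeDiagMatrix r := by
  have h := heckeDiag_mul_W_A D 1 N (one_mul N)
  have h1 : heckeDiagMatrix 1 = 1 := by
    ext i j
    fin_cases i <;> fin_cases j <;> simp [val_heckeDiagMatrix]
  rw [h1, one_mul, one_mul] at h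
  exact h

/-- the slash by `W` of a form on `Γ₁(N)` is the slash by `diag(r, 1)` -/
theorem slash_W_of_level (D : WDatum N r) {k : ℤ} {a : ℍ → ℂ} (ha : IsMF (G1 N) k a) :
    a ∣[k] W D = a ∣[k] heckeDiagMatrix r := by
  rw [W_eq D, SlashAction.slash_mul]
  congr 1
  have h := Fermat.Agent.S43.LG1.Ig.Tower.slash_eq_of_mem (Γ := Gamma1 N) ha (gamA_mem_Gamma1 D)
  rw [ModularForm.SL_slash] at h
  exact h

variable [NeZero (N * r)]

/-- **the analytic `w_r` on the functions of level `Γ₁(N)` is `q ↦ q^r`** -/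
theorem wC_of_level (D : WDatum N r) (x : repField1 (N * r)) {k : ℤ} {a b : ℍ → ℂ}
    (h : IsRepOf1 N (x : LaurentSeries ℂ) k a b) :
    ((wC D x : repField1 (N * r)) : LaurentSeries ℂ) = qExpand ℂ r (x : LaurentSeries ℂ) := by
  refine eq_nmap_of_spec (nStable_W D) x (isRepOf1_mul h) ?_
  rw [slash_W_of_level D h.ha, slash_W_of_level D h.hb,
    Fermat.Agent.S48.B.ES.CuspSub.ofPS_qx_slash_heckeDiagMatrix (isQ_of_isMF1 h.ha) k,
    Fermat.Agent.S48.B.ES.CuspSub.ofPS_qx_slash_heckeDiagMatrix (isQ_of_isMF1 h.hb) k, h.eq,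
    map_mul]
  ring

end Level

/-! ### the descended `w₀` and the diamonds on the functions of level `Γ₁(N)` -/

section Descended

variable {N r : ℕ} [NeZero N] [NeZero r] [hc : Fact (r.Coprime N)]

/-- the series of `α g` inside `E'` -/
theorem coe_incl_alpha (y : ↥(F1Bar N)) :
    ((incl N r (alpha1 N r Kb y) : ↥(F1Bar (N * r))) : LaurentSeries Kb) =
      (y : LaurentSeries Kb) := by
  rw [coe_incl, coe_alpha1]

/-- the series of `β g` inside `E'` -/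
theorem coe_incl_beta (y : ↥(F1Bar N)) :
    ((incl N r (beta1 N r Kb y) : ↥(F1Bar (N * r))) : LaurentSeries Kb) =
      qExpand Kb r (y : LaurentSeries Kb) := by
  rw [coe_incl, coe_beta1]

/-- a representative of level `Γ₁(N)` of `α g` -/
theorem exists_rep_incl_alpha (ι : Kb →+* ℂ) (y : ↥(F1Bar N)) :
    ∃ (k : ℤ) (a b : ℍ → ℂ),
      IsRepOf1 N ((toRepField1 N ι (Fermat.Agent.S48.B.B1.Main.repLe N) y : repField1 N) :
        LaurentSeries ℂ) k a b ∧
      IsRepOf1 N ((toRepField1 (N * r) ι (Fermat.Agent.S48.B.B1.Main.repLe (N * r))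
        (incl N r (alpha1 N r Kb y)) : repField1 (N * r)) : LaurentSeries ℂ) k a b := by
  obtain ⟨k, a, b, hrep⟩ := (toRepField1 N ι (Fermat.Agent.S48.B.B1.Main.repLe N) y).2
  refine ⟨k, a, b, hrep, ?_⟩
  rw [coe_toRepField1, coe_incl_alpha, ← coe_toRepField1 N ι (Fermat.Agent.S48.B.B1.Main.repLe N)]
  exact hrep

variable (D : WDatum N r) (ι : Kb →+* ℂ)

/-- **`w₀ (α g) = β g`** -/
theorem wHom_incl_alpha (y : ↥(F1Bar N)) :
    wHom D ι (incl N r (alpha1 N r Kb y)) = incl N r (beta1 N r Kb y) := by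
  obtain ⟨k, a, b, -, hrep⟩ := exists_rep_incl_alpha (r := r) ι y
  apply Subtype.ext
  apply (coeffMap ι).injective
  rw [coeffMap_wHom, phiC_apply, wC_of_level D _ hrep, coe_toRepField1, coe_incl_alpha,
    coe_incl_beta, Fermat.Agent.S28.PrimeCaseForm.coeffMap_qExpand]

/-- **the diamonds of level `N r` on the functions of level `Γ₁(N)` are the diamonds of level
`N`** -/
theorem diamond_incl_alpha (d : (ZMod (N * r))ˣ) (y : ↥(F1Bar N)) :
    diamondAut (N * r) Kb d (incl N r (alpha1 N r Kb y)) =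
      incl N r (alpha1 N r Kb
        (diamondAut N Kb (ZMod.unitsMap (Nat.dvd_mul_right N r) d) y)) := by
  set ι : Kb →+* ℂ := Fermat.Agent.S48.B.ES.Descent.iotaC with hι
  obtain ⟨σ, hσ, hd⟩ := Fermat.Agent.S48.B.B1.Diamond.exists_mem_Gamma0 (M := N * r) d
  have hσN : σ ∈ Gamma0 N := by
    rw [Gamma0_mem] at hσ ⊢
    have := intCast_eq_of_mul N r (a := σ 1 0) (b := 0) (by simpa using hσ)
    simpa using this
  have hdN : ((ZMod.unitsMap (Nat.dvd_mul_right N r) d : (ZMod N)ˣ) : ZMod N) =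
      ((σ 0 0 : ℤ) : ZMod N) := by
    rw [ZMod.unitsMap_def, Units.coe_map, MonoidHom.coe_coe, hd, map_intCast]
  have hδ := Fermat.Agent.S48.B.B1.Main.isDiamondAut_diamondAut (N * r) Kb d
  have hδN := Fermat.Agent.S48.B.B1.Main.isDiamondAut_diamondAut N Kb
    (ZMod.unitsMap (Nat.dvd_mul_right N r) d)
  obtain ⟨k, a, b, hrepN, hrep⟩ := exists_rep_incl_alpha (r := r) ι y
  have h1 := Fermat.Agent.S43.LG1.Wr.Main.coe_dC_toRep ι hσ hd hδ (incl N r (alpha1 N r Kb y))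
  have h2 := Fermat.Agent.S43.LG1.Wr.Main.coe_dC_toRep ι hσN hdN hδN y
  have h3 := dC_spec hσN _ hrepN
  have h4 := eq_nmap_of_spec (nStable_Gamma0 hσ) _ (isRepOf1_mul hrep) h3
  apply Subtype.ext
  apply (coeffMap ι).injective
  rw [← h1, coe_incl_alpha, ← h2]
  exact h4

/-- **`w₀ (β g) = α (⟨r⟩ g)`** (`w₀ ∘ w₀ = ⟨r + m N⟩` and `r + m N ≡ r mod N`) -/
theorem wHom_incl_beta (hr : r.Prime) (hrN : ¬ r ∣ N) (y : ↥(F1Bar N)) :
    wHom D ι (incl N r (beta1 N r Kb y)) =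
      incl N r (alpha1 N r Kb ((delta1 N r hr hrN).symm y)) := by
  obtain ⟨d0, hd0⟩ := Fermat.Agent.S43.LG1.Wr.Main.exists_unit_of_mem_Gamma0 (sigma0_mem_Gamma0 D)
  have hδ := Fermat.Agent.S48.B.B1.Main.isDiamondAut_diamondAut (N * r) Kb d0
  rw [← wHom_incl_alpha D ι y, Fermat.Agent.S43.LG1.Wr.Main.wHom_wHom D ι hd0 hδ,
    diamond_incl_alpha]
  have hu : ZMod.unitsMap (Nat.dvd_mul_right N r) d0 =
      ZMod.unitOfCoprime r (coprime_of hr hrN) := by
    apply Units.ext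
    rw [ZMod.unitsMap_def, Units.coe_map, MonoidHom.coe_coe, hd0, map_intCast,
      sigma0_apply_zero_zero, ZMod.coe_unitOfCoprime]
    push_cast
    rw [ZMod.natCast_self, mul_zero, add_zero]
  have hs : (delta1 N r hr hrN).symm =
      diamondAut N Kb (ZMod.unitOfCoprime r (coprime_of hr hrN)) := by
    unfold delta1
    rw [Fermat.Agent.S48.B.B1.DiamondUnique.diamondAut_inv (Fermat.Agent.S48.B.B1.Main.wpForms N)
      (Fermat.Agent.S48.B.B1.Main.repLe N), AlgEquiv.symm_symm]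
  rw [hu, hs]

end Descended

/-! ### `IsFricke` is stable under inversion -/

section Symm

variable {N r : ℕ} [NeZero N] [NeZero r]

attribute [local instance] Fermat.Agent.S43.LG1.Fricke.Seam.instNeZeroMul

theorem isRPart_inv (h : N.Coprime r) {d : (ZMod (N * r))ˣ} (hd : IsRPart N r d) :
    IsRPart N r d⁻¹ := by
  unfold IsRPart at hd ⊢
  rw [rpart_iff N r h] at hd ⊢
  rw [map_inv, Prod.fst_inv, hd, inv_one]

/-- **the inverse of a Fricke automorphism is a Fricke automorphism** -/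
theorem isFricke_symm (h : N.Coprime r) {w : ↥(F1Bar (N * r)) ≃ₐ[Kb] ↥(F1Bar (N * r))}
    (hw : IsFricke N r w) : IsFricke N r w.symm := by
  obtain ⟨h1, h2, h3⟩ := hw
  refine ⟨fun y y' hy hy' => ?_, fun d δ hδ hd x => ?_, fun σ d δ hδ hd hσ x => ?_⟩
  · obtain ⟨e1, e2⟩ := h1 y y' hy hy'
    exact ⟨by rw [AlgEquiv.symm_apply_eq, e2], by rw [AlgEquiv.symm_apply_eq, e1]⟩
  · rw [AlgEquiv.symm_apply_eq, h2 d⁻¹ δ.symm (isDiamondAut_symm hδ) (isRPart_inv h hd),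
      AlgEquiv.symm_symm, AlgEquiv.apply_symm_apply]
  · have e3 := h3 σ d δ hδ hd hσ (w.symm x)
    rw [AlgEquiv.apply_symm_apply, h2 d δ hδ hd] at e3
    rw [AlgEquiv.eq_symm_apply, e3, AlgEquiv.apply_symm_apply]

end Symm

/-! ### the statement -/

section Main

variable {N r : ℕ} [NeZero N] [NeZero r] [hc : Fact (r.Coprime N)]

/-- **IG-W: a Fricke automorphism of `E' = ℚ̄(X₁(N r))` extending the Atkin-Lehner automorphism
`W1` of `E'' = ℚ̄(X₁(N; r))`.** -/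
theorem exists_fricke_extends (hr : r.Prime) (hrN : ¬ r ∣ N) :
    ∃ w : ↥(F1Bar (N * r)) ≃ₐ[Kb] ↥(F1Bar (N * r)), IsFricke N r w ∧
      ∀ x : ↥(F1pBar N r), w (incl N r x) = incl N r (W1 N r hr hrN x) := by
  have hcop : N.Coprime r := hc.out.symm
  obtain ⟨D⟩ := Fermat.Agent.S43.LG1.Wr.Main.exists_wDatum hcop
  set ι : Kb →+* ℂ := Fermat.Agent.S48.B.ES.Descent.iotaC with hι
  have hF : IsFricke N r (Fermat.Agent.S43.LG1.Wr.Main.wEquiv D ι) :=
    ⟨fun y y' hy hy' => Fermat.Agent.S43.LG1.Wr.Main.wEquiv_swap D ι y y' hy hy',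
      fun d δ hδ hd x => Fermat.Agent.S43.LG1.Wr.Main.wEquiv_diamond D ι d δ hδ hd x,
      fun σ d δ hδ hd hσ x => Fermat.Agent.S43.LG1.Wr.Main.wEquiv_galois D ι σ d δ hδ hd hσ x⟩
  refine ⟨(Fermat.Agent.S43.LG1.Wr.Main.wEquiv D ι).symm, isFricke_symm hcop hF, ?_⟩
  have key := ringHom_ext_alpha_beta1 (N := N) (r := r)
    ((((Fermat.Agent.S43.LG1.Wr.Main.wEquiv D ι).symm :
        ↥(F1Bar (N * r)) ≃ₐ[Kb] ↥(F1Bar (N * r))) : ↥(F1Bar (N * r)) →+* ↥(F1Bar (N * r))).comp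
      ((incl N r : ↥(F1pBar N r) →ₐ[Kb] ↥(F1Bar (N * r))) : ↥(F1pBar N r) →+* ↥(F1Bar (N * r))))
    (((incl N r : ↥(F1pBar N r) →ₐ[Kb] ↥(F1Bar (N * r))) :
        ↥(F1pBar N r) →+* ↥(F1Bar (N * r))).comp (W1Hom N r hr hrN))
    (fun g => by
      show (Fermat.Agent.S43.LG1.Wr.Main.wEquiv D ι).symm (incl N r (alpha1 N r Kb g)) =
        incl N r (W1 N r hr hrN (alpha1 N r Kb g))
      rw [W1_alpha, AlgEquiv.symm_apply_eq, Fermat.Agent.S43.LG1.Wr.Main.wEquiv_apply,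
        wHom_incl_beta D ι hr hrN, AlgEquiv.symm_apply_apply])
    (fun g => by
      show (Fermat.Agent.S43.LG1.Wr.Main.wEquiv D ι).symm (incl N r (beta1 N r Kb g)) =
        incl N r (W1 N r hr hrN (beta1 N r Kb g))
      rw [W1_beta, AlgEquiv.symm_apply_eq, Fermat.Agent.S43.LG1.Wr.Main.wEquiv_apply,
        wHom_incl_alpha])
  exact fun x => RingHom.congr_fun key x

end Main

end Fermat.Agent.S43.LG1.Ig.FrickeW1

end
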