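/-
PROJECT R (row 37 by S43), gate G2* / LG1Hyp, node IG (helper17's design IG v2), brick IG-Y,
THE FROBENIUS HALF (helper11): **the test function `y = α(δ⁻¹ g) - (β g')^r`**.

`r` a prime, `r ∤ N`, `A` a valuation subring of `ℚ̄` over `r`, `κ` its residue field,
`E'' = ℚ̄(X₁(N; r))`, `(V₁, red₁)`, `(V₂ = W⁻¹ V₁, red₂)` the two Gauss data of helper16's
`C1/GaussPairX1`, `G = Seam.gaussDatum1` the Gauss datum of `F = ℚ̄(X₁(N))`, `δ = Seam.delta1`,
`d̄ = DiamondRed1.dbar1`.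

* (a) `inOw_of_integral`, `coe_redw_of_integral` (any Gauss ring `Ow` of main's `S48/B/Red/GaussG`
  under `HasRep`): **an element whose `q`-expansion has coefficients in `A` lies in the Gauss ring
  and its reduction is the coefficientwise reduction** (valuation-ring argument: no saturation).
  Instances `mem_O1_of_integral`, `coe_red_of_integral` (level `N`), `mem_V₁_of_integral`,
  `coe_red₁_of_integral` (level `(N; r)`).
* (b) the Frobenius congruence on series over a ring `R` in which the prime `r` is not a unit: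
  `frob_congr` : `H'.coeff n ^ r ≡ H.coeff n mod r` for all `n` gives `H(q^r) - H'(q)^r = r · K`;
  `frob_congr_sum` (the hypothesis is stable under `g = ∑ cᵢ xᵢ`, `g' = ∑ c'ᵢ xᵢ`, `c'ᵢ^r ≡ cᵢ`,
  `xᵢ` with Frobenius-fixed coefficients mod `r`), `intCast_frob_fixed` (`ℤ`-integral series),
  `exists_pow_eq` (`r`-th roots in `A`).
* (c) `testY`, `W1_testY`, `testY_mem_V₁`, **`red₁_testY`** : `red₁ y = d̄⁻¹ ḡ - (red₁ (β g'))^r`;
  `HCong g g'` := `β g - (α g')^r ∈ r · V₁` (helper25's form of the congruence, produced by his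
  `Ig/Test.lean`); **`exists_y2`**, `exists_y2'` (`y = r · y₂`, `y₂ ∈ V₂`: the shape of
  `Ig/Thick.ord_le`), `testY_mem_V₂`, `red₂_testY_eq_zero`; `hcong_of_series` (second constructor
  of `HCong`, from (a) and (b)).
* (d) `ord_sub_pow_eq_one` (pure places, char `r`, perfect constants): `ord_b (u - c) = 1` and
  `0 < ord_b (u - P^r)` give `ord_b (u - P^r) = 1`; `ord_red₁_testY_eq_one`.
* (e) `ord_testY_nonneg`, `ord_jE1_neg_of_ord_testY_neg(')` : the poles of `y` are poles of `j` as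
  soon as those of `g`, `g'` are; `red₁_testY_ne_zero`; **`exists_test`** : the package
  `(y1, y2, hy, hycusp, red₁ y1 ≠ 0, hyb)` for `Ig/Thick.ord_le`.
-/
import Mathlib
import Fermat.Agent.S18.CoreOrd
import Fermat.Agent.S37.ES.KummerPoly
import Fermat.Agent.S43.LG1.C1.GaussPairX1
import Fermat.Agent.S43.LG1.C1.DiamondRed1
import Fermat.Agent.S43.LG1.C1.CuspRegularX1

set_option autoImplicit false
set_option linter.unusedSectionVars false
set_option linter.style.haveILetI false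
set_option synthInstance.maxHeartbeats 400000

noncomputable section

namespace Fermat.Agent.S43.LG1.Ig.TestFrob

open HahnSeries ModularCurve AlgebraicCurve IsLocalRing IntermediateField
open Fermat.Agent.S48.B.Red.GaussG

/-! ### (a) integral `q`-expansion: in the Gauss ring, reduction coefficientwise -/

section General

variable {L : Type*} [Field L] [Algebra ℚ L] {A : ValuationSubring L}
variable {k : Type*} [Field k] {π : ↥A →+* k}
variable {F₀ : IntermediateField ℚ (LaurentSeries ℚ)} {Fk : IntermediateField k (LaurentSeries k)}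

/-- **an element of `FL` whose `q`-expansion has coefficients in `A` is in the Gauss ring** -/
theorem inOw_of_integral (hrep : HasRep A π F₀ Fk) (f : ↥(laurentBaseChange L F₀))
    (H : LaurentSeries ↥A) (hf : (f : LaurentSeries L) = coeffMap A.subtype H) :
    InOw A π F₀ Fk f := by
  rcases mem_or_inv_mem_Ow hrep f with h | h
  · exact h
  rcases eq_or_ne f 0 with rfl | hf0
  · exact (Ow A π F₀ Fk).zero_mem
  obtain ⟨a, b, hb, hab⟩ := h
  have hab' : f * toFL A π F₀ Fk a = toFL A π F₀ Fk b := by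
    rw [← hab, ← mul_assoc, mul_inv_cancel₀ hf0, one_mul]
  by_cases ha : red A π F₀ Fk a = 0
  · exfalso
    apply hb
    have h1 : H * a.1 = b.1 := by
      apply coeffMap_subtype_injective (A := A)
      rw [map_mul, ← hf]
      exact congrArg Subtype.val hab'
    have h2 : coeffMap π a.1 = 0 := by
      rw [← coe_red (A := A) (π := π) (F₀ := F₀) (Fk := Fk) a, ha, ZeroMemClass.coe_zero]
    apply Subtype.ext
    rw [coe_red, ← h1, map_mul, h2, mul_zero, ZeroMemClass.coe_zero]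
  · exact ⟨b, a, ha, hab'⟩

/-- **its reduction is the coefficientwise reduction** -/
theorem coe_redw_of_integral (f : ↥(Ow A π F₀ Fk)) (H : LaurentSeries ↥A)
    (hf : ((f : ↥(laurentBaseChange L F₀)) : LaurentSeries L) = coeffMap A.subtype H) :
    ((redw A π F₀ Fk f : ↥Fk) : LaurentSeries k) = coeffMap π H := by
  obtain ⟨a, b, hb, hab⟩ := f.2
  rw [redw_eq f hb hab]
  have h1 : H * b.1 = a.1 := by
    apply coeffMap_subtype_injective (A := A)
    rw [map_mul, ← hf]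
    exact congrArg Subtype.val hab
  have hb' : coeffMap π b.1 ≠ 0 := by
    intro h0
    apply hb
    apply Subtype.ext
    rw [coe_red, h0, ZeroMemClass.coe_zero]
  rw [IntermediateField.coe_div, coe_red, coe_red, ← h1, map_mul, mul_div_assoc, div_self hb',
    mul_one]

end General

/-! ### (b) the Frobenius congruence on series -/

section Congr

variable {R : Type*} [CommRing R]

/-- a series all of whose coefficients are multiples of `c` is `c` times a series -/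
theorem exists_eq_C_mul {c : R} (X : LaurentSeries R)
    (hX : ∀ n, X.coeff n ∈ Ideal.span {c}) : ∃ K : LaurentSeries R, X = HahnSeries.C c * K := by
  classical
  have hex : ∀ x : R, ∃ a : R, x ∈ Ideal.span {c} → a * c = x := fun x => by
    by_cases hx : x ∈ Ideal.span {c}
    · obtain ⟨a, ha⟩ := Ideal.mem_span_singleton'.1 hx
      exact ⟨a, fun _ => ha⟩
    · exact ⟨0, fun h => absurd h hx⟩
  choose φ hφ using hex
  refine ⟨⟨fun n => if X.coeff n = 0 then 0 else φ (X.coeff n),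
    X.isPWO_support.mono fun n hn => ?_⟩, ?_⟩
  · rw [Function.mem_support] at hn
    rw [HahnSeries.mem_support]
    intro h0
    exact hn (if_pos h0)
  · ext n
    rw [HahnSeries.C_mul_eq_smul, HahnSeries.coeff_smul]
    show X.coeff n = c • (if X.coeff n = 0 then 0 else φ (X.coeff n))
    by_cases h0 : X.coeff n = 0
    · rw [if_pos h0, h0, smul_zero]
    · rw [if_neg h0, smul_eq_mul, mul_comm, hφ _ (hX n)]

variable (r : ℕ) [hr : Fact r.Prime] [NeZero r]

/-- **the Frobenius congruence**: `H'.coeff n ^ r ≡ H.coeff n mod r` for all `n` gives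
`H(q^r) ≡ H'(q)^r mod r`. -/
theorem frob_congr (hr' : (r : R) ∈ nonunits R) (H H' : LaurentSeries R)
    (h : ∀ n, H'.coeff n ^ r - H.coeff n ∈ Ideal.span {(r : R)}) :
    ∃ K : LaurentSeries R, qExpand R r H - H' ^ r = HahnSeries.C (r : R) * K := by
  haveI : CharP (R ⧸ Ideal.span {(r : R)}) r := CharP.quotient R r hr'
  apply exists_eq_C_mul
  intro n
  rw [← Ideal.Quotient.eq_zero_iff_mem, ← coeffMap_coeff]
  have h0 : coeffMap (Ideal.Quotient.mk (Ideal.span {(r : R)})) (qExpand R r H - H' ^ r) = 0 := by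
    rw [map_sub, map_pow, Fermat.Agent.S28.PrimeCaseForm.coeffMap_qExpand,
      Fermat.Agent.S37.ES.KummerPoly.pow_char_eq_qExpand r, sub_eq_zero]
    congr 1
    ext m
    rw [coeffMap_coeff, coeffMap_coeff, coeffMap_coeff, frobenius_def, ← map_pow]
    exact (Ideal.Quotient.eq.2 (h m)).symm
  rw [h0, HahnSeries.coeff_zero]

/-- the hypothesis of `frob_congr` is stable under `g = ∑ cᵢ xᵢ`, `g' = ∑ c'ᵢ xᵢ` -/
theorem frob_congr_sum (hr' : (r : R) ∈ nonunits R) {ι : Type*} (s : Finset ι) (c c' : ι → R)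
    (x : ι → LaurentSeries R) (hc : ∀ i ∈ s, c' i ^ r - c i ∈ Ideal.span {(r : R)})
    (hx : ∀ i ∈ s, ∀ n, (x i).coeff n ^ r - (x i).coeff n ∈ Ideal.span {(r : R)}) (n : ℤ) :
    (∑ i ∈ s, HahnSeries.C (c' i) * x i).coeff n ^ r -
      (∑ i ∈ s, HahnSeries.C (c i) * x i).coeff n ∈ Ideal.span {(r : R)} := by
  haveI : CharP (R ⧸ Ideal.span {(r : R)}) r := CharP.quotient R r hr'
  rw [← Ideal.Quotient.eq, HahnSeries.coeff_sum, HahnSeries.coeff_sum, map_pow, map_sum, map_sum,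
    sum_pow_char]
  refine Finset.sum_congr rfl fun i hi => ?_
  rw [HahnSeries.C_mul_eq_smul, HahnSeries.C_mul_eq_smul, HahnSeries.coeff_smul,
    HahnSeries.coeff_smul, smul_eq_mul, smul_eq_mul, map_mul, map_mul, mul_pow, ← map_pow,
    ← map_pow, Ideal.Quotient.eq.2 (hc i hi), Ideal.Quotient.eq.2 (hx i hi n)]

/-- `ℤ`-integral series have Frobenius-fixed coefficients mod `r` -/
theorem intCast_frob_fixed (y : LaurentSeries ℤ) (n : ℤ) :
    (coeffMap (Int.castRingHom R) y).coeff n ^ r - (coeffMap (Int.castRingHom R) y).coeff n ∈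
      Ideal.span {(r : R)} := by
  rw [coeffMap_coeff]
  set m : ℤ := y.coeff n
  have hdvd : (r : ℤ) ∣ m ^ r - m := by
    rw [← ZMod.intCast_zmod_eq_zero_iff_dvd]
    push_cast
    rw [ZMod.pow_card, sub_self]
  obtain ⟨t, ht⟩ := hdvd
  rw [Ideal.mem_span_singleton']
  refine ⟨(t : R), ?_⟩
  have h := congrArg (Int.castRingHom R) ht
  rw [map_sub, map_pow, map_mul, eq_intCast, eq_intCast, eq_intCast, Int.cast_natCast] at h
  rw [eq_intCast, h, mul_comm]

end Congr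

/-! ### (d) the simple zero (pure places) -/

section Places

variable {k Fk : Type*} [Field k] [Field Fk] [Algebra k Fk]

/-- **`u - P^r` has a simple zero at `b` as soon as it vanishes there and `u - c` is a uniformiser**
(characteristic `r`; `c` an `r`-th power in `k`: automatic for `k` perfect). -/
theorem ord_sub_pow_eq_one (r : ℕ) [hr : Fact r.Prime] [CharP k r] (b : Place k Fk) (u P : Fk)
    (c : k) (hc : ∃ c₀ : k, c₀ ^ r = c) (hu : b.ord (u - algebraMap k Fk c) = 1)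
    (hpos : 0 < b.ord (u - P ^ r)) : b.ord (u - P ^ r) = 1 := by
  haveI : CharP Fk r := charP_of_injective_algebraMap (algebraMap k Fk).injective r
  obtain ⟨c₀, rfl⟩ := hc
  set T : Fk := P - algebraMap k Fk c₀ with hT
  have hTr : T ^ r = P ^ r - algebraMap k Fk (c₀ ^ r) := by
    rw [hT, sub_pow_char, map_pow]
  have hsplit : u - P ^ r = (u - algebraMap k Fk (c₀ ^ r)) + -(T ^ r) := by
    rw [hTr]
    ring
  rcases eq_or_ne T 0 with hT0 | hT0
  · rw [hsplit, hT0, zero_pow hr.out.ne_zero, neg_zero, add_zero]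
    exact hu
  have hTr0 : T ^ r ≠ 0 := pow_ne_zero _ hT0
  have hdiff : (u - algebraMap k Fk (c₀ ^ r)) - (u - P ^ r) = T ^ r := by
    rw [hTr]
    ring
  have h1 : min (b.ord (u - algebraMap k Fk (c₀ ^ r))) (b.ord (u - P ^ r)) ≤ b.ord (T ^ r) := by
    rw [← hdiff]
    exact Fermat.Agent.S18.CoreOrd.min_le_ord_sub b (by rw [hdiff]; exact hTr0)
  rw [hu, Fermat.Agent.S18.CoreOrd.ord_pow] at h1
  have hr2 : (2 : ℤ) ≤ (r : ℤ) := by exact_mod_cast hr.out.two_le
  have h2 : (1 : ℤ) ≤ (r : ℤ) * b.ord T := le_trans (le_min le_rfl (by omega)) h1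
  have h3 : 1 ≤ b.ord T := by
    by_contra hlt
    have h4 : b.ord T ≤ 0 := by omega
    have h5 : (r : ℤ) * b.ord T ≤ 0 := mul_nonpos_of_nonneg_of_nonpos (by omega) h4
    omega
  have hu0 : u - algebraMap k Fk (c₀ ^ r) ≠ 0 := by
    intro h0
    rw [h0, Place.ord_zero] at hu
    exact zero_ne_one hu
  have hlt : b.ord (u - algebraMap k Fk (c₀ ^ r)) < b.ord (-(T ^ r)) := by
    rw [Fermat.Agent.S18.CoreOrd.ord_neg', Fermat.Agent.S18.CoreOrd.ord_pow, hu]
    nlinarith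
  rw [hsplit, Fermat.Agent.S18.CoreOrd.ord_add_eq_of_lt b hu0 (neg_ne_zero.mpr hTr0) hlt, hu]

/-- under the same hypothesis `u - P^r ≠ 0` (a uniformiser is not an `r`-th power) -/
theorem sub_pow_ne_zero (r : ℕ) [hr : Fact r.Prime] [CharP k r] (b : Place k Fk) (u P : Fk)
    (c : k) (hc : ∃ c₀ : k, c₀ ^ r = c) (hu : b.ord (u - algebraMap k Fk c) = 1) :
    u - P ^ r ≠ 0 := by
  haveI : CharP Fk r := charP_of_injective_algebraMap (algebraMap k Fk).injective r
  obtain ⟨c₀, rfl⟩ := hc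
  intro h0
  have hTr : (P - algebraMap k Fk c₀) ^ r = u - algebraMap k Fk (c₀ ^ r) := by
    rw [sub_pow_char, map_pow, sub_eq_zero.mp h0]
  rw [← hTr, Fermat.Agent.S18.CoreOrd.ord_pow] at hu
  have hr2 : (2 : ℤ) ≤ (r : ℤ) := by exact_mod_cast hr.out.two_le
  rcases le_or_gt (b.ord (P - algebraMap k Fk c₀)) 0 with h | h
  · have := mul_nonpos_of_nonneg_of_nonpos (by omega : (0 : ℤ) ≤ (r : ℤ)) h
    omega
  · nlinarith

end Places

/-! ### (c) the test function -/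

section Test

open Fermat.Agent.S48.B.Defs.Model Fermat.Agent.S48.B.B1.Seams Fermat.Agent.S48.B.ES.DegreeBeta1
open Fermat.Agent.S43.LG1.C1.Seam Fermat.Agent.S43.LG1.C1.GaussPairX1
open Fermat.Agent.S43.LG1.C1.DiamondRed1
open Fermat.Agent.S43.LG1.C1.CuspRegularX1 (jE1)

local notation "Kb" => AlgebraicClosure ℚ

attribute [local instance] algShortcut1

variable {r : ℕ} [hrF : Fact r.Prime] {N : ℕ} [NeZero N] {A : ValuationSubring Kb}
variable (hr : r.Prime) (hA : A.LiesOverPrime r) (hrN : ¬ r ∣ N) [NeZero r]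

/-- `r` is not a unit of `A` -/
theorem natCast_mem_nonunits (hA : A.LiesOverPrime r) : ((r : ℕ) : ↥A) ∈ nonunits ↥A := by
  have h := Fermat.Agent.S18.ResidueBasics.natCast_mem_maximalIdeal A hA
  rwa [mem_maximalIdeal] at h

/-- `r`-th roots exist in `A` -/
theorem exists_pow_eq (hr : r.Prime) (c : ↥A) : ∃ c' : ↥A, c' ^ r = c := by
  have hmonic : (Polynomial.X ^ r - Polynomial.C c : Polynomial ↥A).Monic :=
    Polynomial.monic_X_pow_sub_C c hr.ne_zero
  have hdeg : (Polynomial.X ^ r - Polynomial.C c : Polynomial ↥A).degree ≠ 0 := by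
    rw [Polynomial.degree_X_pow_sub_C hr.pos]
    exact_mod_cast hr.ne_zero
  obtain ⟨a, ha⟩ := Fermat.Agent.S18.ResidueBasics.exists_root_of_monic A hmonic hdeg
  refine ⟨a, ?_⟩
  rw [Polynomial.eval_sub, Polynomial.eval_pow, Polynomial.eval_X, Polynomial.eval_C,
    sub_eq_zero] at ha
  exact ha

/-! #### integral `q`-expansions at level `N` and at level `(N; r)` -/

theorem mem_O1_of_integral (g : ↥(F1Bar N)) (H : LaurentSeries ↥A)
    (hg : (g : LaurentSeries Kb) = coeffMap A.subtype H) :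
    g ∈ (gaussDatum1 N A hr hA hrN).O :=
  inOw_of_integral (hasRep1 hr hrN hA) g H hg

theorem coe_red_of_integral (g : ↥(F1Bar N)) (H : LaurentSeries ↥A)
    (hg : (g : LaurentSeries Kb) = coeffMap A.subtype H)
    (hgO : g ∈ (gaussDatum1 N A hr hA hrN).O) :
    (((gaussDatum1 N A hr hA hrN).red ⟨g, hgO⟩ : ↥(F1C N (ResidueField ↥A))) :
      LaurentSeries (ResidueField ↥A)) = coeffMap (residue ↥A) H :=
  coe_redw_of_integral (A := A) (π := residue ↥A) (F₀ := F1 N)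
    (Fk := F1C N (ResidueField ↥A)) ⟨g, hgO⟩ H hg

theorem mem_V₁_of_integral (f : ↥(F1pBar N r)) (H : LaurentSeries ↥A)
    (hf : (f : LaurentSeries Kb) = coeffMap A.subtype H) : f ∈ V₁ N A hA :=
  inOw_of_integral (hasRep1p (N := N) hA) f H hf

theorem coe_red₁_of_integral (f : ↥(F1pBar N r)) (H : LaurentSeries ↥A)
    (hf : (f : LaurentSeries Kb) = coeffMap A.subtype H) (hfV : f ∈ V₁ N A hA) :
    ((red₁ hr hA hrN ⟨f, hfV⟩ : ↥(F1C N (ResidueField ↥A))) :
      LaurentSeries (ResidueField ↥A)) = coeffMap (residue ↥A) H := by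
  rw [coe_red₁]
  exact coe_redw_of_integral (A := A) (π := residue ↥A) (F₀ := F1p N r)
    (Fk := F1pC N r (ResidueField ↥A)) ⟨f, hfV⟩ H hf

/-! #### the test function -/

/-- **the test function** `y = α(δ⁻¹ g) - (β g')^r` -/
def testY (g g' : ↥(F1Bar N)) : ↥(F1pBar N r) :=
  alpha1 N r Kb ((delta1 N r hr hrN).symm g) - beta1 N r Kb g' ^ r

theorem W1_testY (g g' : ↥(F1Bar N)) :
    W1 N r hr hrN (testY hr hrN g g') = beta1 N r Kb g - alpha1 N r Kb g' ^ r := by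
  rw [testY, map_sub, map_pow, W1_alpha, W1_beta, AlgEquiv.apply_symm_apply]

theorem symm_mem_O1 {g : ↥(F1Bar N)} (hgO : g ∈ (gaussDatum1 N A hr hA hrN).O) :
    (delta1 N r hr hrN).symm g ∈ (gaussDatum1 N A hr hA hrN).O := by
  rw [← delta1_mem_O1_iff hr hA hrN, AlgEquiv.apply_symm_apply]
  exact hgO

/-- `red (δ⁻¹ g) = d̄⁻¹ (red g)` -/
theorem red_symm {g : ↥(F1Bar N)} (hgO : g ∈ (gaussDatum1 N A hr hA hrN).O) :
    (gaussDatum1 N A hr hA hrN).red ⟨(delta1 N r hr hrN).symm g, symm_mem_O1 hr hA hrN hgO⟩ =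
      (dbar1 hr hA hrN).symm ((gaussDatum1 N A hr hA hrN).red ⟨g, hgO⟩) := by
  rw [AlgEquiv.eq_symm_apply, ← red_delta1 hr hA hrN]
  congr 1
  exact Subtype.ext ((delta1 N r hr hrN).apply_symm_apply g)

variable {g g' : ↥(F1Bar N)}

theorem testY_mem_V₁ (hgO : g ∈ (gaussDatum1 N A hr hA hrN).O)
    (hgO' : g' ∈ (gaussDatum1 N A hr hA hrN).O) : testY hr hrN g g' ∈ V₁ N A hA :=
  (V₁ N A hA).sub_mem ((alpha_mem_V₁_iff hr hA hrN _).mpr (symm_mem_O1 hr hA hrN hgO))
    ((V₁ N A hA).pow_mem (beta_mem_V₁ hr hA hrN hgO') r)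

/-- **`red₁ y = d̄⁻¹ ḡ - (red₁ (β g'))^r`**; `↑(red₁ (β g')) = ḡ'(q^r)` is
`GaussPairX1.coe_red₁_beta`. -/
theorem red₁_testY (hgO : g ∈ (gaussDatum1 N A hr hA hrN).O)
    (hgO' : g' ∈ (gaussDatum1 N A hr hA hrN).O) (hy : testY hr hrN g g' ∈ V₁ N A hA) :
    red₁ hr hA hrN ⟨testY hr hrN g g', hy⟩ =
      (dbar1 hr hA hrN).symm ((gaussDatum1 N A hr hA hrN).red ⟨g, hgO⟩) -
        red₁ hr hA hrN ⟨beta1 N r Kb g', beta_mem_V₁ hr hA hrN hgO'⟩ ^ r := by
  have h : (⟨testY hr hrN g g', hy⟩ : ↥(V₁ N A hA)) =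
      ⟨alpha1 N r Kb ((delta1 N r hr hrN).symm g),
        (alpha_mem_V₁_iff hr hA hrN _).mpr (symm_mem_O1 hr hA hrN hgO)⟩ -
      ⟨beta1 N r Kb g', beta_mem_V₁ hr hA hrN hgO'⟩ ^ r := Subtype.ext rfl
  rw [h, map_sub, map_pow,
    red₁_alpha hr hA hrN ⟨(delta1 N r hr hrN).symm g, symm_mem_O1 hr hA hrN hgO⟩,
    red_symm hr hA hrN hgO]

/-- **the congruence in the valuation ring** (helper25's form, `Ig/Test.lean` produces it):
`β g - (α g')^r = r · K` with `K ∈ V₁`, i.e. `W y ∈ r · V₁`. -/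
def HCong (g g' : ↥(F1Bar N)) : Prop :=
  ∃ K : ↥(F1pBar N r), K ∈ V₁ N A hA ∧
    beta1 N r Kb g - alpha1 N r Kb g' ^ r = algebraMap Kb ↥(F1pBar N r) ((r : ℕ) : Kb) * K

/-- **`y = r · y₂` with `y₂ ∈ V₂`** -/
theorem exists_y2 (hcong : HCong hA g g') :
    ∃ y2 : ↥(F1pBar N r), y2 ∈ V₂ hr hA hrN ∧
      testY hr hrN g g' = algebraMap Kb ↥(F1pBar N r) ((r : ℕ) : Kb) * y2 := by
  obtain ⟨K, hKV, hK⟩ := hcong
  refine ⟨(W1 N r hr hrN).symm K, (W1_symm_mem_V₂_iff hr hA hrN).mpr hKV, ?_⟩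
  apply (W1 N r hr hrN).injective
  rw [map_mul, AlgEquiv.commutes, AlgEquiv.apply_symm_apply, W1_testY, hK]

/-- the same, in the shape of `Ig/Thick.ord_le` (`c := (r : A)`, `y₁ ∈ V₁`, `y₂ ∈ V₂`) -/
theorem exists_y2' (hgO : g ∈ (gaussDatum1 N A hr hA hrN).O)
    (hgO' : g' ∈ (gaussDatum1 N A hr hA hrN).O) (hcong : HCong hA g g') :
    ∃ (y1 : ↥(V₁ N A hA)) (y2 : ↥(V₂ hr hA hrN)),
      (y1 : ↥(F1pBar N r)) = testY hr hrN g g' ∧
      (y1 : ↥(F1pBar N r)) =
        algebraMap Kb ↥(F1pBar N r) ((((r : ℕ) : ↥A) : ↥A) : Kb) * (y2 : ↥(F1pBar N r)) := by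
  obtain ⟨y2, hy2, h⟩ := exists_y2 hr hA hrN hcong
  exact ⟨⟨testY hr hrN g g', testY_mem_V₁ hr hA hrN hgO hgO'⟩, ⟨y2, hy2⟩, rfl, h⟩

/-- `y ∈ V₂` -/
theorem testY_mem_V₂ (hcong : HCong hA g g') : testY hr hrN g g' ∈ V₂ hr hA hrN := by
  obtain ⟨y2, hy2, h⟩ := exists_y2 hr hA hrN hcong
  have hrV2 : algebraMap Kb ↥(F1pBar N r) ((r : ℕ) : Kb) ∈ V₂ hr hA hrN := by
    rw [mem_V₂_iff, AlgEquiv.commutes]
    exact (gaussDatum₁ N A hA).algebraMap_mem ((r : ℕ) : ↥A)
  rw [h]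
  exact (V₂ hr hA hrN).mul_mem _ _ hrV2 hy2

/-- **`red₂ y = 0`** -/
theorem red₂_testY_eq_zero (hcong : HCong hA g g') (hy : testY hr hrN g g' ∈ V₂ hr hA hrN) :
    red₂ hr hA hrN ⟨testY hr hrN g g', hy⟩ = 0 := by
  obtain ⟨y2, hy2, h⟩ := exists_y2 hr hA hrN hcong
  have hrV2 : algebraMap Kb ↥(F1pBar N r) ((r : ℕ) : Kb) ∈ V₂ hr hA hrN := by
    rw [mem_V₂_iff, AlgEquiv.commutes]
    exact (gaussDatum₁ N A hA).algebraMap_mem ((r : ℕ) : ↥A)
  have h1 : (⟨testY hr hrN g g', hy⟩ : ↥(V₂ hr hA hrN)) =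
      ⟨algebraMap Kb ↥(F1pBar N r) ((r : ℕ) : Kb), hrV2⟩ * ⟨y2, hy2⟩ := Subtype.ext h
  have h2 : red₂ hr hA hrN ⟨algebraMap Kb ↥(F1pBar N r) ((r : ℕ) : Kb), hrV2⟩ = 0 := by
    rw [red₂_apply]
    have h3 : W1V hr hA hrN ⟨algebraMap Kb ↥(F1pBar N r) ((r : ℕ) : Kb), hrV2⟩ =
        ⟨algebraMap Kb ↥(F1pBar N r) ((((r : ℕ) : ↥A) : ↥A) : Kb),
          (gaussDatum₁ N A hA).algebraMap_mem ((r : ℕ) : ↥A)⟩ :=
      Subtype.ext ((W1 N r hr hrN).commutes _)
    rw [h3, red₁_algebraMap hr hA hrN, map_natCast,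
      Fermat.Agent.S18.ResidueBasics.residue_natCast_eq_zero A hA, map_zero]
  rw [h1, map_mul, h2, zero_mul]

variable {Hg Hg' : LaurentSeries ↥A}

/-- **a second constructor of `HCong`: the coefficientwise congruence of `A`-integral
`q`-expansions** (`W y = g(q^r) - g'(q)^r ∈ r · A((q))`; parts (a), (b)). -/
theorem hcong_of_series (hg : (g : LaurentSeries Kb) = coeffMap A.subtype Hg)
    (hg' : (g' : LaurentSeries Kb) = coeffMap A.subtype Hg')
    (hcong : ∀ n, Hg'.coeff n ^ r - Hg.coeff n ∈ Ideal.span {((r : ℕ) : ↥A)}) :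
    HCong hA g g' := by
  obtain ⟨K, hK⟩ := frob_congr r (natCast_mem_nonunits hA) Hg Hg' hcong
  have hr0 : algebraMap Kb ↥(F1pBar N r) ((r : ℕ) : Kb) ≠ 0 := by
    rw [Ne, map_eq_zero]
    exact_mod_cast hrF.out.ne_zero
  have hC : coeffMap A.subtype (HahnSeries.C ((r : ℕ) : ↥A)) =
      algebraMap Kb (LaurentSeries Kb) ((r : ℕ) : Kb) := by
    rw [algebraMap_laurentSeries_eq_single]
    show coeffMap A.subtype (HahnSeries.single 0 ((r : ℕ) : ↥A)) = _
    rw [coeffMap_single]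
    rfl
  have hW : ((beta1 N r Kb g - alpha1 N r Kb g' ^ r : ↥(F1pBar N r)) : LaurentSeries Kb) =
      algebraMap Kb (LaurentSeries Kb) ((r : ℕ) : Kb) * coeffMap A.subtype K := by
    rw [AddSubgroupClass.coe_sub, SubmonoidClass.coe_pow, coe_beta1, coe_alpha1, hg, hg',
      ← Fermat.Agent.S28.PrimeCaseForm.coeffMap_qExpand, ← map_pow, ← map_sub, hK, map_mul, hC]
  set z : ↥(F1pBar N r) :=
    (algebraMap Kb ↥(F1pBar N r) ((r : ℕ) : Kb))⁻¹ *
      (beta1 N r Kb g - alpha1 N r Kb g' ^ r) with hz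
  have hzc : (z : LaurentSeries Kb) = coeffMap A.subtype K := by
    have h1 : algebraMap Kb (LaurentSeries Kb) ((r : ℕ) : Kb) * (z : LaurentSeries Kb) =
        algebraMap Kb (LaurentSeries Kb) ((r : ℕ) : Kb) * coeffMap A.subtype K := by
      rw [← hW, ← IntermediateField.coe_algebraMap_apply (F1pBar N r), ← MulMemClass.coe_mul, hz,
        mul_inv_cancel_left₀ hr0]
    refine mul_left_cancel₀ ?_ h1
    rw [Ne, map_eq_zero]
    exact_mod_cast hrF.out.ne_zero
  refine ⟨z, mem_V₁_of_integral hA z K hzc, ?_⟩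
  rw [hz, mul_inv_cancel_left₀ hr0]

/-- **the simple zero of `red₁ y`** at a place `b` of `κ(X₁(N))` where it vanishes (the gluing
clause of `C1`) and where `d̄⁻¹ ḡ - c` is a uniformiser. -/
theorem ord_red₁_testY_eq_one (hgO : g ∈ (gaussDatum1 N A hr hA hrN).O)
    (hgO' : g' ∈ (gaussDatum1 N A hr hA hrN).O) (hy : testY hr hrN g g' ∈ V₁ N A hA)
    (b : Place (ResidueField ↥A) ↥(F1C N (ResidueField ↥A))) (c : ResidueField ↥A)
    (hu : b.ord ((dbar1 hr hA hrN).symm ((gaussDatum1 N A hr hA hrN).red ⟨g, hgO⟩) -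
      algebraMap (ResidueField ↥A) ↥(F1C N (ResidueField ↥A)) c) = 1)
    (hpos : 0 < b.ord (red₁ hr hA hrN ⟨testY hr hrN g g', hy⟩)) :
    b.ord (red₁ hr hA hrN ⟨testY hr hrN g g', hy⟩) = 1 := by
  haveI := charP_res (A := A) hA
  haveI : IsAlgClosed (ResidueField ↥A) :=
    Fermat.Agent.S18.ResidueBasics.isAlgClosed_residueField A
  rw [red₁_testY hr hA hrN hgO hgO' hy] at hpos ⊢
  exact ord_sub_pow_eq_one r b _ _ c (IsAlgClosed.exists_pow_nat_eq c hr.pos) hu hpos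

/-! #### (e) the poles of the test function -/

/-- **the poles of `y` are poles of `j`** as soon as those of `g` and `g'` are -/
theorem ord_testY_nonneg (hα : (alpha1 N r Kb).toRingHom.IsIntegral)
    (hβ : (beta1 N r Kb).toRingHom.IsIntegral)
    (hgp : ∀ Q : Place Kb ↥(F1Bar N), Q.ord g < 0 → Q.ord (jgen1 N) < 0)
    (hgp' : ∀ Q : Place Kb ↥(F1Bar N), Q.ord g' < 0 → Q.ord (jgen1 N) < 0)
    (P : Place Kb ↥(F1pBar N r)) (hP : 0 ≤ P.ord (jE1 N r)) :
    0 ≤ P.ord (testY hr hrN g g') := by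
  have h1 : 0 ≤ P.ord (alpha1 N r Kb ((delta1 N r hr hrN).symm g)) := by
    by_contra hlt
    rw [not_le, Place.ord_restrictAlong (alpha1 N r Kb) hα] at hlt
    set Q := P.restrictAlong (alpha1 N r Kb) hα with hQ
    set e := Place.ramificationIndexAlong (alpha1 N r Kb) P with he
    have he0 : (0 : ℤ) ≤ (e : ℤ) := Int.natCast_nonneg e
    have hQneg : Q.ord ((delta1 N r hr hrN).symm g) < 0 := by
      by_contra h
      exact (not_le.mpr hlt) (mul_nonneg he0 (not_lt.mp h))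
    have hepos : (0 : ℤ) < (e : ℤ) := by
      rcases he0.lt_or_eq with h | h
      · exact h
      · rw [← h, zero_mul] at hlt
        exact absurd hlt (lt_irrefl _)
    have h2 : (delta1 N r hr hrN • Q).ord g < 0 := by
      have := Place.ord_smul (delta1 N r hr hrN) Q ((delta1 N r hr hrN).symm g)
      rw [AlgEquiv.apply_symm_apply] at this
      rw [this]
      exact hQneg
    have h3 := hgp _ h2
    have h4 : Q.ord (jgen1 N) < 0 := by
      have := Place.ord_smul (delta1 N r hr hrN) Q (jgen1 N)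
      rw [delta1_jgen1] at this
      rw [← this]
      exact h3
    have h5 : P.ord (jE1 N r) < 0 := by
      show P.ord (alpha1 N r Kb (jgen1 N)) < 0
      rw [Place.ord_restrictAlong (alpha1 N r Kb) hα]
      exact mul_neg_of_pos_of_neg hepos h4
    exact (not_le.mpr h5) hP
  have h2 : 0 ≤ P.ord (beta1 N r Kb g') := by
    by_contra hlt
    rw [not_le, Place.ord_restrictAlong (beta1 N r Kb) hβ] at hlt
    set Q := P.restrictAlong (beta1 N r Kb) hβ with hQ
    set e := Place.ramificationIndexAlong (beta1 N r Kb) P with he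
    have he0 : (0 : ℤ) ≤ (e : ℤ) := Int.natCast_nonneg e
    have hQneg : Q.ord g' < 0 := by
      by_contra h
      exact (not_le.mpr hlt) (mul_nonneg he0 (not_lt.mp h))
    have hepos : (0 : ℤ) < (e : ℤ) := by
      rcases he0.lt_or_eq with h | h
      · exact h
      · rw [← h, zero_mul] at hlt
        exact absurd hlt (lt_irrefl _)
    have h4 := hgp' _ hQneg
    have h5 : P.ord (jr N r) < 0 := by
      show P.ord (beta1 N r Kb (jgen1 N)) < 0
      rw [Place.ord_restrictAlong (beta1 N r Kb) hβ]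
      exact mul_neg_of_pos_of_neg hepos h4
    exact (not_le.mpr h5) (Fermat.Agent.S43.LG1.C1.CuspRegularX1.ord_jr_nonneg P hP)
  have h3 : 0 ≤ P.ord (beta1 N r Kb g' ^ r) := by
    rw [Fermat.Agent.S18.CoreOrd.ord_pow]
    exact mul_nonneg (Int.natCast_nonneg r) h2
  exact Fermat.Agent.S18.CoreOrd.ord_sub_nonneg P h1 h3

/-- contrapositive form: `hycusp` of `Ig/Thick.ord_le` with `cuspL = {P | ord_P j < 0}` -/
theorem ord_jE1_neg_of_ord_testY_neg (hα : (alpha1 N r Kb).toRingHom.IsIntegral)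
    (hβ : (beta1 N r Kb).toRingHom.IsIntegral)
    (hgp : ∀ Q : Place Kb ↥(F1Bar N), Q.ord g < 0 → Q.ord (jgen1 N) < 0)
    (hgp' : ∀ Q : Place Kb ↥(F1Bar N), Q.ord g' < 0 → Q.ord (jgen1 N) < 0)
    (P : Place Kb ↥(F1pBar N r)) (hP : P.ord (testY hr hrN g g') < 0) :
    P.ord (jE1 N r) < 0 := by
  by_contra h
  exact (not_le.mpr hP) (ord_testY_nonneg hr hrN hα hβ hgp hgp' P (not_lt.mp h))

/-- the pole hypothesis in helper25's form (`Ig/Test.exists_test_pair`) -/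
theorem ord_jE1_neg_of_ord_testY_neg' (hα : (alpha1 N r Kb).toRingHom.IsIntegral)
    (hβ : (beta1 N r Kb).toRingHom.IsIntegral)
    (hgp : ∀ Q : Place Kb ↥(F1Bar N), 0 ≤ Q.ord (jgen1 N) → g = 0 ∨ 0 ≤ Q.ord g)
    (hgp' : ∀ Q : Place Kb ↥(F1Bar N), 0 ≤ Q.ord (jgen1 N) → g' = 0 ∨ 0 ≤ Q.ord g')
    (P : Place Kb ↥(F1pBar N r)) (hP : P.ord (testY hr hrN g g') < 0) :
    P.ord (jE1 N r) < 0 := by
  refine ord_jE1_neg_of_ord_testY_neg hr hrN hα hβ (fun Q hQ => ?_) (fun Q hQ => ?_) P hP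
  · by_contra h
    rcases hgp Q (not_lt.mp h) with h0 | h0
    · rw [h0, Place.ord_zero] at hQ
      exact lt_irrefl _ hQ
    · exact (not_le.mpr hQ) h0
  · by_contra h
    rcases hgp' Q (not_lt.mp h) with h0 | h0
    · rw [h0, Place.ord_zero] at hQ
      exact lt_irrefl _ hQ
    · exact (not_le.mpr hQ) h0

/-! #### the package for `Ig/Thick.ord_le` -/

/-- `red₁ y ≠ 0` as soon as `d̄⁻¹ ḡ - c` is a uniformiser somewhere -/
theorem red₁_testY_ne_zero (hgO : g ∈ (gaussDatum1 N A hr hA hrN).O)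
    (hgO' : g' ∈ (gaussDatum1 N A hr hA hrN).O) (hy : testY hr hrN g g' ∈ V₁ N A hA)
    (b : Place (ResidueField ↥A) ↥(F1C N (ResidueField ↥A))) (c : ResidueField ↥A)
    (hu : b.ord ((dbar1 hr hA hrN).symm ((gaussDatum1 N A hr hA hrN).red ⟨g, hgO⟩) -
      algebraMap (ResidueField ↥A) ↥(F1C N (ResidueField ↥A)) c) = 1) :
    red₁ hr hA hrN ⟨testY hr hrN g g', hy⟩ ≠ 0 := by
  haveI := charP_res (A := A) hA
  haveI : IsAlgClosed (ResidueField ↥A) :=
    Fermat.Agent.S18.ResidueBasics.isAlgClosed_residueField A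
  rw [red₁_testY hr hA hrN hgO hgO' hy]
  exact sub_pow_ne_zero r b _ _ c (IsAlgClosed.exists_pow_nat_eq c hr.pos) hu

/-- **THE TEST FUNCTION, PACKAGED** (inputs `(y1, y2, hy, hycusp, hyb)` of `Ig/Thick.ord_le` with
`c := (r : A)`, `cuspL := {P | ord_P j < 0}`): from `(g, g')` in the Gauss ring of level `N` with
the congruence `HCong`, cuspidal poles, and `d̄⁻¹ ḡ - c` a uniformiser at `b`. -/
theorem exists_test (hα : (alpha1 N r Kb).toRingHom.IsIntegral)
    (hβ : (beta1 N r Kb).toRingHom.IsIntegral)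
    (hgO : g ∈ (gaussDatum1 N A hr hA hrN).O) (hgO' : g' ∈ (gaussDatum1 N A hr hA hrN).O)
    (hcong : HCong hA g g')
    (hgp : ∀ Q : Place Kb ↥(F1Bar N), 0 ≤ Q.ord (jgen1 N) → g = 0 ∨ 0 ≤ Q.ord g)
    (hgp' : ∀ Q : Place Kb ↥(F1Bar N), 0 ≤ Q.ord (jgen1 N) → g' = 0 ∨ 0 ≤ Q.ord g')
    (b : Place (ResidueField ↥A) ↥(F1C N (ResidueField ↥A))) (c : ResidueField ↥A)
    (hu : b.ord ((dbar1 hr hA hrN).symm ((gaussDatum1 N A hr hA hrN).red ⟨g, hgO⟩) -
      algebraMap (ResidueField ↥A) ↥(F1C N (ResidueField ↥A)) c) = 1) :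
    ∃ (y1 : ↥(V₁ N A hA)) (y2 : ↥(V₂ hr hA hrN)),
      (y1 : ↥(F1pBar N r)) =
        algebraMap Kb ↥(F1pBar N r) ((((r : ℕ) : ↥A) : ↥A) : Kb) * (y2 : ↥(F1pBar N r)) ∧
      (∀ P : Place Kb ↥(F1pBar N r), P.ord (y1 : ↥(F1pBar N r)) < 0 → P.ord (jE1 N r) < 0) ∧
      red₁ hr hA hrN y1 ≠ 0 ∧
      (0 < b.ord (red₁ hr hA hrN y1) → b.ord (red₁ hr hA hrN y1) = 1) := by
  obtain ⟨y2, hy2, h⟩ := exists_y2 hr hA hrN hcong
  have hy := testY_mem_V₁ hr hA hrN hgO hgO'
  exact ⟨⟨testY hr hrN g g', hy⟩, ⟨y2, hy2⟩, h,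
    ord_jE1_neg_of_ord_testY_neg' hr hrN hα hβ hgp hgp',
    red₁_testY_ne_zero hr hA hrN hgO hgO' hy b c hu,
    ord_red₁_testY_eq_one hr hA hrN hgO hgO' hy b c hu⟩

end Test

end Fermat.Agent.S43.LG1.Ig.TestFrob

end
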