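/-
PROJECT R (row 37 by S43), gate `LG1Hyp`, brick IG (helper3; helper17's IG v2, "Tower generic in H"):
**THE INTERMEDIATE FIELDS `F_H` OF THE CYCLIC EXTENSION `E' = ℚ̄(X₁(N r))` OF `E'' = ℚ̄(X₁(N; r))`.**

* generic: `orderOf_eq_finrank_of_fixed`, `exists_eigenvector_of_fixed` (Kummer eigenvectors of an
  automorphism whose fixed field is the base);
* `rPart N r` : the `r`-part `{d ≡ 1 mod N}` of `(ℤ/N r)ˣ`, cyclic of order `r - 1`
  (`exists_generator_rPart`, `card_rPart`);
* `sigmaHom : rPart N r →* (E' ≃ₐ[E''] E')`, injective for `3 ≤ N`; `isGalois_tower`;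
* for a subgroup `H` of `(ℤ/N r)ˣ` : `FH N r H` (the fixed field of the diamonds of `H ⊓ rPart`, an
  intermediate field of `E' / E''`), `mem_FH_iff`, `finrank_FH_top` (`[E' : F_H] = |H|`),
  `finrank_FH_mul_card`, `indexH`, `finrank_FH` (`[F_H : E''] = [r-part : H]`);
* `restrictFH : rPart N r →* (F_H ≃ₐ[E''] F_H)` (the diamonds of the `r`-part on `F_H`),
  `coe_restrictFH`, `restrictFH_eq_one_of_mem`, `restrictFH_pow_indexH`;
* `exists_sigmaH`, `exists_kummerH` : the package `(σ, σ ^ m = 1, fixed field = E'', eigenvector z)`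
  for the relative lift with `F := F_H`, `m := [r-part : H]`.
-/
import Mathlib
import Fermat.Agent.S43.LG1.Ig.TowerAlg

set_option autoImplicit false
set_option linter.unusedSectionVars false
set_option synthInstance.maxHeartbeats 400000

noncomputable section

namespace Fermat.Agent.S43.LG1.Ig.TowerH

open ModularCurve IntermediateField
open Fermat.Agent.S48.B.Defs.Model Fermat.Agent.S48.B.B1
open Fermat.Agent.S48.B.ES.DiamondUnique Fermat.Agent.S48.B.ES.DegreeBeta1
open Fermat.Agent.S43.LG1.Ig.Tower Fermat.Agent.S43.LG1.Ig.TowerAlg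

local notation "Kb" => AlgebraicClosure ℚ

/-! ### generic: Kummer eigenvectors of a cyclic extension -/

section Generic

variable {F0 F : Type*} [Field F0] [Field F] [Algebra F0 F] [FiniteDimensional F0 F]

/-- an automorphism with fixed field the base has order the degree -/
theorem orderOf_eq_finrank_of_fixed (σ : F ≃ₐ[F0] F)
    (hfix : ∀ h : F, σ h = h → ∃ h0 : F0, algebraMap F0 F h0 = h) :
    orderOf σ = Module.finrank F0 F := by
  have h1 : IntermediateField.fixedField (Subgroup.zpowers σ) = ⊥ := by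
    rw [eq_bot_iff]
    intro x hx
    rw [IntermediateField.mem_bot]
    obtain ⟨y, hy⟩ := hfix x (hx ⟨σ, Subgroup.mem_zpowers σ⟩)
    exact ⟨y, hy⟩
  have h2 := IntermediateField.finrank_fixedField_eq_card (Subgroup.zpowers σ)
  rw [h1, IntermediateField.finrank_bot', Nat.card_zpowers] at h2
  exact h2.symm

/-- **a Kummer eigenvector**: an automorphism `σ` of `F / F0` with fixed field `F0` has an eigenvector
for every primitive `[F : F0]`-th root of unity of `F0` -/
theorem exists_eigenvector_of_fixed (σ : F ≃ₐ[F0] F)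
    (hfix : ∀ h : F, σ h = h → ∃ h0 : F0, algebraMap F0 F h0 = h)
    (ζ : F0) (hζ : IsPrimitiveRoot ζ (Module.finrank F0 F)) :
    ∃ z : F, z ≠ 0 ∧ σ z = algebraMap F0 F ζ * z := by
  have hord := orderOf_eq_finrank_of_fixed σ hfix
  have hroot : Polynomial.IsRoot (minpoly F0 σ.toLinearMap) ζ := by
    rw [minpoly_algEquiv_toLinearMap σ (isOfFinOrder_of_finite σ), hord, Polynomial.IsRoot.def,
      Polynomial.eval_sub, Polynomial.eval_pow, Polynomial.eval_X, Polynomial.eval_C,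
      hζ.pow_eq_one, sub_self]
  obtain ⟨v, hv⟩ := (Module.End.hasEigenvalue_of_isRoot hroot).exists_hasEigenvector
  refine ⟨v, hv.2, ?_⟩
  have := hv.apply_eq_smul
  rw [Algebra.smul_def] at this
  exact this

end Generic

variable (N r : ℕ) [NeZero N] [NeZero r] [hc : Fact (r.Coprime N)]

attribute [local instance] towerAlgebra

/-! ### the `r`-part -/

/-- the `r`-part `{d ≡ 1 mod N}` of `(ℤ/N r)ˣ` -/
def rPart : Subgroup (ZMod (N * r))ˣ :=
  ((MonoidHom.fst (ZMod N)ˣ (ZMod r)ˣ).comp (crtUnits N r hc.out.symm).toMonoidHom).ker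

theorem mem_rPart_iff {d : (ZMod (N * r))ˣ} :
    d ∈ rPart N r ↔ ((((d : ZMod (N * r)).val : ℕ) : ZMod N)) = 1 := by
  rw [rPart, MonoidHom.mem_ker, rpart_iff N r hc.out.symm]
  rfl

/-- the diamonds of the `r`-part, as a homomorphism into the group of `E'' `-automorphisms of `E'` -/
def sigmaHom : rPart N r →* (↥(F1Bar (N * r)) ≃ₐ[↥(F1pBar N r)] ↥(F1Bar (N * r))) where
  toFun d := sigmaOf N r d ((mem_rPart_iff N r).1 d.2)
  map_one' := by
    refine AlgEquiv.ext fun x => ?_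
    rw [sigmaOf_apply]
    show diamondAut (N * r) Kb 1 x = x
    rw [Fermat.Agent.S48.B.B1.DiamondUnique.diamondAut_one (Main.wpForms (N * r))
      (Main.repLe (N * r))]
    rfl
  map_mul' d d' := by
    refine AlgEquiv.ext fun x => ?_
    rw [sigmaOf_apply]
    show diamondAut (N * r) Kb ((d : (ZMod (N * r))ˣ) * (d' : (ZMod (N * r))ˣ)) x = _
    rw [Fermat.Agent.S48.B.B1.DiamondUnique.diamondAut_mul (Main.wpForms (N * r))
      (Main.repLe (N * r))]
    rfl

theorem sigmaHom_apply (d : rPart N r) (x : ↥(F1Bar (N * r))) :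
    sigmaHom N r d x = diamondAut (N * r) Kb (d : (ZMod (N * r))ˣ) x := rfl

/-- the `r`-part acts faithfully (`3 ≤ N`) -/
theorem sigmaHom_injective (hN : 3 ≤ N) : Function.Injective (sigmaHom N r) := by
  rw [injective_iff_map_eq_one]
  intro d hd
  apply Subtype.ext
  refine eq_one_of_diamondAut_eq_refl N r hN d ((mem_rPart_iff N r).1 d.2) fun x => ?_
  rw [← sigmaHom_apply, hd]
  rfl

/-! ### the order of the `r`-part, `E' / E''` is Galois -/

/-- the `r`-part is the cyclic group generated by a `d₀` of order `r - 1` -/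
theorem exists_generator_rPart (hr : r.Prime) (hrN : ¬ r ∣ N) :
    ∃ d₀ : (ZMod (N * r))ˣ, d₀ ∈ rPart N r ∧ orderOf d₀ = r - 1 ∧
      rPart N r = Subgroup.zpowers d₀ := by
  obtain ⟨d₀, hd₀, hord, hgen⟩ := exists_generator N r hr hrN
  have hmem : d₀ ∈ rPart N r := (mem_rPart_iff N r).2 hd₀
  refine ⟨d₀, hmem, hord, le_antisymm (fun d hd => hgen d ((mem_rPart_iff N r).1 hd)) ?_⟩
  rw [Subgroup.zpowers_le]
  exact hmem

/-- the `r`-part has order `r - 1` -/
theorem card_rPart (hr : r.Prime) (hrN : ¬ r ∣ N) : Nat.card (rPart N r) = r - 1 := by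
  obtain ⟨d₀, -, hord, hgen⟩ := exists_generator_rPart N r hr hrN
  rw [hgen, Nat.card_zpowers, hord]

/-- **`E' / E''` is Galois** -/
theorem isGalois_tower (hr : r.Prime) (hrN : ¬ r ∣ N) (hN : 5 ≤ N) (hr2 : 2 < r) :
    IsGalois ↥(F1pBar N r) ↥(F1Bar (N * r)) := by
  have := finiteDimensional_tower N r hr hrN hN hr2
  obtain ⟨d₀, hd₀, -, -, -, hfix⟩ := exists_sigma N r hr hrN hN hr2
  refine IsGalois.of_fixedField_eq_bot _ _ ?_
  rw [eq_bot_iff]
  intro x hx
  rw [IntermediateField.mem_bot]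
  obtain ⟨y, hy⟩ := hfix x (hx ⟨sigmaOf N r d₀ hd₀, Subgroup.mem_top _⟩)
  exact ⟨y, hy⟩

/-! ### the intermediate field `F_H` -/

variable (H : Subgroup (ZMod (N * r))ˣ)

/-- the group of `E''`-automorphisms of `E'` given by the diamonds of `H ⊓ rPart N r` -/
def sigmaGroup : Subgroup (↥(F1Bar (N * r)) ≃ₐ[↥(F1pBar N r)] ↥(F1Bar (N * r))) :=
  (H.subgroupOf (rPart N r)).map (sigmaHom N r)

/-- **`F_H`**, the fixed field in `E' = ℚ̄(X₁(N r))` of the diamonds of `H ⊓ rPart N r`, as an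
intermediate field of `E' / E''` -/
def FH : IntermediateField ↥(F1pBar N r) ↥(F1Bar (N * r)) :=
  IntermediateField.fixedField (sigmaGroup N r H)

theorem mem_FH_iff' (x : ↥(F1Bar (N * r))) :
    x ∈ FH N r H ↔ ∀ d ∈ H, d ∈ rPart N r → diamondAut (N * r) Kb d x = x := by
  rw [FH, IntermediateField.mem_fixedField_iff]
  constructor
  · intro h d hdH hd
    have := h (sigmaHom N r ⟨d, hd⟩)
      (Subgroup.mem_map.2 ⟨⟨d, hd⟩, Subgroup.mem_subgroupOf.2 hdH, rfl⟩)
    rwa [sigmaHom_apply] at this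
  · intro h f hf
    obtain ⟨d, hd, rfl⟩ := Subgroup.mem_map.1 hf
    rw [sigmaHom_apply]
    exact h d (Subgroup.mem_subgroupOf.1 hd) d.2

/-- membership in `F_H` for `H` inside the `r`-part -/
theorem mem_FH_iff (hH : H ≤ rPart N r) (x : ↥(F1Bar (N * r))) :
    x ∈ FH N r H ↔ ∀ d ∈ H, diamondAut (N * r) Kb d x = x := by
  rw [mem_FH_iff']
  exact ⟨fun h d hd => h d hd (hH hd), fun h d hd _ => h d hd⟩

theorem card_sigmaGroup (hN : 3 ≤ N) (hH : H ≤ rPart N r) :
    Nat.card (sigmaGroup N r H) = Nat.card H := by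
  rw [sigmaGroup, Subgroup.card_map_of_injective (sigmaHom_injective N r hN)]
  exact Nat.card_congr (Subgroup.subgroupOfEquivOfLe hH).toEquiv

/-- `[E' : F_H] = |H|` -/
theorem finrank_FH_top (hr : r.Prime) (hrN : ¬ r ∣ N) (hN : 5 ≤ N) (hr2 : 2 < r)
    (hH : H ≤ rPart N r) :
    Module.finrank ↥(FH N r H) ↥(F1Bar (N * r)) = Nat.card H := by
  have := finiteDimensional_tower N r hr hrN hN hr2
  rw [FH, IntermediateField.finrank_fixedField_eq_card, card_sigmaGroup N r H (by omega) hH]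

/-- the tower `E'' ⊆ F_H ⊆ E'` -/
theorem isScalarTower_FH : IsScalarTower ↥(F1pBar N r) ↥(FH N r H) ↥(F1Bar (N * r)) :=
  inferInstance

theorem free_FH : Module.Free ↥(F1pBar N r) ↥(FH N r H) := inferInstance

/-- `[F_H : E''] · [E' : F_H] = [E' : E'']` -/
theorem finrank_FH_mul_finrank :
    Module.finrank ↥(F1pBar N r) ↥(FH N r H) * Module.finrank ↥(FH N r H) ↥(F1Bar (N * r)) =
      Module.finrank ↥(F1pBar N r) ↥(F1Bar (N * r)) :=
  @Module.finrank_mul_finrank ↥(F1pBar N r) ↥(FH N r H) ↥(F1Bar (N * r)) _ _ _ _ _ _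
    (isScalarTower_FH N r H) inferInstance inferInstance (free_FH N r H) inferInstance

/-- **`[F_H : E''] · |H| = r - 1`** -/
theorem finrank_FH_mul_card (hr : r.Prime) (hrN : ¬ r ∣ N) (hN : 5 ≤ N) (hr2 : 2 < r)
    (hH : H ≤ rPart N r) :
    Module.finrank ↥(F1pBar N r) ↥(FH N r H) * Nat.card H = r - 1 := by
  have h := finrank_FH_mul_finrank N r H
  rw [finrank_FH_top N r H hr hrN hN hr2 hH, finrank_tower N r hr hrN hN] at h
  exact h

/-! ### the diamonds of the `r`-part on `F_H` -/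

/-- the diamonds of the `r`-part commute with one another -/
theorem sigmaHom_comm (d d' : rPart N r) (x : ↥(F1Bar (N * r))) :
    sigmaHom N r d (sigmaHom N r d' x) = sigmaHom N r d' (sigmaHom N r d x) := by
  rw [← AlgEquiv.mul_apply, ← AlgEquiv.mul_apply, ← map_mul, ← map_mul, mul_comm d d']

/-- the diamonds of the `r`-part preserve `F_H` -/
theorem sigmaHom_mem_FH (d : rPart N r) {x : ↥(F1Bar (N * r))} (hx : x ∈ FH N r H) :
    sigmaHom N r d x ∈ FH N r H := by
  rw [FH, IntermediateField.mem_fixedField_iff] at hx ⊢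
  intro f hf
  obtain ⟨d', hd', rfl⟩ := Subgroup.mem_map.1 hf
  rw [sigmaHom_comm, hx _ hf]

/-- the diamond of `d` in the `r`-part, as an `E''`-algebra endomorphism of `F_H` -/
def restrictHom (d : rPart N r) : ↥(FH N r H) →ₐ[↥(F1pBar N r)] ↥(FH N r H) :=
  (((sigmaHom N r d : ↥(F1Bar (N * r)) ≃ₐ[↥(F1pBar N r)] ↥(F1Bar (N * r))) :
      ↥(F1Bar (N * r)) →ₐ[↥(F1pBar N r)] ↥(F1Bar (N * r))).comp (FH N r H).val).codRestrict
    (FH N r H).toSubalgebra fun x => sigmaHom_mem_FH N r H d x.2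

theorem coe_restrictHom (d : rPart N r) (x : ↥(FH N r H)) :
    ((restrictHom N r H d x : ↥(FH N r H)) : ↥(F1Bar (N * r))) =
      diamondAut (N * r) Kb (d : (ZMod (N * r))ˣ) (x : ↥(F1Bar (N * r))) := rfl

theorem restrictHom_one : restrictHom N r H 1 = AlgHom.id _ _ := by
  refine AlgHom.ext fun x => Subtype.ext ?_
  rw [coe_restrictHom, ← sigmaHom_apply, map_one]
  rfl

theorem restrictHom_mul (d d' : rPart N r) :
    restrictHom N r H (d * d') = (restrictHom N r H d).comp (restrictHom N r H d') := by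
  refine AlgHom.ext fun x => Subtype.ext ?_
  rw [coe_restrictHom, ← sigmaHom_apply, map_mul]
  rfl

/-- **the diamonds of the `r`-part as `E''`-automorphisms of `F_H`** -/
def restrictFH : rPart N r →* (↥(FH N r H) ≃ₐ[↥(F1pBar N r)] ↥(FH N r H)) where
  toFun d := AlgEquiv.ofAlgHom (restrictHom N r H d) (restrictHom N r H d⁻¹)
    (by rw [← restrictHom_mul, mul_inv_cancel, restrictHom_one])
    (by rw [← restrictHom_mul, inv_mul_cancel, restrictHom_one])
  map_one' := by
    refine AlgEquiv.ext fun x => ?_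
    show restrictHom N r H 1 x = x
    rw [restrictHom_one]
    rfl
  map_mul' d d' := by
    refine AlgEquiv.ext fun x => ?_
    show restrictHom N r H (d * d') x = _
    rw [restrictHom_mul]
    rfl

theorem coe_restrictFH (d : rPart N r) (x : ↥(FH N r H)) :
    ((restrictFH N r H d x : ↥(FH N r H)) : ↥(F1Bar (N * r))) =
      diamondAut (N * r) Kb (d : (ZMod (N * r))ˣ) (x : ↥(F1Bar (N * r))) := rfl

/-- the diamonds of `H` act trivially on `F_H` -/
theorem restrictFH_eq_one_of_mem (d : rPart N r) (hd : (d : (ZMod (N * r))ˣ) ∈ H) :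
    restrictFH N r H d = 1 := by
  refine AlgEquiv.ext fun x => Subtype.ext ?_
  rw [coe_restrictFH]
  exact (mem_FH_iff' N r H _).1 x.2 _ hd d.2

/-! ### the cyclic cover `F_H / E''` -/

theorem finiteDimensional_FH (hr : r.Prime) (hrN : ¬ r ∣ N) (hN : 5 ≤ N) (hr2 : 2 < r) :
    FiniteDimensional ↥(F1pBar N r) ↥(FH N r H) := by
  have := finiteDimensional_tower N r hr hrN hN hr2
  exact IntermediateField.finiteDimensional_left (FH N r H)

theorem isIntegral_FH (hr : r.Prime) (hrN : ¬ r ∣ N) (hN : 5 ≤ N) (hr2 : 2 < r) :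
    Algebra.IsIntegral ↥(F1pBar N r) ↥(FH N r H) := by
  have := finiteDimensional_FH N r H hr hrN hN hr2
  exact Algebra.IsIntegral.of_finite _ _

theorem coe_algebraMap_FH (y : ↥(F1pBar N r)) :
    ((algebraMap ↥(F1pBar N r) ↥(FH N r H) y : ↥(FH N r H)) : ↥(F1Bar (N * r))) =
      algebraMap ↥(F1pBar N r) ↥(F1Bar (N * r)) y := rfl

/-- the index of `H` in the `r`-part -/
def indexH : ℕ := (H.subgroupOf (rPart N r)).index

theorem card_mul_indexH (hr : r.Prime) (hrN : ¬ r ∣ N) (hH : H ≤ rPart N r) :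
    Nat.card H * indexH N r H = r - 1 := by
  rw [← card_rPart N r hr hrN, ← Subgroup.card_mul_index (H.subgroupOf (rPart N r)), indexH,
    Nat.card_congr (Subgroup.subgroupOfEquivOfLe hH).toEquiv]

theorem indexH_pos (hr : r.Prime) (hrN : ¬ r ∣ N) (hr2 : 2 < r) (hH : H ≤ rPart N r) :
    0 < indexH N r H := by
  rcases Nat.eq_zero_or_pos (indexH N r H) with h | h
  · have := card_mul_indexH N r H hr hrN hH
    rw [h, mul_zero] at this
    omega
  · exact h

/-- **`[F_H : E''] = [r-part : H]`** -/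
theorem finrank_FH (hr : r.Prime) (hrN : ¬ r ∣ N) (hN : 5 ≤ N) (hr2 : 2 < r)
    (hH : H ≤ rPart N r) :
    Module.finrank ↥(F1pBar N r) ↥(FH N r H) = indexH N r H := by
  have h1 := finrank_FH_mul_card N r H hr hrN hN hr2 hH
  have h2 := card_mul_indexH N r H hr hrN hH
  have hpos : 0 < Nat.card H := Nat.card_pos
  refine Nat.eq_of_mul_eq_mul_right hpos ?_
  rw [h1, mul_comm, h2]

/-- `σ ^ [r-part : H] = 1` on `F_H`, for every diamond `σ` of the `r`-part -/
theorem restrictFH_pow_indexH (d : rPart N r) : restrictFH N r H d ^ indexH N r H = 1 := by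
  rw [← map_pow]
  refine restrictFH_eq_one_of_mem N r H _ ?_
  have := Subgroup.pow_index_mem (H.subgroupOf (rPart N r)) d
  exact Subgroup.mem_subgroupOf.1 this

/-- **the cyclic cover `F_H / E''`**: a generator `d₀` of the `r`-part whose diamond `σ` on `F_H`
satisfies `σ ^ m = 1`, `m = [F_H : E''] = [r-part : H]`, and has fixed field `E''`. -/
theorem exists_sigmaH (hr : r.Prime) (hrN : ¬ r ∣ N) (hN : 5 ≤ N) (hr2 : 2 < r) :
    ∃ d₀ : rPart N r, orderOf d₀ = r - 1 ∧ (∀ d : rPart N r, d ∈ Subgroup.zpowers d₀) ∧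
      (∀ h : ↥(FH N r H), (restrictFH N r H d₀ ^ indexH N r H) h = h) ∧
      ∀ h : ↥(FH N r H), restrictFH N r H d₀ h = h →
        ∃ h0 : ↥(F1pBar N r), algebraMap ↥(F1pBar N r) ↥(FH N r H) h0 = h := by
  obtain ⟨d₀, hd₀, hord, hgen, -, hfix⟩ := exists_sigma N r hr hrN hN hr2
  refine ⟨⟨d₀, (mem_rPart_iff N r).2 hd₀⟩, ?_, fun d => ?_, fun h => ?_, fun h hh => ?_⟩
  · rw [← hord]
    exact Subgroup.orderOf_mk d₀ _
  · obtain ⟨k, hk⟩ := Subgroup.mem_zpowers_iff.1 (hgen d ((mem_rPart_iff N r).1 d.2))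
    exact Subgroup.mem_zpowers_iff.2 ⟨k, Subtype.ext (by rw [Subgroup.coe_zpow]; exact hk)⟩
  · rw [restrictFH_pow_indexH]
    rfl
  · have h1 : sigmaOf N r d₀ hd₀ (h : ↥(F1Bar (N * r))) = h := by
      rw [sigmaOf_apply]
      exact congrArg Subtype.val hh
    obtain ⟨h0, hh0⟩ := hfix _ h1
    exact ⟨h0, Subtype.ext hh0⟩

/-! ### the Kummer eigenvector of `F_H / E''` -/

attribute [local instance] isScalarTower_tower

/-- `F_H` is a `ℚ̄`-algebra, compatibly with `E''` (by instance search, under the local instance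
`isScalarTower_tower`) -/
theorem isScalarTower_Kb_FH : IsScalarTower Kb ↥(F1pBar N r) ↥(FH N r H) := inferInstance

/-- **the Kummer package of `F_H / E''`** (the fields `m, ζ, σ, σ_pow, fixed, z, z_ne, σ_z` of the
cover of the relative lift, with `F := F_H`, `m := [r-part : H]`). -/
theorem exists_kummerH (hr : r.Prime) (hrN : ¬ r ∣ N) (hN : 5 ≤ N) (hr2 : 2 < r)
    (hH : H ≤ rPart N r) (ζ : Kb) (hζ : IsPrimitiveRoot ζ (indexH N r H)) :
    ∃ d₀ : rPart N r, orderOf d₀ = r - 1 ∧ (∀ d : rPart N r, d ∈ Subgroup.zpowers d₀) ∧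
      (∀ h : ↥(FH N r H), (restrictFH N r H d₀ ^ indexH N r H) h = h) ∧
      (∀ h : ↥(FH N r H), restrictFH N r H d₀ h = h →
        ∃ h0 : ↥(F1pBar N r), algebraMap ↥(F1pBar N r) ↥(FH N r H) h0 = h) ∧
      ∃ z : ↥(FH N r H), z ≠ 0 ∧
        restrictFH N r H d₀ z = algebraMap Kb ↥(FH N r H) ζ * z := by
  obtain ⟨d₀, hord, hgen, hpow, hfix⟩ := exists_sigmaH N r H hr hrN hN hr2
  refine ⟨d₀, hord, hgen, hpow, hfix, ?_⟩
  have := finiteDimensional_FH N r H hr hrN hN hr2
  have hζ' : IsPrimitiveRoot (algebraMap Kb ↥(F1pBar N r) ζ)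
      (Module.finrank ↥(F1pBar N r) ↥(FH N r H)) := by
    rw [finrank_FH N r H hr hrN hN hr2 hH]
    exact hζ.map_of_injective (algebraMap Kb ↥(F1pBar N r)).injective
  obtain ⟨z, hz, hσz⟩ := exists_eigenvector_of_fixed (restrictFH N r H d₀) hfix _ hζ'
  refine ⟨z, hz, ?_⟩
  rw [hσz, ← IsScalarTower.algebraMap_apply]

end Fermat.Agent.S43.LG1.Ig.TowerH
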