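/-
PROJECT R (row 37 by S43), gate `LG1Hyp`, brick IG-X (helper16; helper17's IG v2 #6315 (2)):
**THE KUMMER GENERATOR OF `F_H / E''`, WITH ITS INTEGRAL `q`-EXPANSION.**

`E' = ℚ̄(X₁(N r)) ⊇ F_H ⊇ E'' = ℚ̄(X₁(N; r))` (helper3's `Ig/TowerH`), `w` the `r`-part Fricke
automorphism (`Wr/Main.wEquiv`), `y_c = w h_c` for `c` in the `r`-part of `ℤ/N r`
(`q`-expansion `(E₄E₆/Δ)(q^N) · (12 X(ζ₀^c, q^N) + 1)`, `Wr/Descent.coe_wHom_hGen`).

* `yOf`, `yOf_neg`, `diamond_yOf`, `coe_yOf` : `y_{-c} = y_c`, `⟨d⟩ y_{d c} = y_c`;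
* `exists_model` : `(1 - ω^t)(1 - ω^{-t}) · w h_c` (`ω = ζ^c`) has coefficients in every valuation
  subring `A` over `r` and reduces to `-12 t² · ν`, `ν = (E₄E₆/Δ)(q^N)`;
* `yU u = μ₀ · y_{u⁻¹ c₀}` : `diamond_yU` (`⟨d⟩ Y_u = Y_{d u}`, no constant), `yU_eps`,
  `exists_model_yU` (reduction `-12 ū² ν`);
* `zP i = ∏_{j<h} Y_{d^{i+mj}}` (the product over the coset `d^i ⟨d^m⟩ / ±1`): `diamond_zP`
  (`⟨d^s⟩ Z_i = Z_{s+i}`), `zP_add` (`Z_{i+m} = Z_i`), `exists_model_zP` (reduction `ρ^i c_H ν^h`,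
  `ρ = δ^{2h}` a primitive `m`-th root of unity of `𝔽_r`);
* `zR η = ∑_{i<m} η^i Z_i` (Lagrange resolvent): `diamond_zR` (`η ⟨d⟩ z = z`), `exists_model_zR`
  (reduction `m c_H ν^h` when `η` is the Teichmüller lift of `ρ⁻¹`);
* `exists_teich` : Teichmüller lifts of roots of unity of order prime to the residue characteristic;
* `exists_pow_of_mem` : `H = ⟨d₀^m⟩`; `orderOf_cast`, `pow_half_mul` : the reduction of a generator
  of the `r`-part has order `r - 1`, and `d₀^{(r-1)/2}` acts as `-1` on the `r`-part;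
* **`exists_kummer_gen`** : for `r ≥ 5`, `m = [r-part : H] ∣ (r-1)/2`, `A` over `r`, `d₀` a generator
  of the `r`-part: `∃ ζ z Z c₀`, `ζ` a primitive `m`-th root of unity, `0 ≠ z ∈ F_H`,
  `⟨d₀⟩ z = ζ z`, `z = coeffMap A.subtype Z`, `coeffMap (residue A) Z = c₀ · ν^{(r-1)/2/m}`, `c₀ ≠ 0`;
* **`exists_kummerH_gen`** : the same packaged with helper3's `exists_sigmaH` and `θ = z^m ∈ E''`
  (`θ = coeffMap A.subtype (Z^m)`).
-/
import Mathlib
import Fermat.Agent.S43.LG1.Wr.RPart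
import Fermat.Agent.S43.LG1.Wr.Main
import Fermat.Agent.S43.LG1.Ig.TowerH
import Fermat.Agent.S48.B.B1.TateX
import Fermat.Agent.S48.B.ES.Descent
import Fermat.Agent.S18.ResidueBasics

set_option autoImplicit false
set_option linter.unusedSectionVars false
set_option synthInstance.maxHeartbeats 400000

noncomputable section

namespace Fermat.Agent.S43.LG1.Ig.Gen

open ModularCurve IntermediateField
open Fermat.Agent.S48.B.Defs.Model Fermat.Agent.S48.B.B1
open Fermat.Agent.S48.B.ES.DiamondUnique Fermat.Agent.S48.B.ES.DegreeBeta1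
open Fermat.Agent.S48.Eis1.KronZ
open Fermat.Agent.S43.LG1.Fricke.Seam
open Fermat.Agent.S43.LG1.Wr.Matrix Fermat.Agent.S43.LG1.Wr.CoeffK Fermat.Agent.S43.LG1.Wr.RPart
open Fermat.Agent.S43.LG1.Wr.Descent Fermat.Agent.S43.LG1.Wr.Main
open Fermat.Agent.S43.LG1.Ig.Tower Fermat.Agent.S43.LG1.Ig.TowerAlg Fermat.Agent.S43.LG1.Ig.TowerH

local notation "Kb" => AlgebraicClosure ℚ

/-! ### the elements `w h_c` -/

section Elements

variable {N r : ℕ} [NeZero N] [NeZero r]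
variable (D : WDatum N r) (ι : Kb →+* ℂ)

/-- `h_c`, total in `c` -/
def hG (N r : ℕ) [NeZero N] [NeZero r] (c : ZMod (N * r)) : ↥(F1Bar (N * r)) :=
  if hc : c = 0 then 0 else hGen (N * r) Kb c hc

theorem hG_of_ne {c : ZMod (N * r)} (hc : c ≠ 0) : hG N r c = hGen (N * r) Kb c hc := by
  rw [hG, dif_neg hc]

theorem hG_neg (c : ZMod (N * r)) : hG N r (-c) = hG N r c := by
  by_cases hc : c = 0
  · rw [hc, neg_zero]
  · have hc' : -c ≠ 0 := neg_ne_zero.mpr hc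
    rw [hG_of_ne hc, hG_of_ne hc']
    apply Subtype.ext
    show coeffEmb Kb (frickeH ℚ (N * r) (-c)) = coeffEmb Kb (frickeH ℚ (N * r) c)
    rw [Fermat.Agent.S48.B.B1.TateX.frickeH_neg]

theorem diamond_hG (d : (ZMod (N * r))ˣ) (c : ZMod (N * r)) :
    diamondAut (N * r) Kb d (hG N r c) = hG N r ((d : ZMod (N * r)) * c) := by
  by_cases hc : c = 0
  · rw [hc, mul_zero, hG, dif_pos rfl, map_zero]
  · rw [hG_of_ne hc, hG_of_ne (unit_mul_ne_zero d hc)]
    exact apply_hGen (Main.isDiamondAut_diamondAut (N * r) Kb d) c hc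

/-- **`y_c = w h_c`** -/
def yOf (c : ZMod (N * r)) : ↥(F1Bar (N * r)) := wEquiv D ι (hG N r c)

theorem yOf_neg (c : ZMod (N * r)) : yOf D ι (-c) = yOf D ι c := by
  rw [yOf, yOf, hG_neg]

/-- **the diamonds of the `r`-part on the `y_c`**: `⟨d⟩ y_c = y_{d⁻¹ c}` -/
theorem diamond_yOf (d : (ZMod (N * r))ˣ) (hd : IsRPart N r d) (c : ZMod (N * r)) :
    diamondAut (N * r) Kb d (yOf D ι ((d : ZMod (N * r)) * c)) = yOf D ι c := by
  have h := wEquiv_diamond D ι d (diamondAut (N * r) Kb d)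
    (Main.isDiamondAut_diamondAut (N * r) Kb d) hd (hG N r c)
  rw [yOf, yOf, ← diamond_hG, h, AlgEquiv.apply_symm_apply]

/-- the `q`-expansion of `y_c` -/
theorem coe_yOf {c : ZMod (N * r)} (hc : c ≠ 0) {ζ0 : Kb}
    (hζ : ι ζ0 = ee ((D.m : ℂ) / (r : ℂ))) :
    ((yOf D ι c : ↥(F1Bar (N * r))) : LaurentSeries Kb) = frickeMu Kb N r c ζ0 := by
  rw [yOf, hG_of_ne hc, wEquiv_apply, coe_wHom_hGen D ι hc hζ]

end Elements

/-! ### the integral model of `μ · w h_c` -/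

section Model

variable {K : Type*} [Field K] (A : ValuationSubring K) {k : Type*} [Field k] (π : ↥A →+* k)
variable {N r : ℕ} [NeZero N] [NeZero r]

theorem coeffMap_C₀ {R S : Type*} [CommRing R] [CommRing S] (f : R →+* S) (c : R) :
    coeffMap f (HahnSeries.C c : LaurentSeries R) = HahnSeries.C (f c) := by
  show coeffMap f (HahnSeries.single (0 : ℤ) c) = HahnSeries.single (0 : ℤ) (f c)
  rw [coeffMap_single]

/-- roots of unity of prime order `r` reduce to `1` in characteristic `r` -/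
theorem map_eq_one_of_pow_eq_one [hr : Fact r.Prime] [CharP k r] {z : ↥A}
    (hz : (z : K) ^ r = 1) : π z = 1 := by
  have h1 : (π z) ^ r = 1 := by
    rw [← map_pow]
    have : z ^ r = 1 := Subtype.ext (by push_cast; rw [hz])
    rw [this, map_one]
  have h2 : (π z - 1) ^ r = 0 := by
    rw [sub_pow_char (π z) 1, h1, one_pow, sub_self]
  exact sub_eq_zero.mp (pow_eq_zero_iff (hr.out.ne_zero) |>.mp h2)

/-- **the integral model**: for `ω = ζ^c` an `r`-th root of unity `≠ 1` and every `t`, the series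
`(1 - ω^t)(1 - ω^{-t}) · w h_c` has coefficients in `A` and reduces to `-12 t² · (E₄E₆/Δ)(q^N)`. -/
theorem exists_model [hr : Fact r.Prime] [CharP k r] {c : ZMod (N * r)} (hc : N ∣ c.val) {ζ : K}
    (hζ : ζ ^ r = 1) (hne : ζ ^ c.val ≠ 1) (t : ℕ) :
    ∃ Y : LaurentSeries ↥A,
      coeffMap A.subtype Y =
        HahnSeries.C ((1 - (ζ ^ c.val) ^ t) * (1 - ((ζ ^ c.val)⁻¹) ^ t)) * frickeMu K N r c ζ ∧
      coeffMap π Y = HahnSeries.C (-12 * (t : k) ^ 2) * qExpand k N (wNorm k) := by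
  set ω := ζ ^ c.val with hω
  have hωr : ω ^ r = 1 := by rw [hω, ← pow_mul, mul_comm, pow_mul, hζ, one_pow]
  have hω0 : ω ≠ 0 := by
    intro h0
    rw [h0, zero_pow (NeZero.ne r)] at hωr
    exact zero_ne_one hωr
  have hωr' : ω⁻¹ ^ r = 1 := by rw [inv_pow, hωr, inv_one]
  have hmem : ω ∈ A := mem_of_pow_eq_one A (NeZero.ne r) hωr
  have hmem' : ω⁻¹ ∈ A := mem_of_pow_eq_one A (NeZero.ne r) hωr'
  set ωA : ↥A := ⟨ω, hmem⟩ with hωA
  set ωA' : ↥A := ⟨ω⁻¹, hmem'⟩ with hωA'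
  have hπω : π ωA = 1 := map_eq_one_of_pow_eq_one A π hωr
  have hπω' : π ωA' = 1 := map_eq_one_of_pow_eq_one A π hωr'
  set a : ↥A := -ωA' * (∑ s ∈ Finset.range t, ωA ^ s) * (∑ s ∈ Finset.range t, ωA' ^ s) with ha
  refine ⟨HahnSeries.C a * lamFricke A hc hζ hne, ?_, ?_⟩
  · rw [map_mul, coeffMap_subtype_lamFricke, ← mul_assoc]
    congr 1
    have e1 : coeffMap A.subtype (HahnSeries.C a) = HahnSeries.C (a : K) := coeffMap_C₀ _ _
    rw [e1, ← map_mul]
    congr 1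
    have e2 : (a : K) = -ω⁻¹ * (∑ s ∈ Finset.range t, ω ^ s) *
        (∑ s ∈ Finset.range t, ω⁻¹ ^ s) := by
      rw [ha]
      simp [hωA, hωA']
    rw [e2, ← hω, one_sub_pow_eq ω t, one_sub_pow_eq ω⁻¹ t]
    field_simp
    ring
  · have hπ0 : π ⟨1 - ζ ^ c.val, sub_mem (one_mem A)
        (pow_mem (mem_of_pow_eq_one A (NeZero.ne r) hζ) _)⟩ = 0 := by
      have : (⟨1 - ζ ^ c.val, sub_mem (one_mem A)
        (pow_mem (mem_of_pow_eq_one A (NeZero.ne r) hζ) _)⟩ : ↥A) = 1 - ωA := Subtype.ext rfl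
      rw [this, map_sub, map_one, hπω, sub_self]
    have hπ12 : π ⟨12 * ζ ^ c.val, mul_mem (ofNat_mem A 12)
        (pow_mem (mem_of_pow_eq_one A (NeZero.ne r) hζ) _)⟩ = 12 := by
      have : (⟨12 * ζ ^ c.val, mul_mem (ofNat_mem A 12)
        (pow_mem (mem_of_pow_eq_one A (NeZero.ne r) hζ) _)⟩ : ↥A) = 12 * ωA := Subtype.ext rfl
      rw [this, map_mul, hπω, mul_one, map_ofNat]
    have e1 : coeffMap π (HahnSeries.C a) = HahnSeries.C (π a) := coeffMap_C₀ _ _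
    have e2 : π a = -((t : k) ^ 2) := by
      rw [ha, map_mul, map_mul, map_neg, hπω', map_geom_sum π hπω, map_geom_sum π hπω']
      ring
    rw [map_mul, coeffMap_lamFricke A π hc hζ hne hπ0, hπ12, e1, e2, ← mul_assoc, ← map_mul]
    congr 2
    ring

end Model

/-! ### arithmetic in `ℤ/N r` -/

section Arith

theorem prod_shift {M : Type*} [CommMonoid M] (f : ℕ → M) {h : ℕ} (hh : 0 < h)
    (hf : f h = f 0) : ∏ j ∈ Finset.range h, f (j + 1) = ∏ j ∈ Finset.range h, f j := by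
  obtain ⟨h', rfl⟩ := Nat.exists_eq_succ_of_ne_zero hh.ne'
  rw [Finset.prod_range_succ, hf, Finset.prod_range_succ' f h']

theorem sum_shift {M : Type*} [AddCommMonoid M] (f : ℕ → M) {h : ℕ} (hh : 0 < h)
    (hf : f h = f 0) : ∑ j ∈ Finset.range h, f (j + 1) = ∑ j ∈ Finset.range h, f j := by
  obtain ⟨h', rfl⟩ := Nat.exists_eq_succ_of_ne_zero hh.ne'
  rw [Finset.sum_range_succ, hf, Finset.sum_range_succ' f h']

variable {N r : ℕ} [NeZero N] [NeZero r]

/-- the Chinese remainder theorem, in the form used here: an element of `ℤ/N r` vanishing modulo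
`N` and in a field of characteristic `r` is zero -/
theorem crt_eq_zero (hc : r.Coprime N) {k : Type*} [Field k] [CharP k r] {x : ZMod (N * r)}
    (h1 : ((x.val : ℕ) : ZMod N) = 0) (h2 : ((x.val : ℕ) : k) = 0) : x = 0 := by
  have d1 : N ∣ x.val := (ZMod.natCast_eq_zero_iff _ _).mp h1
  have d2 : r ∣ x.val := (CharP.cast_eq_zero_iff k r _).mp h2
  have d3 : N * r ∣ x.val := Nat.Coprime.mul_dvd_of_dvd_of_dvd hc.symm d1 d2
  have h0 : x.val = 0 := Nat.eq_zero_of_dvd_of_lt d3 (ZMod.val_lt x)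
  exact (ZMod.val_eq_zero x).mp h0

theorem pow_val_mul {K : Type*} [Monoid K] {ζ : K} (hζ : ζ ^ r = 1) (a b : ZMod (N * r)) :
    ζ ^ (a * b).val = (ζ ^ a.val) ^ b.val := by
  rw [← pow_mul, ZMod.val_mul]
  refine pow_eq_pow_of_modEq ?_ hζ
  exact (Nat.mod_modEq _ _).of_dvd (Dvd.intro_left N rfl)

theorem dvd_val_mul (a : ZMod (N * r)) {c : ZMod (N * r)} (hc : N ∣ c.val) : N ∣ (a * c).val := by
  rw [ZMod.val_mul]
  exact (Nat.dvd_mod_iff (Dvd.intro r rfl)).mpr (Dvd.dvd.mul_left hc _)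

end Arith

/-! ### the family `Y_u = μ₀ · w h_{u⁻¹ c₀}` -/

section Family

variable {N r : ℕ} [NeZero N] [NeZero r]
variable (D : WDatum N r) (ι : Kb →+* ℂ) (ζ0 : Kb) (c₀ : ZMod (N * r))

theorem coe_algebraMap_C {M : ℕ} [NeZero M] (c : Kb) :
    ((algebraMap Kb ↥(F1Bar M) c : ↥(F1Bar M)) : LaurentSeries Kb) = HahnSeries.C c := by
  rw [IntermediateField.coe_algebraMap_apply]
  exact LaurentSeries.algebraMap_apply Kb c

/-- the normalising constant `μ₀ = (1 - ω₀)(1 - ω₀⁻¹)`, `ω₀ = ζ₀^{c₀}` -/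
def mu0 : Kb := (1 - ζ0 ^ c₀.val) * (1 - (ζ0 ^ c₀.val)⁻¹)

/-- **`Y_u = μ₀ · w h_{u⁻¹ c₀}`** -/
def yU (u : (ZMod (N * r))ˣ) : ↥(F1Bar (N * r)) :=
  algebraMap Kb ↥(F1Bar (N * r)) (mu0 ζ0 c₀) *
    yOf D ι (((u⁻¹ : (ZMod (N * r))ˣ) : ZMod (N * r)) * c₀)

/-- **the diamonds of the `r`-part permute the `Y_u`** : `⟨d⟩ Y_u = Y_{d u}` -/
theorem diamond_yU (d u : (ZMod (N * r))ˣ) (hd : IsRPart N r d) :
    diamondAut (N * r) Kb d (yU D ι ζ0 c₀ u) = yU D ι ζ0 c₀ (d * u) := by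
  have e : ((u⁻¹ : (ZMod (N * r))ˣ) : ZMod (N * r)) * c₀ =
      (d : ZMod (N * r)) * ((((d * u)⁻¹ : (ZMod (N * r))ˣ) : ZMod (N * r)) * c₀) := by
    rw [← mul_assoc, ← Units.val_mul, mul_inv_rev, mul_comm u⁻¹ d⁻¹, mul_inv_cancel_left]
  rw [yU, yU, map_mul, AlgEquiv.commutes, e, diamond_yOf D ι d hd]

/-- `Y_{ε u} = Y_u` when `ε` acts as `-1` on the `r`-part -/
theorem yU_eps (ε u : (ZMod (N * r))ˣ) (hε : (ε : ZMod (N * r)) * c₀ = -c₀) :
    yU D ι ζ0 c₀ (ε * u) = yU D ι ζ0 c₀ u := by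
  have h1 : ((ε⁻¹ : (ZMod (N * r))ˣ) : ZMod (N * r)) * c₀ = -c₀ := by
    have : ((ε⁻¹ : (ZMod (N * r))ˣ) : ZMod (N * r)) * ((ε : ZMod (N * r)) * c₀) = c₀ := by
      rw [← mul_assoc, Units.inv_mul, one_mul]
    rw [hε, mul_neg] at this
    exact neg_eq_iff_eq_neg.mp this
  have e : (((ε * u)⁻¹ : (ZMod (N * r))ˣ) : ZMod (N * r)) * c₀ =
      -(((u⁻¹ : (ZMod (N * r))ˣ) : ZMod (N * r)) * c₀) := by
    rw [mul_inv_rev, Units.val_mul, mul_assoc, h1, mul_neg]
  rw [yU, yU, e, yOf_neg]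

/-- **the integral model of `Y_u`**: its `q`-expansion has coefficients in every valuation subring
`A` over `r`, and reduces to `-12 u² · (E₄E₆/Δ)(q^N)` -/
theorem exists_model_yU [hr : Fact r.Prime] (A : ValuationSubring Kb) {k : Type*} [Field k]
    [CharP k r] (π : ↥A →+* k) (hζr : ζ0 ^ r = 1) (hζ : ι ζ0 = ee ((D.m : ℂ) / (r : ℂ)))
    (hc₀ : N ∣ c₀.val) (hne₀ : ζ0 ^ c₀.val ≠ 1) (u : (ZMod (N * r))ˣ) :
    ∃ Y : LaurentSeries ↥A,
      ((yU D ι ζ0 c₀ u : ↥(F1Bar (N * r))) : LaurentSeries Kb) = coeffMap A.subtype Y ∧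
      coeffMap π Y =
        HahnSeries.C (-12 * (((u : ZMod (N * r)).val : ℕ) : k) ^ 2) * qExpand k N (wNorm k) := by
  set c : ZMod (N * r) := ((u⁻¹ : (ZMod (N * r))ˣ) : ZMod (N * r)) * c₀ with hcdef
  have hc : N ∣ c.val := dvd_val_mul _ hc₀
  have hcu : c * (u : ZMod (N * r)) = c₀ := by
    show ((u⁻¹ : (ZMod (N * r))ˣ) : ZMod (N * r)) * c₀ * (u : ZMod (N * r)) = c₀
    rw [mul_right_comm, Units.inv_mul, one_mul]
  have hpow : (ζ0 ^ c.val) ^ (u : ZMod (N * r)).val = ζ0 ^ c₀.val := by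
    rw [← pow_val_mul hζr, hcu]
  have hne : ζ0 ^ c.val ≠ 1 := by
    intro h1
    rw [h1, one_pow] at hpow
    exact hne₀ hpow.symm
  have hc0 : c ≠ 0 := by
    intro h0
    rw [h0, ZMod.val_zero, pow_zero] at hne
    exact hne rfl
  obtain ⟨Y, h1, h2⟩ := exists_model A π hc hζr hne (u : ZMod (N * r)).val
  refine ⟨Y, ?_, h2⟩
  rw [h1, inv_pow, hpow, yU, ← hcdef]
  show ((algebraMap Kb ↥(F1Bar (N * r)) (mu0 ζ0 c₀) : ↥(F1Bar (N * r))) : LaurentSeries Kb) *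
    ((yOf D ι c : ↥(F1Bar (N * r))) : LaurentSeries Kb) = _
  rw [coe_algebraMap_C, coe_yOf D ι hc0 hζ, mu0]

end Family

/-! ### the products `Z_i` over the cosets and the Lagrange resolvent -/

section Products

variable {N r : ℕ} [NeZero N] [NeZero r]
variable (D : WDatum N r) (ι : Kb →+* ℂ) (ζ0 : Kb) (c₀ : ZMod (N * r))
variable (d : (ZMod (N * r))ˣ) (m h : ℕ)

theorem isRPart_pow {d : (ZMod (N * r))ˣ} (hd : IsRPart N r d) (s : ℕ) : IsRPart N r (d ^ s) := by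
  have key : ∀ u : (ZMod (N * r))ˣ, IsRPart N r u ↔
      ZMod.castHom (Dvd.intro r rfl : N ∣ N * r) (ZMod N) (u : ZMod (N * r)) = 1 := by
    intro u
    unfold IsRPart
    rw [ZMod.castHom_apply, ZMod.natCast_val]
  rw [key] at hd ⊢
  rw [Units.val_pow_eq_pow_val, map_pow, hd, one_pow]

/-- the reduction of the powers of a unit -/
theorem cast_pow_val {k : Type*} [Field k] [CharP k r] (d : (ZMod (N * r))ˣ) (s : ℕ) :
    ((((d ^ s : (ZMod (N * r))ˣ) : ZMod (N * r)).val : ℕ) : k) =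
      (((d : ZMod (N * r)).val : ℕ) : k) ^ s := by
  have := map_pow (ZMod.castHom (Dvd.intro_left N rfl : r ∣ N * r) k) (d : ZMod (N * r)) s
  simp only [ZMod.castHom_apply] at this
  rw [ZMod.natCast_val, ZMod.natCast_val, Units.val_pow_eq_pow_val]
  exact this

/-- **`Z_i = ∏_{j<h} Y_{d^{i+mj}}`**, the product over the coset `d^i ⟨d^m⟩ / ±1` -/
def zP (i : ℕ) : ↥(F1Bar (N * r)) :=
  ∏ j ∈ Finset.range h, yU D ι ζ0 c₀ (d ^ (i + m * j))

/-- the diamonds of the powers of `d` shift the `Z_i` -/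
theorem diamond_zP (hd : IsRPart N r d) (s i : ℕ) :
    diamondAut (N * r) Kb (d ^ s) (zP D ι ζ0 c₀ d m h i) = zP D ι ζ0 c₀ d m h (s + i) := by
  rw [zP, zP, map_prod]
  refine Finset.prod_congr rfl fun j _ => ?_
  rw [diamond_yU D ι ζ0 c₀ _ _ (isRPart_pow hd s), ← pow_add, add_assoc]

/-- `Z_{i+m} = Z_i` -/
theorem zP_add {n : ℕ} (hε : ((d ^ n : (ZMod (N * r))ˣ) : ZMod (N * r)) * c₀ = -c₀)
    (hmh : m * h = n) (hh : 0 < h) (i : ℕ) :
    zP D ι ζ0 c₀ d m h (i + m) = zP D ι ζ0 c₀ d m h i := by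
  rw [zP, zP]
  have h1 := prod_shift (fun j => yU D ι ζ0 c₀ (d ^ (i + m * j))) hh (by
    show yU D ι ζ0 c₀ (d ^ (i + m * h)) = yU D ι ζ0 c₀ (d ^ (i + m * 0))
    rw [hmh, mul_zero, add_zero, add_comm i n, pow_add, yU_eps D ι ζ0 c₀ _ _ hε])
  rw [← h1]
  refine Finset.prod_congr rfl fun j _ => ?_
  show yU D ι ζ0 c₀ (d ^ (i + m + m * j)) = yU D ι ζ0 c₀ (d ^ (i + m * (j + 1)))
  rw [mul_add, mul_one, add_assoc, add_comm m (m * j)]

theorem zP_add_mul {n : ℕ} (hε : ((d ^ n : (ZMod (N * r))ˣ) : ZMod (N * r)) * c₀ = -c₀)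
    (hmh : m * h = n) (hh : 0 < h) (i t : ℕ) :
    zP D ι ζ0 c₀ d m h (i + m * t) = zP D ι ζ0 c₀ d m h i := by
  induction t with
  | zero => rw [mul_zero, add_zero]
  | succ t ih => rw [mul_add, mul_one, ← add_assoc, zP_add D ι ζ0 c₀ d m h hε hmh hh, ih]

/-- the `Z_i` are fixed by the diamonds of `⟨d^m⟩` -/
theorem diamond_pow_zP (hd : IsRPart N r d) {n : ℕ}
    (hε : ((d ^ n : (ZMod (N * r))ˣ) : ZMod (N * r)) * c₀ = -c₀)
    (hmh : m * h = n) (hh : 0 < h) (i t : ℕ) :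
    diamondAut (N * r) Kb (d ^ (m * t)) (zP D ι ζ0 c₀ d m h i) = zP D ι ζ0 c₀ d m h i := by
  rw [diamond_zP D ι ζ0 c₀ d m h hd, add_comm, zP_add_mul D ι ζ0 c₀ d m h hε hmh hh]

/-- **the Lagrange resolvent** `z = ∑_{i<m} η^i Z_i` -/
def zR (η : Kb) : ↥(F1Bar (N * r)) :=
  ∑ i ∈ Finset.range m, algebraMap Kb ↥(F1Bar (N * r)) (η ^ i) * zP D ι ζ0 c₀ d m h i

/-- **`η · ⟨d⟩ z = z`** -/
theorem diamond_zR (hd : IsRPart N r d) {n : ℕ}
    (hε : ((d ^ n : (ZMod (N * r))ˣ) : ZMod (N * r)) * c₀ = -c₀)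
    (hmh : m * h = n) (hh : 0 < h) (hm : 0 < m) {η : Kb} (hη : η ^ m = 1) :
    algebraMap Kb ↥(F1Bar (N * r)) η * diamondAut (N * r) Kb d (zR D ι ζ0 c₀ d m h η) =
      zR D ι ζ0 c₀ d m h η := by
  have h1 := sum_shift (fun i => algebraMap Kb ↥(F1Bar (N * r)) (η ^ i) * zP D ι ζ0 c₀ d m h i)
    hm (by
      show algebraMap Kb ↥(F1Bar (N * r)) (η ^ m) * zP D ι ζ0 c₀ d m h m =
        algebraMap Kb ↥(F1Bar (N * r)) (η ^ 0) * zP D ι ζ0 c₀ d m h 0
      have := zP_add D ι ζ0 c₀ d m h hε hmh hh 0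
      rw [zero_add] at this
      rw [hη, pow_zero, this])
  conv_rhs => rw [zR, ← h1]
  conv_lhs => rw [zR, map_sum, Finset.mul_sum]
  refine Finset.sum_congr rfl fun i _ => ?_
  have h2 := diamond_zP D ι ζ0 c₀ d m h hd 1 i
  rw [pow_one] at h2
  rw [map_mul, AlgEquiv.commutes, h2, ← mul_assoc, ← map_mul, ← pow_succ', add_comm 1 i]

/-- the `Z_i` and the resolvent are fixed by the diamonds of `⟨d^m⟩` -/
theorem diamond_pow_zR (hd : IsRPart N r d) {n : ℕ}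
    (hε : ((d ^ n : (ZMod (N * r))ˣ) : ZMod (N * r)) * c₀ = -c₀)
    (hmh : m * h = n) (hh : 0 < h) (η : Kb) (t : ℕ) :
    diamondAut (N * r) Kb (d ^ (m * t)) (zR D ι ζ0 c₀ d m h η) = zR D ι ζ0 c₀ d m h η := by
  rw [zR, map_sum]
  refine Finset.sum_congr rfl fun i _ => ?_
  rw [map_mul, AlgEquiv.commutes, diamond_pow_zP D ι ζ0 c₀ d m h hd hε hmh hh]

end Products

/-! ### the integral models of the `Z_i` and of the resolvent -/

section ProductModels

variable {N r : ℕ} [NeZero N] [NeZero r] [hr : Fact r.Prime]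
variable (D : WDatum N r) (ι : Kb →+* ℂ) (ζ0 : Kb) (c₀ : ZMod (N * r))
variable (d : (ZMod (N * r))ˣ) (m h : ℕ)
variable (A : ValuationSubring Kb) {k : Type*} [Field k] [CharP k r] (π : ↥A →+* k)

/-- the constant of the reduction of `Z_0` : `∏_{j<h} (-12 δ^{2 m j})` -/
def cH {k : Type*} [Field k] (δ : k) (m h : ℕ) : k :=
  ∏ j ∈ Finset.range h, (-12 * (δ ^ (m * j)) ^ 2)

theorem cH_ne_zero {k : Type*} [Field k] {δ : k} (hδ : δ ≠ 0) (h12 : (12 : k) ≠ 0) (m h : ℕ) :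
    cH δ m h ≠ 0 := by
  rw [cH, Finset.prod_ne_zero_iff]
  intro j _
  exact mul_ne_zero (neg_ne_zero.mpr h12) (pow_ne_zero _ (pow_ne_zero _ hδ))

/-- **the integral model of `Z_i`**: it reduces to `ρ^i c_H · ν^h`, `ρ = δ^{2h}`,
`ν = (E₄E₆/Δ)(q^N)` -/
theorem exists_model_zP (hζr : ζ0 ^ r = 1) (hζ : ι ζ0 = ee ((D.m : ℂ) / (r : ℂ)))
    (hc₀ : N ∣ c₀.val) (hne₀ : ζ0 ^ c₀.val ≠ 1) (i : ℕ) :
    ∃ Z : LaurentSeries ↥A,
      ((zP D ι ζ0 c₀ d m h i : ↥(F1Bar (N * r))) : LaurentSeries Kb) = coeffMap A.subtype Z ∧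
      coeffMap π Z =
        HahnSeries.C (((((d : ZMod (N * r)).val : ℕ) : k) ^ (2 * h)) ^ i *
          cH (((d : ZMod (N * r)).val : ℕ) : k) m h) * qExpand k N (wNorm k) ^ h := by
  choose Y hY1 hY2 using fun j : ℕ =>
    exists_model_yU D ι ζ0 c₀ A π hζr hζ hc₀ hne₀ (d ^ (i + m * j))
  refine ⟨∏ j ∈ Finset.range h, Y j, ?_, ?_⟩
  · rw [map_prod, zP]
    show (F1Bar (N * r)).val (∏ j ∈ Finset.range h, yU D ι ζ0 c₀ (d ^ (i + m * j))) = _
    rw [map_prod]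
    exact Finset.prod_congr rfl fun j _ => hY1 j
  · rw [map_prod]
    simp_rw [hY2, cast_pow_val]
    rw [Finset.prod_mul_distrib, Finset.prod_const, Finset.card_range, ← map_prod]
    congr 2
    set δ : k := (((d : ZMod (N * r)).val : ℕ) : k) with hδ
    have e : ∀ j : ℕ, -12 * (δ ^ (i + m * j)) ^ 2 = δ ^ (2 * i) * (-12 * (δ ^ (m * j)) ^ 2) := by
      intro j
      rw [pow_add]
      ring
    rw [Finset.prod_congr rfl fun j _ => e j, Finset.prod_mul_distrib, Finset.prod_const,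
      Finset.card_range, cH, ← pow_mul, ← pow_mul]
    congr 2
    ring

/-- **the integral model of the resolvent**: it reduces to `m c_H · ν^h` as soon as `η` reduces to
`ρ⁻¹` -/
theorem exists_model_zR (hζr : ζ0 ^ r = 1) (hζ : ι ζ0 = ee ((D.m : ℂ) / (r : ℂ)))
    (hc₀ : N ∣ c₀.val) (hne₀ : ζ0 ^ c₀.val ≠ 1) {η : Kb} (hηA : η ∈ A)
    (hπη : π ⟨η, hηA⟩ * (((d : ZMod (N * r)).val : ℕ) : k) ^ (2 * h) = 1) :
    ∃ Z : LaurentSeries ↥A,
      ((zR D ι ζ0 c₀ d m h η : ↥(F1Bar (N * r))) : LaurentSeries Kb) = coeffMap A.subtype Z ∧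
      coeffMap π Z =
        HahnSeries.C ((m : k) * cH (((d : ZMod (N * r)).val : ℕ) : k) m h) *
          qExpand k N (wNorm k) ^ h := by
  choose Z hZ1 hZ2 using fun i : ℕ => exists_model_zP D ι ζ0 c₀ d m h A π hζr hζ hc₀ hne₀ i
  refine ⟨∑ i ∈ Finset.range m, HahnSeries.C ((⟨η, hηA⟩ : ↥A) ^ i) * Z i, ?_, ?_⟩
  · rw [map_sum, zR]
    show (F1Bar (N * r)).val (∑ i ∈ Finset.range m,
      algebraMap Kb ↥(F1Bar (N * r)) (η ^ i) * zP D ι ζ0 c₀ d m h i) = _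
    rw [map_sum]
    refine Finset.sum_congr rfl fun i _ => ?_
    rw [map_mul, map_mul, coeffMap_C₀, ← hZ1 i]
    show ((algebraMap Kb ↥(F1Bar (N * r)) (η ^ i) : ↥(F1Bar (N * r))) : LaurentSeries Kb) * _ = _
    rw [coe_algebraMap_C]
    rfl
  · rw [map_sum]
    have e : ∀ i ∈ Finset.range m, coeffMap π (HahnSeries.C ((⟨η, hηA⟩ : ↥A) ^ i) * Z i) =
        HahnSeries.C (cH (((d : ZMod (N * r)).val : ℕ) : k) m h) * qExpand k N (wNorm k) ^ h := by
      intro i _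
      rw [map_mul, coeffMap_C₀, hZ2, ← mul_assoc, ← map_mul, map_pow, ← mul_assoc, ← mul_pow, hπη,
        one_pow, one_mul]
    rw [Finset.sum_congr rfl e, Finset.sum_const, Finset.card_range, nsmul_eq_mul, map_mul,
      map_natCast, mul_assoc]

end ProductModels

/-! ### roots of unity modulo `𝔪_A` -/

section Teich

/-- **the Teichmüller lift**: every primitive `m`-th root of unity of the residue field (`m` prime
to the residue characteristic) is the reduction of a primitive `m`-th root of unity -/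
theorem exists_teich {K : Type*} [Field K] (A : ValuationSubring K) {k : Type*} [Field k]
    (π : ↥A →+* k) {m : ℕ} (hm : 0 < m) (hmk : (m : k) ≠ 0) {ζ₁ : K}
    (h1 : IsPrimitiveRoot ζ₁ m) {ρ : k} (hρ : IsPrimitiveRoot ρ m) :
    ∃ ζ : K, ∃ hζA : ζ ∈ A, IsPrimitiveRoot ζ m ∧ π ⟨ζ, hζA⟩ = ρ := by
  have hA₁ : ζ₁ ∈ A := mem_of_pow_eq_one A hm.ne' h1.pow_eq_one
  set z : ↥A := ⟨ζ₁, hA₁⟩ with hz
  have hzp : IsPrimitiveRoot z m :=
    IsPrimitiveRoot.of_map_of_injective (f := A.subtype) h1 Subtype.val_injective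
  obtain ⟨m', rfl⟩ := Nat.exists_eq_succ_of_ne_zero hm.ne'
  have hprod := congrArg π (IsPrimitiveRoot.prod_one_sub_pow_eq_order hzp)
  rw [map_prod, map_add, map_natCast, map_one] at hprod
  have hne : ∏ j ∈ Finset.range m', π (1 - z ^ (j + 1)) ≠ 0 := by
    rw [hprod]
    exact_mod_cast hmk
  rw [Finset.prod_ne_zero_iff] at hne
  have hπz : IsPrimitiveRoot (π z) (m' + 1) := by
    refine IsPrimitiveRoot.mk_of_lt _ hm (by rw [← map_pow, hzp.pow_eq_one, map_one])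
      fun l hl0 hlm => ?_
    obtain ⟨j, rfl⟩ := Nat.exists_eq_succ_of_ne_zero hl0.ne'
    have := hne j (Finset.mem_range.mpr (by omega))
    rw [map_sub, map_one, map_pow] at this
    exact fun h => this (by rw [h, sub_self])
  have : NeZero (m' + 1) := ⟨hm.ne'⟩
  obtain ⟨s, -, hsρ⟩ := hπz.eq_pow_of_pow_eq_one hρ.pow_eq_one
  have hcop : s.Coprime (m' + 1) := by
    rw [← hπz.pow_iff_coprime hm, hsρ]
    exact hρ
  refine ⟨ζ₁ ^ s, pow_mem hA₁ s, h1.pow_of_coprime s hcop, ?_⟩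
  rw [← hsρ, ← map_pow]
  rfl

end Teich

/-! ### the `r`-part, its generator and the reduction to the residue field -/

section Group

variable (N r : ℕ) [NeZero N] [NeZero r] [hc : Fact (r.Coprime N)]

theorem isRPart_coe (d : rPart N r) : IsRPart N r (d : (ZMod (N * r))ˣ) :=
  (mem_rPart_iff N r).1 d.2

/-- a generator of the `r`-part has order `r - 1` -/
theorem orderOf_gen (hr : r.Prime) (hrN : ¬ r ∣ N) (d₀ : rPart N r)
    (hgen : ∀ d : rPart N r, d ∈ Subgroup.zpowers d₀) :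
    orderOf (d₀ : (ZMod (N * r))ˣ) = r - 1 := by
  rw [Subgroup.orderOf_coe, orderOf_eq_card_of_forall_mem_zpowers hgen, card_rPart N r hr hrN]

/-- **`H` consists of the `m`-th powers**, `m = [r-part : H]` -/
theorem exists_pow_of_mem (hr : r.Prime) (hrN : ¬ r ∣ N) (H : Subgroup (ZMod (N * r))ˣ)
    (hH : H ≤ rPart N r) (d₀ : rPart N r)
    (hgen : ∀ d : rPart N r, d ∈ Subgroup.zpowers d₀) {e : (ZMod (N * r))ˣ} (he : e ∈ H) :
    ∃ t : ℕ, e = (d₀ : (ZMod (N * r))ˣ) ^ (indexH N r H * t) := by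
  set Hs : Subgroup (rPart N r) := H.subgroupOf (rPart N r) with hHs
  have hm : indexH N r H = Hs.index := rfl
  have hord : orderOf d₀ = r - 1 := by
    rw [orderOf_eq_card_of_forall_mem_zpowers hgen, card_rPart N r hr hrN]
  have hcm := card_mul_indexH N r H hr hrN hH
  have hmdvd : indexH N r H ∣ r - 1 := Dvd.intro_left _ hcm
  have hr2 : 2 ≤ r := hr.two_le
  have hmpos : 0 < indexH N r H := by
    rcases Nat.eq_zero_or_pos (indexH N r H) with h | h
    · rw [h, mul_zero] at hcm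
      omega
    · exact h
  have hle : Subgroup.zpowers (d₀ ^ indexH N r H) ≤ Hs := by
    rw [Subgroup.zpowers_le, hm]
    exact Subgroup.pow_index_mem Hs d₀
  have hcard1 : Nat.card (Subgroup.zpowers (d₀ ^ indexH N r H)) = (r - 1) / indexH N r H := by
    rw [Nat.card_zpowers, orderOf_pow_of_dvd hmpos.ne' (hord ▸ hmdvd), hord]
  have hcard2 : Nat.card Hs = (r - 1) / indexH N r H := by
    have h1 := Subgroup.card_mul_index Hs
    rw [card_rPart N r hr hrN, ← hm] at h1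
    exact (Nat.div_eq_of_eq_mul_left hmpos h1.symm).symm
  have heq : Subgroup.zpowers (d₀ ^ indexH N r H) = Hs :=
    Subgroup.eq_of_le_of_card_ge hle (by rw [hcard1, hcard2])
  have hmem : (⟨e, hH he⟩ : rPart N r) ∈ Hs := Subgroup.mem_subgroupOf.2 he
  rw [← heq, ← mem_powers_iff_mem_zpowers] at hmem
  obtain ⟨t, ht⟩ := hmem
  refine ⟨t, ?_⟩
  have := congrArg (Subtype.val : rPart N r → (ZMod (N * r))ˣ) ht
  rw [pow_mul]
  exact this.symm

variable {k : Type*} [Field k] [CharP k r]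

theorem natCast_val_eq_castHom {n m : ℕ} [NeZero n] (h : m ∣ n) (R : Type*) [Ring R] [CharP R m]
    (x : ZMod n) : ((x.val : ℕ) : R) = ZMod.castHom h R x := by
  rw [ZMod.natCast_val, ZMod.castHom_apply]

/-- the reduction of `ℤ/N r` to a field of characteristic `r` is faithful on the `r`-part -/
theorem eq_one_of_cast_eq_one {u : (ZMod (N * r))ˣ} (hu : IsRPart N r u)
    (h1 : (((u : ZMod (N * r)).val : ℕ) : k) = 1) : u = 1 := by
  have hx : (u : ZMod (N * r)) - 1 = 0 := by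
    refine crt_eq_zero hc.out (k := k) ?_ ?_
    · rw [natCast_val_eq_castHom (Dvd.intro r rfl : N ∣ N * r) (ZMod N), map_sub, map_one,
        ← natCast_val_eq_castHom]
      unfold IsRPart at hu
      rw [hu, sub_self]
    · rw [natCast_val_eq_castHom (Dvd.intro_left N rfl : r ∣ N * r) k, map_sub, map_one,
        ← natCast_val_eq_castHom, h1, sub_self]
  exact Units.ext (sub_eq_zero.mp hx)

theorem cast_one_val : ((((1 : (ZMod (N * r))ˣ) : ZMod (N * r)).val : ℕ) : k) = 1 := by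
  rw [natCast_val_eq_castHom (Dvd.intro_left N rfl : r ∣ N * r) k, Units.val_one, map_one]

/-- the reduction of a generator of the `r`-part has order `r - 1` -/
theorem orderOf_cast (hr : r.Prime) (hrN : ¬ r ∣ N) (d₀ : rPart N r)
    (hgen : ∀ d : rPart N r, d ∈ Subgroup.zpowers d₀) :
    orderOf ((((d₀ : (ZMod (N * r))ˣ) : ZMod (N * r)).val : ℕ) : k) = r - 1 := by
  rw [← orderOf_gen N r hr hrN d₀ hgen]
  refine orderOf_eq_orderOf_iff.2 fun s => ?_
  rw [← cast_pow_val]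
  constructor
  · intro h
    exact eq_one_of_cast_eq_one N r (isRPart_pow (isRPart_coe N r d₀) s) h
  · intro h
    rw [h, cast_one_val]

/-- **the element of order two of the `r`-part acts as `-1` on the `r`-part of `ℤ/N r`** -/
theorem pow_half_mul (hr : r.Prime) (hrN : ¬ r ∣ N) (hr2 : 2 < r) (d₀ : rPart N r)
    (hgen : ∀ d : rPart N r, d ∈ Subgroup.zpowers d₀) {c₀ : ZMod (N * r)} (hc₀ : N ∣ c₀.val)
    (k : Type*) [Field k] [CharP k r] :
    ((((d₀ : (ZMod (N * r))ˣ) ^ ((r - 1) / 2) : (ZMod (N * r))ˣ)) : ZMod (N * r)) * c₀ = -c₀ := by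
  set n := (r - 1) / 2 with hn
  have hodd : r % 2 = 1 := by
    rcases hr.eq_two_or_odd with h | h
    · omega
    · exact h
  have h2n : 2 * n = r - 1 := by omega
  set δ : k := ((((d₀ : (ZMod (N * r))ˣ) : ZMod (N * r)).val : ℕ) : k) with hδ
  have hord : orderOf δ = r - 1 := orderOf_cast N r hr hrN d₀ hgen
  have hδ1 : δ ^ n ≠ 1 := by
    refine pow_ne_one_of_lt_orderOf (by omega) ?_
    rw [hord]
    omega
  have hδ2 : δ ^ n = -1 := by
    have h1 : (δ ^ n - 1) * (δ ^ n + 1) = 0 := by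
      have : δ ^ (2 * n) = 1 := by rw [h2n, ← hord, pow_orderOf_eq_one]
      rw [mul_comm 2 n, pow_mul] at this
      linear_combination this
    rcases mul_eq_zero.mp h1 with h | h
    · exact absurd (sub_eq_zero.mp h) hδ1
    · exact eq_neg_of_add_eq_zero_left h
  set ε : (ZMod (N * r))ˣ := (d₀ : (ZMod (N * r))ˣ) ^ n with hε
  have hεr : IsRPart N r ε := isRPart_pow (isRPart_coe N r d₀) n
  have hx : (ε : ZMod (N * r)) * c₀ + c₀ = 0 := by
    refine crt_eq_zero hc.out (k := k) ?_ ?_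
    · rw [natCast_val_eq_castHom (Dvd.intro r rfl : N ∣ N * r) (ZMod N), map_add, map_mul]
      have : ZMod.castHom (Dvd.intro r rfl : N ∣ N * r) (ZMod N) c₀ = 0 := by
        rw [← natCast_val_eq_castHom]
        exact (ZMod.natCast_eq_zero_iff _ _).mpr hc₀
      rw [this, mul_zero, add_zero]
    · rw [natCast_val_eq_castHom (Dvd.intro_left N rfl : r ∣ N * r) k, map_add, map_mul]
      have : ZMod.castHom (Dvd.intro_left N rfl : r ∣ N * r) k (ε : ZMod (N * r)) = -1 := by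
        rw [← natCast_val_eq_castHom, hε, cast_pow_val, ← hδ, hδ2]
      rw [this]
      ring
  exact eq_neg_of_add_eq_zero_left hx

end Group

/-! ### the Kummer generator of `F_H / E''` -/

section Main

open IsLocalRing

variable (N r : ℕ) [NeZero N] [NeZero r] [hc : Fact (r.Coprime N)]

attribute [local instance] towerAlgebra
attribute [local instance] isScalarTower_tower

/-- the primitive `r`-th root of unity behind the Fricke datum does not die on the `r`-part -/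
theorem zeta_pow_ne_one (hr2 : 2 ≤ r) (D : WDatum N r) (ι : Kb →+* ℂ) {ζ0 : Kb}
    (hζ : ι ζ0 = ee ((D.m : ℂ) / (r : ℂ))) : ζ0 ^ ((N : ZMod (N * r))).val ≠ 1 := by
  have hval : ((N : ZMod (N * r))).val = N := by
    rw [ZMod.val_natCast]
    refine Nat.mod_eq_of_lt ?_
    have := NeZero.pos N
    nlinarith
  rw [hval]
  intro h1
  have h2 : ee ((D.m : ℂ) / (r : ℂ)) ^ N = 1 := by
    rw [← hζ, ← map_pow, h1, map_one]
  rw [← ee_nat_mul, ee_eq_one_iff] at h2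
  obtain ⟨n, hn⟩ := h2
  have hr0 : (r : ℂ) ≠ 0 := Nat.cast_ne_zero.mpr (NeZero.ne r)
  have h3 : ((N : ℤ) * D.m : ℤ) = (r : ℤ) * n := by
    have : ((N : ℂ) * (D.m : ℂ)) = (r : ℂ) * (n : ℂ) := by
      field_simp at hn
      exact hn
    exact_mod_cast this
  have h4 : (r : ℤ) * (D.d0 - n) = 1 := by
    have := D.h
    linear_combination this + h3
  have h5 : (r : ℤ) ∣ 1 := Dvd.intro _ h4
  have h6 : (r : ℤ) ≤ 1 := Int.le_of_dvd one_pos h5
  omega

/-- **IG-X: THE KUMMER GENERATOR OF `F_H / E''` WITH ITS INTEGRAL `q`-EXPANSION.**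
`r ≥ 5` prime, `r ∤ N`, `H` a subgroup of the `r`-part of index `m ∣ (r-1)/2` (i.e. of even order),
`A` a valuation subring of `ℚ̄` over `r`, `d₀` a generator of the `r`-part.  There are a primitive
`m`-th root of unity `ζ` and `z ∈ F_H`, `z ≠ 0`, with `⟨d₀⟩ z = ζ z`, whose `q`-expansion has
coefficients in `A` and reduces to `c₀ · ν^h`, `ν = (E₄E₆/Δ)(q^N)`, `h = (r-1)/(2m) = |H|/2`,
`c₀ ≠ 0`. -/
theorem exists_kummer_gen (hr : r.Prime) (hrN : ¬ r ∣ N) (hr5 : 5 ≤ r)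
    (H : Subgroup (ZMod (N * r))ˣ) (hH : H ≤ rPart N r)
    (hm : indexH N r H ∣ (r - 1) / 2)
    (A : ValuationSubring Kb) (hA : A.LiesOverPrime r)
    (d₀ : rPart N r) (hgen : ∀ d : rPart N r, d ∈ Subgroup.zpowers d₀) :
    ∃ (ζ : Kb) (z : ↥(FH N r H)) (Z : LaurentSeries ↥A) (c0 : ResidueField ↥A),
      IsPrimitiveRoot ζ (indexH N r H) ∧ z ≠ 0 ∧
      restrictFH N r H d₀ z = algebraMap Kb ↥(FH N r H) ζ * z ∧
      (((z : ↥(FH N r H)) : ↥(F1Bar (N * r))) : LaurentSeries Kb) = coeffMap A.subtype Z ∧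
      coeffMap (residue ↥A) Z = HahnSeries.C c0 *
        qExpand (ResidueField ↥A) N (wNorm (ResidueField ↥A)) ^ ((r - 1) / 2 / indexH N r H) ∧
      c0 ≠ 0 := by
  have : Fact r.Prime := ⟨hr⟩
  have : CharP (ResidueField ↥A) r := Fermat.Agent.S18.ResidueBasics.charP_residueField A hA
  set k := ResidueField ↥A with hk
  set m := indexH N r H with hmdef
  set n := (r - 1) / 2 with hn
  have hodd : r % 2 = 1 := by
    rcases hr.eq_two_or_odd with h | h
    · omega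
    · exact h
  have h2n : 2 * n = r - 1 := by omega
  have hnpos : 0 < n := by omega
  obtain ⟨h, hh⟩ := hm
  have hmpos : 0 < m := Nat.pos_of_ne_zero (by rintro h0; rw [h0, zero_mul] at hh; omega)
  have hhpos : 0 < h := Nat.pos_of_ne_zero (by rintro h0; rw [h0, mul_zero] at hh; omega)
  have hdiv : n / m = h := by rw [hh, Nat.mul_div_cancel_left _ hmpos]
  -- the Fricke datum
  obtain ⟨D⟩ := exists_wDatum (hc.out.symm : N.Coprime r)
  set ι := Fermat.Agent.S48.B.ES.Descent.iotaC with hι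
  obtain ⟨ζ0, hζ⟩ := exists_preimage_root ι (NeZero.ne r) (ee ((D.m : ℂ) / (r : ℂ)))
    (ee_div_pow D.m (NeZero.ne r))
  have hζr : ζ0 ^ r = 1 := by
    apply ι.injective
    rw [map_pow, hζ, ee_div_pow D.m (NeZero.ne r), map_one]
  set c₀ : ZMod (N * r) := (N : ZMod (N * r)) with hc₀def
  have hne₀ : ζ0 ^ c₀.val ≠ 1 := zeta_pow_ne_one N r (by omega) D ι hζ
  have hc₀ : N ∣ c₀.val := by
    have hval : ((N : ZMod (N * r))).val = N := by
      rw [ZMod.val_natCast]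
      refine Nat.mod_eq_of_lt ?_
      have := NeZero.pos N
      nlinarith
    rw [hc₀def, hval]
  -- the generator and its reduction
  set d : (ZMod (N * r))ˣ := (d₀ : (ZMod (N * r))ˣ) with hd
  have hdR : IsRPart N r d := isRPart_coe N r d₀
  have hε : ((d ^ n : (ZMod (N * r))ˣ) : ZMod (N * r)) * c₀ = -c₀ :=
    pow_half_mul N r hr hrN (by omega) d₀ hgen hc₀ k
  set δ : k := (((d : ZMod (N * r)).val : ℕ) : k) with hδ
  have hord : orderOf δ = r - 1 := orderOf_cast N r hr hrN d₀ hgen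
  have hδ0 : δ ≠ 0 := by
    intro h0
    have := pow_orderOf_eq_one δ
    rw [hord, h0, zero_pow (by omega)] at this
    exact zero_ne_one this
  have hρ : IsPrimitiveRoot (δ ^ (2 * h)) m := by
    have h1 : IsPrimitiveRoot δ (r - 1) := hord ▸ IsPrimitiveRoot.orderOf δ
    have h2 : 2 * h ∣ r - 1 := ⟨m, by rw [← h2n, hh]; ring⟩
    have h3 := h1.pow_of_dvd (by omega) h2
    have h4 : (r - 1) / (2 * h) = m := by
      rw [← h2n, hh]
      rw [show 2 * (m * h) = m * (2 * h) by ring, Nat.mul_div_cancel _ (by omega)]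
    rwa [h4] at h3
  have hmk : (m : k) ≠ 0 := by
    rw [Ne, CharP.cast_eq_zero_iff k r]
    intro hdvd
    have h1 : m ≤ n := by rw [hh]; exact Nat.le_mul_of_pos_right m hhpos
    have := Nat.le_of_dvd hmpos hdvd
    omega
  have h12 : (12 : k) ≠ 0 := by
    have : ((12 : ℕ) : k) ≠ 0 := by
      rw [Ne, CharP.cast_eq_zero_iff k r]
      intro hdvd
      have h4 : r ∣ 4 * 3 := hdvd
      rcases (hr.dvd_mul).mp h4 with h | h
      · have h22 : r ∣ 2 * 2 := h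
        rcases (hr.dvd_mul).mp h22 with h | h <;>
        · have := Nat.le_of_dvd (by norm_num) h
          omega
      · have := Nat.le_of_dvd (by norm_num) h
        omega
    exact_mod_cast this
  -- the Teichmüller lift
  have : NeZero (m : ℚ) := ⟨Nat.cast_ne_zero.mpr hmpos.ne'⟩
  obtain ⟨ζ₁, hζ₁⟩ := HasEnoughRootsOfUnity.exists_primitiveRoot Kb m
  obtain ⟨ζ, hζA, hζp, hπζ⟩ := exists_teich A (residue ↥A) hmpos hmk hζ₁ hρ
  set η : Kb := ζ ^ (m - 1) with hη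
  have hηζ : ζ * η = 1 := by
    rw [hη, ← pow_succ', Nat.sub_add_cancel hmpos, hζp.pow_eq_one]
  have hηm : η ^ m = 1 := by
    rw [hη, ← pow_mul, mul_comm, pow_mul, hζp.pow_eq_one, one_pow]
  have hηA : η ∈ A := pow_mem hζA _
  have hπη : residue ↥A ⟨η, hηA⟩ * δ ^ (2 * h) = 1 := by
    rw [← hπζ, ← map_mul]
    have : (⟨η, hηA⟩ : ↥A) * ⟨ζ, hζA⟩ = 1 := Subtype.ext (by
      show η * ζ = 1
      rw [mul_comm, hηζ])
    rw [this, map_one]
  -- the resolvent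
  set zE : ↥(F1Bar (N * r)) := zR D ι ζ0 c₀ d m h η with hzE
  have hmem : zE ∈ FH N r H := by
    rw [mem_FH_iff N r H hH]
    intro e he
    obtain ⟨t, rfl⟩ := exists_pow_of_mem N r hr hrN H hH d₀ hgen he
    exact diamond_pow_zR D ι ζ0 c₀ d m h hdR hε hh.symm hhpos η t
  obtain ⟨Z, hZ1, hZ2⟩ := exists_model_zR D ι ζ0 c₀ d m h A (residue ↥A) hζr hζ hc₀ hne₀ hηA hπη
  have hc0 : (m : k) * cH δ m h ≠ 0 := mul_ne_zero hmk (cH_ne_zero hδ0 h12 m h)
  refine ⟨ζ, ⟨zE, hmem⟩, Z, (m : k) * cH δ m h, hζp, ?_, ?_, hZ1, ?_, hc0⟩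
  · intro h0
    have h1 : zE = 0 := congrArg Subtype.val h0
    have h2 : coeffMap A.subtype Z = 0 := by
      rw [← hZ1, ← hzE, h1]
      rfl
    have h3 : Z = 0 := by
      have hinj : Function.Injective (coeffMap A.subtype) := by
        intro x y hxy
        ext i
        exact congrArg (fun s => HahnSeries.coeff s i) hxy
      exact hinj (by rw [h2, map_zero])
    rw [h3, map_zero] at hZ2
    have hν : qExpand k N (wNorm k) ≠ 0 := by
      intro h0
      exact Fermat.Agent.S48.B.B1.TateX.wNorm_ne_zero k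
        (qExpand_injective (R := k) N (by rw [h0, map_zero]))
    exact mul_ne_zero (by
      intro hC
      exact hc0 (HahnSeries.C_injective (by rw [hC, map_zero]))) (pow_ne_zero _ hν) hZ2.symm
  · apply Subtype.ext
    rw [coe_restrictFH]
    show diamondAut (N * r) Kb d zE = algebraMap Kb ↥(F1Bar (N * r)) ζ * zE
    have h1 := diamond_zR D ι ζ0 c₀ d m h hdR hε hh.symm hhpos hmpos hηm
    rw [← hzE] at h1
    calc diamondAut (N * r) Kb d zE
        = algebraMap Kb ↥(F1Bar (N * r)) (ζ * η) * diamondAut (N * r) Kb d zE := by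
          rw [hηζ, map_one, one_mul]
      _ = algebraMap Kb ↥(F1Bar (N * r)) ζ * zE := by
          rw [map_mul, mul_assoc, h1]
  · rw [hZ2, hdiv]

/-- **IG-X, packaged with helper3's cyclic cover `exists_sigmaH`**: the generator `d₀`, its
diamond `σ` on `F_H` (`σ^m = 1`, fixed field `E''`), the Kummer generator `z` (`σ z = ζ z`,
`z^m = θ ∈ E''`) and the integral models of `z` and `θ`. -/
theorem exists_kummerH_gen (hr : r.Prime) (hrN : ¬ r ∣ N) (hN : 5 ≤ N) (hr5 : 5 ≤ r)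
    (H : Subgroup (ZMod (N * r))ˣ) (hH : H ≤ rPart N r)
    (hm : indexH N r H ∣ (r - 1) / 2)
    (A : ValuationSubring Kb) (hA : A.LiesOverPrime r) :
    ∃ d₀ : rPart N r, orderOf d₀ = r - 1 ∧ (∀ d : rPart N r, d ∈ Subgroup.zpowers d₀) ∧
      (∀ x : ↥(FH N r H), (restrictFH N r H d₀ ^ indexH N r H) x = x) ∧
      (∀ x : ↥(FH N r H), restrictFH N r H d₀ x = x →
        ∃ x0 : ↥(F1pBar N r), algebraMap ↥(F1pBar N r) ↥(FH N r H) x0 = x) ∧
      ∃ (ζ : Kb) (z : ↥(FH N r H)) (θ : ↥(F1pBar N r)) (Z : LaurentSeries ↥A)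
        (c0 : ResidueField ↥A),
        IsPrimitiveRoot ζ (indexH N r H) ∧ z ≠ 0 ∧
        restrictFH N r H d₀ z = algebraMap Kb ↥(FH N r H) ζ * z ∧
        algebraMap ↥(F1pBar N r) ↥(FH N r H) θ = z ^ indexH N r H ∧
        (((z : ↥(FH N r H)) : ↥(F1Bar (N * r))) : LaurentSeries Kb) = coeffMap A.subtype Z ∧
        ((θ : ↥(F1pBar N r)) : LaurentSeries Kb) = coeffMap A.subtype (Z ^ indexH N r H) ∧
        coeffMap (residue ↥A) Z = HahnSeries.C c0 *
          qExpand (ResidueField ↥A) N (wNorm (ResidueField ↥A)) ^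
            ((r - 1) / 2 / indexH N r H) ∧
        c0 ≠ 0 := by
  obtain ⟨d₀, hord, hgen, hpow, hfix⟩ := exists_sigmaH N r H hr hrN hN (by omega)
  obtain ⟨ζ, z, Z, c0, hζ, hz0, hσz, hZ1, hZ2, hc0⟩ :=
    exists_kummer_gen N r hr hrN hr5 H hH hm A hA d₀ hgen
  have hσm : restrictFH N r H d₀ (z ^ indexH N r H) = z ^ indexH N r H := by
    rw [map_pow, hσz, mul_pow, ← map_pow, hζ.pow_eq_one, map_one, one_mul]
  obtain ⟨θ, hθ⟩ := hfix _ hσm
  refine ⟨d₀, hord, hgen, hpow, hfix, ζ, z, θ, Z, c0, hζ, hz0, hσz, hθ, hZ1, ?_, hZ2, hc0⟩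
  have h1 : ((algebraMap ↥(F1pBar N r) ↥(F1Bar (N * r)) θ : ↥(F1Bar (N * r))) :
      LaurentSeries Kb) = (θ : LaurentSeries Kb) := TowerAlg.coe_algebraMap N r θ
  have h2 : algebraMap ↥(F1pBar N r) ↥(F1Bar (N * r)) θ =
      ((z ^ indexH N r H : ↥(FH N r H)) : ↥(F1Bar (N * r))) := by
    rw [← hθ]
    rfl
  rw [← h1, h2, map_pow, ← hZ1]
  rfl

end Main

end Fermat.Agent.S43.LG1.Ig.Gen

end
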