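/-
PROJECT R (row 37 by S43), gate `LG1Hyp`, brick IG-X, second file (helper16; helper17's additions
#6436 (1) (i) (ii) to the shape of `Ig/Gen`): **THE KUMMER GENERATOR IN THE GAUSS RINGS.**

The Kummer generator `z` of `F_H / E''` of `Ig/Gen.exists_kummerH_gen` lies in helper3's Gauss ring
`V/Branch.gaussV (N r) hA` of `E' = ℚ̄(X₁(N r))`, with `redGaussV z = c₀ · ν^h`, and
`θ = z^m ∈ E''` lies in the Gauss ring `V₁` of `C1/GaussPairX1`, with
`red₁ θ = θ₀ = c₀^m · ν^{(r-1)/2}` IN helper17's `NodeOrd` LITERAL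
(`ν = qExpand k N (wNorm k)`, `h = (r-1)/2/m`).  Bridge: helper11's `TestFrob.inOw_of_integral` /
`coe_redw_of_integral` (integral `q`-expansion ⟹ in the Gauss ring, reduction coefficientwise).

* `mem_gaussV_of_integral`, `coe_redGaussV_of_integral` : the bridge at level `M` (any `M`);
* **`exists_kummerH_gaussV`**.
-/
import Mathlib
import Fermat.Agent.S43.LG1.Ig.Gen
import Fermat.Agent.S43.LG1.Ig.TestFrob
import Fermat.Agent.S43.LG1.V.Branch

set_option autoImplicit false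
set_option linter.unusedSectionVars false
set_option synthInstance.maxHeartbeats 400000

noncomputable section

namespace Fermat.Agent.S43.LG1.Ig.GenV

open ModularCurve IntermediateField IsLocalRing
open Fermat.Agent.S48.B.Defs.Model Fermat.Agent.S48.B.ES.DegreeBeta1
open Fermat.Agent.S48.B.Red.GaussG
open Fermat.Agent.S43.LG1.V.Branch
open Fermat.Agent.S43.LG1.C1.GaussPairX1
open Fermat.Agent.S43.LG1.Ig.Tower Fermat.Agent.S43.LG1.Ig.TowerAlg Fermat.Agent.S43.LG1.Ig.TowerH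
open Fermat.Agent.S43.LG1.Ig.Gen Fermat.Agent.S43.LG1.Ig.TestFrob

local notation "Kb" => AlgebraicClosure ℚ

/-! ### the bridge at level `M` -/

section Bridge

variable (M : ℕ) [NeZero M] {ℓ : ℕ} [hℓ : Fact ℓ.Prime] {A : ValuationSubring Kb}

/-- an element of `ℚ̄(X₁(M))` whose `q`-expansion has coefficients in `A` lies in `gaussV M hA` -/
theorem mem_gaussV_of_integral (hA : A.LiesOverPrime ℓ) (f : ↥(F1Bar M)) (X : LaurentSeries ↥A)
    (hf : (f : LaurentSeries Kb) = coeffMap A.subtype X) : f ∈ gaussV M hA :=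
  inOw_of_integral (Fermat.Agent.S43.LG1.V.Sat.hasRepBar M hA) f X hf

/-- its reduction is the coefficientwise reduction -/
theorem coe_redGaussV_of_integral (hA : A.LiesOverPrime ℓ) (f : ↥(F1Bar M)) (X : LaurentSeries ↥A)
    (hf : (f : LaurentSeries Kb) = coeffMap A.subtype X) (hfV : f ∈ gaussV M hA) :
    ((redGaussV M hA ⟨f, hfV⟩ : ↥(F1C M (ResidueField ↥A))) : LaurentSeries (ResidueField ↥A)) =
      coeffMap (residue ↥A) X :=
  coe_redw_of_integral (A := A) (π := residue ↥A) (F₀ := F1 M)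
    (Fk := F1C M (ResidueField ↥A)) ⟨f, hfV⟩ X hf

end Bridge

/-! ### the Kummer generator in the Gauss rings -/

section Main

variable (N r : ℕ) [NeZero N] [NeZero r] [hc : Fact (r.Coprime N)] [hrF : Fact r.Prime]

attribute [local instance] towerAlgebra
attribute [local instance] isScalarTower_tower

/-- **IG-X IN THE GAUSS RINGS**: the cyclic cover `F_H / E''` (helper3's `exists_sigmaH`), its Kummer
generator `z ∈ gaussV (N r) hA ∩ F_H` with `redGaussV z = c₀ ν^h`, and `θ = z^m ∈ V₁` with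
`red₁ θ = c₀^m ν^{(r-1)/2}` (helper17's `θ₀`, in `NodeOrd.isCoprime_ord_theta0`'s literal). -/
theorem exists_kummerH_gaussV (hr : r.Prime) (hrN : ¬ r ∣ N) (hN : 5 ≤ N) (hr5 : 5 ≤ r)
    (H : Subgroup (ZMod (N * r))ˣ) (hH : H ≤ rPart N r)
    (hm : indexH N r H ∣ (r - 1) / 2)
    (A : ValuationSubring Kb) (hA : A.LiesOverPrime r) :
    ∃ d₀ : rPart N r, orderOf d₀ = r - 1 ∧ (∀ d : rPart N r, d ∈ Subgroup.zpowers d₀) ∧
      (∀ x : ↥(FH N r H), (restrictFH N r H d₀ ^ indexH N r H) x = x) ∧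
      (∀ x : ↥(FH N r H), restrictFH N r H d₀ x = x →
        ∃ x0 : ↥(F1pBar N r), algebraMap ↥(F1pBar N r) ↥(FH N r H) x0 = x) ∧
      ∃ (ζ : Kb) (z : ↥(FH N r H)) (θ : ↥(F1pBar N r)) (c0 : ResidueField ↥A)
        (hz : ((z : ↥(FH N r H)) : ↥(F1Bar (N * r))) ∈ gaussV (N * r) hA)
        (hθ : θ ∈ V₁ N A hA),
        IsPrimitiveRoot ζ (indexH N r H) ∧ z ≠ 0 ∧ c0 ≠ 0 ∧
        restrictFH N r H d₀ z = algebraMap Kb ↥(FH N r H) ζ * z ∧
        algebraMap ↥(F1pBar N r) ↥(FH N r H) θ = z ^ indexH N r H ∧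
        ((redGaussV (N * r) hA ⟨((z : ↥(FH N r H)) : ↥(F1Bar (N * r))), hz⟩ :
            ↥(F1C (N * r) (ResidueField ↥A))) : LaurentSeries (ResidueField ↥A)) =
          HahnSeries.C c0 * qExpand (ResidueField ↥A) N (wNorm (ResidueField ↥A)) ^
            ((r - 1) / 2 / indexH N r H) ∧
        ((red₁ hr hA hrN ⟨θ, hθ⟩ : ↥(F1C N (ResidueField ↥A))) :
            LaurentSeries (ResidueField ↥A)) =
          HahnSeries.C (c0 ^ indexH N r H) *
            qExpand (ResidueField ↥A) N (wNorm (ResidueField ↥A)) ^ ((r - 1) / 2) := by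
  obtain ⟨d₀, hord, hgen, hpow, hfix, ζ, z, θ, Z, c0, hζ, hz0, hσz, hθz, hZ1, hZ2, hZ3, hc0⟩ :=
    exists_kummerH_gen N r hr hrN hN hr5 H hH hm A hA
  have hz : ((z : ↥(FH N r H)) : ↥(F1Bar (N * r))) ∈ gaussV (N * r) hA :=
    mem_gaussV_of_integral (N * r) hA _ Z hZ1
  have hθ : θ ∈ V₁ N A hA := mem_V₁_of_integral hA θ _ hZ2
  refine ⟨d₀, hord, hgen, hpow, hfix, ζ, z, θ, c0, hz, hθ, hζ, hz0, hc0, hσz, hθz, ?_, ?_⟩
  · rw [coe_redGaussV_of_integral (N * r) hA _ Z hZ1 hz, hZ3]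
  · rw [coe_red₁_of_integral hr hA hrN θ _ hZ2 hθ, map_pow, hZ3, mul_pow, ← map_pow, ← pow_mul]
    congr 2
    obtain ⟨h, hh⟩ := hm
    have hmpos : 0 < indexH N r H := by
      rcases Nat.eq_zero_or_pos (indexH N r H) with h0 | h0
      · rw [h0, zero_mul] at hh
        have := hr.two_le
        omega
      · exact h0
    rw [hh, Nat.mul_div_cancel_left _ hmpos, mul_comm]

end Main

end Fermat.Agent.S43.LG1.Ig.GenV

end
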