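import Mathlib
import Fermat.Agent.S28.FormalJ
import Fermat.Agent.S28.PrimeCaseForm
import Fermat.Agent.S48.B.Defs.Model
import Fermat.Agent.S48.B.B1.RepAll1

/-!
# PROJECT R (row 37 by S43), gate G2* / LG1Hyp, node IG, brick IG-F (helper17)

**The formal identity `W⁶ Δ = j² (j - 1728)³`**, `W = E₄ E₆ / Δ` (main's `wNorm`), over `ℤ`, over
any commutative ring, and after the substitution `q ↦ q^N`.  It is the step (d) of the proof of
(T): with `ν = W(q^N)` and `θ₀ = const · ν ^ n`, `2 n = r - 1`,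
`θ₀ ^ 12 = const · (j_N² (j_N - 1728)³) ^ (r - 1) · Δ(q^N) ^ (1 - r)`.

* `eisenstein6_eq : eisenstein6 = Rz` ; `wNorm_int : wNorm ℤ = Q R Δ⁻¹` ;
* `wNorm_pow_six : wNorm ℤ ^ 6 * Δ = j ^ 2 * (j - 1728) ^ 3` ;
* `wNorm_pow_six_R`, `wNorm_pow_six_qExpand`, **`wNorm_pow_twelve_mul`** : the forms over any `R`.
-/

set_option autoImplicit false

noncomputable section

namespace Fermat.Agent.S43.LG1.Ig.Formal

open HahnSeries ModularCurve PowerSeries
open Fermat.Agent.S16.WT Fermat.Agent.S28.FormalJ Fermat.Agent.S48.B.Defs.Model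
open scoped ArithmeticFunction.sigma

theorem eisenstein6_eq : eisenstein6 = Rz := by
  ext n
  rw [eisenstein6, coeff_mk, coeff_Rz]
  split_ifs with h
  · rfl
  · rw [ArithmeticFunction.sigma_apply]
    push_cast
    rfl

/-- `W = Q R / Δ` in `ℤ((q))` -/
theorem wNorm_int : wNorm ℤ = QL * RL * DeltaInvL := by
  have hmap : wNum.map (Int.castRingHom ℤ) = wNum := by
    ext n
    simp
  rw [wNorm, hmap, wNum, map_mul, map_mul, eisenstein4_eq, eisenstein6_eq, QL, RL, DeltaInvL]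
  ring

/-- **`W⁶ Δ = j² (j - 1728)³`** in `ℤ((q))` -/
theorem wNorm_pow_six : wNorm ℤ ^ 6 * DeltaL = jZ ^ 2 * (jZ - 1728) ^ 3 := by
  rw [wNorm_int, jZ_sub, jZ_eq]
  have hd := DeltaL_mul_inv
  linear_combination (QL ^ 6 * RL ^ 6 * DeltaInvL ^ 5) * hd

variable (R : Type*) [CommRing R]

/-- **`W⁶ Δ = j² (j - 1728)³`** over any commutative ring -/
theorem wNorm_pow_six_R :
    wNorm R ^ 6 * DeltaR R = jqModC R ^ 2 * (jqModC R - 1728) ^ 3 := by
  have h := congrArg (coeffMap (Int.castRingHom R)) wNorm_pow_six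
  rw [map_mul, map_mul, map_pow, map_pow, map_pow, map_sub, coeffMap_jZ, coeffMap_ofNat,
    Fermat.Agent.S48.B.B1.RepAll1.coeffMap_wNorm] at h
  exact h

/-- `W⁶ = j² (j - 1728)³ Δ⁻¹` -/
theorem wNorm_pow_six_eq :
    wNorm R ^ 6 = jqModC R ^ 2 * (jqModC R - 1728) ^ 3 * DeltaInvR R := by
  have h := wNorm_pow_six_R R
  have hd := DeltaR_mul_inv R
  linear_combination (DeltaInvR R) * h - (wNorm R ^ 6) * hd

variable (N : ℕ) [NeZero N]

/-- the identity after `q ↦ q^N` -/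
theorem wNorm_pow_six_qExpand :
    qExpand R N (wNorm R) ^ 6 =
      qExpand R N (jqModC R) ^ 2 * (qExpand R N (jqModC R) - 1728) ^ 3 *
        qExpand R N (DeltaInvR R) := by
  have h := congrArg (qExpand R N) (wNorm_pow_six_eq R)
  rw [map_pow, map_mul, map_mul, map_pow, map_pow, map_sub, map_ofNat] at h
  exact h

/-- **`ν ^ (12 n) = (j_N² (j_N - 1728)³) ^ (2 n) · Δ(q^N) ^ (- 2 n)`**, `ν = W(q^N)` -/
theorem wNorm_pow_twelve_mul (n : ℕ) :
    qExpand R N (wNorm R) ^ (12 * n) =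
      (qExpand R N (jqModC R) ^ 2 * (qExpand R N (jqModC R) - 1728) ^ 3) ^ (2 * n) *
        qExpand R N (DeltaInvR R) ^ (2 * n) := by
  rw [show 12 * n = 6 * (2 * n) by ring, pow_mul, wNorm_pow_six_qExpand, mul_pow]

/-- `Δ(q^N) · Δ(q^N)⁻¹ = 1` -/
theorem qExpand_DeltaR_mul_inv : qExpand R N (DeltaR R) * qExpand R N (DeltaInvR R) = 1 := by
  rw [← map_mul, DeltaR_mul_inv, map_one]

end Fermat.Agent.S43.LG1.Ig.Formal

end
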