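import Mathlib
import Fermat.Agent.S34.NodalDefs

/-!
# PROJECT R (row 37 by S43), gate G2* / LG1Hyp, node IG, brick IG-T (helper17)

**The thickness of a node, abstractly.**  Two branches `B₁ B₂` (Gauss valuation rings of one field
`FL` with their reductions), one node `(b₁, b₂)`, and the gluing clause `GlueAt` of the nodal
reduction AT THAT NODE for functions of `O₁ ∩ O₂` whose poles lie in a set `cuspL` of places of the
generic fibre: this is, word for word, the field `glue0` of main's `S34/PcgCusp.Hyp` at one node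
(`b₁ = Fr a`, `b₂ = a`).

* `pos_ord_of_glue` : a function of `O₁ ∩ O₂` with poles in `cuspL` whose second reduction is `0`
  has a first reduction which vanishes at `b₁`;
* **`ord_bounds`** : for a "thickness unit" `u` (`V₁(u) = 1`, `u = c ^ e · (V₂-unit)` with `c` a
  constant of positive valuation, divisor supported in `cuspL`) and a test function `y`
  (`y ∈ O₁`, `y ∈ c · O₂`, poles in `cuspL`, `ord_{b₁} (red₁ y) = 1`):
  `1 ≤ ord_{b₁} (red₁ u) ≤ e`;
* `eq_twelve`, **`isCoprime_ord`** : the arithmetic: `12 a = D + 2 n ε`, `6 ∣ ε`, `1 ≤ D ≤ 12`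
  give `D = 12`, `a = 1 + n (ε / 6)`, hence `a` is prime to every divisor `m` of `n`.
-/

set_option autoImplicit false

namespace Fermat.Agent.S43.LG1.Ig.Thick

open AlgebraicCurve Fermat.Agent.S34.NodalDefs

variable {L : Type*} [Field L] {k : Type*} [Field k]
variable {A : ValuationSubring L} {π : A →+* k} {FL : Type*} [Field FL] [Algebra L FL]
  {F1 : Type*} [Field F1] [Algebra k F1] {F2 : Type*} [Field F2] [Algebra k F2]

/-- **The gluing clause at one node** `(b₁, b₂)`, for the functions of `O₁ ∩ O₂` all of whose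
poles lie in `cuspL` (= `S34/PcgCusp.Hyp.glue0` at one node). -/
def GlueAt (B1 : Branch A π FL F1) (B2 : Branch A π FL F2) (cuspL : Set (Place L FL))
    (b1 : Place k F1) (b2 : Place k F2) : Prop :=
  ∀ (h1 : B1.O) (h2 : B2.O), ((h1 : B1.O) : FL) = ((h2 : B2.O) : FL) →
    (∀ P : Place L FL, P.ord ((h1 : B1.O) : FL) < 0 → P ∈ cuspL) →
    ∃ γ : k, HasValue b1 (B1.red h1) γ ∧ HasValue b2 (B2.red h2) γ

/-- the zero function only takes the value `0` -/
theorem eq_zero_of_hasValue_zero {Fk : Type*} [Field Fk] [Algebra k Fk] (Q : Place k Fk) {γ : k}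
    (h : HasValue Q (0 : Fk) γ) : γ = 0 := by
  rcases h with h | h
  · exact (map_eq_zero (algebraMap k Fk)).mp h.symm
  · rw [zero_sub, ← map_neg, Fermat.Agent.S24.Ord.ord_algebraMap] at h
    exact absurd h (lt_irrefl _)

/-- a nonzero function with the value `0` at `Q` vanishes at `Q` -/
theorem pos_ord_of_hasValue_zero {Fk : Type*} [Field Fk] [Algebra k Fk] (Q : Place k Fk) {φ : Fk}
    (hφ : φ ≠ 0) (h : HasValue Q φ 0) : 0 < Q.ord φ := by
  rcases h with h | h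
  · rw [map_zero] at h
    exact absurd h hφ
  · rwa [map_zero, sub_zero] at h

/-- a constant of `A`, in the Gauss ring of a branch -/
def cst (B : Branch A π FL F1) (a : A) : B.O := ⟨algebraMap L FL (a : L), B.algebraMap_mem a⟩

theorem coe_cst (B : Branch A π FL F1) (a : A) :
    ((cst B a : B.O) : FL) = algebraMap L FL (a : L) := rfl

theorem red_cst (B : Branch A π FL F1) (a : A) : B.red (cst B a) = algebraMap k F1 (π a) :=
  B.red_algebraMap a

/-- **Gluing against `0`.**  A function of `O₁ ∩ O₂`, poles in `cuspL`, second reduction `0`, first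
reduction `≠ 0`: the first reduction vanishes at the node. -/
theorem pos_ord_of_glue {B1 : Branch A π FL F1} {B2 : Branch A π FL F2}
    {cuspL : Set (Place L FL)} {b1 : Place k F1} {b2 : Place k F2}
    (hGL : GlueAt B1 B2 cuspL b1 b2) (h1 : B1.O) (h2 : B2.O)
    (h12 : ((h1 : B1.O) : FL) = ((h2 : B2.O) : FL))
    (hpole : ∀ P : Place L FL, P.ord ((h1 : B1.O) : FL) < 0 → P ∈ cuspL)
    (hred2 : B2.red h2 = 0) (hred1 : B1.red h1 ≠ 0) : 0 < b1.ord (B1.red h1) := by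
  obtain ⟨γ, hγ1, hγ2⟩ := hGL h1 h2 h12 hpole
  rw [hred2] at hγ2
  have hγ : γ = 0 := eq_zero_of_hasValue_zero b2 hγ2
  subst hγ
  exact pos_ord_of_hasValue_zero b1 hred1 hγ1

section Bounds

variable {B1 : Branch A π FL F1} {B2 : Branch A π FL F2} {cuspL : Set (Place L FL)}
  {b1 : Place k F1} {b2 : Place k F2}

theorem red_unit_ne_zero (B : Branch A π FL F1) (u : B.Oˣ) : B.red (u : B.O) ≠ 0 := by
  intro h
  exact (B.red_eq_zero_iff _).mp h u.isUnit

/-- **The lower bound**: the reduction of the thickness unit vanishes at the node. -/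
theorem one_le_ord (hGL : GlueAt B1 B2 cuspL b1 b2) (c : A) (hπc : π c = 0) {e : ℕ} (he : 0 < e)
    (u1 : B1.Oˣ) (u2 : B2.Oˣ)
    (hu : (((u1 : B1.Oˣ) : B1.O) : FL) =
      algebraMap L FL (c : L) ^ e * (((u2 : B2.Oˣ) : B2.O) : FL))
    (hucusp : ∀ P : Place L FL, P.ord (((u1 : B1.Oˣ) : B1.O) : FL) ≠ 0 → P ∈ cuspL) :
    1 ≤ b1.ord (B1.red (u1 : B1.O)) := by
  have h := pos_ord_of_glue hGL (u1 : B1.O) (cst B2 c ^ e * (u2 : B2.O))
    (by rw [hu]; rfl) (fun P hP => hucusp P hP.ne) ?_ (red_unit_ne_zero B1 u1)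
  · omega
  · rw [map_mul, map_pow, red_cst, hπc, map_zero, zero_pow he.ne', zero_mul]

/-- **The upper bound**: a test function with a simple zero at the node bounds the thickness. -/
theorem ord_le (hGL : GlueAt B1 B2 cuspL b1 b2) (c : A) (hc0 : (c : L) ≠ 0) (hπc : π c = 0)
    {e : ℕ} (u1 : B1.Oˣ) (u2 : B2.Oˣ)
    (hu : (((u1 : B1.Oˣ) : B1.O) : FL) =
      algebraMap L FL (c : L) ^ e * (((u2 : B2.Oˣ) : B2.O) : FL))
    (hucusp : ∀ P : Place L FL, P.ord (((u1 : B1.Oˣ) : B1.O) : FL) ≠ 0 → P ∈ cuspL)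
    (y1 : B1.O) (y2 : B2.O)
    (hy : ((y1 : B1.O) : FL) = algebraMap L FL (c : L) * ((y2 : B2.O) : FL))
    (hycusp : ∀ P : Place L FL, P.ord ((y1 : B1.O) : FL) < 0 → P ∈ cuspL)
    (hyb : b1.ord (B1.red y1) = 1) (hD : 0 ≤ b1.ord (B1.red (u1 : B1.O))) :
    b1.ord (B1.red (u1 : B1.O)) ≤ e := by
  by_contra hlt
  rw [not_le] at hlt
  obtain ⟨D, hDeq⟩ := Int.eq_ofNat_of_zero_le hD
  have heD : e < D := by
    rw [hDeq] at hlt
    exact_mod_cast hlt
  -- the reduction of `y` is not zero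
  have hy0 : B1.red y1 ≠ 0 := by
    intro h0
    rw [h0, Place.ord_zero] at hyb
    exact zero_ne_one hyb
  have hu0 : B1.red (u1 : B1.O) ≠ 0 := red_unit_ne_zero B1 u1
  have hcL : algebraMap L FL (c : L) ≠ 0 := (map_ne_zero (algebraMap L FL)).mpr hc0
  have hu2ne : (((u2 : B2.Oˣ) : B2.O) : FL) ≠ 0 := by
    intro h
    exact u2.ne_zero (Subtype.ext h)
  have hu1ne : (((u1 : B1.Oˣ) : B1.O) : FL) ≠ 0 := by
    intro h
    exact u1.ne_zero (Subtype.ext h)
  -- the function `f = y ^ D / u`, on both sides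
  set f1 : B1.O := y1 ^ D * ((u1⁻¹ : B1.Oˣ) : B1.O) with hf1
  set f2 : B2.O := cst B2 c ^ (D - e) * (y2 ^ D * ((u2⁻¹ : B2.Oˣ) : B2.O)) with hf2
  have hinv1 : (((u1⁻¹ : B1.Oˣ) : B1.O) : FL) = ((((u1 : B1.Oˣ) : B1.O) : FL))⁻¹ := by
    have h : ((u1 : B1.O) * ((u1⁻¹ : B1.Oˣ) : B1.O) : B1.O) = 1 := by
      rw [← Units.val_mul, mul_inv_cancel, Units.val_one]
    have h' := congrArg (fun x : B1.O => (x : FL)) h
    simp only [MulMemClass.coe_mul, OneMemClass.coe_one] at h'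
    exact eq_inv_of_mul_eq_one_right h'
  have hinv2 : (((u2⁻¹ : B2.Oˣ) : B2.O) : FL) = ((((u2 : B2.Oˣ) : B2.O) : FL))⁻¹ := by
    have h : ((u2 : B2.O) * ((u2⁻¹ : B2.Oˣ) : B2.O) : B2.O) = 1 := by
      rw [← Units.val_mul, mul_inv_cancel, Units.val_one]
    have h' := congrArg (fun x : B2.O => (x : FL)) h
    simp only [MulMemClass.coe_mul, OneMemClass.coe_one] at h'
    exact eq_inv_of_mul_eq_one_right h'
  have hf1c : ((f1 : B1.O) : FL) =
      ((y1 : B1.O) : FL) ^ D * ((((u1 : B1.Oˣ) : B1.O) : FL))⁻¹ := by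
    rw [hf1, MulMemClass.coe_mul, SubmonoidClass.coe_pow, hinv1]
  have h12 : ((f1 : B1.O) : FL) = ((f2 : B2.O) : FL) := by
    rw [hf1c, hf2, MulMemClass.coe_mul, MulMemClass.coe_mul, SubmonoidClass.coe_pow,
      SubmonoidClass.coe_pow, hinv2, coe_cst, hy, hu, mul_pow]
    have hsplit : algebraMap L FL (c : L) ^ D =
        algebraMap L FL (c : L) ^ (D - e) * algebraMap L FL (c : L) ^ e := by
      rw [← pow_add, Nat.sub_add_cancel heD.le]
    rw [hsplit, mul_inv]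
    field_simp
  -- poles of `f`
  have hpole : ∀ P : Place L FL, P.ord ((f1 : B1.O) : FL) < 0 → P ∈ cuspL := by
    intro P hP
    by_contra hPc
    have h1 : P.ord (((u1 : B1.Oˣ) : B1.O) : FL) = 0 := by
      by_contra h
      exact hPc (hucusp P h)
    have h2 : 0 ≤ P.ord ((y1 : B1.O) : FL) := by
      by_contra h
      exact hPc (hycusp P (not_le.mp h))
    rw [hf1c] at hP
    rcases eq_or_ne ((y1 : B1.O) : FL) 0 with hy1 | hy1
    · have hDne : D ≠ 0 := by omega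
      rw [hy1, zero_pow hDne, zero_mul, Place.ord_zero] at hP
      exact lt_irrefl _ hP
    · rw [P.ord_mul (pow_ne_zero _ hy1) (inv_ne_zero hu1ne), P.ord_inv, h1,
        ← zpow_natCast, P.ord_zpow] at hP
      have : 0 ≤ (D : ℤ) * P.ord ((y1 : B1.O) : FL) := mul_nonneg (Int.natCast_nonneg _) h2
      omega
  -- reductions
  have hred2 : B2.red f2 = 0 := by
    rw [hf2, map_mul, map_pow, red_cst, hπc, map_zero, zero_pow (by omega), zero_mul]
  have hredinv : B1.red ((u1⁻¹ : B1.Oˣ) : B1.O) = (B1.red (u1 : B1.O))⁻¹ := by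
    have h : B1.red (u1 : B1.O) * B1.red ((u1⁻¹ : B1.Oˣ) : B1.O) = 1 := by
      rw [← map_mul, ← Units.val_mul, mul_inv_cancel, Units.val_one, map_one]
    exact eq_inv_of_mul_eq_one_right h
  have hred1 : B1.red f1 = B1.red y1 ^ D * (B1.red (u1 : B1.O))⁻¹ := by
    rw [hf1, map_mul, map_pow, hredinv]
  have hred1ne : B1.red f1 ≠ 0 := by
    rw [hred1]
    exact mul_ne_zero (pow_ne_zero _ hy0) (inv_ne_zero hu0)
  have hpos := pos_ord_of_glue hGL f1 f2 h12 hpole hred2 hred1ne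
  rw [hred1, b1.ord_mul (pow_ne_zero _ hy0) (inv_ne_zero hu0), b1.ord_inv, ← zpow_natCast,
    b1.ord_zpow, hyb, hDeq] at hpos
  omega

/-- **The thickness of the node is between `1` and `e`.** -/
theorem ord_bounds (hGL : GlueAt B1 B2 cuspL b1 b2) (c : A) (hc0 : (c : L) ≠ 0) (hπc : π c = 0)
    {e : ℕ} (he : 0 < e) (u1 : B1.Oˣ) (u2 : B2.Oˣ)
    (hu : (((u1 : B1.Oˣ) : B1.O) : FL) =
      algebraMap L FL (c : L) ^ e * (((u2 : B2.Oˣ) : B2.O) : FL))
    (hucusp : ∀ P : Place L FL, P.ord (((u1 : B1.Oˣ) : B1.O) : FL) ≠ 0 → P ∈ cuspL)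
    (y1 : B1.O) (y2 : B2.O)
    (hy : ((y1 : B1.O) : FL) = algebraMap L FL (c : L) * ((y2 : B2.O) : FL))
    (hycusp : ∀ P : Place L FL, P.ord ((y1 : B1.O) : FL) < 0 → P ∈ cuspL)
    (hyb : b1.ord (B1.red y1) = 1) :
    1 ≤ b1.ord (B1.red (u1 : B1.O)) ∧ b1.ord (B1.red (u1 : B1.O)) ≤ e := by
  have h1 := one_le_ord hGL c hπc he u1 u2 hu hucusp
  exact ⟨h1, ord_le hGL c hc0 hπc u1 u2 hu hucusp y1 y2 hy hycusp hyb (by omega)⟩

end Bounds

/-! ### The arithmetic -/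

/-- `12 a = D + 2 n ε`, `6 ∣ ε`, `1 ≤ D ≤ 12` force `D = 12` and `a = 1 + n (ε / 6)` -/
theorem eq_twelve {D a ε n : ℤ} (h : 12 * a = D + 2 * n * ε) (h6 : 6 ∣ ε) (h1 : 1 ≤ D)
    (h12 : D ≤ 12) : D = 12 ∧ a = 1 + n * (ε / 6) := by
  obtain ⟨t, rfl⟩ := h6
  have hdiv : (6 * t) / 6 = t := by
    rw [mul_comm]
    exact Int.mul_ediv_cancel t (by norm_num)
  rw [hdiv]
  have hD : (12 : ℤ) ∣ D := ⟨a - n * t, by linarith⟩
  obtain ⟨s, rfl⟩ := hD
  have hs : s = 1 := by omega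
  subst hs
  refine ⟨by ring, ?_⟩
  linarith

/-- **(T)**: the order of `θ₀` at a node is prime to every divisor `m` of `n`. -/
theorem isCoprime_ord {D a ε n : ℤ} (h : 12 * a = D + 2 * n * ε) (h6 : 6 ∣ ε) (h1 : 1 ≤ D)
    (h12 : D ≤ 12) {m : ℤ} (hm : m ∣ n) : IsCoprime a m := by
  obtain ⟨-, ha⟩ := eq_twelve h h6 h1 h12
  obtain ⟨s, rfl⟩ := hm
  exact ⟨1, -(s * (ε / 6)), by rw [ha]; ring⟩

/-- at a node where `ε = 0` (`j ∉ {0, 1728}`) : `a = 1` -/
theorem ord_eq_one {D a n : ℤ} (h : 12 * a = D + 2 * n * 0) (h1 : 1 ≤ D) (h12 : D ≤ 12) :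
    a = 1 := by
  obtain ⟨-, ha⟩ := eq_twelve h (dvd_zero 6) h1 h12
  simpa using ha

end Fermat.Agent.S43.LG1.Ig.Thick
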