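import Mathlib
import Fermat.Agent.S43.LG1.Ig.Thick
import Fermat.Agent.S43.LG1.Ig.Formal

/-!
# PROJECT R (row 37 by S43), gate G2* / LG1Hyp, node IG: the statement (T) at one node (helper17)

`κ` a field of Laurent series over `k` (in the instance `κ = F1C N k`, `k` the residue field of
`A ∣ r`), `b` a place of `κ` (a node of the first component), and three elements of `κ`:

* `θ₀` with `q`-series `c₀ · ν ^ n`, `ν = (E₄ E₆ / Δ)(q^N)` (the `m`-th power of the reduction of the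
  Kummer generator `Z_H`; `2 n = r - 1`);
* `jS = j(q^N)`;
* `uS = Δ(q^N) ^ (-2 n)` (the reduction of the thickness unit `Δ(N z) / Δ(N r z)` of IG-U).

Then `θ₀ ^ 12 = c₀ ^ 12 · (jS² (jS - 1728)³) ^ (2 n) · uS` (`Formal.wNorm_pow_twelve_mul`), so
`12 ord_b θ₀ = ord_b uS + 2 n (2 ord_b jS + 3 ord_b (jS - 1728))`, and with the bounds
`1 ≤ ord_b uS ≤ 12` of `Thick.ord_bounds` and `6 ∣ 2 ord_b jS + 3 ord_b (jS - 1728)` (IG-E):
**`ord_b θ₀` is prime to every divisor `m` of `n`** — the hypothesis of `Ig/KummerUnique`.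
-/

set_option autoImplicit false

noncomputable section

namespace Fermat.Agent.S43.LG1.Ig.NodeOrd

open AlgebraicCurve ModularCurve
open Fermat.Agent.S28.FormalJ Fermat.Agent.S48.B.Defs.Model Fermat.Agent.S43.LG1.Ig

/-! ### orders in an identity `θ ^ 12 = c · (x² y³) ^ (2 n) · u` -/

section Abstract

variable {k : Type*} [Field k] {κ : Type*} [Field κ] [Algebra k κ]

theorem twelve_mul_ord (b : Place k κ) {θ x y u : κ} {c : k} {n : ℕ} (hc : c ≠ 0)
    (hx : x ≠ 0) (hy : y ≠ 0) (hu : u ≠ 0)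
    (hid : θ ^ 12 = algebraMap k κ c * (x ^ 2 * y ^ 3) ^ (2 * n) * u) :
    12 * b.ord θ = b.ord u + 2 * (n : ℤ) * (2 * b.ord x + 3 * b.ord y) := by
  have hcκ : algebraMap k κ c ≠ 0 := (map_ne_zero (algebraMap k κ)).mpr hc
  have hxy : x ^ 2 * y ^ 3 ≠ 0 := mul_ne_zero (pow_ne_zero _ hx) (pow_ne_zero _ hy)
  have h := congrArg b.ord hid
  rw [Fermat.Agent.S18.CoreOrd.ord_pow,
    b.ord_mul (mul_ne_zero hcκ (pow_ne_zero _ hxy)) hu,
    b.ord_mul hcκ (pow_ne_zero _ hxy), Fermat.Agent.S24.Ord.ord_algebraMap,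
    Fermat.Agent.S18.CoreOrd.ord_pow, b.ord_mul (pow_ne_zero _ hx) (pow_ne_zero _ hy),
    Fermat.Agent.S18.CoreOrd.ord_pow, Fermat.Agent.S18.CoreOrd.ord_pow] at h
  push_cast at h
  linarith

/-- **(T), abstract form.** -/
theorem isCoprime_ord_of_identity (b : Place k κ) {θ x y u : κ} {c : k} {n : ℕ} (hc : c ≠ 0)
    (hx : x ≠ 0) (hy : y ≠ 0) (hu : u ≠ 0)
    (hid : θ ^ 12 = algebraMap k κ c * (x ^ 2 * y ^ 3) ^ (2 * n) * u)
    (hD1 : 1 ≤ b.ord u) (hD12 : b.ord u ≤ 12) (h6 : (6 : ℤ) ∣ 2 * b.ord x + 3 * b.ord y)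
    {m : ℕ} (hm : m ∣ n) : IsCoprime (b.ord θ) (m : ℤ) :=
  Thick.isCoprime_ord (twelve_mul_ord b hc hx hy hu hid) h6 hD1 hD12
    (Int.natCast_dvd_natCast.mpr hm)

end Abstract

/-! ### the identity in a field of Laurent series -/

section Series

variable {k : Type*} [Field k] {Fk : IntermediateField k (LaurentSeries k)} (N : ℕ) [NeZero N]

theorem coe_algebraMap (c : k) :
    ((algebraMap k Fk c : Fk) : LaurentSeries k) = HahnSeries.C c := by
  have h : ((algebraMap k Fk c : Fk) : LaurentSeries k) = algebraMap k (LaurentSeries k) c :=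
    (IsScalarTower.algebraMap_apply k Fk (LaurentSeries k) c).symm
  rw [h, algebraMap_laurentSeries_eq_single]
  rfl

/-- **`θ₀ ^ 12 = c₀ ^ 12 · (jS² (jS - 1728)³) ^ (2 n) · uS`** -/
theorem theta_pow_twelve (n : ℕ) (c₀ : k) (θ₀ jS uS : Fk)
    (hθ : (θ₀ : LaurentSeries k) = HahnSeries.C c₀ * qExpand k N (wNorm k) ^ n)
    (hj : (jS : LaurentSeries k) = qExpand k N (jqModC k))
    (hu : (uS : LaurentSeries k) = qExpand k N (DeltaInvR k) ^ (2 * n)) :
    θ₀ ^ 12 = algebraMap k Fk (c₀ ^ 12) * (jS ^ 2 * (jS - 1728) ^ 3) ^ (2 * n) * uS := by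
  apply Subtype.ext
  have h1728 : (((1728 : Fk)) : LaurentSeries k) = 1728 := rfl
  have e : ((θ₀ ^ 12 : Fk) : LaurentSeries k) = (θ₀ : LaurentSeries k) ^ 12 := rfl
  have e' : ((algebraMap k Fk (c₀ ^ 12) * (jS ^ 2 * (jS - 1728) ^ 3) ^ (2 * n) * uS : Fk) :
      LaurentSeries k) = HahnSeries.C (c₀ ^ 12) *
        ((jS : LaurentSeries k) ^ 2 * ((jS : LaurentSeries k) - 1728) ^ 3) ^ (2 * n) *
        (uS : LaurentSeries k) := by
    rw [← coe_algebraMap (Fk := Fk)]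
    rfl
  rw [e, e', hθ, hj, hu, mul_pow, ← pow_mul, mul_comm n 12, Formal.wNorm_pow_twelve_mul,
    map_pow]
  ring

theorem jS_ne_zero (jS : Fk) (hj : (jS : LaurentSeries k) = qExpand k N (jqModC k)) :
    jS ≠ 0 := by
  intro h
  have h0 : qExpand k N (jqModC k) = 0 := by rw [← hj, h]; rfl
  have h1 := (qExpand_injective (R := k) N) (h0.trans (map_zero _).symm)
  exact jqModC_ne_zero_of_nontrivial (R := k) h1

theorem jS_sub_ne_zero (jS : Fk) (hj : (jS : LaurentSeries k) = qExpand k N (jqModC k)) :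
    jS - 1728 ≠ 0 := by
  intro h
  have h0 : (jS : LaurentSeries k) = 1728 := by
    have h1 : jS = 1728 := sub_eq_zero.mp h
    rw [h1]
    rfl
  rw [hj] at h0
  have h2 := congrArg (fun f : LaurentSeries k => f.coeff ((N : ℤ) * (-1))) h0
  simp only [qExpand_coeff_mul] at h2
  have hN : ((N : ℤ) * (-1)) ≠ 0 := by
    have := NeZero.ne N
    omega
  rw [coeff_jqModC_neg_one, ← map_ofNat (HahnSeries.C (Γ := ℤ) (R := k)) 1728,
    HahnSeries.C_apply, HahnSeries.coeff_single_of_ne hN] at h2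
  exact one_ne_zero h2

theorem uS_ne_zero (n : ℕ) (uS : Fk)
    (hu : (uS : LaurentSeries k) = qExpand k N (DeltaInvR k) ^ (2 * n)) : uS ≠ 0 := by
  intro h
  have h0 : qExpand k N (DeltaInvR k) ^ (2 * n) = 0 := by rw [← hu, h]; rfl
  have h1 : qExpand k N (DeltaInvR k) = 0 := pow_eq_zero_iff (M₀ := LaurentSeries k) (by
    rintro h2
    rw [h2, pow_zero] at h0
    exact one_ne_zero h0) |>.mp h0
  have h2 := Formal.qExpand_DeltaR_mul_inv k N
  rw [h1, mul_zero] at h2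
  exact zero_ne_one h2

/-- **(T) at one node**, on the `q`-series of `θ₀`, `jS`, `uS`. -/
theorem isCoprime_ord_theta0 (b : Place k Fk) (n : ℕ) {c₀ : k} (hc₀ : c₀ ≠ 0) (θ₀ jS uS : Fk)
    (hθ : (θ₀ : LaurentSeries k) = HahnSeries.C c₀ * qExpand k N (wNorm k) ^ n)
    (hj : (jS : LaurentSeries k) = qExpand k N (jqModC k))
    (hu : (uS : LaurentSeries k) = qExpand k N (DeltaInvR k) ^ (2 * n))
    (hD1 : 1 ≤ b.ord uS) (hD12 : b.ord uS ≤ 12)
    (h6 : (6 : ℤ) ∣ 2 * b.ord jS + 3 * b.ord (jS - 1728)) {m : ℕ} (hm : m ∣ n) :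
    IsCoprime (b.ord θ₀) (m : ℤ) :=
  isCoprime_ord_of_identity b (pow_ne_zero 12 hc₀) (jS_ne_zero N jS hj) (jS_sub_ne_zero N jS hj)
    (uS_ne_zero N n uS hu) (theta_pow_twelve N n c₀ θ₀ jS uS hθ hj hu) hD1 hD12 h6 hm

end Series

end Fermat.Agent.S43.LG1.Ig.NodeOrd

end
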