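/-
PROJECT R (S43), gate (G), block IG (helper17's design IG v2), brick IG-U (helper26): **THE MODULAR
UNIT `u = Δ(q^N) / Δ(q^(N r))` IN `E'' = ℚ̄(X₁(N; r))` AT THE TWO GAUSS VALUATIONS** (step (a) of
(T)).  Transport of main's `S44/Eis/UnitVal` (level `X₀(N r)`) along the inclusion
`ℚ̄(X₀(N r)) ⊆ ℚ̄(X₁(N; r))` (both are subfields of `ℚ̄((q))`), on helper16's concrete pair
`GaussPairX1.{V₁, V₂, red₁, red₂}` and helper13's `C1/Seam.{W1, delta1}`.

* `full_le_F1p`, `inclF`, `inclX0`, `inclX0_alpha`, `inclX0_beta` : the inclusions;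
* `delta1_inclF` : the diamond `⟨r⁻¹⟩^*` fixes `ℚ̄(X₀(N))`;
* **`W1_inclX0`** : `W (ι x) = ι (w_r x)`: the Atkin-Lehner automorphism `W` of `E''` restricts to
  main's involution `w_r` of `ℚ̄(X₀(N r))`;
* `exists_isUnit_of_intZ` : an element of `E''` with a `ℤ`-integral `q`-expansion of nonzero
  reduction is a unit of `V₁`, with the coefficientwise reduction;
* `exists_isUnit_uBar_V₁`, `uBar_mem_V₁`, `valuation_V₁_uBar` : the units `Δ(q)/Δ(q^d)`, `d ∣ N r`;
* `unitX0`, `wq_unitX0_div`; **`unitU N hr`**, `coe_unitU`, `unitU_ne_zero`,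
  **`W1_unitU : W u = r^12 u⁻¹`**, `unitU_mem_V₁`, **`valuation_V₁_unitU : V₁(u) = 1`**,
  **`valuation_V₂_unitU : V₂(u) = V₂(r)^12`**, `valuation_V₂_unitU_lt_one`, `unitU_mem_V₂`,
  **`red₂_unitU : red₂ u = 0`**;
* **`exists_isUnit_unitU_V₁_delta`** : `red₁ u = Δ̄(q^N) Δ̄⁻¹(q^(N r))`,
  **`exists_isUnit_unitU_V₁_pow`** : `red₁ u = (Δ̄⁻¹(q^N))^(r-1)` (`DeltaR`, `DeltaInvR` of main's
  `S28/FormalJ`; `qExpand_coeffMap_int` : Frobenius on series with prime field coefficients);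
* `isIntegral_inclX0`; **`ord_unitU_eq_zero`**, `ord_unitU_eq_zero_of_ord_nonneg`,
  `ord_jgen_neg_of_ord_unitU_ne_zero` : `u` and `u⁻¹` have cuspidal divisor (main's
  `S15/G/UnitDiv.ord_uBar_of_jgen_mem` through `Place.restrictAlong`).
-/
import Mathlib
import Fermat.Agent.S44.Eis.UnitVal
import Fermat.Agent.S15.G.UnitDiv
import Fermat.Agent.S34.WqGalois
import Fermat.Agent.S48.B.Hecke.Wire
import Fermat.Agent.S43.LG1.C1.GaussPairX1
import Fermat.Agent.S43.LG1.C1.DiamondRed1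

set_option autoImplicit false
set_option linter.unusedSectionVars false
set_option linter.style.haveILetI false
set_option synthInstance.maxHeartbeats 400000

noncomputable section

namespace Fermat.Agent.S43.LG1.Ig.Unit

open ModularCurve AlgebraicCurve IsLocalRing HahnSeries IntermediateField
open Fermat.Agent.S48.B.Defs.Model Fermat.Agent.S48.B.B1.Seams
open Fermat.Agent.S48.B.ES.DegreeBeta1
open Fermat.Agent.S48.B.Red.GaussG Fermat.Agent.S48.B.Red.DatumG
open Fermat.Agent.S48.B.Igusa.Saturate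
open Fermat.Agent.S24.DegreeAlg
open Fermat.Agent.S34.ModularUnit
open Fermat.Agent.S43.LG1.C1.Seam Fermat.Agent.S43.LG1.C1.GaussPairX1

local notation "Kb" => AlgebraicClosure ℚ

/-! ### the inclusions `ℚ̄(X₀(N)) ⊆ ℚ̄(X₁(N))` and `ℚ̄(X₀(N r)) ⊆ ℚ̄(X₁(N; r))` -/

section Incl

variable {N r : ℕ} [NeZero N] [NeZero r]

/-- `ℚ(X₀(N r)) ⊆ ℚ(X₁(N; r))` inside `ℚ((q))` -/
theorem full_le_F1p (hr : r.Prime) : modularFunctionFieldFull (N * r) ≤ F1p N r := by
  unfold modularFunctionFieldFull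
  rw [IntermediateField.adjoin_le_iff]
  rintro _ ⟨d, hd0, hd, rfl⟩
  rcases Fermat.Agent.S34.AtkinLehner.dvd_mul_prime_cases hr hd with h | ⟨d', hd', rfl⟩
  · exact F1_le_F1p N r (jqd_mem_F1 N h)
  · haveI : NeZero d' := ⟨fun h0 => by
      subst h0
      exact NeZero.ne N (Nat.eq_zero_of_zero_dvd hd')⟩
    rw [← qExpand_qExpand]
    exact qExpand_mem_F1p N r (jqd_mem_F1 N hd')

variable (N) in
/-- the inclusion `ℚ̄(X₀(N)) → ℚ̄(X₁(N))` -/
def inclF : ↥(modularFunctionFieldBar N) →ₐ[Kb] ↥(F1Bar N) :=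
  IntermediateField.inclusion (laurentBaseChange_mono Kb (full_le_F1 N))

@[simp] theorem coe_inclF (x : ↥(modularFunctionFieldBar N)) :
    ((inclF N x : ↥(F1Bar N)) : LaurentSeries Kb) = (x : LaurentSeries Kb) :=
  IntermediateField.coe_inclusion _ x

/-- the inclusion `ℚ̄(X₀(N r)) → ℚ̄(X₁(N; r))` -/
def inclX0 (hr : r.Prime) : ↥(modularFunctionFieldBar (N * r)) →ₐ[Kb] ↥(F1pBar N r) :=
  IntermediateField.inclusion (laurentBaseChange_mono Kb (full_le_F1p hr))

@[simp] theorem coe_inclX0 (hr : r.Prime) (x : ↥(modularFunctionFieldBar (N * r))) :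
    ((inclX0 hr x : ↥(F1pBar N r)) : LaurentSeries Kb) = (x : LaurentSeries Kb) :=
  IntermediateField.coe_inclusion _ x

theorem inclX0_injective (hr : r.Prime) : Function.Injective (inclX0 (N := N) hr) :=
  IntermediateField.inclusion_injective _

theorem inclX0_alpha (hr : r.Prime) (g : ↥(modularFunctionFieldBar N)) :
    inclX0 hr (heckeAlphaBar Kb N r g) = alpha1 N r Kb (inclF N g) := by
  apply Subtype.ext
  rw [coe_inclX0, coe_heckeAlphaBar, coe_alpha1, coe_inclF]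

theorem inclX0_beta (hr : r.Prime) (g : ↥(modularFunctionFieldBar N)) :
    inclX0 hr (heckeBetaBar Kb N r g) = beta1 N r Kb (inclF N g) := by
  apply Subtype.ext
  rw [coe_inclX0, coe_heckeBetaBar, coe_beta1, coe_inclF]

end Incl

/-! ### the diamond fixes `ℚ̄(X₀(N))`; `W` restricts to the Atkin-Lehner involution `w_r` -/

section AtkinLehner

variable {N r : ℕ} [NeZero N] [NeZero r] (hr : r.Prime) (hrN : ¬ r ∣ N)

/-- the diamond automorphism `⟨r⁻¹⟩^*` fixes `ℚ̄(X₀(N))` -/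
theorem delta1_inclF (g : ↥(modularFunctionFieldBar N)) :
    delta1 N r hr hrN (inclF N g) = inclF N g := by
  have hδ := (isDiamondAut_delta1 hr hrN).1
  let φ : ↥(modularFunctionFieldBar N) →+* ↥(F1Bar N) :=
    ((delta1 N r hr hrN : ↥(F1Bar N) ≃ₐ[Kb] ↥(F1Bar N)) : ↥(F1Bar N) →+* ↥(F1Bar N)).comp
      (inclF N : ↥(modularFunctionFieldBar N) →+* ↥(F1Bar N))
  let ψ : ↥(modularFunctionFieldBar N) →+* ↥(F1Bar N) :=
    (inclF N : ↥(modularFunctionFieldBar N) →+* ↥(F1Bar N))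
  have hc : ∀ c : Kb, φ (algebraMap Kb ↥(modularFunctionFieldBar N) c) =
      ψ (algebraMap Kb ↥(modularFunctionFieldBar N) c) := by
    intro c
    show delta1 N r hr hrN (inclF N (algebraMap Kb _ c)) = inclF N (algebraMap Kb _ c)
    rw [AlgHom.commutes, AlgEquiv.commutes]
  let L : IntermediateField Kb ↥(modularFunctionFieldBar N) :=
    Subfield.toIntermediateField (RingHom.eqLocusField φ ψ) hc
  have htop : (⊤ : IntermediateField Kb ↥(modularFunctionFieldBar N)) ≤ L := by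
    rw [← adjoin_range_jdivF_eq_top N, adjoin_le_iff]
    rintro _ ⟨d, rfl⟩
    show delta1 N r hr hrN (inclF N (jdivF N d)) = inclF N (jdivF N d)
    haveI : NeZero d.1 := neZero_of_dvd d.2
    exact hδ d.1 inferInstance d.2 (inclF N (jdivF N d)) (by rw [coe_inclF]; rfl)
  exact htop (IntermediateField.mem_top (x := g))

variable [hrF : Fact r.Prime]

/-- **`W` restricted to `ℚ̄(X₀(N r))` is the Atkin-Lehner involution `w_r`** -/
theorem W1_inclX0 (x : ↥(modularFunctionFieldBar (N * r))) :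
    W1 N r hr hrN (inclX0 hr x) =
      inclX0 hr (Fermat.Agent.S34.GaussPairX0.wq (q := r) (M := N) hrN x) := by
  have h := Fermat.Agent.S34.WqGalois.ringHom_ext_alpha_beta (N := N) (ℓ := r) hr
    ((W1Hom N r hr hrN).comp (inclX0 (N := N) hr).toRingHom)
    ((inclX0 (N := N) hr).toRingHom.comp
      ((Fermat.Agent.S34.GaussPairX0.wq (q := r) (M := N) hrN).toRingEquiv.toRingHom))
    (fun c => by
      show W1 N r hr hrN (inclX0 hr (algebraMap Kb _ c)) =
        inclX0 hr (Fermat.Agent.S34.GaussPairX0.wq (q := r) (M := N) hrN (algebraMap Kb _ c))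
      rw [AlgHom.commutes, AlgEquiv.commutes, AlgEquiv.commutes, AlgHom.commutes])
    (fun g => by
      show W1 N r hr hrN (inclX0 hr (heckeAlphaBar Kb N r g)) =
        inclX0 hr (Fermat.Agent.S34.GaussPairX0.wq (q := r) (M := N) hrN
          (heckeAlphaBar Kb N r g))
      rw [Fermat.Agent.S34.GaussPairX0.wq_alpha, inclX0_alpha, inclX0_beta, W1_alpha,
        delta1_inclF])
    (fun g => by
      show W1 N r hr hrN (inclX0 hr (heckeBetaBar Kb N r g)) =
        inclX0 hr (Fermat.Agent.S34.GaussPairX0.wq (q := r) (M := N) hrN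
          (heckeBetaBar Kb N r g))
      rw [Fermat.Agent.S34.GaussPairX0.wq_beta, inclX0_alpha, inclX0_beta, W1_beta])
  exact DFunLike.congr_fun h x

end AtkinLehner

/-! ### units of the first Gauss ring from `ℤ`-integral expansions -/

section Units

variable {r : ℕ} [hrF : Fact r.Prime] {N : ℕ} [NeZero N] {A : ValuationSubring Kb}
variable (hr : r.Prime) (hA : A.LiesOverPrime r) (hrN : ¬ r ∣ N) [NeZero r]

/-- **an element of `E''` with a `ℤ`-integral `q`-expansion of nonzero reduction is a unit of the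
Gauss ring `V₁`**, and its reduction is the coefficientwise reduction of the expansion -/
theorem exists_isUnit_of_intZ (f : ↥(F1pBar N r)) {U : LaurentSeries ℤ}
    (hUF : coeffMap (Int.castRingHom ℚ) U ∈ F1p N r)
    (hfU : (f : LaurentSeries Kb) = coeffEmb Kb (coeffMap (Int.castRingHom ℚ) U))
    (hne : coeffMap (Int.castRingHom (ResidueField ↥A)) U ≠ 0) :
    ∃ hf : f ∈ V₁ N A hA, IsUnit (⟨f, hf⟩ : ↥(V₁ N A hA)) ∧
      ((red₁ hr hA hrN ⟨f, hf⟩ : ↥(F1C N (ResidueField ↥A))) :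
          LaurentSeries (ResidueField ↥A)) =
        coeffMap (Int.castRingHom (ResidueField ↥A)) U := by
  set a : ↥(intRing A (residue ↥A) (F1p N r) (F1pC N r (ResidueField ↥A))) :=
    ⟨iR ↥A U, mem_intRing.mpr ⟨by
      rw [coeffMap_subtype_iR]
      exact coeffEmb_mem_laurentBaseChange Kb hUF, by
      rw [coeffMap_pi_iR']
      exact coeffMap_mem_F1pC N r _ hUF⟩⟩ with ha
  have hfa : f = toFL A (residue ↥A) (F1p N r) (F1pC N r (ResidueField ↥A)) a := by
    apply Subtype.ext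
    rw [hfU, coe_toFL, ha, coeffMap_subtype_iR]
  have hmem : f ∈ V₁ N A hA := by
    rw [hfa]
    exact toFL_mem_Ow a
  have hred : ((red₁ hr hA hrN ⟨f, hmem⟩ : ↥(F1C N (ResidueField ↥A))) :
      LaurentSeries (ResidueField ↥A)) = coeffMap (Int.castRingHom (ResidueField ↥A)) U := by
    rw [coe_red₁]
    subst hfa
    rw [rho, redw_toFL, coe_red, ha, coeffMap_pi_iR']
  refine ⟨hmem, ?_, hred⟩
  by_contra hu
  apply hne
  rw [← hred, (red₁_eq_zero_iff hr hA hrN _).mpr hu]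
  rfl

end Units

/-! ### the modular units `Δ(q)/Δ(q^d)`, `d ∣ N r`, are units of `V₁` -/

section UnitsV1

open Fermat.Agent.S44.Eis.UnitVal (exists_unitZ)

variable {r : ℕ} [hrF : Fact r.Prime] {N : ℕ} [NeZero N] {A : ValuationSubring Kb}
variable (hr : r.Prime) (hA : A.LiesOverPrime r) (hrN : ¬ r ∣ N) [NeZero r]

/-- **(a)** every modular unit `Δ(q)/Δ(q^d)`, `d ∣ N r`, is a unit of the Gauss ring `V₁` of `E''`;
its reduction is the coefficientwise reduction of its integral expansion -/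
theorem exists_isUnit_uBar_V₁ {d : ℕ} [NeZero d] (hd : d ∣ N * r) {U : LaurentSeries ℤ}
    (hU : coeffMap (Int.castRingHom ℚ) U = modularUnitSeries d)
    (hU1 : U.coeff (1 - (d : ℤ)) = 1) :
    ∃ hu : inclX0 hr (uBar (N * r) hd) ∈ V₁ N A hA,
      IsUnit (⟨inclX0 hr (uBar (N * r) hd), hu⟩ : ↥(V₁ N A hA)) ∧
      ((red₁ hr hA hrN ⟨inclX0 hr (uBar (N * r) hd), hu⟩ : ↥(F1C N (ResidueField ↥A))) :
          LaurentSeries (ResidueField ↥A)) =
        coeffMap (Int.castRingHom (ResidueField ↥A)) U := by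
  refine exists_isUnit_of_intZ hr hA hrN _ ?_ ?_ ?_
  · rw [hU]
    exact full_le_F1p hr (modularUnitSeries_mem_of_dvd d (N * r) hd)
  · rw [coe_inclX0, coe_uBar, hU]
  · intro h0
    have h1 := congrArg (fun x : LaurentSeries (ResidueField ↥A) => x.coeff (1 - (d : ℤ))) h0
    simp only [coeffMap_coeff, hU1, map_one, HahnSeries.coeff_zero] at h1
    exact one_ne_zero h1

include hrN in
/-- every modular unit `Δ(q)/Δ(q^d)`, `d ∣ N r`, and its inverse lie in `V₁` -/
theorem uBar_mem_V₁ {d : ℕ} [NeZero d] (hd : d ∣ N * r) :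
    inclX0 hr (uBar (N * r) hd) ∈ V₁ N A hA ∧ (inclX0 hr (uBar (N * r) hd))⁻¹ ∈ V₁ N A hA := by
  obtain ⟨U, hU, hU1⟩ := exists_unitZ d
  obtain ⟨hu, hunit, -⟩ := exists_isUnit_uBar_V₁ hr hA hrN hd hU hU1
  have hv1 : (V₁ N A hA).valuation (inclX0 hr (uBar (N * r) hd)) = 1 :=
    (ValuationSubring.valuation_eq_one_iff _ ⟨_, hu⟩).mp hunit
  refine ⟨hu, ?_⟩
  rw [← ValuationSubring.valuation_le_one_iff, map_inv₀, hv1, inv_one]

include hrN in
/-- **(a)** `Δ(q)/Δ(q^d)`, `d ∣ N r`, has valuation `1` at the first Gauss valuation of `E''` -/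
theorem valuation_V₁_uBar {d : ℕ} [NeZero d] (hd : d ∣ N * r) :
    (V₁ N A hA).valuation (inclX0 hr (uBar (N * r) hd)) = 1 := by
  obtain ⟨U, hU, hU1⟩ := exists_unitZ d
  obtain ⟨hu, hunit, -⟩ := exists_isUnit_uBar_V₁ hr hA hrN hd hU hU1
  exact (ValuationSubring.valuation_eq_one_iff _ ⟨_, hu⟩).mp hunit

end UnitsV1

/-! ### the modular unit `u = Δ(q^N)/Δ(q^(N r))` -/

section UnitU

open Fermat.Agent.S44.Eis.UnitVal (exists_unitZ uE uBar_full_eq alpha_uBar wq_uBar_full_div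
  valuation_eq_one_of_mem)
open Fermat.Agent.S34.GaussPairX0 (wq wq_alpha)

variable {r : ℕ} [hrF : Fact r.Prime] {N : ℕ} [NeZero N] {A : ValuationSubring Kb}
variable (hr : r.Prime) (hA : A.LiesOverPrime r) (hrN : ¬ r ∣ N) [NeZero r]

/-- the modular unit `Δ(q^N)/Δ(q^(N r))` in `ℚ̄(X₀(N r))` -/
def unitX0 (N r : ℕ) [NeZero N] [NeZero r] : ↥(modularFunctionFieldBar (N * r)) :=
  uBar (N * r) (dvd_refl (N * r)) / uBar (N * r) (Dvd.intro r rfl)

theorem unitX0_ne_zero : unitX0 N r ≠ 0 :=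
  div_ne_zero (uBar_ne_zero _ _) (uBar_ne_zero _ _)

include hrN in
/-- **(b)** `w_r (u / r^12) = u⁻¹` for `u = Δ(q^N)/Δ(q^(N r))` -/
theorem wq_unitX0_div :
    wq (q := r) (M := N) hrN (unitX0 N r / (r : ↥(modularFunctionFieldBar (N * r))) ^ 12) =
      (unitX0 N r)⁻¹ := by
  have hr0 : (r : ↥(modularFunctionFieldBar (N * r))) ^ 12 ≠ 0 :=
    pow_ne_zero _ (Nat.cast_ne_zero.mpr (NeZero.ne r))
  have h1 := wq_uBar_full_div (q := r) (M := N) hrN
  have h2 := uBar_full_eq (M := N) (q := r)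
  have h3 := alpha_uBar (M := N) (q := r)
  have hE : uE N r ≠ 0 := uBar_ne_zero _ _
  have hU : uBar (N * r) (dvd_refl (N * r)) ≠ 0 := uBar_ne_zero _ _
  have hN : uBar (N * r) (Dvd.intro r rfl : N ∣ N * r) ≠ 0 := uBar_ne_zero _ _
  have hβ : heckeBetaBar Kb N r (uBar N (dvd_refl N)) ≠ 0 := by
    intro h0
    rw [h0, mul_zero] at h2
    exact hU h2
  have e1 : unitX0 N r / (r : ↥(modularFunctionFieldBar (N * r))) ^ 12 =
      (uBar (N * r) (dvd_refl (N * r)) / (r : ↥(modularFunctionFieldBar (N * r))) ^ 12) /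
        heckeAlphaBar Kb N r (uBar N (dvd_refl N)) := by
    rw [h3, unitX0]
    field_simp
  rw [e1, map_div₀, h1, wq_alpha, unitX0, h2]
  field_simp

/-- **the modular unit** `u = Δ(q^N)/Δ(q^(N r))` of `E'' = ℚ̄(X₁(N; r))` -/
def unitU (N : ℕ) [NeZero N] {r : ℕ} [NeZero r] (hr : r.Prime) : ↥(F1pBar N r) :=
  inclX0 hr (unitX0 N r)

theorem unitU_eq : unitU N hr =
    inclX0 hr (uBar (N * r) (dvd_refl (N * r))) / inclX0 hr (uBar (N * r) (Dvd.intro r rfl)) :=
  map_div₀ _ _ _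

theorem unitU_ne_zero : unitU N hr ≠ 0 := fun h =>
  unitX0_ne_zero ((map_eq_zero_iff _ (inclX0_injective hr)).mp h)

/-- the `q`-expansion of `u` is `(Δ(q)/Δ(q^r))(q^N)` -/
theorem coe_unitU : ((unitU N hr : ↥(F1pBar N r)) : LaurentSeries Kb) =
    coeffEmb Kb (qExpand ℚ N (modularUnitSeries r)) := by
  have hne : coeffEmb Kb (modularUnitSeries N) ≠ 0 :=
    (map_ne_zero (coeffEmb Kb)).mpr (ModularCurve.modularUnitSeries_ne_zero N)
  rw [unitU, coe_inclX0, unitX0, IntermediateField.coe_div, coe_uBar, coe_uBar,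
    modularUnitSeries_mul N r, map_mul, mul_div_cancel_left₀ _ hne]

include hrN in
/-- **(b)** `W (u / r^12) = u⁻¹` -/
theorem W1_unitU_div :
    W1 N r hr hrN (unitU N hr / (r : ↥(F1pBar N r)) ^ 12) = (unitU N hr)⁻¹ := by
  have h : unitU N hr / (r : ↥(F1pBar N r)) ^ 12 =
      inclX0 hr (unitX0 N r / (r : ↥(modularFunctionFieldBar (N * r))) ^ 12) := by
    rw [map_div₀, map_pow, map_natCast]
    rfl
  rw [h, W1_inclX0 hr hrN, wq_unitX0_div hrN, map_inv₀]
  rfl

include hrN in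
/-- **(b)** `W u = r^12 / u` -/
theorem W1_unitU :
    W1 N r hr hrN (unitU N hr) = (r : ↥(F1pBar N r)) ^ 12 * (unitU N hr)⁻¹ := by
  have hr0 : (r : ↥(F1pBar N r)) ^ 12 ≠ 0 :=
    pow_ne_zero _ (Nat.cast_ne_zero.mpr (NeZero.ne r))
  have h := W1_unitU_div hr hrN
  rw [map_div₀, map_pow, map_natCast, div_eq_iff hr0] at h
  rw [h, mul_comm]

include hrN in
/-- **(a)** `u` and `u⁻¹` lie in `V₁` -/
theorem unitU_mem_V₁ : unitU N hr ∈ V₁ N A hA ∧ (unitU N hr)⁻¹ ∈ V₁ N A hA := by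
  obtain ⟨h1, h1'⟩ := uBar_mem_V₁ hr hA hrN (dvd_refl (N * r))
  obtain ⟨h2, h2'⟩ := uBar_mem_V₁ hr hA hrN (Dvd.intro r rfl : N ∣ N * r)
  rw [unitU_eq]
  refine ⟨?_, ?_⟩
  · rw [div_eq_mul_inv]
    exact mul_mem h1 h2'
  · rw [inv_div, div_eq_mul_inv]
    exact mul_mem h2 h1'

include hrN in
/-- **(a)** `u` has valuation `1` at the first Gauss valuation of `E''` -/
theorem valuation_V₁_unitU : (V₁ N A hA).valuation (unitU N hr) = 1 :=
  valuation_eq_one_of_mem _ (unitU_ne_zero hr) (unitU_mem_V₁ hr hA hrN).1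
    (unitU_mem_V₁ hr hA hrN).2

/-- **(b)** `u / r^12` is a unit of the second Gauss ring `V₂ = W⁻¹ V₁` -/
theorem valuation_V₂_unitU_div :
    (V₂ hr hA hrN).valuation (unitU N hr / (r : ↥(F1pBar N r)) ^ 12) = 1 := by
  have hr0 : (r : ↥(F1pBar N r)) ^ 12 ≠ 0 :=
    pow_ne_zero _ (Nat.cast_ne_zero.mpr (NeZero.ne r))
  obtain ⟨h1, h1'⟩ := unitU_mem_V₁ hr hA hrN (N := N) (A := A)
  refine valuation_eq_one_of_mem _ (div_ne_zero (unitU_ne_zero hr) hr0) ?_ ?_
  · rw [mem_V₂_iff, W1_unitU_div hr hrN]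
    exact h1'
  · rw [mem_V₂_iff, map_inv₀, W1_unitU_div hr hrN, inv_inv]
    exact h1

/-- **(b)** the second Gauss valuation of `u` is that of `r ^ 12` -/
theorem valuation_V₂_unitU :
    (V₂ hr hA hrN).valuation (unitU N hr) =
      (V₂ hr hA hrN).valuation (r : ↥(F1pBar N r)) ^ 12 := by
  have hr0 : (r : ↥(F1pBar N r)) ^ 12 ≠ 0 :=
    pow_ne_zero _ (Nat.cast_ne_zero.mpr (NeZero.ne r))
  have h := valuation_V₂_unitU_div hr hA hrN (N := N)
  rw [map_div₀, map_pow] at h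
  have hne : (V₂ hr hA hrN).valuation (r : ↥(F1pBar N r)) ^ 12 ≠ 0 := by
    rw [← map_pow]
    exact (Valuation.ne_zero_iff _).mpr hr0
  rw [div_eq_one_iff_eq hne] at h
  exact h

end UnitU

/-! ### `u` is a non-unit of `V₂`; the explicit reduction of `u` at `V₁` -/

section Red

open Fermat.Agent.S44.Eis.UnitVal (exists_unitZ)

variable {r : ℕ} [hrF : Fact r.Prime] {N : ℕ} [NeZero N] {A : ValuationSubring Kb}
variable (hr : r.Prime) (hA : A.LiesOverPrime r) (hrN : ¬ r ∣ N) [NeZero r]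

/-- the prime `r` is a non-unit of `V₂` -/
theorem natCast_mem_nonunits_V₂ : (r : ↥(F1pBar N r)) ∈ (V₂ hr hA hrN).nonunits := by
  have h := red₂_algebraMap hr hA hrN (N := N) ((r : ℕ) : ↥A)
  have h0 : residue ↥A ((r : ℕ) : ↥A) = 0 := by
    rw [map_natCast]
    exact Fermat.Agent.S18.ResidueBasics.residue_natCast_eq_zero A hA
  rw [h0, map_zero] at h
  have h1 := (red₂_eq_zero_iff_mem_nonunits hr hA hrN _).mp h
  have e : algebraMap Kb ↥(F1pBar N r) ((((r : ℕ) : ↥A) : ↥A) : Kb) = (r : ↥(F1pBar N r)) := by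
    rw [show ((((r : ℕ) : ↥A) : ↥A) : Kb) = ((r : ℕ) : Kb) from by push_cast; rfl, map_natCast]
  have h2 : algebraMap Kb ↥(F1pBar N r) ((((r : ℕ) : ↥A) : ↥A) : Kb) ∈ (V₂ hr hA hrN).nonunits := h1
  rwa [e] at h2

/-- the second Gauss valuation of the prime `r` is `< 1` -/
theorem valuation_V₂_natCast_lt_one : (V₂ hr hA hrN).valuation (r : ↥(F1pBar N r)) < 1 :=
  (ValuationSubring.mem_nonunits_iff _).mp (natCast_mem_nonunits_V₂ hr hA hrN)

/-- **(b)** `u` is a non-unit of the second Gauss ring: `V₂(u) = V₂(r)^12 < 1` -/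
theorem valuation_V₂_unitU_lt_one : (V₂ hr hA hrN).valuation (unitU N hr) < 1 := by
  rw [valuation_V₂_unitU hr hA hrN]
  exact pow_lt_one₀ zero_le (valuation_V₂_natCast_lt_one hr hA hrN) (by norm_num)

theorem unitU_mem_nonunits_V₂ : unitU N hr ∈ (V₂ hr hA hrN).nonunits :=
  (ValuationSubring.mem_nonunits_iff _).mpr (valuation_V₂_unitU_lt_one hr hA hrN)

theorem unitU_mem_V₂ : unitU N hr ∈ V₂ hr hA hrN :=
  (ValuationSubring.valuation_le_one_iff _ _).mp (valuation_V₂_unitU_lt_one hr hA hrN).le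

/-- **(b)** `red₂ u = 0` -/
theorem red₂_unitU : red₂ hr hA hrN ⟨unitU N hr, unitU_mem_V₂ hr hA hrN⟩ = 0 :=
  (red₂_eq_zero_iff_mem_nonunits hr hA hrN _).mpr (unitU_mem_nonunits_V₂ hr hA hrN)

/-- **(a)** `u` is a unit of `V₁` and `red₁ u = Ū(q^N)`, `Ū ≠ 0` the coefficientwise reduction of
an integral expansion `U` of `Δ(q)/Δ(q^r)` -/
theorem exists_isUnit_unitU_V₁_of_ne {U : LaurentSeries ℤ}
    (hU : coeffMap (Int.castRingHom ℚ) U = modularUnitSeries r)
    (hne : coeffMap (Int.castRingHom (ResidueField ↥A)) U ≠ 0) :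
    ∃ hu : unitU N hr ∈ V₁ N A hA, IsUnit (⟨unitU N hr, hu⟩ : ↥(V₁ N A hA)) ∧
      ((red₁ hr hA hrN ⟨unitU N hr, hu⟩ : ↥(F1C N (ResidueField ↥A))) :
          LaurentSeries (ResidueField ↥A)) =
        qExpand (ResidueField ↥A) N (coeffMap (Int.castRingHom (ResidueField ↥A)) U) := by
  have hq : coeffMap (Int.castRingHom ℚ) (qExpand ℤ N U) = qExpand ℚ N (modularUnitSeries r) := by
    rw [ModularCurve.coeffMap_qExpand, hU]
  have hmem : qExpand ℚ N (modularUnitSeries r) ∈ F1p N r := by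
    have hne : modularUnitSeries N ≠ 0 := ModularCurve.modularUnitSeries_ne_zero N
    have e : qExpand ℚ N (modularUnitSeries r) =
        modularUnitSeries (N * r) / modularUnitSeries N := by
      rw [modularUnitSeries_mul N r, mul_div_cancel_left₀ _ hne]
    rw [e]
    exact (F1p N r).div_mem
      (full_le_F1p hr (modularUnitSeries_mem_of_dvd (N * r) (N * r) (dvd_refl _)))
      (full_le_F1p hr (modularUnitSeries_mem_of_dvd N (N * r) (Dvd.intro r rfl)))
  obtain ⟨hu, hunit, hred⟩ := exists_isUnit_of_intZ hr hA hrN (unitU N hr) (U := qExpand ℤ N U)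
    (by rw [hq]; exact hmem) (by rw [coe_unitU, hq]) (by
      rw [ModularCurve.coeffMap_qExpand]
      intro h0
      exact hne (qExpand_injective (R := ResidueField ↥A) N (by rw [h0, map_zero])))
  refine ⟨hu, hunit, ?_⟩
  rw [hred, ModularCurve.coeffMap_qExpand]

/-- the same with the normalisation of main's `S44/Eis/UnitVal.exists_unitZ` -/
theorem exists_isUnit_unitU_V₁ {U : LaurentSeries ℤ}
    (hU : coeffMap (Int.castRingHom ℚ) U = modularUnitSeries r)
    (hU1 : U.coeff (1 - (r : ℤ)) = 1) :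
    ∃ hu : unitU N hr ∈ V₁ N A hA, IsUnit (⟨unitU N hr, hu⟩ : ↥(V₁ N A hA)) ∧
      ((red₁ hr hA hrN ⟨unitU N hr, hu⟩ : ↥(F1C N (ResidueField ↥A))) :
          LaurentSeries (ResidueField ↥A)) =
        qExpand (ResidueField ↥A) N (coeffMap (Int.castRingHom (ResidueField ↥A)) U) :=
  exists_isUnit_unitU_V₁_of_ne hr hA hrN hU (by
    intro h0
    have h1 := congrArg (fun x : LaurentSeries (ResidueField ↥A) => x.coeff (1 - (r : ℤ))) h0
    simp only [coeffMap_coeff, hU1, map_one, HahnSeries.coeff_zero] at h1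
    exact one_ne_zero h1)

/-! #### the explicit reduction: `red₁ u = Δ̄(q^N) Δ̄⁻¹(q^(N r)) = Δ̄⁻¹(q^N)^(r-1)` -/

open Fermat.Agent.S28.FormalJ (DeltaL DeltaInvL DeltaR DeltaInvR DeltaL_eq DeltaL_mul_inv
  DeltaR_mul_inv)

/-- the integral expansion `Δ(q) Δ(q^r)⁻¹` of the modular unit `Δ(q)/Δ(q^r)` -/
def unitZ (r : ℕ) [NeZero r] : LaurentSeries ℤ := DeltaL * qExpand ℤ r DeltaInvL

theorem coeffMap_DeltaL : coeffMap (Int.castRingHom ℚ) DeltaL = deltaSeries := by
  rw [DeltaL_eq, map_mul, coeffMap_single, map_one, coeffMap_ofPowerSeries]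
  rfl

theorem coeffMap_unitZ : coeffMap (Int.castRingHom ℚ) (unitZ r) = modularUnitSeries r := by
  have h1 : coeffMap (Int.castRingHom ℚ) DeltaL * coeffMap (Int.castRingHom ℚ) DeltaInvL = 1 := by
    rw [← map_mul, DeltaL_mul_inv, map_one]
  rw [coeffMap_DeltaL] at h1
  have h2 : coeffMap (Int.castRingHom ℚ) DeltaInvL = deltaSeries⁻¹ :=
    eq_inv_of_mul_eq_one_right h1
  rw [unitZ, map_mul, ModularCurve.coeffMap_qExpand, h2, map_inv₀, coeffMap_DeltaL]
  rfl

theorem coeffMap_unitZ_res (k : Type*) [Field k] :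
    coeffMap (Int.castRingHom k) (unitZ r) = DeltaR k * qExpand k r (DeltaInvR k) := by
  rw [unitZ, map_mul, ModularCurve.coeffMap_qExpand]
  rfl

theorem coeffMap_unitZ_res_ne_zero (k : Type*) [Field k] :
    coeffMap (Int.castRingHom k) (unitZ r) ≠ 0 := by
  rw [coeffMap_unitZ_res]
  have h1 : DeltaR k ≠ 0 := left_ne_zero_of_mul_eq_one (DeltaR_mul_inv k)
  have h2 : DeltaInvR k ≠ 0 := right_ne_zero_of_mul_eq_one (DeltaR_mul_inv k)
  exact mul_ne_zero h1 (fun h0 => h2 (qExpand_injective (R := k) r (by rw [h0, map_zero])))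

/-- **(a), explicit:** `u` is a unit of `V₁` and `red₁ u = Δ̄(q^N) · Δ̄⁻¹(q^(N r))` -/
theorem exists_isUnit_unitU_V₁_delta :
    ∃ hu : unitU N hr ∈ V₁ N A hA, IsUnit (⟨unitU N hr, hu⟩ : ↥(V₁ N A hA)) ∧
      ((red₁ hr hA hrN ⟨unitU N hr, hu⟩ : ↥(F1C N (ResidueField ↥A))) :
          LaurentSeries (ResidueField ↥A)) =
        qExpand (ResidueField ↥A) N (DeltaR (ResidueField ↥A)) *
          qExpand (ResidueField ↥A) (N * r) (DeltaInvR (ResidueField ↥A)) := by
  obtain ⟨hu, hunit, hred⟩ := exists_isUnit_unitU_V₁_of_ne hr hA hrN (N := N) (A := A)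
    (coeffMap_unitZ (r := r)) (coeffMap_unitZ_res_ne_zero (r := r) (ResidueField ↥A))
  refine ⟨hu, hunit, ?_⟩
  rw [hred, coeffMap_unitZ_res, map_mul, qExpand_qExpand]

/-- Frobenius on series with coefficients in the prime field: `X̄(q^r) = X̄^r` in characteristic
`r` -/
theorem qExpand_coeffMap_int (k : Type*) [Field k] [CharP k r] (X : LaurentSeries ℤ) :
    qExpand k r (coeffMap (Int.castRingHom k) X) = coeffMap (Int.castRingHom k) X ^ r := by
  rw [Fermat.Agent.S37.ES.KummerPoly.pow_char_eq_qExpand r, coeffMap_coeffMap]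
  congr 1
  exact coeffMap_congr (RingHom.ext_int _ _) X

/-- **(a), explicit, in characteristic `r`:** `red₁ u = (Δ̄⁻¹(q^N))^(r-1)` -/
theorem exists_isUnit_unitU_V₁_pow :
    ∃ hu : unitU N hr ∈ V₁ N A hA, IsUnit (⟨unitU N hr, hu⟩ : ↥(V₁ N A hA)) ∧
      ((red₁ hr hA hrN ⟨unitU N hr, hu⟩ : ↥(F1C N (ResidueField ↥A))) :
          LaurentSeries (ResidueField ↥A)) =
        qExpand (ResidueField ↥A) N (DeltaInvR (ResidueField ↥A)) ^ (r - 1) := by
  haveI : CharP (ResidueField ↥A) r := charP_res hA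
  obtain ⟨hu, hunit, hred⟩ := exists_isUnit_unitU_V₁_delta hr hA hrN (N := N) (A := A)
  refine ⟨hu, hunit, ?_⟩
  have hpos : 0 < r := hr.pos
  have h1 : qExpand (ResidueField ↥A) r (DeltaInvR (ResidueField ↥A)) =
      DeltaInvR (ResidueField ↥A) ^ r := qExpand_coeffMap_int (r := r) _ DeltaInvL
  have h2 : DeltaR (ResidueField ↥A) * DeltaInvR (ResidueField ↥A) ^ r =
      DeltaInvR (ResidueField ↥A) ^ (r - 1) := by
    conv_lhs => rw [show r = (r - 1) + 1 by omega, pow_succ, ← mul_assoc, mul_comm,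
      ← mul_assoc, mul_comm (DeltaInvR _), DeltaR_mul_inv, one_mul]
  rw [hred, ← qExpand_qExpand, ← map_mul, h1, h2, map_pow]

end Red

/-! ### `u` and `u⁻¹` have cuspidal divisor -/

section Cuspidal

open Fermat.Agent.S44.Eis.UnitVal (alpha_uBar)
open Fermat.Agent.S48.B.B1.Seams2 (jgen1p)

variable {r : ℕ} {N : ℕ} [NeZero N] [NeZero r] (hr : r.Prime) (hrN : ¬ r ∣ N)

theorem coe_jgen_eq : ((jgen (N * r) : ↥(modularFunctionFieldBar (N * r))) : LaurentSeries Kb) =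
    jqModC Kb := by
  have h := Fermat.Agent.S37.ES.HeckeRho.coe_jdivF (N := N * r) ⟨1, one_dvd _⟩
  rw [qExpand_one_apply] at h
  exact h

/-- `j` of `ℚ̄(X₀(N r))` is `j` of `E''` -/
theorem inclX0_jgen : inclX0 hr (jgen (N * r)) = alpha1 N r Kb (jgen1 N) := by
  apply Subtype.ext
  rw [coe_inclX0, coe_jgen_eq, coe_alpha1, coe_jgen1]

/-- `α j = j` at the levels `N`, `N r` of `X₀` -/
theorem heckeAlphaBar_jgen : heckeAlphaBar Kb N r (jgen N) = jgen (N * r) := by
  apply Subtype.ext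
  rw [coe_heckeAlphaBar, coe_jgen_eq]
  have h := Fermat.Agent.S37.ES.HeckeRho.coe_jdivF (N := N) ⟨1, one_dvd _⟩
  rw [qExpand_one_apply] at h
  exact h

include hrN in
/-- **the inclusion `ℚ̄(X₀(N r)) → E''` is integral** (`E''` is finite over `ℚ̄(j)`) -/
theorem isIntegral_inclX0 : (inclX0 (N := N) hr).toRingHom.IsIntegral := by
  have hFF := Fermat.Agent.S48.B.Hecke.Wire.isFF_jgen1p (M := N) hr hrN
    (Fermat.Agent.S48.B.B1.Main.deg1 N) (Fermat.Agent.S48.B.B1.Main.deg1p N r)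
  haveI := hFF.finite
  have hle : Kb⟮jgen1p N r⟯ ≤ (inclX0 (N := N) hr).fieldRange := by
    rw [IntermediateField.adjoin_le_iff, Set.singleton_subset_iff]
    exact ⟨jgen (N * r), inclX0_jgen hr⟩
  let e := AlgEquiv.ofInjectiveField (inclX0 (N := N) hr)
  let g : ↥Kb⟮jgen1p N r⟯ →+* ↥(modularFunctionFieldBar (N * r)) :=
    (e.symm.toAlgHom.comp (IntermediateField.inclusion hle)).toRingHom
  have hg : ∀ c : ↥Kb⟮jgen1p N r⟯, inclX0 hr (g c) = (c : ↥(F1pBar N r)) := by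
    intro c
    have h1 : e (e.symm (IntermediateField.inclusion hle c)) = IntermediateField.inclusion hle c :=
      e.apply_symm_apply _
    have h2 := congrArg Subtype.val h1
    exact h2
  intro y
  obtain ⟨p, hp, hpy⟩ := (IsIntegral.of_finite Kb⟮jgen1p N r⟯ y : IsIntegral Kb⟮jgen1p N r⟯ y)
  refine ⟨p.map g, hp.map g, ?_⟩
  rw [Polynomial.eval₂_map]
  have hcomp : (inclX0 (N := N) hr).toRingHom.comp g =
      algebraMap ↥Kb⟮jgen1p N r⟯ ↥(F1pBar N r) :=
    RingHom.ext fun c => hg c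
  rw [hcomp]
  exact hpy

theorem mem_restrictAlong_iff {K F F' : Type*} [Field K] [Field F] [Field F'] [Algebra K F]
    [Algebra K F'] (φ : F →ₐ[K] F') (hφ : φ.toRingHom.IsIntegral) (w : Place K F') (f : F) :
    f ∈ (w.restrictAlong φ hφ).toValuationSubring ↔ φ f ∈ w.toValuationSubring := Iff.rfl

include hrN in
/-- **`u = Δ(q^N)/Δ(q^(N r))` is a unit at every place of `E''` at which `j` is regular** (the
divisors of `u` and `u⁻¹` are supported at the cusps) -/
theorem ord_unitU_eq_zero [hrF : Fact r.Prime] (P : Place Kb ↥(F1pBar N r))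
    (hj : alpha1 N r Kb (jgen1 N) ∈ P.toValuationSubring) : P.ord (unitU N hr) = 0 := by
  have hι := isIntegral_inclX0 (N := N) hr hrN
  have hα : (heckeAlphaBar Kb N r).toRingHom.IsIntegral :=
    fun x => Fermat.Agent.S34.TwoGaussX0.isIntegral_FE (q := r) (M := N) hrN x
  have hj₀ : jgen (N * r) ∈ (P.restrictAlong (inclX0 hr) hι).toValuationSubring := by
    rw [mem_restrictAlong_iff, inclX0_jgen]
    exact hj
  have hj₁ : jgen N ∈ ((P.restrictAlong (inclX0 hr) hι).restrictAlong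
      (heckeAlphaBar Kb N r) hα).toValuationSubring := by
    rw [mem_restrictAlong_iff, heckeAlphaBar_jgen]
    exact hj₀
  have h0 : (P.restrictAlong (inclX0 hr) hι).ord (uBar (N * r) (dvd_refl (N * r))) = 0 :=
    Fermat.Agent.S15.G.UnitDiv.ord_uBar_of_jgen_mem (N := N * r) _ hj₀
  have h1 : ((P.restrictAlong (inclX0 hr) hι).restrictAlong
      (heckeAlphaBar Kb N r) hα).ord (uBar N (dvd_refl N)) = 0 :=
    Fermat.Agent.S15.G.UnitDiv.ord_uBar_of_jgen_mem (N := N) _ hj₁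
  have h2 : (P.restrictAlong (inclX0 hr) hι).ord
      (uBar (N * r) (Dvd.intro r rfl : N ∣ N * r)) = 0 := by
    rw [← alpha_uBar, Place.ord_restrictAlong (heckeAlphaBar Kb N r) hα, h1, mul_zero]
  rw [unitU, Place.ord_restrictAlong (inclX0 hr) hι P, unitX0, div_eq_mul_inv,
    Place.ord_mul _ (uBar_ne_zero _ _) (inv_ne_zero (uBar_ne_zero _ _)), Place.ord_inv, h0, h2,
    neg_zero, add_zero, mul_zero]

include hrN in
/-- the same in the `ord` form: `u` has no zero and no pole outside the poles of `j` -/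
theorem ord_unitU_eq_zero_of_ord_nonneg [hrF : Fact r.Prime] (P : Place Kb ↥(F1pBar N r))
    (hj : 0 ≤ P.ord (alpha1 N r Kb (jgen1 N))) : P.ord (unitU N hr) = 0 := by
  refine ord_unitU_eq_zero hr hrN P ?_
  rcases eq_or_ne (alpha1 N r Kb (jgen1 N)) 0 with h0 | h0
  · rw [h0]
    exact P.toValuationSubring.zero_mem
  · exact (Fermat.Agent.S24.Ord.mem_iff P _).mpr ((Fermat.Agent.S24.Ord.ord_nonneg_iff P h0).mp hj)

include hrN in
/-- the poles of `u` and of `u⁻¹` are poles of `j` -/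
theorem ord_jgen_neg_of_ord_unitU_ne_zero [hrF : Fact r.Prime] (P : Place Kb ↥(F1pBar N r))
    (h : P.ord (unitU N hr) ≠ 0) : P.ord (alpha1 N r Kb (jgen1 N)) < 0 := by
  by_contra hcon
  exact h (ord_unitU_eq_zero_of_ord_nonneg hr hrN P (not_lt.mp hcon))

end Cuspidal

end Fermat.Agent.S43.LG1.Ig.Unit
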