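/-
PROJECT R (row 37 by S43), gate G2* / LG1Hyp, node IG, brick (M1) of helper17's G-FINAL (helper26):
**THE STATEMENT (T) AT BOTH PLACES OF A NODE OF `X₁(N; r)` MOD `r`.**

`E'' = ℚ̄(X₁(N; r))`, `B₁ = Generic/BranchX1.B1X1` (`O = V₁`, `red = red₁`), `B₂ = B2X1 = W⁻¹ B₁`,
`κ = κ(A)`, `Fk = F1C N κ`.  A node is a pair `(b₁, b₂)` of places of `Fk` (first / second
component) with the gluing clause `Thick.GlueAt B₁ B₂ cuspL b₁ b₂` for the functions of `V₁ ∩ V₂`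
with poles in `cuspL ⊇ {poles of j}` (`= PcgCuspTw.Hyp2.glue0` at one node).

* `TestAt hr hA hrN b` : the test function at `b`, LITERALLY the conclusion of helper11's
  `Ig/TestFrob.exists_test` (helper25's `Ig/Test` produces its inputs);
* `uS = red₁ (Δ(q^N)/Δ(q^(N r))) = Δ̄⁻¹(q^N)^(r-1)` (`Ig/Unit`);
* **`ord_uS_bounds_one`** : `1 ≤ ord_{b₁} uS ≤ 12` (thickness unit `u`, `u = r^12 · (V₂-unit)`);
* **`ord_uS_bounds_two`** : `1 ≤ ord_{b₂} uS ≤ 12` (the SWAPPED gluing clause, thickness unit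
  `W⁻¹ u = r^12 · u⁻¹`, test function `W⁻¹ y`, `red₂ (W⁻¹ x) = red₁ x`; `W ∘ W` preserves `V₁`:
  helper18's `W1SqX1`; `W` permutes the poles of `j`: `EulerX1.ord_jr_neg_iff`);
* **`isCoprime_ord_one`, `isCoprime_ord_two`** : `ord_b θ₀` is prime to every divisor `m` of
  `n = (r-1)/2` (`NodeOrd.isCoprime_ord_theta0`), `h6` a hypothesis in `NodeOrd`'s literal;
* **`isCoprime_ord_nodes`** : for `X : Inputs1` with `X.B₁ = B1X1`, `Y : NodesC1 X`, `a ∈ Y.S`: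
  `IsCoprime ((Fr2X1 a).ord θ₀) m ∧ IsCoprime (a.ord θ₀) m`.
-/
import Mathlib
import Fermat.Agent.S43.LG1.Ig.Unit
import Fermat.Agent.S43.LG1.Ig.NodeOrd
import Fermat.Agent.S43.LG1.C1.W1SqX1
import Fermat.Agent.S43.LG1.C1.EulerX1
import Fermat.Agent.S43.LG1.C1.Generic.BranchX1
import Fermat.Agent.S43.LG1.C1.CoreZX1Build

set_option autoImplicit false
set_option linter.unusedSectionVars false
set_option linter.style.haveILetI false
set_option synthInstance.maxHeartbeats 400000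

noncomputable section

namespace Fermat.Agent.S43.LG1.Ig.NodeT

open ModularCurve AlgebraicCurve IsLocalRing
open Fermat.Agent.S34.NodalDefs
open Fermat.Agent.S28.FormalJ
open Fermat.Agent.S48.B.Defs.Model Fermat.Agent.S48.B.B1.Seams
open Fermat.Agent.S48.B.ES.DegreeBeta1
open Fermat.Agent.S43.LG1.C1.Seam Fermat.Agent.S43.LG1.C1.GaussPairX1
open Fermat.Agent.S43.LG1.C1.CuspRegularX1 (jE1)
open Fermat.Agent.S43.LG1.C1.Generic.BranchX1
open Fermat.Agent.S43.LG1.Ig.Thick Fermat.Agent.S43.LG1.Ig.Unit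

local notation "Kb" => AlgebraicClosure ℚ

/-! ### generic: the bounds from a test function which is a uniformiser only IF it vanishes -/

section Generic

variable {L : Type*} [Field L] {k : Type*} [Field k]
variable {A : ValuationSubring L} {π : A →+* k} {FL : Type*} [Field FL] [Algebra L FL]
  {F1 : Type*} [Field F1] [Algebra k F1] {F2 : Type*} [Field F2] [Algebra k F2]
variable {B1 : Branch A π FL F1} {B2 : Branch A π FL F2} {cuspL : Set (Place L FL)}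
  {b1 : Place k F1} {b2 : Place k F2}

/-- the gluing clause at one node is symmetric -/
theorem GlueAt.symm (h : GlueAt B1 B2 cuspL b1 b2) : GlueAt B2 B1 cuspL b2 b1 := by
  intro h2 h1 h21 hp
  obtain ⟨γ, hγ1, hγ2⟩ := h h1 h2 h21.symm (fun P hP => hp P (by rw [h21]; exact hP))
  exact ⟨γ, hγ2, hγ1⟩

/-- `Thick.ord_bounds` with the test function in the form delivered by `Ig/TestFrob.exists_test`:
its reduction is not `0`, and it is a uniformiser at the node AS SOON AS it vanishes there (the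
vanishing is `Thick.pos_ord_of_glue`). -/
theorem ord_bounds_of_test (hGL : GlueAt B1 B2 cuspL b1 b2) (c : A) (hc0 : (c : L) ≠ 0)
    (hπc : π c = 0) {e : ℕ} (he : 0 < e) (u1 : B1.Oˣ) (u2 : B2.Oˣ)
    (hu : (((u1 : B1.Oˣ) : B1.O) : FL) =
      algebraMap L FL (c : L) ^ e * (((u2 : B2.Oˣ) : B2.O) : FL))
    (hucusp : ∀ P : Place L FL, P.ord (((u1 : B1.Oˣ) : B1.O) : FL) ≠ 0 → P ∈ cuspL)
    (y1 : B1.O) (y2 : B2.O)
    (hy : ((y1 : B1.O) : FL) = algebraMap L FL (c : L) * ((y2 : B2.O) : FL))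
    (hycusp : ∀ P : Place L FL, P.ord ((y1 : B1.O) : FL) < 0 → P ∈ cuspL)
    (hy0 : B1.red y1 ≠ 0) (hyb : 0 < b1.ord (B1.red y1) → b1.ord (B1.red y1) = 1) :
    1 ≤ b1.ord (B1.red (u1 : B1.O)) ∧ b1.ord (B1.red (u1 : B1.O)) ≤ e := by
  have hpos : 0 < b1.ord (B1.red y1) :=
    pos_ord_of_glue hGL y1 (cst B2 c * y2) (by rw [hy]; rfl) hycusp
      (by rw [map_mul, red_cst, hπc, map_zero, zero_mul]) hy0
  exact ord_bounds hGL c hc0 hπc he u1 u2 hu hucusp y1 y2 hy hycusp (hyb hpos)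

end Generic


/-! ### the concrete pair of branches of `E'' = ℚ̄(X₁(N; r))` -/

section Concrete

variable {r : ℕ} [hrF : Fact r.Prime] {N : ℕ} [NeZero N] {A : ValuationSubring Kb}
variable (hr : r.Prime) (hA : A.LiesOverPrime r) (hrN : ¬ r ∣ N) [NeZero r]

attribute [local instance] algShortcut1

/-- **The test function at the place `b`** of `κ(A)(X₁(N))`: LITERALLY the conclusion of
`Ig/TestFrob.exists_test` (`(y1, y2, hy, hycusp, hyb)` of `Thick.ord_le` at `c = r`, with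
`cuspL = {poles of j}`). -/
def TestAt (b : Place (ResidueField ↥A) ↥(F1C N (ResidueField ↥A))) : Prop :=
  ∃ (y1 : ↥(V₁ N A hA)) (y2 : ↥(V₂ hr hA hrN)),
    (y1 : ↥(F1pBar N r)) =
      algebraMap Kb ↥(F1pBar N r) ((((r : ℕ) : ↥A) : ↥A) : Kb) * (y2 : ↥(F1pBar N r)) ∧
    (∀ P : Place Kb ↥(F1pBar N r), P.ord (y1 : ↥(F1pBar N r)) < 0 → P.ord (jE1 N r) < 0) ∧
    red₁ hr hA hrN y1 ≠ 0 ∧
    (0 < b.ord (red₁ hr hA hrN y1) → b.ord (red₁ hr hA hrN y1) = 1)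

/-- the reduction of the thickness unit `u = Δ(q^N)/Δ(q^(N r))` at the first Gauss valuation -/
def uS : ↥(F1C N (ResidueField ↥A)) :=
  red₁ hr hA hrN ⟨unitU N hr, (unitU_mem_V₁ hr hA hrN).1⟩

/-- `uS = Δ̄⁻¹(q^N)^(r-1)` -/
theorem coe_uS : ((uS hr hA hrN : ↥(F1C N (ResidueField ↥A))) :
    LaurentSeries (ResidueField ↥A)) =
      qExpand (ResidueField ↥A) N (DeltaInvR (ResidueField ↥A)) ^ (r - 1) := by
  obtain ⟨hu, -, hred⟩ := exists_isUnit_unitU_V₁_pow hr hA hrN (N := N) (A := A)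
  exact hred

/-- the constant `r` of `A` -/
theorem coe_natCast_ne_zero : ((((r : ℕ) : ↥A) : ↥A) : Kb) ≠ 0 := by
  have h : ((((r : ℕ) : ↥A) : ↥A) : Kb) = ((r : ℕ) : Kb) := by push_cast; rfl
  rw [h]
  exact Nat.cast_ne_zero.mpr (NeZero.ne r)

include hA in
theorem residue_natCast : residue ↥A (((r : ℕ) : ↥A)) = 0 := by
  rw [map_natCast]
  exact Fermat.Agent.S18.ResidueBasics.residue_natCast_eq_zero A hA

theorem algebraMap_natCast :
    algebraMap Kb ↥(F1pBar N r) ((((r : ℕ) : ↥A) : ↥A) : Kb) = (r : ↥(F1pBar N r)) := by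
  rw [show ((((r : ℕ) : ↥A) : ↥A) : Kb) = ((r : ℕ) : Kb) from by push_cast; rfl, map_natCast]

/-- the thickness unit as a unit of `V₁` -/
def unit₁ : (↥(V₁ N A hA))ˣ :=
  (exists_isUnit_unitU_V₁_pow hr hA hrN (N := N) (A := A)).choose_spec.1.unit

theorem coe_unit₁ : (((unit₁ hr hA hrN : (↥(V₁ N A hA))ˣ) : ↥(V₁ N A hA)) : ↥(F1pBar N r)) =
    unitU N hr := by
  rw [unit₁, IsUnit.unit_spec]

theorem red₁_unit₁ : red₁ hr hA hrN ((unit₁ hr hA hrN : (↥(V₁ N A hA))ˣ) : ↥(V₁ N A hA)) =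
    uS hr hA hrN := by
  rw [unit₁, IsUnit.unit_spec]
  rfl

theorem coe_unit₁_inv :
    ((((unit₁ hr hA hrN)⁻¹ : (↥(V₁ N A hA))ˣ) : ↥(V₁ N A hA)) : ↥(F1pBar N r)) =
      (unitU N hr)⁻¹ := by
  have h : ((unit₁ hr hA hrN : (↥(V₁ N A hA))ˣ) : ↥(V₁ N A hA)) *
      (((unit₁ hr hA hrN)⁻¹ : (↥(V₁ N A hA))ˣ) : ↥(V₁ N A hA)) = 1 := by
    rw [← Units.val_mul, mul_inv_cancel, Units.val_one]
  have h' := congrArg (fun x : ↥(V₁ N A hA) => (x : ↥(F1pBar N r))) h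
  simp only [MulMemClass.coe_mul, OneMemClass.coe_one, coe_unit₁] at h'
  exact eq_inv_of_mul_eq_one_right h'

/-- `u / r^12` as a unit of `V₂` -/
def unit₂ : (↥(V₂ hr hA hrN))ˣ :=
  ((ValuationSubring.valuation_eq_one_iff (V₂ hr hA hrN)
    (⟨unitU N hr / (r : ↥(F1pBar N r)) ^ 12,
      (ValuationSubring.valuation_le_one_iff _ _).mp
        (valuation_V₂_unitU_div hr hA hrN (N := N)).le⟩ : ↥(V₂ hr hA hrN))).mpr
    (valuation_V₂_unitU_div hr hA hrN (N := N))).unit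

theorem coe_unit₂ : (((unit₂ hr hA hrN : (↥(V₂ hr hA hrN))ˣ) : ↥(V₂ hr hA hrN)) :
    ↥(F1pBar N r)) = unitU N hr / (r : ↥(F1pBar N r)) ^ 12 := by
  rw [unit₂, IsUnit.unit_spec]

/-- `u = r^12 · (u / r^12)` -/
theorem unitU_eq_mul :
    unitU N hr = algebraMap Kb ↥(F1pBar N r) ((((r : ℕ) : ↥A) : ↥A) : Kb) ^ 12 *
      (unitU N hr / (r : ↥(F1pBar N r)) ^ 12) := by
  have hr0 : (r : ↥(F1pBar N r)) ^ 12 ≠ 0 :=
    pow_ne_zero _ (Nat.cast_ne_zero.mpr (NeZero.ne r))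
  rw [algebraMap_natCast, mul_div_cancel₀ _ hr0]

include hrN in
/-- `W⁻¹ u = r^12 · u⁻¹` -/
theorem W1_symm_unitU :
    (W1 N r hr hrN).symm (unitU N hr) =
      algebraMap Kb ↥(F1pBar N r) ((((r : ℕ) : ↥A) : ↥A) : Kb) ^ 12 * (unitU N hr)⁻¹ := by
  have hr0 : (r : ↥(F1pBar N r)) ^ 12 ≠ 0 :=
    pow_ne_zero _ (Nat.cast_ne_zero.mpr (NeZero.ne r))
  have hu0 := unitU_ne_zero (N := N) hr
  rw [algebraMap_natCast, AlgEquiv.symm_apply_eq, map_mul, map_pow, map_natCast, map_inv₀,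
    W1_unitU hr hrN, mul_inv, inv_inv, ← mul_assoc, mul_inv_cancel₀ hr0, one_mul]

include hrN in
/-- the poles and zeros of `u` are poles of `j` -/
theorem cusp_of_ord_unitU_ne_zero (P : Place Kb ↥(F1pBar N r)) (h : P.ord (unitU N hr) ≠ 0) :
    P.ord (jE1 N r) < 0 :=
  ord_jgen_neg_of_ord_unitU_ne_zero hr hrN P h

variable {hr hA hrN}

/-- **Branch 1: `1 ≤ ord_{b₁} uS ≤ 12`.** -/
theorem ord_uS_bounds_one {cuspL : Set (Place Kb ↥(F1pBar N r))}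
    (hcuspL : ∀ P : Place Kb ↥(F1pBar N r), P.ord (jE1 N r) < 0 → P ∈ cuspL)
    {b1 b2 : Place (ResidueField ↥A) ↥(F1C N (ResidueField ↥A))}
    (hGL : GlueAt (B1X1 hr hA hrN) (B2X1 hr hA hrN) cuspL b1 b2)
    (htest : TestAt hr hA hrN b1) :
    1 ≤ b1.ord (uS hr hA hrN) ∧ b1.ord (uS hr hA hrN) ≤ 12 := by
  obtain ⟨y1, y2, hy, hycusp, hy0, hyb⟩ := htest
  have h := ord_bounds_of_test (B1 := B1X1 hr hA hrN) (B2 := B2X1 hr hA hrN) hGL
    ((r : ℕ) : ↥A) coe_natCast_ne_zero (residue_natCast hA) (e := 12) (by norm_num)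
    (unit₁ hr hA hrN) (unit₂ hr hA hrN)
    (by
      rw [coe_unit₁, coe_unit₂]
      exact unitU_eq_mul hr)
    (fun P hP => hcuspL P (cusp_of_ord_unitU_ne_zero hr hrN P (by rwa [coe_unit₁] at hP)))
    y1 y2 hy (fun P hP => hcuspL P (hycusp P hP)) hy0 hyb
  have e : (B1X1 hr hA hrN).red ((unit₁ hr hA hrN : (↥(V₁ N A hA))ˣ) : ↥(V₁ N A hA)) =
      uS hr hA hrN := red₁_unit₁ hr hA hrN
  rwa [e] at h


/-! #### the second branch -/

variable (hr hA hrN)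

/-- `W⁻¹ u` as a unit of `V₂` -/
def unit₂' : (↥(V₂ hr hA hrN))ˣ :=
  Units.map (((W1V hr hA hrN).symm : ↥(V₁ N A hA) ≃+* ↥(V₂ hr hA hrN)) :
    ↥(V₁ N A hA) →* ↥(V₂ hr hA hrN)) (unit₁ hr hA hrN)

theorem coe_unit₂' : (((unit₂' hr hA hrN : (↥(V₂ hr hA hrN))ˣ) : ↥(V₂ hr hA hrN)) :
    ↥(F1pBar N r)) = (W1 N r hr hrN).symm (unitU N hr) := by
  rw [← coe_unit₁ hr hA hrN]
  rfl

theorem red₂_unit₂' :
    red₂ hr hA hrN ((unit₂' hr hA hrN : (↥(V₂ hr hA hrN))ˣ) : ↥(V₂ hr hA hrN)) =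
      uS hr hA hrN := by
  rw [red₂_apply, ← red₁_unit₁ hr hA hrN]
  congr 1
  exact (W1V hr hA hrN).apply_symm_apply _

/-- `W⁻¹` maps `V₂` into `V₁` (`W ∘ W` preserves `V₁`: helper18's `W1SqX1`) -/
theorem W1_symm_mem_V₁ {x : ↥(F1pBar N r)} (hx : x ∈ V₂ hr hA hrN) :
    (W1 N r hr hrN).symm x ∈ V₁ N A hA := by
  rw [← Fermat.Agent.S43.LG1.C1.W1SqX1.W1_W1_mem_iff_of_isExt₁ hr hA hrN (isExt_V₁ hr hA hrN),
    AlgEquiv.apply_symm_apply]
  exact hx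

include hrN in
/-- `W` permutes the poles of `j` -/
theorem ord_jE1_neg_of_smul (P : Place Kb ↥(F1pBar N r))
    (h : ((W1 N r hr hrN) • P).ord (jE1 N r) < 0) : P.ord (jE1 N r) < 0 := by
  have e : jE1 N r = W1 N r hr hrN (jr N r) := (W1_beta hr hrN (jgen1 N)).symm
  rw [e, Place.ord_smul] at h
  exact (Fermat.Agent.S43.LG1.C1.EulerX1.ord_jr_neg_iff hr hrN P).mp h

variable {hr hA hrN}

/-- **Branch 2: `1 ≤ ord_{b₂} uS ≤ 12`**, from the SWAPPED gluing clause. -/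
theorem ord_uS_bounds_two {cuspL : Set (Place Kb ↥(F1pBar N r))}
    (hcuspL : ∀ P : Place Kb ↥(F1pBar N r), P.ord (jE1 N r) < 0 → P ∈ cuspL)
    {b1 b2 : Place (ResidueField ↥A) ↥(F1C N (ResidueField ↥A))}
    (hGL : GlueAt (B2X1 hr hA hrN) (B1X1 hr hA hrN) cuspL b2 b1)
    (htest : TestAt hr hA hrN b2) :
    1 ≤ b2.ord (uS hr hA hrN) ∧ b2.ord (uS hr hA hrN) ≤ 12 := by
  obtain ⟨y1, y2, hy, hycusp, hy0, hyb⟩ := htest
  -- the transported test function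
  have hred : red₂ hr hA hrN ((W1V hr hA hrN).symm y1) = red₁ hr hA hrN y1 := by
    rw [red₂_apply, RingEquiv.apply_symm_apply]
  have h := ord_bounds_of_test (B1 := B2X1 hr hA hrN) (B2 := B1X1 hr hA hrN) hGL
    ((r : ℕ) : ↥A) coe_natCast_ne_zero (residue_natCast hA) (e := 12) (by norm_num)
    (unit₂' hr hA hrN) (unit₁ hr hA hrN)⁻¹
    ((coe_unit₂' hr hA hrN).trans ((W1_symm_unitU (A := A) hr hrN).trans
      (congrArg (fun z => algebraMap Kb ↥(F1pBar N r) ((((r : ℕ) : ↥A) : ↥A) : Kb) ^ 12 * z)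
        (coe_unit₁_inv hr hA hrN).symm)))
    (fun P hP => hcuspL P (cusp_of_ord_unitU_ne_zero hr hrN P (by
      have e2 : (((unit₂' hr hA hrN : (↥(V₂ hr hA hrN))ˣ) : ↥(V₂ hr hA hrN)) :
          ↥(F1pBar N r)) = _ := (coe_unit₂' hr hA hrN).trans (W1_symm_unitU (A := A) hr hrN)
      change P.ord (((unit₂' hr hA hrN : (↥(V₂ hr hA hrN))ˣ) : ↥(V₂ hr hA hrN)) :
          ↥(F1pBar N r)) ≠ 0 at hP
      rw [e2, ← map_pow] at hP
      intro h0
      apply hP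
      rw [P.ord_mul ((map_ne_zero _).mpr (pow_ne_zero _ coe_natCast_ne_zero))
        (inv_ne_zero (unitU_ne_zero hr)), Fermat.Agent.S24.Ord.ord_algebraMap, P.ord_inv, h0]
      norm_num)))
    ((W1V hr hA hrN).symm y1) ⟨(W1 N r hr hrN).symm y2.1, W1_symm_mem_V₁ hr hA hrN y2.2⟩
    (by
      show (W1 N r hr hrN).symm (y1 : ↥(F1pBar N r)) = _ * (W1 N r hr hrN).symm y2.1
      rw [hy, map_mul, AlgEquiv.commutes])
    (fun P hP => hcuspL P (ord_jE1_neg_of_smul hr hrN P (hycusp _ (by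
      have h1 := Place.ord_smul (W1 N r hr hrN) P
        ((W1 N r hr hrN).symm (y1 : ↥(F1pBar N r)))
      rw [AlgEquiv.apply_symm_apply] at h1
      rw [h1]
      exact hP))))
    (by
      show red₂ hr hA hrN ((W1V hr hA hrN).symm y1) ≠ 0
      rw [hred]
      exact hy0)
    (by
      show 0 < b2.ord (red₂ hr hA hrN ((W1V hr hA hrN).symm y1)) →
        b2.ord (red₂ hr hA hrN ((W1V hr hA hrN).symm y1)) = 1
      rw [hred]
      exact hyb)
  have e : (B2X1 hr hA hrN).red ((unit₂' hr hA hrN : (↥(V₂ hr hA hrN))ˣ) : ↥(V₂ hr hA hrN)) =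
      uS hr hA hrN := red₂_unit₂' hr hA hrN
  rwa [e] at h

/-! #### (T) at the two places of a node -/

/-- **(T) at the place `b₁` of the first component.** -/
theorem isCoprime_ord_one {cuspL : Set (Place Kb ↥(F1pBar N r))}
    (hcuspL : ∀ P : Place Kb ↥(F1pBar N r), P.ord (jE1 N r) < 0 → P ∈ cuspL)
    {b1 b2 : Place (ResidueField ↥A) ↥(F1C N (ResidueField ↥A))}
    (hGL : GlueAt (B1X1 hr hA hrN) (B2X1 hr hA hrN) cuspL b1 b2)
    (htest : TestAt hr hA hrN b1) {n m : ℕ} (hn : 2 * n = r - 1) (hm : m ∣ n)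
    {c₀ : ResidueField ↥A} (hc₀ : c₀ ≠ 0) (θ₀ jS : ↥(F1C N (ResidueField ↥A)))
    (hθ : (θ₀ : LaurentSeries (ResidueField ↥A)) =
      HahnSeries.C c₀ * qExpand (ResidueField ↥A) N (wNorm (ResidueField ↥A)) ^ n)
    (hj : (jS : LaurentSeries (ResidueField ↥A)) =
      qExpand (ResidueField ↥A) N (jqModC (ResidueField ↥A)))
    (h6 : (6 : ℤ) ∣ 2 * b1.ord jS + 3 * b1.ord (jS - 1728)) :
    IsCoprime (b1.ord θ₀) (m : ℤ) := by
  obtain ⟨h1, h12⟩ := ord_uS_bounds_one hcuspL hGL htest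
  exact Fermat.Agent.S43.LG1.Ig.NodeOrd.isCoprime_ord_theta0 N b1 n hc₀ θ₀ jS (uS hr hA hrN)
    hθ hj (by rw [coe_uS, hn]) h1 h12 h6 hm

/-- **(T) at the place `b₂` of the second component.** -/
theorem isCoprime_ord_two {cuspL : Set (Place Kb ↥(F1pBar N r))}
    (hcuspL : ∀ P : Place Kb ↥(F1pBar N r), P.ord (jE1 N r) < 0 → P ∈ cuspL)
    {b1 b2 : Place (ResidueField ↥A) ↥(F1C N (ResidueField ↥A))}
    (hGL : GlueAt (B2X1 hr hA hrN) (B1X1 hr hA hrN) cuspL b2 b1)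
    (htest : TestAt hr hA hrN b2) {n m : ℕ} (hn : 2 * n = r - 1) (hm : m ∣ n)
    {c₀ : ResidueField ↥A} (hc₀ : c₀ ≠ 0) (θ₀ jS : ↥(F1C N (ResidueField ↥A)))
    (hθ : (θ₀ : LaurentSeries (ResidueField ↥A)) =
      HahnSeries.C c₀ * qExpand (ResidueField ↥A) N (wNorm (ResidueField ↥A)) ^ n)
    (hj : (jS : LaurentSeries (ResidueField ↥A)) =
      qExpand (ResidueField ↥A) N (jqModC (ResidueField ↥A)))
    (h6 : (6 : ℤ) ∣ 2 * b2.ord jS + 3 * b2.ord (jS - 1728)) :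
    IsCoprime (b2.ord θ₀) (m : ℤ) := by
  obtain ⟨h1, h12⟩ := ord_uS_bounds_two hcuspL hGL htest
  exact Fermat.Agent.S43.LG1.Ig.NodeOrd.isCoprime_ord_theta0 N b2 n hc₀ θ₀ jS (uS hr hA hrN)
    hθ hj (by rw [coe_uS, hn]) h1 h12 h6 hm

end Concrete

/-! ### the nodes of `C1/CoreZX1Build.NodesC1` -/

section Nodes

open Fermat.Agent.S37.Deuring.Core
open Fermat.Agent.S34.Generic.SmoothRedOfGeneric (branchComap)
open Fermat.Agent.S43.LG1.C1.CoreZX1Assembly Fermat.Agent.S43.LG1.C1.CoreZX1Build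

attribute [local instance] algShortcut1

variable {r : ℕ} [hrF : Fact r.Prime] {N : ℕ} [NeZero N] {A : ValuationSubring Kb} [NeZero r]
variable {hr : r.Prime} {hA : A.LiesOverPrime r} {hrN : ¬ r ∣ N}
variable [HasPrincipalDivisors Kb ↥(F1pBar N r)]
variable [HasPrincipalDivisors (ResidueField ↥A) ↥(F1C N (ResidueField ↥A))]
variable {gL gk : ℕ} {H : Hyp (gaussDatum1 N A hr hA hrN) gL gk}
variable [CharP (ResidueField ↥A) r]

/-- the gluing clause at the node `(Fr' a, a)`, `a ∈ Y.S` (`= Y.hyp.glue0` at `a`) -/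
theorem glueAt_nodes (X : Inputs1 hr hA hrN H) (Y : NodesC1 X)
    {a : Place (ResidueField ↥A) ↥(F1C N (ResidueField ↥A))} (ha : a ∈ Y.S) :
    GlueAt (R1 X).toBranch (R2 X).toBranch Y.cuspL (Fr2X1 hr hA hrN a) a :=
  fun h1 h2 h12 hp => Y.hyp.glue0 h1 h2 h12 hp a ha

/-- the same on the concrete branches `B1X1`, `B2X1` -/
theorem glueAt_nodes_X1 (X : Inputs1 hr hA hrN H) (hB : X.B₁ = B1X1 hr hA hrN) (Y : NodesC1 X)
    {a : Place (ResidueField ↥A) ↥(F1C N (ResidueField ↥A))} (ha : a ∈ Y.S) :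
    GlueAt (B1X1 hr hA hrN) (B2X1 hr hA hrN) Y.cuspL (Fr2X1 hr hA hrN a) a := by
  have h : GlueAt X.B₁ (branchComap X.B₁ (W1 N r hr hrN)) Y.cuspL (Fr2X1 hr hA hrN a) a :=
    glueAt_nodes X Y ha
  rw [hB] at h
  exact h

/-- **(T) AT BOTH PLACES OF EVERY NODE** `(Fr' a, a)`, `a ∈ Y.S`, of the nodal datum
`C1/CoreZX1Build.nodalC1 X Y` (`e1 a = Fr2X1 a`, `e2 a = a`): the orders of `θ₀` at the two places
are prime to every divisor `m` of `n = (r - 1) / 2`.  Hypotheses: the first branch of `X` is the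
concrete one (`rfl` at `CoreZX1OfGeneric.inputsX1`), `Y.cuspL` contains the poles of `j`
(`PcgX1.cuspL_iff` at `CoreZX1OfGeneric.exists_nodesX1_fix`), the test functions at the two places
(`Ig/TestFrob.exists_test`), `6 ∣ 2 ord jS + 3 ord (jS - 1728)` at the two places (`Ig/EllPlug`). -/
theorem isCoprime_ord_nodes (X : Inputs1 hr hA hrN H) (hB : X.B₁ = B1X1 hr hA hrN)
    (Y : NodesC1 X)
    (hcuspL : ∀ P : Place Kb ↥(F1pBar N r), P.ord (jE1 N r) < 0 → P ∈ Y.cuspL)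
    {a : Place (ResidueField ↥A) ↥(F1C N (ResidueField ↥A))} (ha : a ∈ Y.S)
    (htest1 : TestAt hr hA hrN (Fr2X1 hr hA hrN a)) (htest2 : TestAt hr hA hrN a)
    {n m : ℕ} (hn : 2 * n = r - 1) (hm : m ∣ n)
    {c₀ : ResidueField ↥A} (hc₀ : c₀ ≠ 0) (θ₀ jS : ↥(F1C N (ResidueField ↥A)))
    (hθ : (θ₀ : LaurentSeries (ResidueField ↥A)) =
      HahnSeries.C c₀ * qExpand (ResidueField ↥A) N (wNorm (ResidueField ↥A)) ^ n)
    (hj : (jS : LaurentSeries (ResidueField ↥A)) =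
      qExpand (ResidueField ↥A) N (jqModC (ResidueField ↥A)))
    (h6₁ : (6 : ℤ) ∣ 2 * (Fr2X1 hr hA hrN a).ord jS + 3 * (Fr2X1 hr hA hrN a).ord (jS - 1728))
    (h6₂ : (6 : ℤ) ∣ 2 * a.ord jS + 3 * a.ord (jS - 1728)) :
    IsCoprime ((Fr2X1 hr hA hrN a).ord θ₀) (m : ℤ) ∧ IsCoprime (a.ord θ₀) (m : ℤ) := by
  have hGL := glueAt_nodes_X1 X hB Y ha
  exact ⟨isCoprime_ord_one hcuspL hGL htest1 hn hm hc₀ θ₀ jS hθ hj h6₁,
    isCoprime_ord_two hcuspL (GlueAt.symm hGL) htest2 hn hm hc₀ θ₀ jS hθ hj h6₂⟩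

/-- the thickness of the node: `1 ≤ ord uS ≤ 12` at both places (with `Thick.eq_twelve` it is
`12`) -/
theorem ord_uS_bounds_nodes (X : Inputs1 hr hA hrN H) (hB : X.B₁ = B1X1 hr hA hrN)
    (Y : NodesC1 X)
    (hcuspL : ∀ P : Place Kb ↥(F1pBar N r), P.ord (jE1 N r) < 0 → P ∈ Y.cuspL)
    {a : Place (ResidueField ↥A) ↥(F1C N (ResidueField ↥A))} (ha : a ∈ Y.S)
    (htest1 : TestAt hr hA hrN (Fr2X1 hr hA hrN a)) (htest2 : TestAt hr hA hrN a) :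
    (1 ≤ (Fr2X1 hr hA hrN a).ord (uS hr hA hrN) ∧ (Fr2X1 hr hA hrN a).ord (uS hr hA hrN) ≤ 12) ∧
      (1 ≤ a.ord (uS hr hA hrN) ∧ a.ord (uS hr hA hrN) ≤ 12) := by
  have hGL := glueAt_nodes_X1 X hB Y ha
  exact ⟨ord_uS_bounds_one hcuspL hGL htest1, ord_uS_bounds_two hcuspL (GlueAt.symm hGL) htest2⟩

end Nodes

end Fermat.Agent.S43.LG1.Ig.NodeT

end
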