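/-
PROJECT R (row 37 by S43), gate, IG (owner helper17, cut #6315 (5), brick IG-Y, existence half;
helper25): **the `ℚ`-rational lattice of `ℚ̄(X₁(N))` at a prime `r ∤ N`.**

The `X₁` twin of main's `S36/LiftK0` (sections Action / RR) at the full group `G_ℚ`, `K = ℚ`:

* generic in `F₀ : IntermediateField ℚ ℚ((q))` : `emb`, `rho`, `rho_emb`, `exists_emb_eq_of_fixed`
  (fixed `=` rational), `mem_span_fixedSet`, `rho_mem_rr`, `smul_eq_of_ord`;
* at `F₀ = F1 N`, `G = Seam.gaussDatum1 N A hr hA hrN` : `exists_orthonormal_rational` (the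
  orthonormal basis `j, u i` of main's `Bases1/Core.exists_bases` consists of `ℤ`-integral rational
  functions), `exists_fixed_basis_red` (an invariant finite-dimensional `L(D)` contains `dim L(D)`
  FIXED Gauss-integral elements with `κ`-independent reductions), `exists_fixed_comb` (the reduction of
  every Gauss-integral `f ∈ L(D)` is a `κ`-combination of theirs) and
  **`exists_fixed_comb_off_cusps`** : the same for `f` regular off the cusps.
-/
import Mathlib
import Fermat.Agent.S36.K0Fixed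
import Fermat.Agent.S36.LiftK0Core
import Fermat.Agent.S34.LevelMSurj
import Fermat.Agent.S43.LG1.C1.Seam
import Fermat.Agent.S43.LG1.C1.LevelMSurjX1

set_option autoImplicit false
set_option linter.unusedSectionVars false
set_option linter.style.haveILetI false

noncomputable section

namespace Fermat.Agent.S43.LG1.Ig.RatLift

open HahnSeries ModularCurve IsLocalRing IntermediateField AlgebraicCurve
open Fermat.Agent.S36.K0Fixed Fermat.Agent.S36.LiftK0Core Fermat.Agent.S36.RRDescent
open Fermat.Agent.S30.Descent.ConstExt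
open Fermat.Agent.S37.Deuring.Core

local notation "Kb" => AlgebraicClosure ℚ
local notation "GQ" => (AlgebraicClosure ℚ ≃ₐ[ℚ] AlgebraicClosure ℚ)

set_option synthInstance.maxHeartbeats 400000

/-! ### the coefficientwise action of `G_ℚ` -/

section Action

variable (F₀ : IntermediateField ℚ (LaurentSeries ℚ))

/-- the rational functions inside `ℚ̄(F₀)` -/
def emb : ↥F₀ →+* ↥(laurentBaseChange Kb F₀) where
  toFun z := ⟨coeffEmb Kb (z : LaurentSeries ℚ), coeffEmb_mem_laurentBaseChange Kb z.2⟩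
  map_one' := Subtype.ext (map_one _)
  map_mul' _ _ := Subtype.ext (map_mul _ _ _)
  map_zero' := Subtype.ext (map_zero _)
  map_add' _ _ := Subtype.ext (map_add _ _ _)

@[simp] theorem coe_emb (z : ↥F₀) :
    ((emb F₀ z : ↥(laurentBaseChange Kb F₀)) : LaurentSeries Kb) =
      coeffEmb Kb (z : LaurentSeries ℚ) := rfl

/-- the coefficientwise action of `σ ∈ G_ℚ` on `ℚ̄(F₀)`, as a ring endomorphism -/
def rho (σ : GQ) : ↥(laurentBaseChange Kb F₀) →+* ↥(laurentBaseChange Kb F₀) :=
  (arithmeticRingAut F₀ σ).toRingHom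

theorem rho_apply (σ : GQ) (z : ↥(laurentBaseChange Kb F₀)) :
    rho F₀ σ z = arithmeticGalois F₀ σ • z := rfl

theorem coe_rho_apply (σ : GQ) (z : ↥(laurentBaseChange Kb F₀)) :
    ((rho F₀ σ z : ↥(laurentBaseChange Kb F₀)) : LaurentSeries Kb) =
      coeffMap ((σ : GQ) : Kb →+* Kb) (z : LaurentSeries Kb) := rfl

theorem rho_algebraMap (σ : GQ) (c : Kb) :
    rho F₀ σ (algebraMap Kb ↥(laurentBaseChange Kb F₀) c) =
      algebraMap Kb ↥(laurentBaseChange Kb F₀) (σ • c) :=
  arithmeticRingAut_algebraMap F₀ σ c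

theorem rho_emb (σ : GQ) (x : ↥F₀) : rho F₀ σ (emb F₀ x) = emb F₀ x := by
  apply Subtype.ext
  rw [coe_rho_apply, coe_emb]
  exact coeffMap_coeffEmb σ _

/-- **fixed `=` rational** -/
theorem exists_emb_eq_of_fixed {z : ↥(laurentBaseChange Kb F₀)}
    (hz : ∀ σ : GQ, rho F₀ σ z = z) : ∃ z₀ : ↥F₀, emb F₀ z₀ = z := by
  have hE : constExt Kb F₀ = laurentBaseChange Kb F₀ := rfl
  obtain ⟨f, hf⟩ := exists_bcHom_eq_of_fixed (K := ℚ) (K' := Kb) (F := F₀)
    (H := {τ : Kb →+* Kb | ∃ σ : GQ, τ = (σ : Kb →+* Kb)})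
    (by
      rintro _ ⟨σ, rfl⟩ c
      exact σ.commutes c)
    (by
      intro a ha
      have h1 : a ∈ (⊥ : IntermediateField ℚ Kb) :=
        (InfiniteGalois.mem_bot_iff_fixed a).mpr fun σ => ha _ ⟨σ, rfl⟩
      exact IntermediateField.mem_bot.mp h1)
    ⟨(z : LaurentSeries Kb), z.2⟩
    (by
      rintro _ ⟨σ, rfl⟩
      have := congrArg (fun w : ↥(laurentBaseChange Kb F₀) => (w : LaurentSeries Kb)) (hz σ)
      simpa only [coe_rho_apply] using this)
  refine ⟨f, Subtype.ext ?_⟩
  exact congrArg (fun w : constExt Kb F₀ => (w : LaurentSeries Kb)) hf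

/-- every function is a `ℚ̄`-linear combination of fixed functions -/
theorem mem_span_fixedSet (z : ↥(laurentBaseChange Kb F₀)) :
    z ∈ Submodule.span Kb (fixedSet (addAct (rho F₀))) := by
  obtain ⟨l, hl⟩ := exists_lsum_eq (K := ℚ) (K' := Kb) (F := F₀) ⟨(z : LaurentSeries Kb), z.2⟩
  have hcoe := congrArg (fun w : constExt Kb F₀ => (w : LaurentSeries Kb)) hl
  simp only [coe_lsum] at hcoe
  have hz : z = (l.map fun p => p.1 • emb F₀ p.2).sum := by
    apply Subtype.ext
    rw [← hcoe]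
    clear hl hcoe
    induction l with
    | nil => simp
    | cons p l ih =>
      rw [List.map_cons, List.sum_cons, List.map_cons, List.sum_cons, ih]
      change _ = ((p.1 • emb F₀ p.2 : ↥(laurentBaseChange Kb F₀)) : LaurentSeries Kb) +
          (((l.map fun p => p.1 • emb F₀ p.2).sum : ↥(laurentBaseChange Kb F₀)) :
            LaurentSeries Kb)
      congr 1
  rw [hz]
  refine list_sum_mem ?_
  intro w hw
  obtain ⟨p, -, rfl⟩ := List.mem_map.mp hw
  exact Submodule.smul_mem _ _ (Submodule.subset_span fun σ => rho_emb F₀ σ p.2)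

end Action

/-! ### invariant divisors and their Riemann-Roch spaces -/

section RR

variable {F₀ : IntermediateField ℚ (LaurentSeries ℚ)}

/-- an invariant divisor has a stable Riemann-Roch space -/
theorem rho_mem_rr {D : Divisor Kb ↥(laurentBaseChange Kb F₀)}
    (hD : ∀ σ : GQ, arithmeticGalois F₀ σ • D = D) (σ : GQ)
    {z : ↥(laurentBaseChange Kb F₀)} (hz : z ∈ riemannRochSpace D) :
    rho F₀ σ z ∈ riemannRochSpace D := by
  rw [mem_riemannRochSpace_iff] at hz ⊢
  intro v
  set g := arithmeticGalois F₀ σ with hg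
  rcases hz (g⁻¹ • v) with h | h
  · left
    rw [h, map_zero]
  · right
    have h1 : v.ord (g • z) = (g⁻¹ • v).ord z := by
      have := SemilinearAut.ord_smul g (g⁻¹ • v) z
      rwa [smul_inv_smul] at this
    have h2 : D (g⁻¹ • v) = D v := by
      have := SemilinearAut.divisor_smul_apply g D v
      rw [hD σ] at this
      exact this.symm
    rw [rho_apply, h1, ← h2]
    exact h

/-- a divisor defined by the orders of a fixed function is invariant -/
theorem smul_eq_of_ord {x : ↥(laurentBaseChange Kb F₀)} (hx : ∀ σ : GQ, rho F₀ σ x = x)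
    {D : Divisor Kb ↥(laurentBaseChange Kb F₀)} {φ : ℤ → ℤ}
    (hD : ∀ v : Place Kb ↥(laurentBaseChange Kb F₀), D v = φ (v.ord x)) :
    ∀ σ : GQ, arithmeticGalois F₀ σ • D = D := by
  intro σ
  ext v
  set g := arithmeticGalois F₀ σ with hg
  rw [SemilinearAut.divisor_smul_apply, hD, hD]
  congr 1
  have h1 := SemilinearAut.ord_smul g (g⁻¹ • v) x
  rw [smul_inv_smul] at h1
  rw [← h1]
  congr 1
  exact hx σ

end RR

/-! ### the rational lattice of `ℚ̄(X₁(N))` at `A ∣ r`, `r ∤ N` -/

section Main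

open Fermat.Agent.S48.B.Defs.Model Fermat.Agent.S48.B.B1.Seams
open Fermat.Agent.S48.B.Red.Seams (jC)
open Fermat.Agent.S48.B.Red.Bases1 Fermat.Agent.S48.B.Red.Bases1.Core
open Fermat.Agent.S43.LG1.C1.Seam
open Fermat.Agent.S18.NonSpecial Fermat.Agent.S18.A
open Fermat.Agent.S34.LevelMSurj Fermat.Agent.S43.LG1.C1.LevelMSurjX1

attribute [local instance] Fermat.Agent.S43.LG1.C1.Seam.algShortcut1

variable {r : ℕ} {N : ℕ} [NeZero N] [NeZero r] {A : ValuationSubring Kb}
variable (hr : r.Prime) (hA : A.LiesOverPrime r) (hrN : ¬ r ∣ N)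

/-- `ℤ`-integral rational functions are fixed by `G_ℚ` -/
theorem rho_toL (σ : GQ) (y : ↥(intZ N)) : rho (F1 N) σ (toL N Kb y) = toL N Kb y := by
  apply Subtype.ext
  rw [coe_rho_apply, coe_toL, coeffMap_coeffMap]
  exact coeffMap_congr (RingHom.ext_int _ _) _

theorem rho_jgen1 (σ : GQ) : rho (F1 N) σ (jgen1 N) = jgen1 N := by
  rw [← toL_jZ N]
  exact rho_toL σ _

/-- `ℤ`-integral rational functions are Gauss-integral -/
theorem toL_mem_O1 (y : ↥(intZ N)) : toL N Kb y ∈ (gaussDatum1 N A hr hA hrN).O :=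
  haveI := finiteDimensional_igusa (igusaDegN N) hr hrN hA
  toL_mem_O_of_deg N A (residue ↥A) (finrank_eq_igusa (igusaDegN N) hr hrN hA) residue_surjective
    residue_eq_zero_of_not_isUnit y

/-- their reduction is the reduction of the coefficients -/
theorem red_toL1 (y : ↥(intZ N)) :
    (gaussDatum1 N A hr hA hrN).red ⟨toL N Kb y, toL_mem_O1 hr hA hrN y⟩ =
      redZ N (ResidueField ↥A) y :=
  haveI := finiteDimensional_igusa (igusaDegN N) hr hrN hA
  red_toL_of_deg N A (residue ↥A) (finrank_eq_igusa (igusaDegN N) hr hrN hA) residue_surjective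
    residue_eq_zero_of_not_isUnit y

/-- `j` as an element of the Gauss valuation ring -/
def jO : ↥(gaussDatum1 N A hr hA hrN).O := ⟨jgen1 N, jgen1_mem_O1 hr hrN hA⟩

theorem coe_jO : ((jO hr hA hrN : ↥(gaussDatum1 N A hr hA hrN).O) : ↥(F1Bar N)) = jgen1 N := rfl

theorem red_jO : (gaussDatum1 N A hr hA hrN).red (jO hr hA hrN) = jC N (ResidueField ↥A) :=
  red_jgen1 hr hrN hA

/-- **The orthonormal basis `j, u i` consists of `ℤ`-integral rational functions.** -/
theorem exists_orthonormal_rational :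
    ∃ (n : ℕ) (t : Fin n → ↥(intZ N)),
      LinearIndependent
        (ResidueField ↥A)⟮(gaussDatum1 N A hr hA hrN).red (jO hr hA hrN)⟯
        (fun i => (gaussDatum1 N A hr hA hrN).red ⟨toL N Kb (t i), toL_mem_O1 hr hA hrN (t i)⟩) ∧
      ⊤ ≤ Submodule.span Kb⟮((jO hr hA hrN : ↥(gaussDatum1 N A hr hA hrN).O) : ↥(F1Bar N))⟯
        (Set.range fun i => ((⟨toL N Kb (t i), toL_mem_O1 hr hA hrN (t i)⟩ :
          ↥(gaussDatum1 N A hr hA hrN).O) : ↥(F1Bar N))) := by
  haveI := finiteDimensional_igusa (igusaDegN N) hr hrN hA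
  obtain ⟨n, t, bL, bk, hbL, hbk⟩ := exists_bases N A (residue ↥A)
    (finrank_eq_igusa (igusaDegN N) hr hrN hA)
  refine ⟨n, t, ?_, ?_⟩
  · have h2 : (fun i => (gaussDatum1 N A hr hA hrN).red
        ⟨toL N Kb (t i), toL_mem_O1 hr hA hrN (t i)⟩) = ⇑bk :=
      funext fun i => by rw [hbk i, red_toL1]
    rw [h2]
    exact linearIndependent_adjoin_congr (red_jO hr hA hrN).symm _ bk.linearIndependent
  · have h2 : (fun i => ((⟨toL N Kb (t i), toL_mem_O1 hr hA hrN (t i)⟩ :
        ↥(gaussDatum1 N A hr hA hrN).O) : ↥(F1Bar N))) = ⇑bL :=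
      funext fun i => (hbL i).symm
    rw [h2, coe_jO]
    exact bL.span_eq.ge

/-- **The rational lattice of an invariant Riemann-Roch space.**  `D` a `G_ℚ`-invariant divisor of
`ℚ̄(X₁(N))` with `L(D)` finite-dimensional: `L(D)` contains `dim L(D)` FIXED Gauss-integral elements
with `κ`-linearly independent reductions, and the reduction of every Gauss-integral `f ∈ L(D)` is a
`κ`-linear combination of theirs. -/
theorem exists_fixed_comb (D : Divisor Kb ↥(F1Bar N))
    [FiniteDimensional Kb (riemannRochSpace D)]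
    (hD : ∀ σ : GQ, arithmeticGalois (F1 N) σ • D = D) :
    ∃ (d : ℕ) (g : Fin d → ↥(gaussDatum1 N A hr hA hrN).O),
      (∀ l, ((g l : ↥(gaussDatum1 N A hr hA hrN).O) : ↥(F1Bar N)) ∈ riemannRochSpace D ∧
        ∀ σ : GQ, rho (F1 N) σ ((g l : ↥(gaussDatum1 N A hr hA hrN).O) : ↥(F1Bar N)) =
          (g l : ↥(gaussDatum1 N A hr hA hrN).O)) ∧
      LinearIndependent (ResidueField ↥A) (fun l => (gaussDatum1 N A hr hA hrN).red (g l)) ∧
      ∀ f : ↥(gaussDatum1 N A hr hA hrN).O,
        ((f : ↥(gaussDatum1 N A hr hA hrN).O) : ↥(F1Bar N)) ∈ riemannRochSpace D →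
        ∃ c : Fin d → ↥A, (gaussDatum1 N A hr hA hrN).red f =
          ∑ l, residue ↥A (c l) • (gaussDatum1 N A hr hA hrN).red (g l) := by
  classical
  set G := gaussDatum1 N A hr hA hrN with hG
  obtain ⟨n, t, hi, hii⟩ := exists_orthonormal_rational hr hA hrN
  have hx : Transcendental (ResidueField ↥A) (G.red (jO hr hA hrN)) := by
    rw [red_jO]
    exact transcendental_jC N (ResidueField ↥A)
  obtain ⟨g, hg, hgli⟩ := exists_fixed_independent G (K := ℚ) (rho (F1 N))
    (rho_algebraMap (F1 N)) (fun a σ => σ.commutes a)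
    (fun c hc => IntermediateField.mem_bot.mp
      ((InfiniteGalois.mem_bot_iff_fixed c).mpr fun σ => hc σ))
    (jO hr hA hrN) hx (fun σ => rho_jgen1 σ)
    (fun i => ⟨toL N Kb (t i), toL_mem_O1 hr hA hrN (t i)⟩) (fun σ i => rho_toL σ (t i)) hi hii
    (riemannRochSpace D) (fun σ z hz => rho_mem_rr hD σ hz)
    (fun y _ => mem_span_fixedSet (F1 N) y)
  refine ⟨_, g, hg, hgli, fun f hfV => ?_⟩
  -- `red f` lies in the span of the `red (g l)`
  have hmem : G.red f ∈ Submodule.span (ResidueField ↥A) (Set.range fun l => G.red (g l)) := by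
    by_contra hnot
    have hli : LinearIndependent (ResidueField ↥A)
        (Fin.cons (G.red f) (fun l => G.red (g l)) :
          Fin (Module.finrank Kb (riemannRochSpace D) + 1) → ↥(F1C N (ResidueField ↥A))) :=
      linearIndependent_finCons.mpr ⟨hgli, hnot⟩
    have hli' : LinearIndependent (ResidueField ↥A) fun j => G.red
        ((Fin.cons f g : Fin (Module.finrank Kb (riemannRochSpace D) + 1) → ↥G.O) j) := by
      have : (fun j => G.red
          ((Fin.cons f g : Fin (Module.finrank Kb (riemannRochSpace D) + 1) → ↥G.O) j)) =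
          (Fin.cons (G.red f) (fun l => G.red (g l)) :
            Fin (Module.finrank Kb (riemannRochSpace D) + 1) → ↥(F1C N (ResidueField ↥A))) := by
        funext j
        refine Fin.cases ?_ (fun l => ?_) j <;> simp
      rw [this]
      exact hli
    have hL := G.linearIndependent_of_red _ hli'
    let F : Fin (Module.finrank Kb (riemannRochSpace D) + 1) → riemannRochSpace D := fun j =>
      ⟨(((Fin.cons f g : Fin (Module.finrank Kb (riemannRochSpace D) + 1) → ↥G.O) j : ↥G.O) :
          ↥(F1Bar N)), by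
        refine Fin.cases ?_ (fun l => ?_) j
        · simpa using hfV
        · simpa using (hg l).1⟩
    have hF : LinearIndependent Kb F := by
      apply LinearIndependent.of_comp (riemannRochSpace D).subtype
      exact hL
    have := hF.fintype_card_le_finrank
    rw [Fintype.card_fin] at this
    omega
  obtain ⟨c, hc⟩ := (Submodule.mem_span_range_iff_exists_fun (ResidueField ↥A)).mp hmem
  choose a ha using fun l => residue_surjective (c l)
  refine ⟨a, ?_⟩
  rw [← hc]
  exact Finset.sum_congr rfl fun l _ => by rw [ha l]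

variable {gL gk : ℕ}
variable [HasPrincipalDivisors Kb ↥(F1Bar N)]
variable [HasPrincipalDivisors (ResidueField ↥A) ↥(F1C N (ResidueField ↥A))]

/-- **The rational lattice off the cusps.**  Every Gauss-integral `f` regular off the cusps (the
poles of `j`) has `G.red f = ∑ l, c̄ l • G.red (g l)` with `c l ∈ A` and `g l` Gauss-integral, FIXED
by `G_ℚ` and regular off the cusps. -/
theorem exists_fixed_comb_off_cusps (H : Hyp (gaussDatum1 N A hr hA hrN) gL gk)
    (f : ↥(gaussDatum1 N A hr hA hrN).O)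
    (hf : ∀ P : Place Kb ↥(F1Bar N), 0 ≤ P.ord (jgen1 N) →
      ((f : ↥(gaussDatum1 N A hr hA hrN).O) : ↥(F1Bar N)) = 0 ∨
        0 ≤ P.ord ((f : ↥(gaussDatum1 N A hr hA hrN).O) : ↥(F1Bar N))) :
    ∃ (d : ℕ) (g : Fin d → ↥(gaussDatum1 N A hr hA hrN).O) (c : Fin d → ↥A),
      (∀ l, (∀ σ : GQ, rho (F1 N) σ ((g l : ↥(gaussDatum1 N A hr hA hrN).O) : ↥(F1Bar N)) =
          (g l : ↥(gaussDatum1 N A hr hA hrN).O)) ∧
        ∀ P : Place Kb ↥(F1Bar N), 0 ≤ P.ord (jgen1 N) →
          ((g l : ↥(gaussDatum1 N A hr hA hrN).O) : ↥(F1Bar N)) = 0 ∨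
            0 ≤ P.ord ((g l : ↥(gaussDatum1 N A hr hA hrN).O) : ↥(F1Bar N))) ∧
      (gaussDatum1 N A hr hA hrN).red f =
        ∑ l, residue ↥A (c l) • (gaussDatum1 N A hr hA hrN).red (g l) := by
  set E : Divisor Kb ↥(F1Bar N) := FibreSep.poleDiv (isFF_jgen1 N) (isSeparable_jgen1 N) with hE
  have hEapp : ∀ v, E v = max (-v.ord (jgen1 N)) 0 := fun v =>
    FibreSep.poleDiv_apply (isFF_jgen1 N) (isSeparable_jgen1 N) v
  have hE0 : 0 ≤ E := by
    rw [Finsupp.le_def]
    intro v
    rw [hEapp]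
    simp
  obtain ⟨m, hm⟩ := exists_mem_nsmul hE0
    ((f : ↥(gaussDatum1 N A hr hA hrN).O) : ↥(F1Bar N)) (fun P hP => by
      apply hf P
      have := hEapp P
      rw [hP] at this
      omega)
  have hfm := hm m le_rfl
  haveI : FiniteDimensional Kb (riemannRochSpace (m • E)) := H.riemannL.finite (m • E)
  have hinv : ∀ σ : GQ, arithmeticGalois (F1 N) σ • (m • E) = m • E :=
    smul_eq_of_ord (fun σ => rho_jgen1 σ) (φ := fun n => (m : ℤ) * max (-n) 0) (fun v => by
      rw [Finsupp.smul_apply, hEapp, nsmul_eq_mul])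
  obtain ⟨d, g, hg, -, hcomb⟩ := exists_fixed_comb hr hA hrN (m • E) hinv
  obtain ⟨c, hc⟩ := hcomb f hfm
  refine ⟨d, g, c, fun l => ⟨(hg l).2, fun P hP => ?_⟩, hc⟩
  rcases (mem_riemannRochSpace_iff.mp (hg l).1) P with h | h
  · exact Or.inl h
  · right
    rw [Finsupp.smul_apply, hEapp P] at h
    have : max (-P.ord (jgen1 N)) 0 = 0 := by omega
    rw [this] at h
    simpa using h

end Main

end Fermat.Agent.S43.LG1.Ig.RatLift
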