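/-
PROJECT R (row 37 by S43), gate, IG (owner helper17, cut #6315 (5)), brick IG-Y, THE EXISTENCE HALF
(helper25): **at every finite place `b` of `κ(X₁(N))` there is a pair `(g, g')` feeding helper11's
test function `y = α(δ⁻¹ g) - (β g')^r`** (`Ig/TestFrob.exists_test`).

`r ∤ N` a prime, `A ∣ r` a valuation subring of `ℚ̄`, `κ` its residue field, `G = Seam.gaussDatum1`,
`(V₁, red₁)` the Gauss datum of `E'' = ℚ̄(X₁(N; r))` for the `q`-expansion (`C1/GaussPairX1`).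

* `Qr = V₁ ⧸ (r)` has characteristic `r`; `fB x = [β x]`, `gA x = [α x]^r : G.O →+* Qr`;
  `hcong_iff : TestFrob.HCong hA x x' ↔ fB x = gA x'`;
* `fB_toL`, `fB_eq_gA_of_fixed` : **every `G_ℚ`-fixed Gauss-integral function `x` satisfies
  `β x ≡ (α x)^r mod r V₁`** (`x = P / Q`, `P, Q` `ℤ`-integral, `Q̄ ≠ 0`; the locus `fB = gA` is a
  subring closed under inverses of units and contains the `ℤ`-integral functions, by
  `TestFrob.hcong_of_series`);
* `hcong_sum` : `HCong (∑ c l • g l) (∑ c' l • g l)` for fixed `g l` and `c' l ^ r = c l` in `A`;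
* **`exists_test_pair`** : for `b` with `0 ≤ ord_b j̄` there are `g, g' ∈ G.O`, regular off the cusps,
  with `HCong hA g g'` and `ord_b (d̄⁻¹ (G.red g)) = 1`
  (`G.red g = d̄ p`, `p` a parameter at `b` regular off the cusps; lifted by
  `LevelMSurjX1.exists_lift_off_cusps1`, rewritten in the rational lattice of `Ig/RatLift`);
* **`exists_test_at`** : the package `(y1, y2, ..)` of `TestFrob.exists_test` at every such `b`.
-/
import Mathlib
import Fermat.Agent.S18.A.PoleBridge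
import Fermat.Agent.S43.LG1.C1.FrobKSepGen
import Fermat.Agent.S43.LG1.Ig.RatLift
import Fermat.Agent.S43.LG1.Ig.TestFrob

set_option autoImplicit false
set_option linter.unusedSectionVars false
set_option linter.style.haveILetI false
set_option synthInstance.maxHeartbeats 400000

noncomputable section

namespace Fermat.Agent.S43.LG1.Ig.Test

open HahnSeries ModularCurve AlgebraicCurve IsLocalRing IntermediateField
open Fermat.Agent.S48.B.Defs.Model Fermat.Agent.S48.B.B1.Seams Fermat.Agent.S48.B.ES.DegreeBeta1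
open Fermat.Agent.S48.B.Red.Seams (jC)
open Fermat.Agent.S48.B.Red.Bases1.Core
open Fermat.Agent.S37.Deuring.Core Fermat.Agent.S37.Deuring.GaussLemmas
open Fermat.Agent.S43.LG1.C1.Seam Fermat.Agent.S43.LG1.C1.GaussPairX1
open Fermat.Agent.S43.LG1.C1.DiamondRed1
open Fermat.Agent.S43.LG1.Ig.RatLift Fermat.Agent.S43.LG1.Ig.TestFrob

local notation "Kb" => AlgebraicClosure ℚ
local notation "GQ" => (AlgebraicClosure ℚ ≃ₐ[ℚ] AlgebraicClosure ℚ)

attribute [local instance] algShortcut1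

/-! ### `r`-adic normalisation of a `ℤ`-series -/

section Series

/-- a nonzero Laurent series over `ℤ` is a power of `r` times a series which is nonzero mod `r` -/
theorem exists_pow_smul_int (r : ℕ) [hrF : Fact r.Prime] (y : LaurentSeries ℤ) (hy : y ≠ 0) :
    ∃ (a : ℕ) (y' : LaurentSeries ℤ), y = ((r : ℤ) ^ a) • y' ∧
      coeffMap (Int.castRingHom (ZMod r)) y' ≠ 0 := by
  obtain ⟨n₀, hn₀⟩ : ∃ n₀, y.coeff n₀ ≠ 0 := by
    by_contra h
    simp only [not_exists, not_not] at h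
    exact hy (HahnSeries.ext (funext h))
  obtain ⟨m, hm⟩ : ∃ m, (y.coeff n₀).natAbs = m := ⟨_, rfl⟩
  induction m using Nat.strong_induction_on generalizing y with
  | _ m ih =>
    by_cases h0 : coeffMap (Int.castRingHom (ZMod r)) y = 0
    · obtain ⟨y₁, rfl⟩ :=
        Fermat.Agent.S48.B.Igusa.Saturate.exists_smul_of_coeffMap_eq_zero r y h0
      have hc : (((r : ℤ)) • y₁).coeff n₀ = (r : ℤ) * y₁.coeff n₀ := by
        rw [HahnSeries.coeff_smul, smul_eq_mul]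
      have hy₁ : y₁.coeff n₀ ≠ 0 := by
        intro h
        apply hn₀
        rw [hc, h, mul_zero]
      have hlt : (y₁.coeff n₀).natAbs < m := by
        rw [← hm, hc, Int.natAbs_mul, Int.natAbs_natCast]
        have h1 : 0 < (y₁.coeff n₀).natAbs := Int.natAbs_pos.mpr hy₁
        have h2 := hrF.out.two_le
        nlinarith
      have hy₁0 : y₁ ≠ 0 := by
        rintro rfl
        exact hy₁ (HahnSeries.coeff_zero)
      obtain ⟨a, y', hy', hne⟩ := ih _ hlt y₁ hy₁0 hy₁ rfl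
      refine ⟨a + 1, y', ?_, hne⟩
      rw [hy', pow_succ', mul_smul]
    · exact ⟨0, y, by rw [pow_zero, one_smul], h0⟩

end Series

/-! ### the congruence locus -/

section Locus

variable {r : ℕ} [hrF : Fact r.Prime] {N : ℕ} [NeZero N] {A : ValuationSubring Kb}
variable (hr : r.Prime) (hA : A.LiesOverPrime r) (hrN : ¬ r ∣ N) [NeZero r]

/-- the constants of `A` in `V₁` -/
def cV (hA : A.LiesOverPrime r) : ↥A →+* ↥(V₁ N A hA) where
  toFun a := ⟨algebraMap Kb ↥(F1pBar N r) (a : Kb), (gaussDatum₁ N A hA).algebraMap_mem a⟩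
  map_one' := Subtype.ext (by simp)
  map_mul' _ _ := Subtype.ext (by simp)
  map_zero' := Subtype.ext (by simp)
  map_add' _ _ := Subtype.ext (by simp)

/-- `α` on the Gauss rings -/
def aV : ↥(gaussDatum1 N A hr hA hrN).O →+* ↥(V₁ N A hA) where
  toFun x := ⟨alpha1 N r Kb (x : ↥(F1Bar N)), (alpha_mem_V₁_iff hr hA hrN _).mpr x.2⟩
  map_one' := Subtype.ext (by simp)
  map_mul' _ _ := Subtype.ext (by simp)
  map_zero' := Subtype.ext (by simp)
  map_add' _ _ := Subtype.ext (by simp)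

/-- `β` on the Gauss rings -/
def bV : ↥(gaussDatum1 N A hr hA hrN).O →+* ↥(V₁ N A hA) where
  toFun x := ⟨beta1 N r Kb (x : ↥(F1Bar N)), beta_mem_V₁ hr hA hrN x.2⟩
  map_one' := Subtype.ext (by simp)
  map_mul' _ _ := Subtype.ext (by simp)
  map_zero' := Subtype.ext (by simp)
  map_add' _ _ := Subtype.ext (by simp)

@[simp] theorem coe_aV (x : ↥(gaussDatum1 N A hr hA hrN).O) :
    ((aV hr hA hrN x : ↥(V₁ N A hA)) : ↥(F1pBar N r)) = alpha1 N r Kb (x : ↥(F1Bar N)) := rfl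

@[simp] theorem coe_bV (x : ↥(gaussDatum1 N A hr hA hrN).O) :
    ((bV hr hA hrN x : ↥(V₁ N A hA)) : ↥(F1pBar N r)) = beta1 N r Kb (x : ↥(F1Bar N)) := rfl

@[simp] theorem coe_cV (a : ↥A) :
    ((cV (N := N) hA a : ↥(V₁ N A hA)) : ↥(F1pBar N r)) =
      algebraMap Kb ↥(F1pBar N r) (a : Kb) := rfl

theorem aV_constHom (a : ↥A) :
    aV hr hA hrN (constHom (gaussDatum1 N A hr hA hrN) a) = cV hA a :=
  Subtype.ext (by rw [coe_aV, coe_constHom, coe_cV, AlgHom.commutes])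

theorem bV_constHom (a : ↥A) :
    bV hr hA hrN (constHom (gaussDatum1 N A hr hA hrN) a) = cV hA a :=
  Subtype.ext (by rw [coe_bV, coe_constHom, coe_cV, AlgHom.commutes])

/-- `r` is not a unit of `V₁` -/
theorem natCast_mem_nonunits_V₁ : ((r : ℕ) : ↥(V₁ N A hA)) ∈ nonunits ↥(V₁ N A hA) := by
  have h1 : ((r : ℕ) : ↥(V₁ N A hA)) = cV hA ((r : ℕ) : ↥A) := (map_natCast (cV hA) r).symm
  rw [h1, mem_nonunits_iff, ← (gaussDatum₁ N A hA).red_eq_zero_iff]
  have := (gaussDatum₁ N A hA).red_algebraMap ((r : ℕ) : ↥A)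
  rw [map_natCast, Fermat.Agent.S18.ResidueBasics.residue_natCast_eq_zero A hA, map_zero] at this
  exact this

/-- `V₁ ⧸ (r)` -/
abbrev Qr (N : ℕ) [NeZero N] {r : ℕ} [Fact r.Prime] [NeZero r] (A : ValuationSubring Kb)
    (hA : A.LiesOverPrime r) : Type :=
  ↥(V₁ N A hA) ⧸ Ideal.span {((r : ℕ) : ↥(V₁ N A hA))}

/-- `V₁ ⧸ (r)` has characteristic `r` -/
instance charP_Qr : CharP (Qr N A hA) r :=
  CharP.quotient ↥(V₁ N A hA) r (natCast_mem_nonunits_V₁ hA)

/-- `x ↦ [β x]` -/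
def fB : ↥(gaussDatum1 N A hr hA hrN).O →+* Qr N A hA :=
  (Ideal.Quotient.mk _).comp (bV hr hA hrN)

/-- `x ↦ [α x] ^ r` -/
def gA : ↥(gaussDatum1 N A hr hA hrN).O →+* Qr N A hA :=
  (frobenius (Qr N A hA) r).comp ((Ideal.Quotient.mk _).comp (aV hr hA hrN))

theorem fB_apply (x : ↥(gaussDatum1 N A hr hA hrN).O) :
    fB hr hA hrN x = Ideal.Quotient.mk _ (bV hr hA hrN x) := rfl

theorem gA_apply (x : ↥(gaussDatum1 N A hr hA hrN).O) :
    gA hr hA hrN x = (Ideal.Quotient.mk _ (aV hr hA hrN x)) ^ r := rfl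

/-- **`HCong` is an equation in `V₁ ⧸ (r)`** -/
theorem hcong_iff (x x' : ↥(gaussDatum1 N A hr hA hrN).O) :
    HCong hA (x : ↥(F1Bar N)) (x' : ↥(F1Bar N)) ↔ fB hr hA hrN x = gA hr hA hrN x' := by
  rw [fB_apply, gA_apply, ← map_pow, Ideal.Quotient.eq, Ideal.mem_span_singleton']
  constructor
  · rintro ⟨K, hKV, hK⟩
    refine ⟨⟨K, hKV⟩, Subtype.ext ?_⟩
    show K * (((r : ℕ) : ↥(V₁ N A hA)) : ↥(F1pBar N r)) =
      beta1 N r Kb (x : ↥(F1Bar N)) - alpha1 N r Kb (x' : ↥(F1Bar N)) ^ r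
    rw [hK, map_natCast, mul_comm]
    rfl
  · rintro ⟨K, hK⟩
    refine ⟨(K : ↥(F1pBar N r)), K.2, ?_⟩
    have h : (K : ↥(F1pBar N r)) * (((r : ℕ) : ↥(V₁ N A hA)) : ↥(F1pBar N r)) =
        beta1 N r Kb (x : ↥(F1Bar N)) - alpha1 N r Kb (x' : ↥(F1Bar N)) ^ r :=
      congrArg (fun z : ↥(V₁ N A hA) => (z : ↥(F1pBar N r))) hK
    rw [map_natCast, mul_comm]
    exact h.symm

theorem fB_constHom (a : ↥A) :
    fB hr hA hrN (constHom (gaussDatum1 N A hr hA hrN) a) = Ideal.Quotient.mk _ (cV hA a) := by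
  rw [fB_apply, bV_constHom]

theorem gA_constHom (a : ↥A) :
    gA hr hA hrN (constHom (gaussDatum1 N A hr hA hrN) a) =
      Ideal.Quotient.mk _ (cV hA (a ^ r)) := by
  rw [gA_apply, aV_constHom, map_pow, map_pow]

/-! #### the locus `fB = gA` -/

/-- the congruence locus: a subring of the Gauss ring -/
def locus : Subring ↥(gaussDatum1 N A hr hA hrN).O :=
  RingHom.eqLocus (fB hr hA hrN) (gA hr hA hrN)

theorem mem_locus {x : ↥(gaussDatum1 N A hr hA hrN).O} :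
    x ∈ locus hr hA hrN ↔ fB hr hA hrN x = gA hr hA hrN x := Iff.rfl

/-- the locus is closed under inverses -/
theorem inv_mem_locus {x y : ↥(gaussDatum1 N A hr hA hrN).O} (hx : x ∈ locus hr hA hrN)
    (hxy : x * y = 1) : y ∈ locus hr hA hrN := by
  rw [mem_locus] at hx ⊢
  have h1 : fB hr hA hrN x * fB hr hA hrN y = 1 := by rw [← map_mul, hxy, map_one]
  have h2 : gA hr hA hrN x * gA hr hA hrN y = 1 := by rw [← map_mul, hxy, map_one]
  calc fB hr hA hrN y = fB hr hA hrN y * (gA hr hA hrN x * gA hr hA hrN y) := by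
        rw [h2, mul_one]
    _ = (fB hr hA hrN x * fB hr hA hrN y) * gA hr hA hrN y := by rw [← hx]; ring
    _ = gA hr hA hrN y := by rw [h1, one_mul]

/-- **`ℤ`-integral rational functions lie in the locus** (`P(q^r) ≡ P(q)^r mod r`) -/
theorem toL_mem_locus (P : ↥(intZ N)) :
    (⟨toL N Kb P, toL_mem_O1 hr hA hrN P⟩ : ↥(gaussDatum1 N A hr hA hrN).O) ∈
      locus hr hA hrN := by
  rw [mem_locus, ← hcong_iff]
  have hP : ((toL N Kb P : ↥(F1Bar N)) : LaurentSeries Kb) =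
      coeffMap A.subtype (coeffMap (Int.castRingHom ↥A) P.1) := by
    rw [coe_toL, coeffMap_coeffMap]
    exact coeffMap_congr (RingHom.ext_int _ _) _
  exact hcong_of_series hA hP hP (fun n => intCast_frob_fixed r P.1 n)

/-! #### fixed functions lie in the locus -/

include hA in
/-- a `ℤ`-series vanishes in `κ` iff it vanishes mod `r` -/
theorem coeffMap_res_eq_zero_iff (y : LaurentSeries ℤ) :
    coeffMap (Int.castRingHom (ResidueField ↥A)) y = 0 ↔
      coeffMap (Int.castRingHom (ZMod r)) y = 0 := by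
  haveI := charP_res (A := A) hA
  constructor
  · intro h
    ext n
    have h1 := congrArg (fun z : LaurentSeries (ResidueField ↥A) => z.coeff n) h
    simp only [coeffMap_coeff, HahnSeries.coeff_zero, eq_intCast] at h1 ⊢
    rw [ZMod.intCast_zmod_eq_zero_iff_dvd]
    exact (CharP.intCast_eq_zero_iff (ResidueField ↥A) r _).mp h1
  · intro h
    ext n
    have h1 := congrArg (fun z : LaurentSeries (ZMod r) => z.coeff n) h
    simp only [coeffMap_coeff, HahnSeries.coeff_zero, eq_intCast] at h1 ⊢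
    rw [ZMod.intCast_zmod_eq_zero_iff_dvd] at h1
    exact (CharP.intCast_eq_zero_iff (ResidueField ↥A) r _).mpr h1

/-- `r • y ∈ intZ N → y ∈ intZ N` -/
theorem mem_intZ_of_smul (y : LaurentSeries ℤ) (h : ((r : ℕ) : ℤ) • y ∈ intZ N) : y ∈ intZ N :=
  Fermat.Agent.S48.B.Igusa.Saturate.intZ_sat r (F1 N) y h

theorem mem_intZ_of_pow_smul (a : ℕ) (y : LaurentSeries ℤ)
    (h : (((r : ℕ) : ℤ) ^ a) • y ∈ intZ N) : y ∈ intZ N := by
  induction a with
  | zero => rwa [pow_zero, one_smul] at h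
  | succ a ih =>
    rw [pow_succ', mul_smul] at h
    exact ih (mem_intZ_of_smul _ h)

/-- `toL (r • y) = r * toL y` in the Gauss ring -/
theorem toL_smul_O (y : LaurentSeries ℤ) (hy : y ∈ intZ N) (hy' : ((r : ℕ) : ℤ) • y ∈ intZ N) :
    (⟨toL N Kb ⟨((r : ℕ) : ℤ) • y, hy'⟩, toL_mem_O1 hr hA hrN _⟩ :
      ↥(gaussDatum1 N A hr hA hrN).O) =
      ((r : ℕ) : ↥(gaussDatum1 N A hr hA hrN).O) * ⟨toL N Kb ⟨y, hy⟩, toL_mem_O1 hr hA hrN _⟩ := by
  apply Subtype.ext
  apply Subtype.ext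
  show ((toL N Kb ⟨((r : ℕ) : ℤ) • y, hy'⟩ : ↥(F1Bar N)) : LaurentSeries Kb) =
    ((((r : ℕ) : ↥(gaussDatum1 N A hr hA hrN).O) : ↥(F1Bar N)) : LaurentSeries Kb) *
      ((toL N Kb ⟨y, hy⟩ : ↥(F1Bar N)) : LaurentSeries Kb)
  rw [coe_toL, coe_toL]
  show coeffMap (Int.castRingHom Kb) (((r : ℕ) : ℤ) • y) = _
  rw [map_zsmul, zsmul_eq_mul]
  simp

/-- the reduction of `r` vanishes -/
theorem red_natCast_eq_zero :
    (gaussDatum1 N A hr hA hrN).red ((r : ℕ) : ↥(gaussDatum1 N A hr hA hrN).O) = 0 := by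
  have h := (gaussDatum1 N A hr hA hrN).red_algebraMap ((r : ℕ) : ↥A)
  rw [map_natCast, Fermat.Agent.S18.ResidueBasics.residue_natCast_eq_zero A hA, map_zero] at h
  rw [← h]
  congr 1
  apply Subtype.ext
  simp

/-- descending induction: `x * r ^ b * Q' = P` with `P`, `Q'` `ℤ`-integral forces `x * Q' = P'` -/
theorem exists_toL_eq_of_pow (x qO : ↥(gaussDatum1 N A hr hA hrN).O) (b : ℕ) (P : ↥(intZ N))
    (h : x * ((r : ℕ) : ↥(gaussDatum1 N A hr hA hrN).O) ^ b * qO =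
      ⟨toL N Kb P, toL_mem_O1 hr hA hrN P⟩) :
    ∃ P' : ↥(intZ N), x * qO = ⟨toL N Kb P', toL_mem_O1 hr hA hrN P'⟩ := by
  induction b generalizing P with
  | zero => exact ⟨P, by rw [← h, pow_zero, mul_one]⟩
  | succ b ih =>
    have hred : (gaussDatum1 N A hr hA hrN).red ⟨toL N Kb P, toL_mem_O1 hr hA hrN P⟩ = 0 := by
      rw [← h, map_mul, map_mul, map_pow, red_natCast_eq_zero, zero_pow (Nat.succ_ne_zero b),
        mul_zero, zero_mul]
    rw [red_toL1] at hred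
    have h0 : coeffMap (Int.castRingHom (ResidueField ↥A)) P.1 = 0 := by
      have := congrArg (fun z : ↥(F1C N (ResidueField ↥A)) =>
        (z : LaurentSeries (ResidueField ↥A))) hred
      simpa only [coe_redZ, ZeroMemClass.coe_zero] using this
    obtain ⟨P₁, hP₁⟩ := Fermat.Agent.S48.B.Igusa.Saturate.exists_smul_of_coeffMap_eq_zero r P.1
      ((coeffMap_res_eq_zero_iff hA P.1).mp h0)
    have hmem' : ((r : ℕ) : ℤ) • P₁ ∈ intZ N := hP₁ ▸ P.2
    have hmem : P₁ ∈ intZ N := mem_intZ_of_smul P₁ hmem'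
    have hPeq : P = ⟨((r : ℕ) : ℤ) • P₁, hmem'⟩ := Subtype.ext hP₁
    have hr0 : ((r : ℕ) : ↥(gaussDatum1 N A hr hA hrN).O) ≠ 0 := by
      intro h0
      have h1 := congrArg (fun z : ↥(gaussDatum1 N A hr hA hrN).O => (z : ↥(F1Bar N))) h0
      simp only [ZeroMemClass.coe_zero] at h1
      have h2 : (((r : ℕ) : ↥(gaussDatum1 N A hr hA hrN).O) : ↥(F1Bar N)) =
          ((r : ℕ) : ↥(F1Bar N)) := by simp
      rw [h2] at h1
      exact hrF.out.ne_zero (by exact_mod_cast h1)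
    apply ih ⟨P₁, hmem⟩
    apply mul_left_cancel₀ hr0
    rw [← toL_smul_O hr hA hrN P₁ hmem hmem', ← hPeq, ← h, pow_succ]
    ring

/-- **every `G_ℚ`-fixed Gauss-integral function lies in the locus**: `β x ≡ (α x)^r mod r V₁` -/
theorem mem_locus_of_fixed (x : ↥(gaussDatum1 N A hr hA hrN).O)
    (hx : ∀ σ : GQ, rho (F1 N) σ ((x : ↥(gaussDatum1 N A hr hA hrN).O) : ↥(F1Bar N)) =
      (x : ↥(gaussDatum1 N A hr hA hrN).O)) : x ∈ locus hr hA hrN := by
  obtain ⟨z₀, hz₀⟩ := exists_emb_eq_of_fixed (F1 N) hx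
  obtain ⟨P, Q, hP, hQ, hQ0, hPQ⟩ := Fermat.Agent.S48.B.Igusa.Final.ratio_F1 N z₀ z₀.2
  have hQne : Q ≠ 0 := by
    rintro rfl
    exact hQ0 (map_zero _)
  obtain ⟨b, Q', hQQ', hQ'ne⟩ := exists_pow_smul_int r Q hQne
  have hQ'mem : Q' ∈ intZ N := mem_intZ_of_pow_smul b Q' (hQQ' ▸ hQ)
  have hPmem : P ∈ intZ N := hP
  set qO : ↥(gaussDatum1 N A hr hA hrN).O :=
    ⟨toL N Kb ⟨Q', hQ'mem⟩, toL_mem_O1 hr hA hrN _⟩ with hqO
  -- the identity `x * r ^ b * Q' = P`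
  have hid : x * ((r : ℕ) : ↥(gaussDatum1 N A hr hA hrN).O) ^ b * qO =
      ⟨toL N Kb ⟨P, hPmem⟩, toL_mem_O1 hr hA hrN _⟩ := by
    apply Subtype.ext
    apply Subtype.ext
    show (((x : ↥(gaussDatum1 N A hr hA hrN).O) : ↥(F1Bar N)) : LaurentSeries Kb) *
        (((((r : ℕ) : ↥(gaussDatum1 N A hr hA hrN).O) ^ b :
          ↥(gaussDatum1 N A hr hA hrN).O) : ↥(F1Bar N)) : LaurentSeries Kb) *
        ((toL N Kb ⟨Q', hQ'mem⟩ : ↥(F1Bar N)) : LaurentSeries Kb) =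
      ((toL N Kb ⟨P, hPmem⟩ : ↥(F1Bar N)) : LaurentSeries Kb)
    have h1 := congrArg (coeffEmb Kb) hPQ
    rw [map_mul, ← coeffMap_intCast_eq, ← coeffMap_intCast_eq, hQQ', map_zsmul, zsmul_eq_mul] at h1
    rw [coe_toL, coe_toL, ← h1, ← hz₀, coe_emb]
    have h2 : (((((r : ℕ) : ↥(gaussDatum1 N A hr hA hrN).O) ^ b :
        ↥(gaussDatum1 N A hr hA hrN).O) : ↥(F1Bar N)) : LaurentSeries Kb) =
        ((((r : ℕ) : ℤ) ^ b : ℤ) : LaurentSeries Kb) := by
      simp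
    rw [h2]
    ring
  obtain ⟨P', hP'⟩ := exists_toL_eq_of_pow hr hA hrN x qO b ⟨P, hPmem⟩ hid
  -- `Q'` is a unit of the Gauss ring
  have hred : (gaussDatum1 N A hr hA hrN).red qO ≠ 0 := by
    rw [hqO, red_toL1]
    intro h0
    have := congrArg (fun z : ↥(F1C N (ResidueField ↥A)) =>
      (z : LaurentSeries (ResidueField ↥A))) h0
    simp only [coe_redZ, ZeroMemClass.coe_zero] at this
    exact hQ'ne ((coeffMap_res_eq_zero_iff hA Q').mp this)
  have hqu : IsUnit qO := by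
    by_contra h
    exact hred (((gaussDatum1 N A hr hA hrN).red_eq_zero_iff qO).mpr h)
  obtain ⟨v, hv⟩ := hqu.exists_right_inv
  have hxv : x = ⟨toL N Kb P', toL_mem_O1 hr hA hrN P'⟩ * v := by
    rw [← hP', mul_assoc, hv, mul_one]
  rw [hxv]
  exact Subring.mul_mem _ (toL_mem_locus hr hA hrN P')
    (inv_mem_locus hr hA hrN (toL_mem_locus hr hA hrN ⟨Q', hQ'mem⟩) hv)

/-- **the congruence for `A`-linear combinations of fixed functions**: `c' l ^ r = c l` -/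
theorem hcong_sum {d : ℕ} (g : Fin d → ↥(gaussDatum1 N A hr hA hrN).O)
    (hg : ∀ l, ∀ σ : GQ, rho (F1 N) σ ((g l : ↥(gaussDatum1 N A hr hA hrN).O) : ↥(F1Bar N)) =
      (g l : ↥(gaussDatum1 N A hr hA hrN).O))
    (c c' : Fin d → ↥A) (hc : ∀ l, c' l ^ r = c l) :
    HCong hA
      ((∑ l, constHom (gaussDatum1 N A hr hA hrN) (c l) * g l :
        ↥(gaussDatum1 N A hr hA hrN).O) : ↥(F1Bar N))
      ((∑ l, constHom (gaussDatum1 N A hr hA hrN) (c' l) * g l :
        ↥(gaussDatum1 N A hr hA hrN).O) : ↥(F1Bar N)) := by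
  rw [hcong_iff, map_sum, map_sum]
  refine Finset.sum_congr rfl fun l _ => ?_
  rw [map_mul, map_mul, fB_constHom, gA_constHom, hc l,
    (mem_locus hr hA hrN).mp (mem_locus_of_fixed hr hA hrN (g l) (hg l))]

end Locus


/-! ### the pair `(g, g')` at a finite place -/

section Main

open Fermat.Agent.S43.LG1.C1.FrobKGen (holo Dp ord_d)
open Fermat.Agent.S43.LG1.C1.LevelMSurjX1 (isFF_jC1 isSeparable_jC1 exists_lift_off_cusps1)

variable {r : ℕ} [hrF : Fact r.Prime] {N : ℕ} [NeZero N] {A : ValuationSubring Kb}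
variable (hr : r.Prime) (hA : A.LiesOverPrime r) (hrN : ¬ r ∣ N) [NeZero r]
variable {gL gk : ℕ}
variable [HasPrincipalDivisors Kb ↥(F1Bar N)]
variable [HasPrincipalDivisors (ResidueField ↥A) ↥(F1C N (ResidueField ↥A))]

/-- **IG-Y, existence.**  At every place `b` of `κ(X₁(N))` which is not a cusp there are
Gauss-integral `g, g'`, regular off the cusps, with `β g ≡ (α g')^r mod r V₁` and `d̄⁻¹ (G.red g)` a
parameter at `b`. -/
theorem exists_test_pair (H : Hyp (gaussDatum1 N A hr hA hrN) gL gk)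
    (b : Place (ResidueField ↥A) ↥(F1C N (ResidueField ↥A)))
    (hb : 0 ≤ b.ord (jC N (ResidueField ↥A))) :
    ∃ (g g' : ↥(F1Bar N)) (hgO : g ∈ (gaussDatum1 N A hr hA hrN).O)
      (_ : g' ∈ (gaussDatum1 N A hr hA hrN).O),
      HCong hA g g' ∧
      (∀ Q : Place Kb ↥(F1Bar N), 0 ≤ Q.ord (jgen1 N) → g = 0 ∨ 0 ≤ Q.ord g) ∧
      (∀ Q : Place Kb ↥(F1Bar N), 0 ≤ Q.ord (jgen1 N) → g' = 0 ∨ 0 ≤ Q.ord g') ∧
      b.ord ((dbar1 hr hA hrN).symm ((gaussDatum1 N A hr hA hrN).red ⟨g, hgO⟩) -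
        algebraMap (ResidueField ↥A) ↥(F1C N (ResidueField ↥A)) 0) = 1 := by
  classical
  haveI : IsAlgClosed (ResidueField ↥A) :=
    Fermat.Agent.S18.ResidueBasics.isAlgClosed_residueField A
  set d := dbar1 hr hA hrN with hd
  -- a parameter at `b`, regular off the cusps
  set S : Set (Place (ResidueField ↥A) ↥(F1C N (ResidueField ↥A))) :=
    {v | v.ord (jC N (ResidueField ↥A)) < 0} with hS
  obtain ⟨Q0, hQ0⟩ := Fermat.Agent.S18.A.PoleBridge.exists_pole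
    (isFF_jC1 (igusaDegN N) hr hrN hA) (isSeparable_jC1 (igusaDegN N) hr hrN hA)
  have hbS : b ∉ S := fun h => absurd hb (not_le.mpr h)
  obtain ⟨p, hp, hp1⟩ := Fermat.Agent.S43.LG1.C1.FrobKSepGen.exists_holo_param H.riemannK
    (S := S) (Q0 := Q0) hQ0 hbS
  have hp0 : p ≠ 0 := by
    rintro rfl
    rw [Place.ord_zero] at hp1
    exact zero_ne_one hp1
  -- `d̄ p` is regular off the cusps
  have hdp0 : d p ≠ 0 := (map_ne_zero_iff _ d.injective).mpr hp0
  have hreg : ∀ Q : Place (ResidueField ↥A) ↥(F1C N (ResidueField ↥A)),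
      0 ≤ Q.ord (jC N (ResidueField ↥A)) → d p = 0 ∨ 0 ≤ Q.ord (d p) := by
    intro Q hQ
    right
    rw [ord_d d Q p]
    have hQS : (Dp d).symm Q ∉ S := by
      intro h
      have h1 : ((Dp d).symm Q).ord (jC N (ResidueField ↥A)) < 0 := h
      rw [← ord_d d Q, hd, dbar1_jC] at h1
      exact absurd hQ (not_le.mpr h1)
    exact (Fermat.Agent.S24.Ord.ord_nonneg_iff _ hp0).mpr
      ((Fermat.Agent.S24.Ord.mem_iff _ p).mp (hp _ hQS))
  -- lift to the Gauss ring, regular off the cusps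
  obtain ⟨f, hfred, hfreg⟩ := exists_lift_off_cusps1 (igusaDegN N) hr hrN hA H (d p) hreg
  -- rewrite the reduction in the rational lattice
  obtain ⟨n, gl, c, hgl, hcomb⟩ := exists_fixed_comb_off_cusps hr hA hrN H f hfreg
  choose c' hc' using fun l => exists_pow_eq hr (c l)
  set g₁ : ↥(gaussDatum1 N A hr hA hrN).O := ∑ l, constHom (gaussDatum1 N A hr hA hrN) (c l) * gl l with hg₁
  set g₂ : ↥(gaussDatum1 N A hr hA hrN).O := ∑ l, constHom (gaussDatum1 N A hr hA hrN) (c' l) * gl l with hg₂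
  have hreg_sum : ∀ (e : Fin n → ↥A) (Q : Place Kb ↥(F1Bar N)), 0 ≤ Q.ord (jgen1 N) →
      ((∑ l, constHom (gaussDatum1 N A hr hA hrN) (e l) * gl l : ↥(gaussDatum1 N A hr hA hrN).O) : ↥(F1Bar N)) = 0 ∨
        0 ≤ Q.ord ((∑ l, constHom (gaussDatum1 N A hr hA hrN) (e l) * gl l : ↥(gaussDatum1 N A hr hA hrN).O) : ↥(F1Bar N)) := by
    intro e Q hQ
    by_cases h0 : ((∑ l, constHom (gaussDatum1 N A hr hA hrN) (e l) * gl l : ↥(gaussDatum1 N A hr hA hrN).O) : ↥(F1Bar N)) = 0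
    · exact Or.inl h0
    right
    rw [Fermat.Agent.S24.Ord.ord_nonneg_iff _ h0, ← Fermat.Agent.S24.Ord.mem_iff]
    have hcoe : ((∑ l, constHom (gaussDatum1 N A hr hA hrN) (e l) * gl l : ↥(gaussDatum1 N A hr hA hrN).O) : ↥(F1Bar N)) =
        ∑ l, algebraMap Kb ↥(F1Bar N) ((e l : ↥A) : Kb) * ((gl l : ↥(gaussDatum1 N A hr hA hrN).O) : ↥(F1Bar N)) := by
      rw [show ((∑ l, constHom (gaussDatum1 N A hr hA hrN) (e l) * gl l : ↥(gaussDatum1 N A hr hA hrN).O) : ↥(F1Bar N)) =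
        (gaussDatum1 N A hr hA hrN).O.subtype (∑ l, constHom (gaussDatum1 N A hr hA hrN) (e l) * gl l) from rfl, map_sum]
      rfl
    rw [hcoe]
    refine Subring.sum_mem _ fun l _ => Subring.mul_mem _ (Q.algebraMap_mem' _) ?_
    rcases (hgl l).2 Q hQ with h | h
    · rw [h]
      exact Subring.zero_mem _
    · by_cases hz : ((gl l : ↥(gaussDatum1 N A hr hA hrN).O) : ↥(F1Bar N)) = 0
      · rw [hz]
        exact Subring.zero_mem _
      · exact (Fermat.Agent.S24.Ord.mem_iff _ _).mpr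
          ((Fermat.Agent.S24.Ord.ord_nonneg_iff _ hz).mp h)
  have hred₁ : (gaussDatum1 N A hr hA hrN).red g₁ = d p := by
    have hfred' : (gaussDatum1 N A hr hA hrN).red f = d p := hfred
    rw [← hfred', hcomb, hg₁, map_sum]
    refine Finset.sum_congr rfl fun l _ => ?_
    rw [map_mul, red_constHom, Algebra.smul_def]
  refine ⟨(g₁ : ↥(F1Bar N)), (g₂ : ↥(F1Bar N)), g₁.2, g₂.2,
    hcong_sum hr hA hrN gl (fun l => (hgl l).1) c c' hc', hreg_sum c, hreg_sum c', ?_⟩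
  have h1 : (⟨(g₁ : ↥(F1Bar N)), g₁.2⟩ : ↥(gaussDatum1 N A hr hA hrN).O) = g₁ := rfl
  rw [h1, hred₁, AlgEquiv.symm_apply_apply, map_zero, sub_zero]
  exact hp1

/-- **IG-Y, assembled** : the input tuple `(y1, y2, hy, hycusp, hred1, hyb)` of `Ig/Thick.ord_le`
(helper11's `TestFrob.exists_test`) at every place `b` of `κ(X₁(N))` which is not a cusp. -/
theorem exists_test_at (hα : (alpha1 N r Kb).toRingHom.IsIntegral)
    (hβ : (beta1 N r Kb).toRingHom.IsIntegral)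
    (H : Hyp (gaussDatum1 N A hr hA hrN) gL gk)
    (b : Place (ResidueField ↥A) ↥(F1C N (ResidueField ↥A)))
    (hb : 0 ≤ b.ord (jC N (ResidueField ↥A))) :
    ∃ (y1 : ↥(V₁ N A hA)) (y2 : ↥(V₂ hr hA hrN)),
      (y1 : ↥(F1pBar N r)) =
        algebraMap Kb ↥(F1pBar N r) ((((r : ℕ) : ↥A) : ↥A) : Kb) * (y2 : ↥(F1pBar N r)) ∧
      (∀ P : Place Kb ↥(F1pBar N r), P.ord (y1 : ↥(F1pBar N r)) < 0 →
        P.ord (Fermat.Agent.S43.LG1.C1.CuspRegularX1.jE1 N r) < 0) ∧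
      red₁ hr hA hrN y1 ≠ 0 ∧
      (0 < b.ord (red₁ hr hA hrN y1) → b.ord (red₁ hr hA hrN y1) = 1) := by
  obtain ⟨g, g', hgO, hgO', hcong, hgp, hgp', hu⟩ := exists_test_pair hr hA hrN H b hb
  exact exists_test hr hA hrN hα hβ hgO hgO' hcong hgp hgp' b 0 hu

end Main

end Fermat.Agent.S43.LG1.Ig.Test
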