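/-
PROJECT R (row 37 by S43), gate, IG (owner helper17), brick IG-Y, THE EXIT AT THE NODES (helper25):
**the input tuple `(y1, y2, hy, hycusp, hred1, hyb)` of `Ig/Thick.ord_le` exists at BOTH node places
`Fr2X1 a` (first component) and `a` (second component) of every `a` which is not a cusp**, in
particular at every `a ∈ Y.S` for the pair `(X, Y)` of `C1/CoreZX1.exists_inputs`
(whose export is `a ∉ FrobSideX1.P0 (hJ1 N κ)`).

* `ord_jC_nonneg_of_not_mem_P0`, `Fr2X1_not_mem_P0`, `FrX1_not_mem_P0` : the cusps of `κ(X₁(N))` are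
  stable under the two maps of `C1/CoreZX1Assembly`;
* `exists_test_node`  : the tuple of `TestFrob.exists_test` at `b := a`, from `a ∉ P0`;
* `exists_test_node₁` : the tuple at `b := Fr2X1 a`, from `a ∉ P0`;
* `exists_test_nodes` : both, for every `a` of a finite set `S` off `P0` (the literal of
  `CoreZX1.exists_inputs`' last conjunct is accepted as it stands).
No hypothesis on integrality of `α`, `β` is left (`Generic/FibX1.isIntegral_alpha1/beta1`).
-/
import Mathlib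
import Fermat.Agent.S43.LG1.C1.CoreZX1Assembly
import Fermat.Agent.S43.LG1.C1.Euler.FrobSideX1
import Fermat.Agent.S43.LG1.Ig.Test

set_option autoImplicit false
set_option linter.unusedSectionVars false
set_option linter.style.haveILetI false
set_option synthInstance.maxHeartbeats 400000

noncomputable section

namespace Fermat.Agent.S43.LG1.Ig.TestNode

open ModularCurve AlgebraicCurve IsLocalRing
open Fermat.Agent.S48.B.Defs.Model Fermat.Agent.S48.B.B1.Seams Fermat.Agent.S48.B.ES.DegreeBeta1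
open Fermat.Agent.S48.B.Red.Seams (jC)
open Fermat.Agent.S37.Deuring.Core
open Fermat.Agent.S43.LG1.C1.Seam Fermat.Agent.S43.LG1.C1.GaussPairX1
open Fermat.Agent.S43.LG1.C1.DiamondRed1
open Fermat.Agent.S43.LG1.C1.ResidueFrobX1 (hC1 hJ1)
open Fermat.Agent.S43.LG1.C1.CoreZX1Assembly (FrX1 Fr2X1)
open Fermat.Agent.S43.LG1.C1.Euler.FrobSideX1 (P0 mem_P0)

local notation "Kb" => AlgebraicClosure ℚ

attribute [local instance] algShortcut1

/-- shortcut instance (a proposition) -/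
local instance instACkT (A : ValuationSubring Kb) : IsAlgClosed (ResidueField ↥A) :=
  Fermat.Agent.S18.ResidueBasics.isAlgClosed_residueField A

variable {r : ℕ} [hrF : Fact r.Prime] {N : ℕ} [NeZero N] {A : ValuationSubring Kb}
variable (hr : r.Prime) (hA : A.LiesOverPrime r) (hrN : ¬ r ∣ N) [NeZero r]
variable {gL gk : ℕ}
variable [HasPrincipalDivisors Kb ↥(F1Bar N)]
variable [HasPrincipalDivisors (ResidueField ↥A) ↥(F1C N (ResidueField ↥A))]
variable [CharP (ResidueField ↥A) r]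

/-- a place off `P0` is not a pole of `j̄` (in the literal of `Ig/Test.exists_test_at`) -/
theorem ord_jC_nonneg_of_not_mem_P0
    (b : Place (ResidueField ↥A) ↥(F1C N (ResidueField ↥A)))
    (hb : b ∉ P0 (hJ1 N (ResidueField ↥A))) : 0 ≤ b.ord (jC N (ResidueField ↥A)) :=
  not_lt.mp hb

omit [HasPrincipalDivisors Kb ↥(F1Bar N)]
  [HasPrincipalDivisors (ResidueField ↥A) ↥(F1C N (ResidueField ↥A))] in
/-- the Frobenius on places preserves the complement of the cusps -/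
theorem FrX1_not_mem_P0 (b : Place (ResidueField ↥A) ↥(F1C N (ResidueField ↥A)))
    (hb : b ∉ P0 (hJ1 N (ResidueField ↥A))) :
    FrX1 A N r b ∉ P0 (hJ1 N (ResidueField ↥A)) :=
  Fermat.Agent.S43.LG1.C1.Euler.FrobSideX1.Fr_not_mem_P0 (hC1 N (ResidueField ↥A))
    (hJ1 N (ResidueField ↥A)) r b hb

/-- the second map `Fr' = D⁻¹ ∘ Fr` preserves the complement of the cusps -/
theorem Fr2X1_not_mem_P0 (b : Place (ResidueField ↥A) ↥(F1C N (ResidueField ↥A)))
    (hb : b ∉ P0 (hJ1 N (ResidueField ↥A))) :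
    Fr2X1 hr hA hrN b ∉ P0 (hJ1 N (ResidueField ↥A)) :=
  Fermat.Agent.S43.LG1.C1.Euler.FrobSideX1.FrD_not_mem_P0 (hC1 N (ResidueField ↥A))
    (hJ1 N (ResidueField ↥A)) r (dbar1 hr hA hrN) (dbar1_jC hr hA hrN) b hb

/-- **the test tuple at the node place of the second component** -/
theorem exists_test_node (H : Hyp (gaussDatum1 N A hr hA hrN) gL gk)
    (a : Place (ResidueField ↥A) ↥(F1C N (ResidueField ↥A)))
    (ha : a ∉ P0 (hJ1 N (ResidueField ↥A))) :
    ∃ (y1 : ↥(V₁ N A hA)) (y2 : ↥(V₂ hr hA hrN)),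
      (y1 : ↥(F1pBar N r)) =
        algebraMap Kb ↥(F1pBar N r) ((((r : ℕ) : ↥A) : ↥A) : Kb) * (y2 : ↥(F1pBar N r)) ∧
      (∀ P : Place Kb ↥(F1pBar N r), P.ord (y1 : ↥(F1pBar N r)) < 0 →
        P.ord (Fermat.Agent.S43.LG1.C1.CuspRegularX1.jE1 N r) < 0) ∧
      red₁ hr hA hrN y1 ≠ 0 ∧
      (0 < a.ord (red₁ hr hA hrN y1) → a.ord (red₁ hr hA hrN y1) = 1) :=
  Fermat.Agent.S43.LG1.Ig.Test.exists_test_at hr hA hrN
    (Fermat.Agent.S43.LG1.C1.Generic.FibX1.isIntegral_alpha1 hr hrN)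
    (Fermat.Agent.S43.LG1.C1.Generic.FibX1.isIntegral_beta1 hr hrN) H a
    (ord_jC_nonneg_of_not_mem_P0 a ha)

/-- **the test tuple at the node place of the first component**, `b := Fr2X1 a` -/
theorem exists_test_node₁ (H : Hyp (gaussDatum1 N A hr hA hrN) gL gk)
    (a : Place (ResidueField ↥A) ↥(F1C N (ResidueField ↥A)))
    (ha : a ∉ P0 (hJ1 N (ResidueField ↥A))) :
    ∃ (y1 : ↥(V₁ N A hA)) (y2 : ↥(V₂ hr hA hrN)),
      (y1 : ↥(F1pBar N r)) =
        algebraMap Kb ↥(F1pBar N r) ((((r : ℕ) : ↥A) : ↥A) : Kb) * (y2 : ↥(F1pBar N r)) ∧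
      (∀ P : Place Kb ↥(F1pBar N r), P.ord (y1 : ↥(F1pBar N r)) < 0 →
        P.ord (Fermat.Agent.S43.LG1.C1.CuspRegularX1.jE1 N r) < 0) ∧
      red₁ hr hA hrN y1 ≠ 0 ∧
      (0 < (Fr2X1 hr hA hrN a).ord (red₁ hr hA hrN y1) →
        (Fr2X1 hr hA hrN a).ord (red₁ hr hA hrN y1) = 1) :=
  exists_test_node hr hA hrN H (Fr2X1 hr hA hrN a) (Fr2X1_not_mem_P0 hr hA hrN a ha)

/-- **both node places of every node**, in the literal of `C1/CoreZX1.exists_inputs`' last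
conjunct (`hS` accepts it as it stands). -/
theorem exists_test_nodes (H : Hyp (gaussDatum1 N A hr hA hrN) gL gk)
    (S : Finset (Place (ResidueField ↥A) ↥(F1C N (ResidueField ↥A))))
    (hS : ∀ b ∈ S, FrX1 A N r (Fr2X1 hr hA hrN b) = b ∧ b ∉ P0 (hJ1 N (ResidueField ↥A)))
    (a : Place (ResidueField ↥A) ↥(F1C N (ResidueField ↥A))) (ha : a ∈ S) :
    (∃ (y1 : ↥(V₁ N A hA)) (y2 : ↥(V₂ hr hA hrN)),
      (y1 : ↥(F1pBar N r)) =
        algebraMap Kb ↥(F1pBar N r) ((((r : ℕ) : ↥A) : ↥A) : Kb) * (y2 : ↥(F1pBar N r)) ∧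
      (∀ P : Place Kb ↥(F1pBar N r), P.ord (y1 : ↥(F1pBar N r)) < 0 →
        P.ord (Fermat.Agent.S43.LG1.C1.CuspRegularX1.jE1 N r) < 0) ∧
      red₁ hr hA hrN y1 ≠ 0 ∧
      (0 < (Fr2X1 hr hA hrN a).ord (red₁ hr hA hrN y1) →
        (Fr2X1 hr hA hrN a).ord (red₁ hr hA hrN y1) = 1)) ∧
    ∃ (y1 : ↥(V₁ N A hA)) (y2 : ↥(V₂ hr hA hrN)),
      (y1 : ↥(F1pBar N r)) =
        algebraMap Kb ↥(F1pBar N r) ((((r : ℕ) : ↥A) : ↥A) : Kb) * (y2 : ↥(F1pBar N r)) ∧
      (∀ P : Place Kb ↥(F1pBar N r), P.ord (y1 : ↥(F1pBar N r)) < 0 →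
        P.ord (Fermat.Agent.S43.LG1.C1.CuspRegularX1.jE1 N r) < 0) ∧
      red₁ hr hA hrN y1 ≠ 0 ∧
      (0 < a.ord (red₁ hr hA hrN y1) → a.ord (red₁ hr hA hrN y1) = 1) :=
  ⟨exists_test_node₁ hr hA hrN H a (hS a ha).2, exists_test_node hr hA hrN H a (hS a ha).2⟩

end Fermat.Agent.S43.LG1.Ig.TestNode
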