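/-
PROJECT R (row 37 by S43), gate G2* / LG1Hyp, node IG (helper26): **THE INSTANCE OF `Ig/NodeT` AT
helper18's EXPLICIT RECORD `C1/ExitC2.XOf`: (T) AT BOTH PLACES OF EVERY NODE, NO TEST-FUNCTION
HYPOTHESIS AND NO HYPOTHESIS ON `cuspL` LEFT.**

`Ig/NodeT.isCoprime_ord_nodes` needs `{poles of j} ⊆ Y.cuspL` (the gluing clause `Hyp2.glue0` is
only as strong as `cuspL` is large); the node record with `Y.cuspL` identified is helper18's
`C1/NodesCuspX1.exists_nodes_cusp` / `exists_nodes_hcuspL`.  The test functions at the two places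
of a node are helper25's `Ig/TestNode.exists_test_nodes`.

* `testAt_nodes` : `TestAt (Fr2X1 a) ∧ TestAt a` for every `a ∈ Y.S`;
* **`isCoprime_ord_XOf`** : for ANY `Y : NodesC1 (XOf hr hA hrN HM)` with the two supplements
  (`hS` = the node condition and `b ∉ P0`, `hcuspL`), every `a ∈ Y.S`:
  `IsCoprime ((Fr2X1 a).ord θ₀) m ∧ IsCoprime (a.ord θ₀) m`;
* `ord_uS_bounds_XOf` : the thickness bounds at the two places;
* **`exists_nodes_T`** : the one call: `∃ Y`, the two supplements (`cuspL` in the IFF form of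
  `NodesCuspX1`) and (T) at every node.
-/
import Fermat.Agent.S43.LG1.C1.NodesCuspX1
import Fermat.Agent.S43.LG1.Ig.NodeT
import Fermat.Agent.S43.LG1.Ig.TestNode

set_option autoImplicit false
set_option linter.unusedSectionVars false
set_option linter.style.haveILetI false
set_option synthInstance.maxHeartbeats 400000

noncomputable section

namespace Fermat.Agent.S43.LG1.Ig.NodeTInst

open ModularCurve AlgebraicCurve IsLocalRing
open Fermat.Agent.S18.NonSpecial Fermat.Agent.S34.NodalDefs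
open Fermat.Agent.S37.Deuring.Core
open Fermat.Agent.S34.Generic.Compat Fermat.Agent.S34.Generic.RestrAlong
open Fermat.Agent.S34.Generic.SmoothRedOfGeneric
open Fermat.Agent.S48.B.Defs.Model Fermat.Agent.S48.B.B1.Seams
open Fermat.Agent.S48.B.ES.DegreeBeta1
open Fermat.Agent.S43.LG1.C1.Seam Fermat.Agent.S43.LG1.C1.Z1X1
open Fermat.Agent.S43.LG1.C1.CoreZX1Datum Fermat.Agent.S43.LG1.C1.CoreZX1Assembly
open Fermat.Agent.S43.LG1.C1.CoreZX1Build Fermat.Agent.S43.LG1.C1.ResidueFrobX1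
open Fermat.Agent.S43.LG1.C1.CoreZX1OfGeneric
open Fermat.Agent.S43.LG1.C1.Generic.BranchX1 Fermat.Agent.S43.LG1.C1.Generic.GoodKGen
open Fermat.Agent.S43.LG1.C1.CuspRegularX1 (jE1)
open Fermat.Agent.S43.LG1.C1.ExitC2 (XOf)
open Fermat.Agent.S43.LG1.Ig.NodeT

local notation "Kb" => AlgebraicClosure ℚ

attribute [local instance] algShortcut1

/-- shortcut instances (all propositions) -/
local instance instPDBar1 (N : ℕ) [NeZero N] : HasPrincipalDivisors Kb ↥(F1Bar N) :=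
  Fermat.Agent.S48.B.Inj.Basics.hasPrincipalDivisors_L
    (Fermat.Agent.S43.LG1.C1.LevelMSurjX1.isFF_jgen1 N)

local instance instACk1 (A : ValuationSubring Kb) : IsAlgClosed (ResidueField ↥A) :=
  Fermat.Agent.S18.ResidueBasics.isAlgClosed_residueField A

variable {r : ℕ} [hrF : Fact r.Prime] {N : ℕ} [NeZero N] {A : ValuationSubring Kb} [NeZero r]
variable {hr : r.Prime} {hA : A.LiesOverPrime r} {hrN : ¬ r ∣ N}
variable [HasPrincipalDivisors Kb ↥(F1pBar N r)]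
variable [HasPrincipalDivisors (ResidueField ↥A) ↥(F1C N (ResidueField ↥A))]
variable [CharP (ResidueField ↥A) r]

variable {gM : ℕ} {HM : RiemannHyp (ResidueField ↥A) ↥(F1C N (ResidueField ↥A)) gM}

/-- the test functions at the two places of a node (helper25's `Ig/TestNode`) -/
theorem testAt_nodes (Y : NodesC1 (XOf hr hA hrN HM))
    (hS : ∀ b ∈ Y.S, FrX1 A N r (Fr2X1 hr hA hrN b) = b ∧
      b ∉ Fermat.Agent.S43.LG1.C1.Euler.FrobSideX1.P0 (hJ1 N (ResidueField ↥A)))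
    {a : Place (ResidueField ↥A) ↥(F1C N (ResidueField ↥A))} (ha : a ∈ Y.S) :
    TestAt hr hA hrN (Fr2X1 hr hA hrN a) ∧ TestAt hr hA hrN a :=
  Fermat.Agent.S43.LG1.Ig.TestNode.exists_test_nodes hr hA hrN (HX1 hr hA hrN HM) Y.S hS a ha

/-- **(T) AT BOTH PLACES OF EVERY NODE of `nodalC1 (XOf …) Y`**, for any node record `Y` with the
two supplements of `exists_nodes_cusp`; `hθ hj h6` in the literal of `Ig/NodeOrd`. -/
theorem isCoprime_ord_XOf (Y : NodesC1 (XOf hr hA hrN HM))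
    (hS : ∀ b ∈ Y.S, FrX1 A N r (Fr2X1 hr hA hrN b) = b ∧
      b ∉ Fermat.Agent.S43.LG1.C1.Euler.FrobSideX1.P0 (hJ1 N (ResidueField ↥A)))
    (hcuspL : ∀ P : Place Kb ↥(F1pBar N r), P.ord (jE1 N r) < 0 → P ∈ Y.cuspL)
    {a : Place (ResidueField ↥A) ↥(F1C N (ResidueField ↥A))} (ha : a ∈ Y.S)
    {n m : ℕ} (hn : 2 * n = r - 1) (hm : m ∣ n)
    {c₀ : ResidueField ↥A} (hc₀ : c₀ ≠ 0) (θ₀ jS : ↥(F1C N (ResidueField ↥A)))
    (hθ : (θ₀ : LaurentSeries (ResidueField ↥A)) =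
      HahnSeries.C c₀ * qExpand (ResidueField ↥A) N (wNorm (ResidueField ↥A)) ^ n)
    (hj : (jS : LaurentSeries (ResidueField ↥A)) =
      qExpand (ResidueField ↥A) N (jqModC (ResidueField ↥A)))
    (h6₁ : (6 : ℤ) ∣ 2 * (Fr2X1 hr hA hrN a).ord jS + 3 * (Fr2X1 hr hA hrN a).ord (jS - 1728))
    (h6₂ : (6 : ℤ) ∣ 2 * a.ord jS + 3 * a.ord (jS - 1728)) :
    IsCoprime ((Fr2X1 hr hA hrN a).ord θ₀) (m : ℤ) ∧ IsCoprime (a.ord θ₀) (m : ℤ) :=
  isCoprime_ord_nodes (XOf hr hA hrN HM) rfl Y hcuspL ha (testAt_nodes Y hS ha).1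
    (testAt_nodes Y hS ha).2 hn hm hc₀ θ₀ jS hθ hj h6₁ h6₂

/-- the thickness of every node of `nodalC1 (XOf …) Y` -/
theorem ord_uS_bounds_XOf (Y : NodesC1 (XOf hr hA hrN HM))
    (hS : ∀ b ∈ Y.S, FrX1 A N r (Fr2X1 hr hA hrN b) = b ∧
      b ∉ Fermat.Agent.S43.LG1.C1.Euler.FrobSideX1.P0 (hJ1 N (ResidueField ↥A)))
    (hcuspL : ∀ P : Place Kb ↥(F1pBar N r), P.ord (jE1 N r) < 0 → P ∈ Y.cuspL)
    {a : Place (ResidueField ↥A) ↥(F1C N (ResidueField ↥A))} (ha : a ∈ Y.S) :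
    (1 ≤ (Fr2X1 hr hA hrN a).ord (uS hr hA hrN) ∧ (Fr2X1 hr hA hrN a).ord (uS hr hA hrN) ≤ 12) ∧
      (1 ≤ a.ord (uS hr hA hrN) ∧ a.ord (uS hr hA hrN) ≤ 12) :=
  ord_uS_bounds_nodes (XOf hr hA hrN HM) rfl Y hcuspL ha (testAt_nodes Y hS ha).1
    (testAt_nodes Y hS ha).2

variable (hr hA hrN HM)

/-- **THE ONE CALL**: the node record over `XOf hr hA hrN HM` with its two supplements and (T) at
both places of every node. -/
theorem exists_nodes_T : ∃ Y : NodesC1 (XOf hr hA hrN HM),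
    (∀ b ∈ Y.S, FrX1 A N r (Fr2X1 hr hA hrN b) = b ∧
      b ∉ Fermat.Agent.S43.LG1.C1.Euler.FrobSideX1.P0 (hJ1 N (ResidueField ↥A))) ∧
    (∀ P : Place Kb ↥(F1pBar N r), P ∈ Y.cuspL ↔ P.ord (jE1 N r) < 0) ∧
    ∀ a ∈ Y.S, ∀ {n m : ℕ}, 2 * n = r - 1 → m ∣ n → ∀ {c₀ : ResidueField ↥A}, c₀ ≠ 0 →
      ∀ θ₀ jS : ↥(F1C N (ResidueField ↥A)),
        (θ₀ : LaurentSeries (ResidueField ↥A)) =
          HahnSeries.C c₀ * qExpand (ResidueField ↥A) N (wNorm (ResidueField ↥A)) ^ n →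
        (jS : LaurentSeries (ResidueField ↥A)) =
          qExpand (ResidueField ↥A) N (jqModC (ResidueField ↥A)) →
        (6 : ℤ) ∣ 2 * (Fr2X1 hr hA hrN a).ord jS + 3 * (Fr2X1 hr hA hrN a).ord (jS - 1728) →
        (6 : ℤ) ∣ 2 * a.ord jS + 3 * a.ord (jS - 1728) →
        IsCoprime ((Fr2X1 hr hA hrN a).ord θ₀) (m : ℤ) ∧ IsCoprime (a.ord θ₀) (m : ℤ) := by
  obtain ⟨Y, hS, hcusp⟩ :=
    Fermat.Agent.S43.LG1.C1.NodesCuspX1.exists_nodes_cusp hr hA hrN HM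
  exact ⟨Y, hS, hcusp, fun a ha n m hn hm c₀ hc₀ θ₀ jS hθ hj h6₁ h6₂ =>
    isCoprime_ord_XOf Y hS (fun P hP => (hcusp P).mpr hP) ha hn hm hc₀ θ₀ jS hθ hj h6₁ h6₂⟩

end Fermat.Agent.S43.LG1.Ig.NodeTInst

end
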