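/-
PROJECT R (row 37 by S43), gate G2* / LG1Hyp, node IG (helper26): **(T) AT BOTH PLACES OF EVERY
NODE OF `X₁(N; r)` MOD `r` (`N ≥ 4`), WITH NO HYPOTHESIS LEFT BESIDES THE `q`-SERIES OF `θ₀`, `jS`.**

`Ig/NodeTInst.isCoprime_ord_XOf` with its last two hypotheses `h6₁ h6₂` discharged by helper15's
`Ig/EllCusp.six_dvd_eps_of_ord_jC` (`6 ∣ 2 ord_b jS + 3 ord_b (jS - 1728)` at every place `b` of
`κ(X₁(N))` which is not a pole of `j̄(q)`): the two places `Fr2X1 a`, `a` of a node are off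
`P0 = {poles of j̄(q)}` (`hS` and helper25's `TestNode.Fr2X1_not_mem_P0`).

* `six_dvd_nodes` : `h6` at the two places of a node;
* **`isCoprime_ord_full`** : for ANY `Y : NodesC1 (XOf hr hA hrN HM)` with the two supplements
  of helper18's `C1/NodesCuspX1.exists_nodes_hcuspL`, every `a ∈ Y.S`, every `m ∣ n`, `2 n = r - 1`:
  `IsCoprime ((Fr2X1 a).ord θ₀) m ∧ IsCoprime (a.ord θ₀) m`;
* `hcop1`, `hcop2` : the same in the literal of helper4's `Ig/WireC1.principalPairH_C1`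
  (`∀ j : {b // b ∈ Y.S}`, at `(nodalC1 X Y).e1 j`, `.e2 j`);
* `hcop1_theta`, `hcop2_theta` : the same with `jS := EllPlug.jS N A` plugged (only `hθ` left);
* `hcop1_half`, `hcop2_half` : the same with `n := (r - 1) / 2` literally (`r ≠ 2`), the shape of
  helper16's `Ig/GenV.exists_kummerH_gaussV` (`θ₀ := red₁ θ`, `c₀ := c0 ^ m`);
* **`exists_nodes_T_full`** : the one call.
-/
import Fermat.Agent.S43.LG1.Ig.NodeTInst
import Fermat.Agent.S43.LG1.Ig.EllCusp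

set_option autoImplicit false
set_option linter.unusedSectionVars false
set_option linter.style.haveILetI false
set_option synthInstance.maxHeartbeats 400000

noncomputable section

namespace Fermat.Agent.S43.LG1.Ig.NodeTFull

open ModularCurve AlgebraicCurve IsLocalRing
open Fermat.Agent.S18.NonSpecial Fermat.Agent.S34.NodalDefs
open Fermat.Agent.S37.Deuring.Core
open Fermat.Agent.S48.B.Defs.Model Fermat.Agent.S48.B.B1.Seams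
open Fermat.Agent.S48.B.ES.DegreeBeta1
open Fermat.Agent.S43.LG1.C1.Seam
open Fermat.Agent.S43.LG1.C1.CoreZX1Assembly
open Fermat.Agent.S43.LG1.C1.CoreZX1Build Fermat.Agent.S43.LG1.C1.ResidueFrobX1
open Fermat.Agent.S43.LG1.C1.CoreZX1OfGeneric
open Fermat.Agent.S43.LG1.C1.CuspRegularX1 (jE1)
open Fermat.Agent.S43.LG1.C1.ExitC2 (XOf)
open Fermat.Agent.S43.LG1.Ig.NodeT Fermat.Agent.S43.LG1.Ig.NodeTInst

local notation "Kb" => AlgebraicClosure ℚ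

attribute [local instance] algShortcut1

/-- shortcut instances (all propositions) -/
local instance instPDBar1 (N : ℕ) [NeZero N] : HasPrincipalDivisors Kb ↥(F1Bar N) :=
  Fermat.Agent.S48.B.Inj.Basics.hasPrincipalDivisors_L
    (Fermat.Agent.S43.LG1.C1.LevelMSurjX1.isFF_jgen1 N)

local instance instACk1 (A : ValuationSubring Kb) : IsAlgClosed (ResidueField ↥A) :=
  Fermat.Agent.S18.ResidueBasics.isAlgClosed_residueField A

variable {r : ℕ} [hrF : Fact r.Prime] {N : ℕ} [NeZero N] {A : ValuationSubring Kb} [NeZero r]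
variable {hr : r.Prime} {hA : A.LiesOverPrime r} {hrN : ¬ r ∣ N}
variable [HasPrincipalDivisors Kb ↥(F1pBar N r)]
variable [HasPrincipalDivisors (ResidueField ↥A) ↥(F1C N (ResidueField ↥A))]
variable [CharP (ResidueField ↥A) r]
variable {gM : ℕ} {HM : RiemannHyp (ResidueField ↥A) ↥(F1C N (ResidueField ↥A)) gM}

/-- **`h6` at the two places of a node** (helper15's `Ig/EllCusp`) -/
theorem six_dvd_nodes (hN : 4 ≤ N) (Y : NodesC1 (XOf hr hA hrN HM))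
    (hS : ∀ b ∈ Y.S, FrX1 A N r (Fr2X1 hr hA hrN b) = b ∧
      b ∉ Fermat.Agent.S43.LG1.C1.Euler.FrobSideX1.P0 (hJ1 N (ResidueField ↥A)))
    {a : Place (ResidueField ↥A) ↥(F1C N (ResidueField ↥A))} (ha : a ∈ Y.S)
    (jS : ↥(F1C N (ResidueField ↥A)))
    (hj : (jS : LaurentSeries (ResidueField ↥A)) =
      qExpand (ResidueField ↥A) N (jqModC (ResidueField ↥A))) :
    (6 : ℤ) ∣ 2 * (Fr2X1 hr hA hrN a).ord jS + 3 * (Fr2X1 hr hA hrN a).ord (jS - 1728) ∧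
      (6 : ℤ) ∣ 2 * a.ord jS + 3 * a.ord (jS - 1728) := by
  have ha0 := (hS a ha).2
  exact ⟨Fermat.Agent.S43.LG1.Ig.EllCusp.six_dvd_eps_of_ord_jC (igusaDegN N) hr hrN hA
      (HX1 hr hA hrN HM) hN jS hj (Fr2X1 hr hA hrN a)
      (Fermat.Agent.S43.LG1.Ig.TestNode.ord_jC_nonneg_of_not_mem_P0 _
        (Fermat.Agent.S43.LG1.Ig.TestNode.Fr2X1_not_mem_P0 hr hA hrN a ha0)),
    Fermat.Agent.S43.LG1.Ig.EllCusp.six_dvd_eps_of_ord_jC (igusaDegN N) hr hrN hA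
      (HX1 hr hA hrN HM) hN jS hj a
      (Fermat.Agent.S43.LG1.Ig.TestNode.ord_jC_nonneg_of_not_mem_P0 a ha0)⟩

/-- **(T) AT BOTH PLACES OF EVERY NODE of `nodalC1 (XOf …) Y`, `N ≥ 4`**: the only inputs left are
the `q`-series of `θ₀` and of `jS`. -/
theorem isCoprime_ord_full (hN : 4 ≤ N) (Y : NodesC1 (XOf hr hA hrN HM))
    (hS : ∀ b ∈ Y.S, FrX1 A N r (Fr2X1 hr hA hrN b) = b ∧
      b ∉ Fermat.Agent.S43.LG1.C1.Euler.FrobSideX1.P0 (hJ1 N (ResidueField ↥A)))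
    (hcuspL : ∀ P : Place Kb ↥(F1pBar N r), P.ord (jE1 N r) < 0 → P ∈ Y.cuspL)
    {a : Place (ResidueField ↥A) ↥(F1C N (ResidueField ↥A))} (ha : a ∈ Y.S)
    {n m : ℕ} (hn : 2 * n = r - 1) (hm : m ∣ n)
    {c₀ : ResidueField ↥A} (hc₀ : c₀ ≠ 0) (θ₀ jS : ↥(F1C N (ResidueField ↥A)))
    (hθ : (θ₀ : LaurentSeries (ResidueField ↥A)) =
      HahnSeries.C c₀ * qExpand (ResidueField ↥A) N (wNorm (ResidueField ↥A)) ^ n)
    (hj : (jS : LaurentSeries (ResidueField ↥A)) =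
      qExpand (ResidueField ↥A) N (jqModC (ResidueField ↥A))) :
    IsCoprime ((Fr2X1 hr hA hrN a).ord θ₀) (m : ℤ) ∧ IsCoprime (a.ord θ₀) (m : ℤ) :=
  isCoprime_ord_XOf Y hS hcuspL ha hn hm hc₀ θ₀ jS hθ hj
    (six_dvd_nodes hN Y hS ha jS hj).1 (six_dvd_nodes hN Y hS ha jS hj).2

/-- **`hcop1` of helper4's `Ig/WireC1.principalPairH_C1`**, letter for letter (`m := Y.m`) -/
theorem hcop1 (hN : 4 ≤ N) (Y : NodesC1 (XOf hr hA hrN HM))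
    (hS : ∀ b ∈ Y.S, FrX1 A N r (Fr2X1 hr hA hrN b) = b ∧
      b ∉ Fermat.Agent.S43.LG1.C1.Euler.FrobSideX1.P0 (hJ1 N (ResidueField ↥A)))
    (hcuspL : ∀ P : Place Kb ↥(F1pBar N r), P.ord (jE1 N r) < 0 → P ∈ Y.cuspL)
    {n m : ℕ} (hn : 2 * n = r - 1) (hm : m ∣ n)
    {c₀ : ResidueField ↥A} (hc₀ : c₀ ≠ 0) (θ₀ jS : ↥(F1C N (ResidueField ↥A)))
    (hθ : (θ₀ : LaurentSeries (ResidueField ↥A)) =
      HahnSeries.C c₀ * qExpand (ResidueField ↥A) N (wNorm (ResidueField ↥A)) ^ n)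
    (hj : (jS : LaurentSeries (ResidueField ↥A)) =
      qExpand (ResidueField ↥A) N (jqModC (ResidueField ↥A))) :
    ∀ j : {b // b ∈ Y.S},
      IsCoprime (((nodalC1 (XOf hr hA hrN HM) Y).e1 j).ord θ₀) (m : ℤ) :=
  fun j => (isCoprime_ord_full hN Y hS hcuspL j.2 hn hm hc₀ θ₀ jS hθ hj).1

/-- **`hcop2` of helper4's `Ig/WireC1.principalPairH_C1`**, letter for letter (`m := Y.m`) -/
theorem hcop2 (hN : 4 ≤ N) (Y : NodesC1 (XOf hr hA hrN HM))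
    (hS : ∀ b ∈ Y.S, FrX1 A N r (Fr2X1 hr hA hrN b) = b ∧
      b ∉ Fermat.Agent.S43.LG1.C1.Euler.FrobSideX1.P0 (hJ1 N (ResidueField ↥A)))
    (hcuspL : ∀ P : Place Kb ↥(F1pBar N r), P.ord (jE1 N r) < 0 → P ∈ Y.cuspL)
    {n m : ℕ} (hn : 2 * n = r - 1) (hm : m ∣ n)
    {c₀ : ResidueField ↥A} (hc₀ : c₀ ≠ 0) (θ₀ jS : ↥(F1C N (ResidueField ↥A)))
    (hθ : (θ₀ : LaurentSeries (ResidueField ↥A)) =
      HahnSeries.C c₀ * qExpand (ResidueField ↥A) N (wNorm (ResidueField ↥A)) ^ n)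
    (hj : (jS : LaurentSeries (ResidueField ↥A)) =
      qExpand (ResidueField ↥A) N (jqModC (ResidueField ↥A))) :
    ∀ j : {b // b ∈ Y.S},
      IsCoprime (((nodalC1 (XOf hr hA hrN HM) Y).e2 j).ord θ₀) (m : ℤ) :=
  fun j => (isCoprime_ord_full hN Y hS hcuspL j.2 hn hm hc₀ θ₀ jS hθ hj).2

/-- `hcop1` with `jS := EllPlug.jS N A` plugged: ONLY the `q`-series of `θ₀` is left -/
theorem hcop1_theta (hN : 4 ≤ N) (Y : NodesC1 (XOf hr hA hrN HM))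
    (hS : ∀ b ∈ Y.S, FrX1 A N r (Fr2X1 hr hA hrN b) = b ∧
      b ∉ Fermat.Agent.S43.LG1.C1.Euler.FrobSideX1.P0 (hJ1 N (ResidueField ↥A)))
    (hcuspL : ∀ P : Place Kb ↥(F1pBar N r), P.ord (jE1 N r) < 0 → P ∈ Y.cuspL)
    {n m : ℕ} (hn : 2 * n = r - 1) (hm : m ∣ n)
    {c₀ : ResidueField ↥A} (hc₀ : c₀ ≠ 0) (θ₀ : ↥(F1C N (ResidueField ↥A)))
    (hθ : (θ₀ : LaurentSeries (ResidueField ↥A)) =
      HahnSeries.C c₀ * qExpand (ResidueField ↥A) N (wNorm (ResidueField ↥A)) ^ n) :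
    ∀ j : {b // b ∈ Y.S},
      IsCoprime (((nodalC1 (XOf hr hA hrN HM) Y).e1 j).ord θ₀) (m : ℤ) :=
  hcop1 hN Y hS hcuspL hn hm hc₀ θ₀ (Fermat.Agent.S43.LG1.Ig.EllPlug.jS N A) hθ
    (Fermat.Agent.S43.LG1.Ig.EllPlug.coe_jS N A)

/-- `hcop2` with `jS := EllPlug.jS N A` plugged: ONLY the `q`-series of `θ₀` is left -/
theorem hcop2_theta (hN : 4 ≤ N) (Y : NodesC1 (XOf hr hA hrN HM))
    (hS : ∀ b ∈ Y.S, FrX1 A N r (Fr2X1 hr hA hrN b) = b ∧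
      b ∉ Fermat.Agent.S43.LG1.C1.Euler.FrobSideX1.P0 (hJ1 N (ResidueField ↥A)))
    (hcuspL : ∀ P : Place Kb ↥(F1pBar N r), P.ord (jE1 N r) < 0 → P ∈ Y.cuspL)
    {n m : ℕ} (hn : 2 * n = r - 1) (hm : m ∣ n)
    {c₀ : ResidueField ↥A} (hc₀ : c₀ ≠ 0) (θ₀ : ↥(F1C N (ResidueField ↥A)))
    (hθ : (θ₀ : LaurentSeries (ResidueField ↥A)) =
      HahnSeries.C c₀ * qExpand (ResidueField ↥A) N (wNorm (ResidueField ↥A)) ^ n) :
    ∀ j : {b // b ∈ Y.S},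
      IsCoprime (((nodalC1 (XOf hr hA hrN HM) Y).e2 j).ord θ₀) (m : ℤ) :=
  hcop2 hN Y hS hcuspL hn hm hc₀ θ₀ (Fermat.Agent.S43.LG1.Ig.EllPlug.jS N A) hθ
    (Fermat.Agent.S43.LG1.Ig.EllPlug.coe_jS N A)

/-- `2 · ((r - 1) / 2) = r - 1` for an odd prime `r` -/
theorem two_mul_half {r : ℕ} (hr : r.Prime) (hr2 : r ≠ 2) : 2 * ((r - 1) / 2) = r - 1 := by
  rcases hr.eq_two_or_odd' with h | h
  · exact absurd h hr2
  · obtain ⟨k, hk⟩ := h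
    omega

/-- `hcop1` in the literal of helper16's `Ig/GenV.exists_kummerH_gaussV` (`θ₀ = C c₀ · ν^((r-1)/2)`,
`m ∣ (r-1)/2`) -/
theorem hcop1_half (hN : 4 ≤ N) (hr2 : r ≠ 2) (Y : NodesC1 (XOf hr hA hrN HM))
    (hS : ∀ b ∈ Y.S, FrX1 A N r (Fr2X1 hr hA hrN b) = b ∧
      b ∉ Fermat.Agent.S43.LG1.C1.Euler.FrobSideX1.P0 (hJ1 N (ResidueField ↥A)))
    (hcuspL : ∀ P : Place Kb ↥(F1pBar N r), P.ord (jE1 N r) < 0 → P ∈ Y.cuspL)
    {m : ℕ} (hm : m ∣ (r - 1) / 2)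
    {c₀ : ResidueField ↥A} (hc₀ : c₀ ≠ 0) (θ₀ : ↥(F1C N (ResidueField ↥A)))
    (hθ : (θ₀ : LaurentSeries (ResidueField ↥A)) =
      HahnSeries.C c₀ * qExpand (ResidueField ↥A) N (wNorm (ResidueField ↥A)) ^ ((r - 1) / 2)) :
    ∀ j : {b // b ∈ Y.S},
      IsCoprime (((nodalC1 (XOf hr hA hrN HM) Y).e1 j).ord θ₀) (m : ℤ) :=
  hcop1_theta hN Y hS hcuspL (two_mul_half hr hr2) hm hc₀ θ₀ hθ

/-- `hcop2` in the literal of helper16's `Ig/GenV.exists_kummerH_gaussV` -/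
theorem hcop2_half (hN : 4 ≤ N) (hr2 : r ≠ 2) (Y : NodesC1 (XOf hr hA hrN HM))
    (hS : ∀ b ∈ Y.S, FrX1 A N r (Fr2X1 hr hA hrN b) = b ∧
      b ∉ Fermat.Agent.S43.LG1.C1.Euler.FrobSideX1.P0 (hJ1 N (ResidueField ↥A)))
    (hcuspL : ∀ P : Place Kb ↥(F1pBar N r), P.ord (jE1 N r) < 0 → P ∈ Y.cuspL)
    {m : ℕ} (hm : m ∣ (r - 1) / 2)
    {c₀ : ResidueField ↥A} (hc₀ : c₀ ≠ 0) (θ₀ : ↥(F1C N (ResidueField ↥A)))
    (hθ : (θ₀ : LaurentSeries (ResidueField ↥A)) =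
      HahnSeries.C c₀ * qExpand (ResidueField ↥A) N (wNorm (ResidueField ↥A)) ^ ((r - 1) / 2)) :
    ∀ j : {b // b ∈ Y.S},
      IsCoprime (((nodalC1 (XOf hr hA hrN HM) Y).e2 j).ord θ₀) (m : ℤ) :=
  hcop2_theta hN Y hS hcuspL (two_mul_half hr hr2) hm hc₀ θ₀ hθ

variable (hr hA hrN HM)

/-- **THE ONE CALL, `N ≥ 4`**: helper18's node record over `XOf hr hA hrN HM` with its two
supplements, and (T) at both places of every node. -/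
theorem exists_nodes_T_full (hN : 4 ≤ N) : ∃ Y : NodesC1 (XOf hr hA hrN HM),
    (∀ b ∈ Y.S, FrX1 A N r (Fr2X1 hr hA hrN b) = b ∧
      b ∉ Fermat.Agent.S43.LG1.C1.Euler.FrobSideX1.P0 (hJ1 N (ResidueField ↥A))) ∧
    (∀ P : Place Kb ↥(F1pBar N r), P ∈ Y.cuspL ↔ P.ord (jE1 N r) < 0) ∧
    ∀ {n m : ℕ}, 2 * n = r - 1 → m ∣ n → ∀ {c₀ : ResidueField ↥A}, c₀ ≠ 0 →
      ∀ θ₀ : ↥(F1C N (ResidueField ↥A)),
        (θ₀ : LaurentSeries (ResidueField ↥A)) =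
          HahnSeries.C c₀ * qExpand (ResidueField ↥A) N (wNorm (ResidueField ↥A)) ^ n →
        (∀ j : {b // b ∈ Y.S},
          IsCoprime (((nodalC1 (XOf hr hA hrN HM) Y).e1 j).ord θ₀) (m : ℤ)) ∧
        ∀ j : {b // b ∈ Y.S},
          IsCoprime (((nodalC1 (XOf hr hA hrN HM) Y).e2 j).ord θ₀) (m : ℤ) := by
  obtain ⟨Y, hS, hcusp⟩ :=
    Fermat.Agent.S43.LG1.C1.NodesCuspX1.exists_nodes_cusp hr hA hrN HM
  exact ⟨Y, hS, hcusp, fun hn hm _ hc₀ θ₀ hθ =>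
    ⟨hcop1_theta hN Y hS (fun P hP => (hcusp P).mpr hP) hn hm hc₀ θ₀ hθ,
      hcop2_theta hN Y hS (fun P hP => (hcusp P).mpr hP) hn hm hc₀ θ₀ hθ⟩⟩

end Fermat.Agent.S43.LG1.Ig.NodeTFull

end
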