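/-
PROJECT R (row 37 by S43), gate `LG1Hyp`, brick IG (helper3), generic valuation theory:
**THE RESIDUE FIELD OF AN EXTENSION OF A VALUATION RING INSIDE A MODEL, ITS DEGREE, ITS
AUTOMORPHISMS.**

`K ⊆ K'` fields, `A'` a valuation subring of `K'`, `A₀` a valuation subring of `K` with
`hA₀ : A'.comap (algebraMap K K') = A₀`; `ρ' : A' →+* R` a reduction map into a field `R`
(kernel = the non-units), `ρ₀ : A₀ →+* κ₀` the reduction of `A₀` ONTO a field `κ₀`, compatible with
`ρ'` through an algebra structure `κ₀ → R` (`hcompat`, in the form of `C2/Seam.BranchOver.red_base`).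

* `resIndep_of_linearIndependent` : a family of `A'` whose reductions are `κ₀`-linearly independent
  is residually independent (main's `S48/B/Val/Unique.ResIndep`); `card_le_finrank`;
* `resField` : the image of `ρ'`, an intermediate field of `R / κ₀`; `red : A' →+* resField`,
  `red_surjective`, `red_eq_zero_iff`, `red_algebraMap`;
* `finrank_resField_le` : **`[resField : κ₀] ≤ [K' : K]`** (`f ≤ n`); instances
  `finiteDimensional_resField`, `isIntegral_resField` (under `[FiniteDimensional K K']`);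
* `resAut σ hσ` : a `K`-automorphism `σ` of `K'` preserving `A'` induces a `κ₀`-automorphism of
  `resField`, `resAut_red : resAut σ hσ (red x) = red (σ x)`.

Mathlib + main's `S48/B/Val/Unique` only.
-/
import Mathlib
import Fermat.Agent.S48.B.Val.Unique

set_option autoImplicit false

noncomputable section

namespace Fermat.Agent.S43.LG1.Ig.ResDegree

open Fermat.Agent.S48.B.Val.Unique

variable {K K' : Type*} [Field K] [Field K'] [Algebra K K']

/-! ### residually independent families -/

section Family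

variable (A' : ValuationSubring K') {R κ₀ : Type*} [CommRing R] [Field κ₀] [Algebra κ₀ R]
  (ρ' : A' →+* R) (hker : ∀ x : A', ρ' x = 0 ↔ A'.valuation (x : K') < 1)
  {A₀ : ValuationSubring K} (hA₀ : A'.comap (algebraMap K K') = A₀) (ρ₀ : A₀ →+* κ₀)
  (hcompat : ∀ (a : A₀) (h : algebraMap K K' (a : K) ∈ A'),
    ρ' ⟨algebraMap K K' a, h⟩ = algebraMap κ₀ R (ρ₀ a))

include hA₀ in
/-- the base ring lies in `A'` -/
theorem algebraMap_mem (a : A₀) : algebraMap K K' (a : K) ∈ A' := by
  subst hA₀
  exact ValuationSubring.mem_comap.1 a.2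

include hker hA₀ hcompat in
/-- **Independent reductions give a residually independent family.** -/
theorem resIndep_of_linearIndependent {ι : Type*} (y : ι → A')
    (hli : LinearIndependent κ₀ (fun i => ρ' (y i))) :
    ResIndep (K := K) A' (fun i => ((y i : A') : K')) := by
  classical
  subst hA₀
  refine ⟨fun i => (y i).2, fun s c hc hlt i hi => ?_⟩
  -- the coefficients as elements of `A' ∩ K`
  set c' : ι → A'.comap (algebraMap K K') := fun j =>
    if hj : j ∈ s then ⟨c j, ValuationSubring.mem_comap.2 (hc j hj)⟩ else 0 with hc'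
  have hc's : ∀ j ∈ s, ((c' j : A'.comap (algebraMap K K')) : K) = c j := by
    intro j hj
    simp only [hc', dif_pos hj]
  set e : A'.comap (algebraMap K K') → A' := fun a =>
    ⟨algebraMap K K' a, ValuationSubring.mem_comap.1 a.2⟩ with he
  -- the combination as an element of `A'`
  set z : A' := ∑ j ∈ s, e (c' j) * y j with hz
  have hzval : (z : K') = ∑ j ∈ s, algebraMap K K' (c j) * ((y j : A') : K') := by
    have h1 : (z : K') = ∑ j ∈ s, algebraMap K K' (c' j) * ((y j : A') : K') := by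
      rw [hz]
      exact map_sum A'.subtype _ _
    rw [h1]
    refine Finset.sum_congr rfl fun j hj => ?_
    rw [hc's j hj]
  -- its reduction vanishes
  have hzero : ρ' z = 0 := by
    rw [hker, hzval]
    exact hlt
  -- hence all reduced coefficients vanish
  have hsum : ∑ j ∈ s, ρ₀ (c' j) • ρ' (y j) = 0 := by
    rw [← hzero, hz, map_sum]
    refine Finset.sum_congr rfl fun j _ => ?_
    rw [map_mul, Algebra.smul_def, ← hcompat]
  have hall := linearIndependent_iff'.1 hli s (fun j => ρ₀ (c' j)) hsum i hi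
  -- so the coefficient is a non-unit
  have h2 : ρ' (e (c' i)) = 0 := by
    rw [he, hcompat, hall, map_zero]
  have h3 := (hker _).1 h2
  rw [he] at h3
  simpa only [hc's i hi] using h3

include hker hA₀ hcompat in
/-- **`f ≤ n`, family form**: at most `[K' : K]` reductions are linearly independent. -/
theorem card_le_finrank [FiniteDimensional K K'] {ι : Type*} [Fintype ι] (y : ι → A')
    (hli : LinearIndependent κ₀ (fun i => ρ' (y i))) :
    Fintype.card ι ≤ Module.finrank K K' :=
  (resIndep_of_linearIndependent A' ρ' hker hA₀ ρ₀ hcompat y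
    hli).linearIndependent.fintype_card_le_finrank

end Family

/-! ### the residue field inside the model -/

section ResField

variable (A' : ValuationSubring K') {R κ₀ : Type*} [Field R] [Field κ₀] [Algebra κ₀ R]
  (ρ' : A' →+* R) (hker : ∀ x : A', ρ' x = 0 ↔ A'.valuation (x : K') < 1)
  {A₀ : ValuationSubring K} (hA₀ : A'.comap (algebraMap K K') = A₀) (ρ₀ : A₀ →+* κ₀)
  (hcompat : ∀ (a : A₀) (h : algebraMap K K' (a : K) ∈ A'),
    ρ' ⟨algebraMap K K' a, h⟩ = algebraMap κ₀ R (ρ₀ a))
  (hsurj : Function.Surjective ρ₀)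

/-- **the residue field of `A'` inside the model `R`**, as an intermediate field of `R / κ₀` -/
def resField : IntermediateField κ₀ R where
  toSubalgebra :=
    { ρ'.range with
      algebraMap_mem' := fun c => by
        obtain ⟨a, rfl⟩ := hsurj c
        exact ⟨_, hcompat a (algebraMap_mem A' hA₀ a)⟩ }
  inv_mem' := by
    rintro _ ⟨x, rfl⟩
    by_cases hx : ρ' x = 0
    · rw [hx, inv_zero]
      exact ⟨0, map_zero _⟩
    · have hv : ¬ A'.valuation (x : K') < 1 := fun h => hx ((hker x).2 h)
      have hx1 : A'.valuation (x : K') = 1 :=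
        le_antisymm ((A'.valuation_le_one_iff _).2 x.2) (not_lt.1 hv)
      have hx0 : (x : K') ≠ 0 := by
        intro h0
        rw [h0, map_zero] at hx1
        exact zero_ne_one hx1
      have hinv : (x : K')⁻¹ ∈ A' := by
        rw [← A'.valuation_le_one_iff, map_inv₀, hx1, inv_one]
      refine ⟨⟨(x : K')⁻¹, hinv⟩, ?_⟩
      have hmul : x * ⟨(x : K')⁻¹, hinv⟩ = 1 := Subtype.ext (mul_inv_cancel₀ hx0)
      have := congrArg ρ' hmul
      rw [map_mul, map_one] at this
      exact (eq_inv_of_mul_eq_one_right this)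

theorem mem_resField_iff (x : R) :
    x ∈ resField A' ρ' hker hA₀ ρ₀ hcompat hsurj ↔ ∃ a : A', ρ' a = x := Iff.rfl

/-- the reduction map onto the residue field -/
def red : A' →+* ↥(resField A' ρ' hker hA₀ ρ₀ hcompat hsurj) :=
  ρ'.codRestrict (resField A' ρ' hker hA₀ ρ₀ hcompat hsurj).toSubalgebra.toSubsemiring
    fun a => ⟨a, rfl⟩

theorem coe_red (a : A') : ((red A' ρ' hker hA₀ ρ₀ hcompat hsurj a :
    ↥(resField A' ρ' hker hA₀ ρ₀ hcompat hsurj)) : R) = ρ' a := rfl

theorem red_surjective : Function.Surjective (red A' ρ' hker hA₀ ρ₀ hcompat hsurj) := by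
  rintro ⟨_, ⟨a, rfl⟩⟩
  exact ⟨a, rfl⟩

theorem red_eq_zero_iff (a : A') :
    red A' ρ' hker hA₀ ρ₀ hcompat hsurj a = 0 ↔ A'.valuation (a : K') < 1 := by
  rw [← hker a, ← coe_red A' ρ' hker hA₀ ρ₀ hcompat hsurj a]
  exact ⟨fun h => by rw [h]; rfl, fun h => Subtype.ext h⟩

/-- the reduction extends the reduction of the base -/
theorem red_algebraMap (a : A₀) (h : algebraMap K K' (a : K) ∈ A') :
    red A' ρ' hker hA₀ ρ₀ hcompat hsurj ⟨algebraMap K K' a, h⟩ =
      algebraMap κ₀ ↥(resField A' ρ' hker hA₀ ρ₀ hcompat hsurj) (ρ₀ a) :=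
  Subtype.ext (hcompat a h)

/-- **`f ≤ n`**: the residue degree is at most the degree, rank form -/
theorem rank_resField_le [FiniteDimensional K K'] :
    Module.rank κ₀ ↥(resField A' ρ' hker hA₀ ρ₀ hcompat hsurj) ≤ (Module.finrank K K' : ℕ) := by
  classical
  refine rank_le fun s hs => ?_
  -- lift the family to `A'`
  choose y hy using fun i : s => ((i : ↥(resField A' ρ' hker hA₀ ρ₀ hcompat hsurj)).2 :
    ∃ a : A', ρ' a = ((i : ↥(resField A' ρ' hker hA₀ ρ₀ hcompat hsurj)) : R))
  have hli : LinearIndependent κ₀ (fun i : s => ρ' (y i)) := by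
    have h1 := hs.map' (resField A' ρ' hker hA₀ ρ₀ hcompat hsurj).val.toLinearMap
      (LinearMap.ker_eq_bot.2 Subtype.val_injective)
    have heq : (fun i : s => ρ' (y i)) =
        ⇑(resField A' ρ' hker hA₀ ρ₀ hcompat hsurj).val.toLinearMap ∘
          (fun i : s => (i : ↥(resField A' ρ' hker hA₀ ρ₀ hcompat hsurj))) := funext fun i => hy i
    rw [heq]
    exact h1
  have := card_le_finrank A' ρ' hker hA₀ ρ₀ hcompat y hli
  rwa [Fintype.card_coe] at this

/-- the residue field is finite over the residue field of the base -/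
instance finiteDimensional_resField [FiniteDimensional K K'] :
    FiniteDimensional κ₀ ↥(resField A' ρ' hker hA₀ ρ₀ hcompat hsurj) := by
  rw [FiniteDimensional, ← Module.rank_lt_aleph0_iff]
  exact lt_of_le_of_lt (rank_resField_le A' ρ' hker hA₀ ρ₀ hcompat hsurj) Cardinal.natCast_lt_aleph0

/-- the residue field is algebraic over the residue field of the base -/
instance isIntegral_resField [FiniteDimensional K K'] :
    Algebra.IsIntegral κ₀ ↥(resField A' ρ' hker hA₀ ρ₀ hcompat hsurj) :=
  Algebra.IsIntegral.of_finite _ _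

/-- **`f ≤ n`**: the residue degree is at most the degree -/
theorem finrank_resField_le [FiniteDimensional K K'] :
    Module.finrank κ₀ ↥(resField A' ρ' hker hA₀ ρ₀ hcompat hsurj) ≤ Module.finrank K K' :=
  Module.finrank_le_of_rank_le (rank_resField_le A' ρ' hker hA₀ ρ₀ hcompat hsurj)

/-! ### the automorphisms induced on the residue field -/

section Aut

variable (σ : K' ≃ₐ[K] K') (hσ : ∀ x : K', σ x ∈ A' ↔ x ∈ A')

include hσ in
theorem valuation_apply_lt_one_iff (x : K') : A'.valuation (σ x) < 1 ↔ A'.valuation x < 1 := by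
  rw [valuation_lt_one_iff, valuation_lt_one_iff, ← map_inv₀, hσ, EmbeddingLike.map_eq_zero_iff]

/-- `σ` restricted to `A'` -/
def restrictAut : A' →+* A' :=
  ((σ : K' →+* K').comp A'.subtype).codRestrict A'.toSubring fun x => (hσ x).2 x.2

theorem coe_restrictAut (x : A') : ((restrictAut A' σ hσ x : A') : K') = σ (x : K') := rfl

/-- the ring endomorphism of the residue field induced by `σ` -/
def resHom : ↥(resField A' ρ' hker hA₀ ρ₀ hcompat hsurj) →+*
    ↥(resField A' ρ' hker hA₀ ρ₀ hcompat hsurj) :=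
  RingHom.liftOfSurjective (red A' ρ' hker hA₀ ρ₀ hcompat hsurj)
    (red_surjective A' ρ' hker hA₀ ρ₀ hcompat hsurj)
    ⟨(red A' ρ' hker hA₀ ρ₀ hcompat hsurj).comp (restrictAut A' σ hσ), fun x hx => by
      rw [RingHom.mem_ker] at hx ⊢
      rw [RingHom.comp_apply, red_eq_zero_iff, coe_restrictAut,
        valuation_apply_lt_one_iff A' σ hσ]
      exact (red_eq_zero_iff A' ρ' hker hA₀ ρ₀ hcompat hsurj x).1 hx⟩

theorem resHom_red (x : A') :
    resHom A' ρ' hker hA₀ ρ₀ hcompat hsurj σ hσ (red A' ρ' hker hA₀ ρ₀ hcompat hsurj x) =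
      red A' ρ' hker hA₀ ρ₀ hcompat hsurj (restrictAut A' σ hσ x) :=
  RingHom.liftOfRightInverse_comp_apply _ _ _ _ x

include hσ in
theorem symm_mem_iff (x : K') : σ.symm x ∈ A' ↔ x ∈ A' := by
  rw [← hσ (σ.symm x), σ.apply_symm_apply]

theorem resHom_comp_symm :
    (resHom A' ρ' hker hA₀ ρ₀ hcompat hsurj σ hσ).comp
      (resHom A' ρ' hker hA₀ ρ₀ hcompat hsurj σ.symm (symm_mem_iff A' σ hσ)) =
        RingHom.id _ := by
  refine RingHom.ext fun y => ?_
  obtain ⟨x, rfl⟩ := red_surjective A' ρ' hker hA₀ ρ₀ hcompat hsurj y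
  rw [RingHom.comp_apply, resHom_red, resHom_red, RingHom.id_apply]
  congr 1
  exact Subtype.ext (σ.apply_symm_apply _)

theorem resHom_symm_comp :
    (resHom A' ρ' hker hA₀ ρ₀ hcompat hsurj σ.symm (symm_mem_iff A' σ hσ)).comp
      (resHom A' ρ' hker hA₀ ρ₀ hcompat hsurj σ hσ) = RingHom.id _ := by
  refine RingHom.ext fun y => ?_
  obtain ⟨x, rfl⟩ := red_surjective A' ρ' hker hA₀ ρ₀ hcompat hsurj y
  rw [RingHom.comp_apply, resHom_red, resHom_red, RingHom.id_apply]
  congr 1
  exact Subtype.ext (σ.symm_apply_apply _)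

/-- **the `κ₀`-automorphism of the residue field induced by a `K`-automorphism preserving `A'`** -/
def resAut : ↥(resField A' ρ' hker hA₀ ρ₀ hcompat hsurj) ≃ₐ[κ₀]
    ↥(resField A' ρ' hker hA₀ ρ₀ hcompat hsurj) :=
  AlgEquiv.ofRingEquiv
    (f := RingEquiv.ofRingHom (resHom A' ρ' hker hA₀ ρ₀ hcompat hsurj σ hσ)
      (resHom A' ρ' hker hA₀ ρ₀ hcompat hsurj σ.symm (symm_mem_iff A' σ hσ))
      (resHom_comp_symm A' ρ' hker hA₀ ρ₀ hcompat hsurj σ hσ)
      (resHom_symm_comp A' ρ' hker hA₀ ρ₀ hcompat hsurj σ hσ))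
    fun c => by
      obtain ⟨a, rfl⟩ := hsurj c
      rw [← red_algebraMap A' ρ' hker hA₀ ρ₀ hcompat hsurj a (algebraMap_mem A' hA₀ a)]
      show resHom A' ρ' hker hA₀ ρ₀ hcompat hsurj σ hσ _ = _
      rw [resHom_red]
      congr 1
      exact Subtype.ext (σ.commutes _)

/-- `σ̄ (red x) = red (σ x)` -/
theorem resAut_red (x : A') :
    resAut A' ρ' hker hA₀ ρ₀ hcompat hsurj σ hσ (red A' ρ' hker hA₀ ρ₀ hcompat hsurj x) =
      red A' ρ' hker hA₀ ρ₀ hcompat hsurj ⟨σ (x : K'), (hσ _).2 x.2⟩ :=
  resHom_red A' ρ' hker hA₀ ρ₀ hcompat hsurj σ hσ x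

end Aut

end ResField

end Fermat.Agent.S43.LG1.Ig.ResDegree
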