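/-
PROJECT R (row 37 by S43), gate `LG1Hyp`, brick IG (helper3; helper17's IG v2 #6315 (3), GO for
`Ig/Unique.lean`): **(I1) + STRONG (I2) + THE RESIDUE FIELD `K_H = κ(ν_H)` FROM THE ONE ARITHMETIC
INPUT (T), GENERIC.**

`K ⊆ K'` fields (`E'' ⊆ F_H`), `[K' : K] = m`; `A'` a valuation subring of `K'` (`V_H`), `ρ' : A' →+* R`
its reduction into a field `R` (kernel = the non-units; `R = k((q))`), `A₀` a valuation subring of
`K` with `hA₀ : A'.comap (algebraMap K K') = A₀` (`V1`), `ρ₀ : A₀ →+* κ₀` the reduction of the base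
ONTO `κ₀` (`red1 : V1 → κ = F1C N k`), compatible with `ρ'` (`hcompat`, in the form of
`C2/Seam.BranchOver.red_base`).  `Z : A'` (`Z_H`),
`θ : κ₀` (`θ0`) with `(ρ' Z) ^ m = θ`, and **(T)** : `Q` a place of `κ₀` with `ord_Q θ` prime to `m`.

* `linearIndependent_pow` : `1, ν, …, ν^(m-1)` (`ν = ρ' Z`) are independent over `κ₀`;
* `eq_of_comap_eq`, **`apply_mem_iff`** = (I1) : `A'` is the only valuation subring of `K'` over
  `A' ∩ K`, and is stable under every `K`-automorphism of `K'`;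
* `finrank_resField : [resField : κ₀] = m`, `resField_eq_adjoin : resField = κ₀(ν)`,
  `minpoly_eq : minpoly κ₀ ν = X ^ m - C θ`;
* **`place_eq_of_restrict_eq`** = STRONG (I2) : one place of `resField` over every place `Q'` of `κ₀`
  with `ord_Q' θ` prime to `m`;
* `sigmaBar σ : resField ≃ₐ[κ₀] resField`, `sigmaBar_red`, `sigmaBar_red_of_eigen`.

Mathlib + Prelude + main's `S48/B/Val/*` + my `Ig/KummerUnique`, `Ig/ResDegree`.
-/
import Mathlib
import Fermat.Agent.S43.LG1.Ig.KummerUnique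
import Fermat.Agent.S43.LG1.Ig.ResDegree

set_option autoImplicit false
set_option linter.unusedSectionVars false

noncomputable section

namespace Fermat.Agent.S43.LG1.Ig.Unique

open AlgebraicCurve Polynomial IntermediateField
open Fermat.Agent.S43.LG1.Ig.KummerUnique Fermat.Agent.S43.LG1.Ig.ResDegree

variable {K K' : Type*} [Field K] [Field K'] [Algebra K K'] [FiniteDimensional K K']
variable (A' : ValuationSubring K') {R κ₀ : Type*} [Field R] [Field κ₀] [Algebra κ₀ R]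
  (ρ' : A' →+* R) (hker : ∀ x : A', ρ' x = 0 ↔ A'.valuation (x : K') < 1)
  {A₀ : ValuationSubring K} (hA₀ : A'.comap (algebraMap K K') = A₀) (ρ₀ : A₀ →+* κ₀)
  (hcompat : ∀ (a : A₀) (h : algebraMap K K' (a : K) ∈ A'),
    ρ' ⟨algebraMap K K' a, h⟩ = algebraMap κ₀ R (ρ₀ a))
  (hsurj : Function.Surjective ρ₀)
variable {m : ℕ} (hm : 0 < m) (hfin : Module.finrank K K' = m)
  (Z : A') (θ : κ₀) (hν : ρ' Z ^ m = algebraMap κ₀ R θ)
variable {k : Type*} [Field k] [Algebra k κ₀] (Q : Place k κ₀) (hθ : IsCoprime (Q.ord θ) (m : ℤ))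

include hm hν hθ in
/-- Kummer independence of the powers of `ν = ρ' Z` -/
theorem linearIndependent_pow : LinearIndependent κ₀ (fun i : Fin m => ρ' Z ^ (i : ℕ)) :=
  linearIndependent_pow_of_ord Q hm hθ hν

include hker hA₀ hcompat hm hfin hν hθ in
/-- **uniqueness of the extension** of `A₀ = A' ∩ K` to `K'` -/
theorem eq_of_comap_eq (A'' : ValuationSubring K')
    (hA'' : A''.comap (algebraMap K K') = A₀) : A'' = A' := by
  subst hA₀
  exact unique_of_resIndep_pow A' ρ' hker ρ₀ (fun a => hcompat a _) hfin Z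
    (linearIndependent_pow A' ρ' hm Z θ hν Q hθ) A'' hA''

include hker hA₀ hcompat hm hfin hν hθ in
/-- **(I1)** : `A'` is stable under every `K`-automorphism of `K'` -/
theorem apply_mem_iff (σ : K' ≃ₐ[K] K') (x : K') : σ x ∈ A' ↔ x ∈ A' := by
  subst hA₀
  exact apply_mem_iff_of_resIndep_pow A' ρ' hker ρ₀ (fun a => hcompat a _) hfin Z
    (linearIndependent_pow A' ρ' hm Z θ hν Q hθ) σ x

/-! ### the residue field -/

/-- `ν = ρ' Z` as an element of the residue field -/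
def nuBar : ↥(resField A' ρ' hker hA₀ ρ₀ hcompat hsurj) := red A' ρ' hker hA₀ ρ₀ hcompat hsurj Z

theorem coe_nuBar : ((nuBar A' ρ' hker hA₀ ρ₀ hcompat hsurj Z :
    ↥(resField A' ρ' hker hA₀ ρ₀ hcompat hsurj)) : R) = ρ' Z := rfl

include hν in
theorem nuBar_pow : nuBar A' ρ' hker hA₀ ρ₀ hcompat hsurj Z ^ m =
    algebraMap κ₀ ↥(resField A' ρ' hker hA₀ ρ₀ hcompat hsurj) θ :=
  Subtype.ext (by rw [SubmonoidClass.coe_pow, coe_nuBar, hν]; rfl)

include hm hν hθ in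
/-- `minpoly κ₀ ν = X ^ m - C θ` -/
theorem minpoly_eq : minpoly κ₀ (ρ' Z) = X ^ m - C θ := by
  refine (minpoly.eq_of_irreducible_of_monic (irreducible_X_pow_sub_C_of_ord Q hm hθ) ?_
    (monic_X_pow_sub_C θ hm.ne')).symm
  rw [map_sub, map_pow, aeval_X, aeval_C, hν, sub_self]

include hm hν hθ in
theorem isIntegral_nu : IsIntegral κ₀ (ρ' Z) := by
  refine ⟨X ^ m - C θ, monic_X_pow_sub_C θ hm.ne', ?_⟩
  rw [← aeval_def, map_sub, map_pow, aeval_X, aeval_C, hν, sub_self]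

include hm hν hθ in
theorem finrank_adjoin : Module.finrank κ₀ ↥κ₀⟮ρ' Z⟯ = m := by
  rw [IntermediateField.adjoin.finrank (isIntegral_nu A' ρ' hm Z θ hν Q hθ),
    minpoly_eq A' ρ' hm Z θ hν Q hθ, natDegree_X_pow_sub_C]

theorem adjoin_le_resField : κ₀⟮ρ' Z⟯ ≤ resField A' ρ' hker hA₀ ρ₀ hcompat hsurj := by
  rw [IntermediateField.adjoin_simple_le_iff]
  exact ⟨Z, rfl⟩

include hm hfin hν hθ in
/-- **`K_H = κ(ν_H)`** -/
theorem resField_eq_adjoin : resField A' ρ' hker hA₀ ρ₀ hcompat hsurj = κ₀⟮ρ' Z⟯ := by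
  refine (IntermediateField.eq_of_le_of_finrank_le
    (adjoin_le_resField A' ρ' hker hA₀ ρ₀ hcompat hsurj Z) ?_).symm
  rw [finrank_adjoin A' ρ' hm Z θ hν Q hθ, ← hfin]
  exact finrank_resField_le A' ρ' hker hA₀ ρ₀ hcompat hsurj

include hm hfin hν hθ in
/-- **`[K_H : κ] = m`** -/
theorem finrank_resField :
    Module.finrank κ₀ ↥(resField A' ρ' hker hA₀ ρ₀ hcompat hsurj) = m := by
  rw [resField_eq_adjoin A' ρ' hker hA₀ ρ₀ hcompat hsurj hm hfin Z θ hν Q hθ,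
    finrank_adjoin A' ρ' hm Z θ hν Q hθ]

/-! ### strong (I2) -/

include hm hfin hν hθ in
/-- **STRONG (I2)** : over a place `Q'` of `κ₀` at which `ord θ` is prime to `m` there is ONE place of
the residue field `K_H`. -/
theorem place_eq_of_restrict_eq [Algebra k R] [IsScalarTower k κ₀ R] (Q' : Place k κ₀)
    (hθ' : IsCoprime (Q'.ord θ) (m : ℤ))
    (Q₁ Q₂ : Place k ↥(resField A' ρ' hker hA₀ ρ₀ hcompat hsurj))
    (h₁ : Q₁.restrict κ₀ = Q') (h₂ : Q₂.restrict κ₀ = Q') : Q₁ = Q₂ := by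
  exact KummerUnique.place_eq_of_restrict_eq Q' hm hθ'
    (nuBar_pow A' ρ' hker hA₀ ρ₀ hcompat hsurj Z θ hν)
    (finrank_resField A' ρ' hker hA₀ ρ₀ hcompat hsurj hm hfin Z θ hν Q hθ) Q₁ Q₂ h₁ h₂

/-! ### the induced automorphisms -/

/-- the automorphism of the residue field induced by `σ` (by (I1)) -/
def sigmaBar (σ : K' ≃ₐ[K] K') : ↥(resField A' ρ' hker hA₀ ρ₀ hcompat hsurj) ≃ₐ[κ₀]
    ↥(resField A' ρ' hker hA₀ ρ₀ hcompat hsurj) :=
  resAut A' ρ' hker hA₀ ρ₀ hcompat hsurj σ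
    (apply_mem_iff A' ρ' hker hA₀ ρ₀ hcompat hm hfin Z θ hν Q hθ σ)

theorem sigmaBar_red (σ : K' ≃ₐ[K] K') (x : A') :
    sigmaBar A' ρ' hker hA₀ ρ₀ hcompat hsurj hm hfin Z θ hν Q hθ σ
        (red A' ρ' hker hA₀ ρ₀ hcompat hsurj x) =
      red A' ρ' hker hA₀ ρ₀ hcompat hsurj ⟨σ (x : K'),
        (apply_mem_iff A' ρ' hker hA₀ ρ₀ hcompat hm hfin Z θ hν Q hθ σ _).2 x.2⟩ :=
  resAut_red A' ρ' hker hA₀ ρ₀ hcompat hsurj σ _ x

/-- a Kummer eigenvector reduces to a Kummer eigenvector: if `σ Z = ζ Z` with `ζ ∈ A' ∩ K` then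
`σ̄ ν = ρ₀ ζ · ν` -/
theorem sigmaBar_nuBar_of_eigen (σ : K' ≃ₐ[K] K') (ζ : A₀)
    (hσZ : σ (Z : K') = algebraMap K K' ζ * (Z : K')) :
    sigmaBar A' ρ' hker hA₀ ρ₀ hcompat hsurj hm hfin Z θ hν Q hθ σ
        (nuBar A' ρ' hker hA₀ ρ₀ hcompat hsurj Z) =
      algebraMap κ₀ ↥(resField A' ρ' hker hA₀ ρ₀ hcompat hsurj) (ρ₀ ζ) *
        nuBar A' ρ' hker hA₀ ρ₀ hcompat hsurj Z := by
  rw [nuBar, sigmaBar_red, ← red_algebraMap A' ρ' hker hA₀ ρ₀ hcompat hsurj ζ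
    (algebraMap_mem A' hA₀ ζ), ← map_mul]
  congr 1
  exact Subtype.ext hσZ

end Fermat.Agent.S43.LG1.Ig.Unique
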