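/-
PROJECT R (row 37 by S43), gate `LG1Hyp`, brick IG (helper3): **THE GENERIC PRODUCER OF
`C2/Seam.BranchOver` AND OF `KummerCover.e_i_unique` FROM THE ONE ARITHMETIC INPUT (T).**

`(L, A)` a valued field with all roots, `π : A →+* k`; `F / F0` a finite extension of function fields
over `L` (`F0 = E''`, `F = F_H`), `R0 : Branch A π F0 κ` the branch of the base (main's `S34/NodalDefs`);
`A'` a valuation subring of `F` over `R0.O` (`V_H`), `ρ' : A' →+* R` its reduction into a field `R`
(kernel = the non-units; `R = k((q))`) extending `R0.red`, `R0.red` ONTO `κ`.  `Z : A'`, `θ : κ` with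
`(ρ' Z) ^ m = θ`, `m = [F : F0]`, and **(T)** : a place `Q` of `κ` with `ord_Q θ` prime to `m`.

* `KUp` := `ResDegree.resField …` (`= κ(ν)`, `ν = ρ' Z`, of degree `m` over `κ`);
* `branchUp : Branch A π F KUp` (`O := A'`, `red := ResDegree.red`; the value group clause
  `exists_const_mul_unit` is main's `S34/TwoExtConst.exists_val_eq_val_const`);
* **`branchOver σ : Seam.BranchOver R0 σ KUp`**, all seven fields, for every `σ : F ≃ₐ[F0] F`;
* **`e_unique`** : the literal of `KummerCover.e1_unique` at every place `Q'` of `κ` with `ord_Q' θ`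
  prime to `m`;
* `isSeparable_KUp`, `exists_place_over` (helper9's `C2/LiftPlace`), `existsUnique_place_over`
  (`m` invertible in `κ`).
-/
import Mathlib
import Fermat.Agent.S34.NodalDefs
import Fermat.Agent.S34.TwoExtConst
import Fermat.Agent.S43.LG1.C2.Seam
import Fermat.Agent.S43.LG1.C2.LiftPlace
import Fermat.Agent.S43.LG1.Ig.Unique

set_option autoImplicit false
set_option linter.unusedSectionVars false

noncomputable section

namespace Fermat.Agent.S43.LG1.Ig.BranchUp

open AlgebraicCurve Fermat.Agent.S34.NodalDefs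
open Fermat.Agent.S43.LG1.Ig.ResDegree Fermat.Agent.S43.LG1.Ig.Unique
open Fermat.Agent.S43.LG1.C2.Seam

variable {L : Type*} [Field L] {k : Type*} [Field k] {A : ValuationSubring L} {π : A →+* k}
variable {F0 : Type*} [Field F0] [Algebra L F0] {F : Type*} [Field F] [Algebra L F]
variable [Algebra F0 F] [IsScalarTower L F0 F] [FiniteDimensional F0 F]
variable {κ : Type*} [Field κ] [Algebra k κ] {R : Type*} [Field R] [Algebra κ R] [Algebra k R]
  [IsScalarTower k κ R]
variable (R0 : Branch A π F0 κ) (A' : ValuationSubring F) (ρ' : A' →+* R)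
  (hker : ∀ x : A', ρ' x = 0 ↔ A'.valuation (x : F) < 1)
  (hA₀ : A'.comap (algebraMap F0 F) = R0.O)
  (hcompat : ∀ (a : R0.O) (h : algebraMap F0 F (a : F0) ∈ A'),
    ρ' ⟨algebraMap F0 F a, h⟩ = algebraMap κ R (R0.red a))
  (hsurj : Function.Surjective R0.red)
  (hroot : ∀ (c : L) (n : ℕ), 0 < n → ∃ d : L, d ^ n = c)

/-- the residue field upstairs -/
abbrev KUp : IntermediateField κ R := resField A' ρ' hker hA₀ R0.red hcompat hsurj

/-! ### the branch upstairs -/

include hA₀ in
theorem algebraMap_mem_up (a : A) : algebraMap L F (a : L) ∈ A' := by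
  rw [IsScalarTower.algebraMap_apply L F0 F]
  exact algebraMap_mem A' hA₀ ⟨_, R0.algebraMap_mem a⟩

/-- the value group of the base is the value group of `A` -/
theorem valuation_eq_const (x : F0) (hx : x ≠ 0) :
    ∃ c : L, c ≠ 0 ∧ R0.O.valuation x = R0.O.valuation (algebraMap L F0 c) := by
  obtain ⟨c, hc, u, hu⟩ := R0.exists_const_mul_unit x hx
  refine ⟨c, hc, ?_⟩
  have h1 : R0.O.valuation ((u : R0.O) : F0) = 1 :=
    (R0.O.valuation_eq_one_iff _).1 u.isUnit
  rw [hu, map_mul, h1, mul_one]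

include hA₀ hroot in
/-- **`e = 1`** : the value group upstairs is the value group of `A` -/
theorem exists_const_mul_unit_up (f : F) (hf : f ≠ 0) :
    ∃ c : L, c ≠ 0 ∧ ∃ u : (↥A')ˣ, f = algebraMap L F c * ((u : ↥A') : F) := by
  obtain ⟨c, hc, hval⟩ := Fermat.Agent.S34.TwoExtConst.exists_val_eq_val_const (K := L) hA₀
    (valuation_eq_const R0) hroot hf (Algebra.IsAlgebraic.isAlgebraic f)
  have hc' : algebraMap L F c ≠ 0 := (_root_.map_ne_zero _).mpr hc
  have hwc : A'.valuation (algebraMap L F c) ≠ 0 := (Valuation.ne_zero_iff _).mpr hc'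
  have h1 : A'.valuation (f / algebraMap L F c) = 1 := by
    rw [map_div₀, hval, div_self hwc]
  have hmem : f / algebraMap L F c ∈ A' := (A'.valuation_le_one_iff _).mp h1.le
  have hunit : IsUnit (⟨f / algebraMap L F c, hmem⟩ : ↥A') :=
    (A'.valuation_eq_one_iff _).mpr h1
  refine ⟨c, hc, hunit.unit, ?_⟩
  rw [IsUnit.unit_spec]
  field_simp

/-- **the branch of `F` on `A'`**, with residue field `KUp = ρ'(A')` -/
def branchUp : Branch A π F ↥(KUp R0 A' ρ' hker hA₀ hcompat hsurj) where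
  O := A'
  red := red A' ρ' hker hA₀ R0.red hcompat hsurj
  algebraMap_mem := algebraMap_mem_up R0 A' hA₀
  red_algebraMap a := by
    have h1 : (⟨algebraMap L F (a : L), algebraMap_mem_up R0 A' hA₀ a⟩ : ↥A') =
        ⟨algebraMap F0 F ((⟨algebraMap L F0 (a : L), R0.algebraMap_mem a⟩ : R0.O) : F0),
          algebraMap_mem A' hA₀ _⟩ :=
      Subtype.ext (IsScalarTower.algebraMap_apply L F0 F _)
    rw [h1, red_algebraMap, R0.red_algebraMap, ← IsScalarTower.algebraMap_apply]
  red_eq_zero_iff u := by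
    rw [red_eq_zero_iff, A'.valuation_eq_one_iff]
    have hle : A'.valuation ((u : ↥A') : F) ≤ 1 := (A'.valuation_le_one_iff _).2 u.2
    exact ⟨fun h => ne_of_lt h, fun h => lt_of_le_of_ne hle h⟩
  exists_const_mul_unit := exists_const_mul_unit_up R0 A' hA₀ hroot
  mem_of_algebraMap_mem c hc := by
    rw [IsScalarTower.algebraMap_apply L F0 F, ← ValuationSubring.mem_comap, hA₀] at hc
    exact R0.mem_of_algebraMap_mem c hc

@[simp] theorem branchUp_O : (branchUp R0 A' ρ' hker hA₀ hcompat hsurj hroot).O = A' := rfl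

@[simp] theorem branchUp_red : (branchUp R0 A' ρ' hker hA₀ hcompat hsurj hroot).red =
    red A' ρ' hker hA₀ R0.red hcompat hsurj := rfl

/-! ### the branch over the base branch, and the uniqueness at the nodes -/

variable {m : ℕ} (hm : 0 < m) (hfin : Module.finrank F0 F = m)
  (Z : A') (θ : κ) (hν : ρ' Z ^ m = algebraMap κ R θ)
  (Q : Place k κ) (hθ : IsCoprime (Q.ord θ) (m : ℤ))

/-- **the branch of `F` over the branch `R0` of `F0`** (helper10's `C2/Seam.BranchOver`), for every
automorphism `σ` of `F / F0` -/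
def branchOver (σ : F ≃ₐ[F0] F) :
    BranchOver R0 σ ↥(KUp R0 A' ρ' hker hA₀ hcompat hsurj) where
  B := branchUp R0 A' ρ' hker hA₀ hcompat hsurj hroot
  comap_eq := hA₀
  red_base y h := red_algebraMap A' ρ' hker hA₀ R0.red hcompat hsurj y h
  red_surj := red_surjective A' ρ' hker hA₀ R0.red hcompat hsurj
  σ_mem := apply_mem_iff A' ρ' hker hA₀ R0.red hcompat hm hfin Z θ hν Q hθ σ
  σbar := sigmaBar A' ρ' hker hA₀ R0.red hcompat hsurj hm hfin Z θ hν Q hθ σ
  red_σ h := (sigmaBar_red A' ρ' hker hA₀ R0.red hcompat hsurj hm hfin Z θ hν Q hθ σ h).symm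

include hm hfin hν hθ in
/-- **`(I2)`, the literal of `KummerCover.e1_unique`** : ONE place of `KUp` over every place `Q'` of
`κ` at which `ord θ` is prime to `m`. -/
theorem e_unique (Q' : Place k κ) (hθ' : IsCoprime (Q'.ord θ) (m : ℤ))
    (e : Place k ↥(KUp R0 A' ρ' hker hA₀ hcompat hsurj)) (he : e.restrict κ = Q')
    (Q₁ : Place k ↥(KUp R0 A' ρ' hker hA₀ hcompat hsurj)) (h₁ : Q₁.restrict κ = Q') : Q₁ = e :=
  place_eq_of_restrict_eq A' ρ' hker hA₀ R0.red hcompat hsurj hm hfin Z θ hν Q hθ Q' hθ' Q₁ e h₁ he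

/-! ### separability, existence of the places over the nodes -/

include hm hν hθ in
/-- `ν = ρ' Z` is separable over `κ` (`m` invertible in `κ`) -/
theorem isSeparable_nu (hmκ : (m : κ) ≠ 0) : IsSeparable κ (ρ' Z) := by
  rw [IsSeparable, minpoly_eq A' ρ' hm Z θ hν Q hθ]
  by_cases hθ0 : θ = 0
  · have hν0 : ρ' Z = 0 := by
      rw [hθ0, map_zero] at hν
      exact pow_eq_zero_iff hm.ne' |>.1 hν
    have hm1 : m = 1 := KummerUnique.eq_one_of_zero Q hm hθ hν hν0
    rw [hm1, pow_one]
    exact Polynomial.separable_X_sub_C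
  · exact Polynomial.separable_X_pow_sub_C θ hmκ hθ0

include hm hfin hν hθ in
/-- **`KUp / κ` is separable** (`m` invertible in `κ`) -/
theorem isSeparable_KUp (hmκ : (m : κ) ≠ 0) :
    Algebra.IsSeparable κ ↥(KUp R0 A' ρ' hker hA₀ hcompat hsurj) := by
  rw [KUp, resField_eq_adjoin A' ρ' hker hA₀ R0.red hcompat hsurj hm hfin Z θ hν Q hθ,
    IntermediateField.isSeparable_adjoin_simple_iff_isSeparable]
  exact isSeparable_nu A' ρ' hm Z θ hν Q hθ hmκ

include hm hfin hν hθ in
/-- a place of `KUp` over every place of `κ` -/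
theorem exists_place_over (hmκ : (m : κ) ≠ 0) (Q' : Place k κ) :
    ∃ e : Place k ↥(KUp R0 A' ρ' hker hA₀ hcompat hsurj), e.restrict κ = Q' := by
  have := isSeparable_KUp R0 A' ρ' hker hA₀ hcompat hsurj hm hfin Z θ hν Q hθ hmκ
  exact Fermat.Agent.S43.LG1.C2.LiftPlace.exists_place_over Q'

include hm hfin hν hθ in
/-- **the node upstairs** : over a place `Q'` of `κ` at which `ord θ` is prime to `m` there is EXACTLY
ONE place of `KUp` (the fields `e1, e1_over, e1_unique` of `KummerCover`) -/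
theorem existsUnique_place_over (hmκ : (m : κ) ≠ 0) (Q' : Place k κ)
    (hθ' : IsCoprime (Q'.ord θ) (m : ℤ)) :
    ∃ e : Place k ↥(KUp R0 A' ρ' hker hA₀ hcompat hsurj), e.restrict κ = Q' ∧
      ∀ Q₁ : Place k ↥(KUp R0 A' ρ' hker hA₀ hcompat hsurj), Q₁.restrict κ = Q' → Q₁ = e := by
  obtain ⟨e, he⟩ := exists_place_over R0 A' ρ' hker hA₀ hcompat hsurj hm hfin Z θ hν Q hθ hmκ Q'
  exact ⟨e, he, fun Q₁ h₁ =>
    e_unique R0 A' ρ' hker hA₀ hcompat hsurj hm hfin Z θ hν Q hθ Q' hθ' e he Q₁ h₁⟩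

end Fermat.Agent.S43.LG1.Ig.BranchUp
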