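/-
PROJECT R (row 37 by S43), gate `LG1Hyp`, brick IG (helper3), generic half of helper17's (M2):
**COMPARISON OF TWO GAUSS RINGS OF main's `S48/B/Red/GaussG` ALONG AN INCLUSION OF FIELDS.**

`(L, A)` a valued field, `π : A →+* k`; `F₀, F₀'` subfields of `ℚ((q))` with
`hF : laurentBaseChange L F₀ ≤ laurentBaseChange L F₀'` (helper29's request: the inclusion is only
needed after base change to `L`; `laurentBaseChange_mono` gives it from `F₀ ≤ F₀'`), `Fk ≤ Fk'`
subfields of `k((q))`; `ι : L·F₀ →+* L·F₀'` a ring homomorphism which is the identity on `q`-series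
(any presentation of the inclusion, e.g. `IntermediateField.inclusion hF` with
`IntermediateField.coe_inclusion`).

* `inclI`, `toFL_inclI`, `coe_red_inclI` : integral elements of the small pair are integral for the
  large pair, same realisation, same reduction;
* `inOw_map`, **`le_comap`** : `OwV (F₀, Fk) ≤ (OwV (F₀', Fk')).comap ι`;
* **`coe_redV_map`** : the two reductions agree as `q`-series on the small Gauss ring;
* `comap_ne_top`, **`comap_eq`** : equality `(OwV (F₀', Fk')).comap ι = OwV (F₀, Fk)` as soon as the small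
  Gauss ring is archimedean (helper3's `V/Branch.eq_of_le_of_arch_aux`);
* `rhoComap j` : for ANY field `F` and `j : F →+* L·F₀'`, the reduction
  `(OwV (F₀', Fk')).comap j →+* k((q))`, with **`rhoComap_eq_zero_iff`** = the hypothesis `hker` of
  `Ig/ResDegree`, `Ig/Unique`, `Ig/BranchUp`, letter for letter, and `rhoComap_comp` = their `hcompat`.
-/
import Mathlib
import Fermat.Agent.S48.B.Red.GaussG
import Fermat.Agent.S34.ArchComap
import Fermat.Agent.S43.LG1.V.Branch

set_option autoImplicit false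
set_option linter.unusedSectionVars false

noncomputable section

namespace Fermat.Agent.S43.LG1.Ig.OwMono

open ModularCurve IntermediateField
open Fermat.Agent.S48.B.Defs.Model Fermat.Agent.S48.B.Red.GaussG
open Fermat.Agent.S34.WeakApprox (Arch)

variable {L : Type*} [Field L] [Algebra ℚ L] {A : ValuationSubring L} {k : Type*} [Field k]
  {π : A →+* k}
variable {F₀ F₀' : IntermediateField ℚ (LaurentSeries ℚ)}
  {Fk Fk' : IntermediateField k (LaurentSeries k)}

/-! ### integral elements -/

section Int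

variable (hF : laurentBaseChange L F₀ ≤ laurentBaseChange L F₀') (hk : Fk ≤ Fk')

include hF hk in
theorem mem_intRing_mono {y : LaurentSeries A} (hy : y ∈ intRing A π F₀ Fk) :
    y ∈ intRing A π F₀' Fk' :=
  ⟨hF hy.1, hk hy.2⟩

/-- integral elements of the small pair, as integral elements of the large pair -/
def inclI : ↥(intRing A π F₀ Fk) →+* ↥(intRing A π F₀' Fk') where
  toFun y := ⟨y.1, mem_intRing_mono hF hk y.2⟩
  map_one' := Subtype.ext rfl
  map_mul' _ _ := Subtype.ext rfl
  map_zero' := Subtype.ext rfl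
  map_add' _ _ := Subtype.ext rfl

theorem coe_inclI_mk (y : LaurentSeries A) (hy : y ∈ intRing A π F₀ Fk) :
    ((inclI (A := A) (π := π) hF hk ⟨y, hy⟩ : ↥(intRing A π F₀' Fk')) : LaurentSeries A) = y := rfl

theorem coe_inclI (y : ↥(intRing A π F₀ Fk)) :
    ((inclI (A := A) (π := π) hF hk y : ↥(intRing A π F₀' Fk')) : LaurentSeries A) = y := by
  obtain ⟨y, hy⟩ := y
  exact coe_inclI_mk hF hk y hy

theorem coe_toFL_inclI (y : ↥(intRing A π F₀ Fk)) :
    ((toFL A π F₀' Fk' (inclI hF hk y) : ↥(laurentBaseChange L F₀')) : LaurentSeries L) =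
      ((toFL A π F₀ Fk y : ↥(laurentBaseChange L F₀)) : LaurentSeries L) := by
  rw [coe_toFL, coe_toFL, coe_inclI]

theorem coe_red_inclI (y : ↥(intRing A π F₀ Fk)) :
    ((red A π F₀' Fk' (inclI hF hk y) : ↥Fk') : LaurentSeries k) =
      ((red A π F₀ Fk y : ↥Fk) : LaurentSeries k) := by
  rw [coe_red, coe_red, coe_inclI]

theorem red_inclI_ne_zero {y : ↥(intRing A π F₀ Fk)} (hy : red A π F₀ Fk y ≠ 0) :
    red A π F₀' Fk' (inclI hF hk y) ≠ 0 := by
  intro h
  apply hy
  apply Subtype.ext
  rw [← coe_red_inclI hF hk y, h]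
  rfl

end Int

/-! ### the Gauss rings -/

section Gauss

variable (hF : laurentBaseChange L F₀ ≤ laurentBaseChange L F₀') (hk : Fk ≤ Fk')
  (ι : ↥(laurentBaseChange L F₀) →+* ↥(laurentBaseChange L F₀'))
  (hι : ∀ x : ↥(laurentBaseChange L F₀),
    ((ι x : ↥(laurentBaseChange L F₀')) : LaurentSeries L) = (x : LaurentSeries L))

include hF hk hι in
theorem map_toFL (y : ↥(intRing A π F₀ Fk)) :
    ι (toFL A π F₀ Fk y) = toFL A π F₀' Fk' (inclI hF hk y) :=
  Subtype.ext (by rw [hι, coe_toFL_inclI])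

include hF hk hι in
/-- a fraction of integral elements of the small pair is one for the large pair -/
theorem inOw_map {f : ↥(laurentBaseChange L F₀)} (hf : InOw A π F₀ Fk f) :
    InOw A π F₀' Fk' (ι f) := by
  obtain ⟨a, b, hb, hab⟩ := hf
  refine ⟨inclI hF hk a, inclI hF hk b, red_inclI_ne_zero hF hk hb, ?_⟩
  rw [← map_toFL hF hk ι hι, ← map_toFL hF hk ι hι, ← map_mul, hab]

variable (hrep : HasRep A π F₀ Fk) (hrep' : HasRep A π F₀' Fk')

include hF hk hι in
/-- **the small Gauss ring lies in the large one** -/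
theorem le_comap : OwV A π F₀ Fk hrep ≤ (OwV A π F₀' Fk' hrep').comap ι :=
  fun _ hf => inOw_map hF hk ι hι hf

include hF hk hι in
/-- **the two reductions agree as `q`-series** -/
theorem coe_redV_map (f : ↥(OwV A π F₀ Fk hrep)) (h : ι (f : ↥(laurentBaseChange L F₀)) ∈
      OwV A π F₀' Fk' hrep') :
    ((redV A π F₀' Fk' hrep' ⟨ι (f : ↥(laurentBaseChange L F₀)), h⟩ : ↥Fk') : LaurentSeries k) =
      ((redV A π F₀ Fk hrep f : ↥Fk) : LaurentSeries k) := by
  obtain ⟨a, b, hb, hab⟩ := f.2
  have hab' : ι (f : ↥(laurentBaseChange L F₀)) * toFL A π F₀' Fk' (inclI hF hk b) =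
      toFL A π F₀' Fk' (inclI hF hk a) := by
    rw [← map_toFL hF hk ι hι, ← map_toFL hF hk ι hι, ← map_mul, hab]
  rw [redV_eq hrep' ⟨_, h⟩ (red_inclI_ne_zero hF hk hb) hab', redV_eq hrep f hb hab]
  show ((red A π F₀' Fk' (inclI hF hk a) : ↥Fk') : LaurentSeries k) /
      ((red A π F₀' Fk' (inclI hF hk b) : ↥Fk') : LaurentSeries k) =
    ((red A π F₀ Fk a : ↥Fk) : LaurentSeries k) / ((red A π F₀ Fk b : ↥Fk) : LaurentSeries k)
  rw [coe_red_inclI, coe_red_inclI]

include hι in
/-- the contraction of the large Gauss ring is proper -/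
theorem comap_ne_top (hπ : ∀ a : A, ¬ IsUnit a → π a = 0) (hAt : A ≠ ⊤)
    (hιc : ∀ c : L, ι (algebraMap L ↥(laurentBaseChange L F₀) c) =
      algebraMap L ↥(laurentBaseChange L F₀') c) :
    (OwV A π F₀' Fk' hrep').comap ι ≠ ⊤ := by
  intro h
  apply hAt
  rw [eq_top_iff]
  intro c _
  have h1 : algebraMap L ↥(laurentBaseChange L F₀) c ∈ (OwV A π F₀' Fk' hrep').comap ι :=
    h ▸ ValuationSubring.mem_top _
  rw [ValuationSubring.mem_comap, hιc] at h1
  exact mem_of_algebraMap_mem_Ow hπ c h1

include hF hk hι in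
/-- **the large Gauss ring contracts to the small one** (small one archimedean) -/
theorem comap_eq (hπ : ∀ a : A, ¬ IsUnit a → π a = 0) (hAt : A ≠ ⊤)
    (hιc : ∀ c : L, ι (algebraMap L ↥(laurentBaseChange L F₀) c) =
      algebraMap L ↥(laurentBaseChange L F₀') c)
    (hArch : Arch (OwV A π F₀ Fk hrep)) :
    (OwV A π F₀' Fk' hrep').comap ι = OwV A π F₀ Fk hrep :=
  (Fermat.Agent.S43.LG1.V.Branch.eq_of_le_of_arch_aux (le_comap hF hk ι hι hrep hrep') hArch
    (comap_ne_top ι hι hrep' hπ hAt hιc)).symm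

end Gauss

/-! ### the reduction of a contraction of a Gauss ring, in the literal of `Ig/ResDegree` -/

section Rho

variable (hrep' : HasRep A π F₀' Fk') {F : Type*} [Field F]
  (j : F →+* ↥(laurentBaseChange L F₀'))

/-- `j` restricted to the contraction -/
def restrictComap : ↥((OwV A π F₀' Fk' hrep').comap j) →+* ↥(OwV A π F₀' Fk' hrep') :=
  (j.comp ((OwV A π F₀' Fk' hrep').comap j).subtype).codRestrict
    (OwV A π F₀' Fk' hrep').toSubring fun x => x.2

theorem coe_restrictComap (x : ↥((OwV A π F₀' Fk' hrep').comap j)) :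
    ((restrictComap hrep' j x : ↥(OwV A π F₀' Fk' hrep')) : ↥(laurentBaseChange L F₀')) =
      j (x : F) := rfl

/-- **the reduction of the contraction along `j` of a Gauss ring, with values in `k((q))`** -/
def rhoComap : ↥((OwV A π F₀' Fk' hrep').comap j) →+* LaurentSeries k :=
  ((Fk'.val : ↥Fk' →ₐ[k] LaurentSeries k) : ↥Fk' →+* LaurentSeries k).comp
    ((redV A π F₀' Fk' hrep').comp (restrictComap hrep' j))

theorem rhoComap_apply (x : ↥((OwV A π F₀' Fk' hrep').comap j)) :
    rhoComap hrep' j x =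
      ((redV A π F₀' Fk' hrep' ⟨j (x : F), x.2⟩ : ↥Fk') : LaurentSeries k) := rfl

/-- **`hker`** : the kernel of the reduction is the maximal ideal -/
theorem rhoComap_eq_zero_iff (x : ↥((OwV A π F₀' Fk' hrep').comap j)) :
    rhoComap hrep' j x = 0 ↔ ((OwV A π F₀' Fk' hrep').comap j).valuation (x : F) < 1 := by
  rw [rhoComap_apply, ← ValuationSubring.mem_nonunits_iff,
    Fermat.Agent.S34.ArchComap.mem_comap_nonunits_iff, ZeroMemClass.coe_eq_zero,
    redV_eq_zero_iff, ValuationSubring.mem_nonunits_iff, ← not_iff_not, not_not, not_lt]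
  constructor
  · intro hu
    exact le_of_eq (((OwV A π F₀' Fk' hrep').valuation_eq_one_iff _).1 hu).symm
  · intro hle
    have h1 : (OwV A π F₀' Fk' hrep').valuation (j (x : F)) ≤ 1 :=
      ((OwV A π F₀' Fk' hrep').valuation_le_one_iff _).2 x.2
    exact ((OwV A π F₀' Fk' hrep').valuation_eq_one_iff ⟨j (x : F), x.2⟩).2 (le_antisymm h1 hle)

end Rho

/-! ### `hcompat` -/

section Compat

variable (hF : laurentBaseChange L F₀ ≤ laurentBaseChange L F₀') (hk : Fk ≤ Fk')
  (hrep : HasRep A π F₀ Fk) (hrep' : HasRep A π F₀' Fk') {F : Type*} [Field F]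
  (j : F →+* ↥(laurentBaseChange L F₀')) (i : ↥(laurentBaseChange L F₀) →+* F)
  (hji : ∀ x : ↥(laurentBaseChange L F₀),
    ((j (i x) : ↥(laurentBaseChange L F₀')) : LaurentSeries L) = (x : LaurentSeries L))

include hF hk hji in
/-- the small Gauss ring lies in the contraction along `j`, through `i` -/
theorem map_mem_comap (a : ↥(OwV A π F₀ Fk hrep)) :
    i (a : ↥(laurentBaseChange L F₀)) ∈ (OwV A π F₀' Fk' hrep').comap j :=
  le_comap hF hk (j.comp i) hji hrep hrep' a.2

include hF hk hji in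
/-- **`hcompat`** : on the small Gauss ring the reduction of the contraction is the small
reduction, as `q`-series -/
theorem rhoComap_comp (a : ↥(OwV A π F₀ Fk hrep))
    (h : i (a : ↥(laurentBaseChange L F₀)) ∈ (OwV A π F₀' Fk' hrep').comap j) :
    rhoComap hrep' j ⟨i (a : ↥(laurentBaseChange L F₀)), h⟩ =
      ((redV A π F₀ Fk hrep a : ↥Fk) : LaurentSeries k) := by
  rw [rhoComap_apply]
  exact coe_redV_map hF hk (j.comp i) hji hrep hrep' a h

end Compat

end Fermat.Agent.S43.LG1.Ig.OwMono
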