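/-
PROJECT R (row 37 by S43), gate G2* / LG1Hyp, node IG (helper11): **THE BRIDGE
`(R1 X).red = red₁`, `(R2 X).red = red₂` FOR AN ARBITRARY `X : Inputs1`.**

helper18's `C1/CoreZX1Assembly.Inputs1` records the first branch `B₁` of `E'' = ℚ̄(X₁(N; r))` only
through `O_eq : B₁.O = V1X1` and `red_α` (its reduction on `α(G.O)`), and the exit of C1 is
`∃ X : Inputs1 .., ∃ Y : NodesC1 X, ..`: the reduction `(R1 X).red` is NOT definitionally helper16's
`GaussPairX1.red₁` (coefficientwise reduction of `q`-expansions), on which IG-U (`Ig/Unit`), IG-Y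
(`Ig/TestFrob`), IG-X (`Ig/Gen`) state their formulas.  It is equal to it: both reductions kill the
non-units of `V₁` and agree on `α(G.O)`, and `red₁ ∘ α = G.red` is onto `κ(X₁(N))`, so every
`x ∈ V₁` is `α g + (non-unit)`.

* `red_eq_of_agree` : the generic statement (any `Branch`);
* `R1_O_eq : (R1 X).O = V₁`, `R2_O_eq : (R2 X).O = V₂`, `mem_R1_O_iff`, `mem_R2_O_iff`;
* **`R1_red_eq : (R1 X).red ⟨x, _⟩ = red₁ ⟨x, _⟩`**, **`R2_red_eq : (R2 X).red ⟨x, _⟩ = red₂ ⟨x, _⟩`**.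
-/
import Mathlib
import Fermat.Agent.S43.LG1.C1.CoreZX1Assembly
import Fermat.Agent.S43.LG1.C1.GaussPairBridgeX1

set_option autoImplicit false
set_option linter.unusedSectionVars false
set_option linter.style.haveILetI false
set_option synthInstance.maxHeartbeats 400000

noncomputable section

namespace Fermat.Agent.S43.LG1.Ig.RedUnique

open ModularCurve AlgebraicCurve IsLocalRing
open Fermat.Agent.S34.NodalDefs

/-! ### generic: a reduction is determined by its values on a set of representatives -/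

section Generic

variable {L k : Type*} [Field L] [Field k] {A : ValuationSubring L} {π : ↥A →+* k}
  {FL : Type*} [Field FL] [Algebra L FL] {F1 : Type*} [Field F1] [Algebra k F1]

/-- **uniqueness of the reduction**: a branch `B` with Gauss ring `V` and a second reduction `ρ` of
`V` (kernel = non-units) which agree on a set `S ⊆ V` with `ρ(S) = F1` agree everywhere. -/
theorem red_eq_of_agree (B : Branch A π FL F1) (V : ValuationSubring FL) (hV : B.O = V)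
    (ρ : ↥V →+* F1) (hρ : ∀ x : ↥V, ρ x = 0 ↔ ¬ IsUnit x) (S : Set FL) (hSV : ∀ s ∈ S, s ∈ V)
    (hS : ∀ y : F1, ∃ (s : FL) (hs : s ∈ S), ρ ⟨s, hSV s hs⟩ = y)
    (hag : ∀ (s : FL) (hs : s ∈ S) (hsO : s ∈ B.O), B.red ⟨s, hsO⟩ = ρ ⟨s, hSV s hs⟩)
    (x : FL) (hx : x ∈ B.O) (hx' : x ∈ V) : B.red ⟨x, hx⟩ = ρ ⟨x, hx'⟩ := by
  obtain ⟨O, red, h1, h2, hker, h4, h5⟩ := B
  change O = V at hV
  subst hV
  change red ⟨x, hx⟩ = ρ ⟨x, hx'⟩
  obtain ⟨s, hs, hsx⟩ := hS (ρ ⟨x, hx'⟩)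
  have hsO : s ∈ O := hSV s hs
  have h0 : ρ (⟨x, hx'⟩ - ⟨s, hsO⟩) = 0 := by rw [map_sub, hsx, sub_self]
  have h6 : red (⟨x, hx⟩ - ⟨s, hsO⟩) = 0 := (hker _).mpr ((hρ _).mp h0)
  rw [map_sub, sub_eq_zero] at h6
  rw [h6, hag s hs hsO, hsx]

end Generic

/-! ### the instance at `E'' = ℚ̄(X₁(N; r))` -/

section X1

open Fermat.Agent.S37.Deuring.Core
open Fermat.Agent.S34.Generic.SmoothRedOfGeneric
open Fermat.Agent.S48.B.Defs.Model Fermat.Agent.S48.B.B1.Seams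
open Fermat.Agent.S48.B.ES.DegreeBeta1
open Fermat.Agent.S43.LG1.C1.Seam Fermat.Agent.S43.LG1.C1.GaussPairX1
open Fermat.Agent.S43.LG1.C1.GaussPairBridgeX1 Fermat.Agent.S43.LG1.C1.CoreZX1Assembly

local notation "Kb" => AlgebraicClosure ℚ

attribute [local instance] algShortcut1

variable {r : ℕ} [hrF : Fact r.Prime] {N : ℕ} [NeZero N] {A : ValuationSubring Kb} [NeZero r]
variable {hr : r.Prime} {hA : A.LiesOverPrime r} {hrN : ¬ r ∣ N}
variable [HasPrincipalDivisors Kb ↥(F1pBar N r)]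
variable [HasPrincipalDivisors (ResidueField ↥A) ↥(F1C N (ResidueField ↥A))]
variable {gL gk : ℕ} {H : Hyp (gaussDatum1 N A hr hA hrN) gL gk}
variable [CharP (ResidueField ↥A) r]
variable (X : Inputs1 hr hA hrN H)

/-- the Gauss ring of the first component is helper16's `V₁` -/
theorem R1_O_eq : (R1 X).O = V₁ N A hA := (R1_O X).trans (V1X1_eq hr hA hrN)

/-- the Gauss ring of the second component is helper16's `V₂` -/
theorem R2_O_eq : (R2 X).O = V₂ hr hA hrN := (R2_O X).trans (V2X1_eq hr hA hrN)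

theorem mem_R1_O_iff (x : ↥(F1pBar N r)) : x ∈ (R1 X).O ↔ x ∈ V₁ N A hA := by
  rw [R1_O_eq X]

theorem mem_R2_O_iff (x : ↥(F1pBar N r)) : x ∈ (R2 X).O ↔ x ∈ V₂ hr hA hrN := by
  rw [R2_O_eq X]

/-- **`(R1 X).red = red₁`** -/
theorem R1_red_eq (x : ↥(F1pBar N r)) (hx : x ∈ (R1 X).O) (hx' : x ∈ V₁ N A hA) :
    (R1 X).red ⟨x, hx⟩ = red₁ hr hA hrN ⟨x, hx'⟩ := by
  refine red_eq_of_agree (R1 X).toBranch (V₁ N A hA) (R1_O_eq X) (red₁ hr hA hrN)
    (red₁_eq_zero_iff hr hA hrN)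
    {s | ∃ g : ↥(gaussDatum1 N A hr hA hrN).O, s = alpha1 N r Kb (g : ↥(F1Bar N))}
    (fun s hs => by
      obtain ⟨g, rfl⟩ := hs
      exact (alpha_mem_V₁_iff hr hA hrN _).mpr g.2)
    (fun y => by
      obtain ⟨g, rfl⟩ := red_surjective1 hr hrN hA y
      exact ⟨alpha1 N r Kb (g : ↥(F1Bar N)), ⟨g, rfl⟩, red₁_alpha hr hA hrN g⟩)
    (fun s hs hsO => by
      obtain ⟨g, rfl⟩ := hs
      exact (X.red_α g).trans (red₁_alpha hr hA hrN g).symm) x hx hx'

/-- **`(R2 X).red = red₂`** -/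
theorem R2_red_eq (x : ↥(F1pBar N r)) (hx : x ∈ (R2 X).O) (hx' : x ∈ V₂ hr hA hrN) :
    (R2 X).red ⟨x, hx⟩ = red₂ hr hA hrN ⟨x, hx'⟩ :=
  R1_red_eq X (W1 N r hr hrN x) hx hx'

end X1

end Fermat.Agent.S43.LG1.Ig.RedUnique

end
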