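/-
PROJECT R (row 37 by S43), gate `LG1Hyp`, brick IG, item (M2) = (IG-V) of helper17's G-FINAL cut
(helper29): **THE GAUSS BRANCH `V_H` OF `F_H` OVER THE FIRST GAUSS BRANCH OF `E'' = ℚ̄(X₁(N; r))`.**

`E'' = F1pBar N r ⊆ F_H ⊆ E' = F1Bar (N r)` (helper3's `Ig/TowerH`), `A` a valuation subring of `ℚ̄`
over `r`, `κ` its residue field, `V' = V/Branch.gaussV (N r) hA` the Gauss ring of the rational
`q`-expansion of `E'`.  The instance of helper3's generic `Ig/OwMono` at
`(F1p N r, F1pC N r κ) ≤ (F1 (N r), F1C (N r) κ)`.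

* generic (`Red/GaussG`): `coeffMap_mem_of_hasRep` = **saturation from `HasRep`**: an `A`-integral
  series lying in `L·F₀` reduces into `Fk` (the second field of a Gauss pair with `HasRep` is forced);
* `F1pC_le_F1C_mul : F1pC N r κ ≤ F1C (N r) κ` (no generators: saturation at level `N r` and
  helper3's `Tower.F1pBar_le_F1Bar_mul`);
* **`comap_gaussV_incl : (gaussV (N r) hA).comap (TowerAlg.incl N r) = V1X1 hr hA hrN`** (no `2 < r`,
  no `5 ≤ N`; `comap_gaussV_eq ι hι` for any presentation `ι` of the inclusion),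
  `comap_gaussV_incl_V₁`, `incl_mem_gaussV_iff`, `coe_redGaussV_incl`
  (`redGaussV (incl x) = red₁ x` as `q`-series);
* `jH H : F_H →+* E'`, `VH hA H := (gaussV (N r) hA).comap (jH H)`, `mem_VH_iff`,
  `rhoH hA H : V_H →+* κ((q))`, `rhoH_apply`, `rhoH_mem`, **`hker`**,
  **`comap_VH : V_H.comap (algebraMap E'' F_H) = V1X1 hr hA hrN`**, `comap_VH_R1 : … = (R1 X).O`,
  **`hcompat : rhoH ⟨algebraMap a, h⟩ = algebraMap _ _ ((R1 X).red a)`**, `hsurj` : the binders
  `(A' ρ' hker hA₀ hcompat hsurj)` of helper3's `Ig/ResDegree`, `Ig/Unique`, `Ig/BranchUp` at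
  `R0 := (R1 X).toBranch`, letter for letter (`KUpH` is the check).
-/
import Mathlib
import Fermat.Agent.S43.LG1.Ig.OwMono
import Fermat.Agent.S43.LG1.Ig.TowerH
import Fermat.Agent.S43.LG1.Ig.BranchUp
import Fermat.Agent.S43.LG1.Ig.RedUnique

set_option autoImplicit false
set_option linter.unusedSectionVars false
set_option linter.style.haveILetI false
set_option linter.dupNamespace false
set_option synthInstance.maxHeartbeats 400000

noncomputable section

namespace Fermat.Agent.S43.LG1.Ig.VH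

open HahnSeries IntermediateField ModularCurve AlgebraicCurve IsLocalRing
open Fermat.Agent.S48.B.Red.GaussG
open Fermat.Agent.S34.WeakApprox (Arch)

/-! ### generic: saturation from `HasRep` -/

section Generic

variable {L : Type*} [Field L] [Algebra ℚ L] {A : ValuationSubring L}
variable {k : Type*} [Field k] {π : A →+* k}
variable {F₀ : IntermediateField ℚ (LaurentSeries ℚ)} {Fk : IntermediateField k (LaurentSeries k)}

/-- **saturation from `HasRep`**: an `A`-integral series whose characteristic-zero realisation lies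
in `L·F₀` reduces into `Fk`. -/
theorem coeffMap_mem_of_hasRep (hrep : HasRep A π F₀ Fk) (hπ : ∀ a : A, ¬ IsUnit a → π a = 0)
    (y : LaurentSeries A) (hy : coeffMap A.subtype y ∈ laurentBaseChange L F₀) :
    coeffMap π y ∈ Fk := by
  by_cases h0 : coeffMap π y = 0
  · rw [h0]
    exact Fk.zero_mem
  have hy0 : y ≠ 0 := fun h => h0 (by rw [h, map_zero])
  have hf0 : (⟨coeffMap A.subtype y, hy⟩ : ↥(laurentBaseChange L F₀)) ≠ 0 := by
    intro h
    apply hy0
    apply coeffMap_subtype_injective (A := A)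
    rw [map_zero]
    exact congrArg Subtype.val h
  obtain ⟨c, a, b, hc, ha, hb, h⟩ := hrep _ hf0
  have h' : coeffMap A.subtype y * coeffMap A.subtype b.1 =
      algebraMap L (LaurentSeries L) c * coeffMap A.subtype a.1 := congrArg Subtype.val h
  have hb' : coeffMap π b.1 ≠ 0 := fun hb0 => hb (Subtype.ext hb0)
  by_cases hcA : c ∈ A
  · -- `y b = c a` over `A`
    have h1 : y * b.1 = HahnSeries.single 0 (⟨c, hcA⟩ : A) * a.1 := by
      apply coeffMap_subtype_injective (A := A)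
      rw [map_mul, map_mul, h', coeffMap_single, algebraMap_laurentSeries_eq_single]
      rfl
    have h2 := congrArg (coeffMap π) h1
    rw [map_mul, map_mul, coeffMap_single] at h2
    have h3 : coeffMap π y =
        HahnSeries.single 0 (π ⟨c, hcA⟩) * coeffMap π a.1 / coeffMap π b.1 := by
      rw [eq_div_iff hb', h2]
    rw [h3, ← algebraMap_laurentSeries_eq_single]
    exact Fk.div_mem (Fk.mul_mem (Fk.algebraMap_mem _) a.2.2) b.2.2
  · -- `c⁻¹ y b = a` over `A`, and `π c⁻¹ = 0`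
    exfalso
    have hci : c⁻¹ ∈ A := (A.mem_or_inv_mem c).resolve_left hcA
    have hnu : ¬ IsUnit (⟨c⁻¹, hci⟩ : A) := by
      intro hu
      obtain ⟨v, hv⟩ := hu.exists_right_inv
      have hv' : c⁻¹ * (v : L) = 1 := congrArg Subtype.val hv
      apply hcA
      have : (v : L) = c := by
        field_simp at hv'
        exact hv'
      rw [← this]
      exact v.2
    have h1 : HahnSeries.single 0 (⟨c⁻¹, hci⟩ : A) * (y * b.1) = a.1 := by
      apply coeffMap_subtype_injective (A := A)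
      rw [map_mul, map_mul, h', coeffMap_single, ← mul_assoc]
      have : (HahnSeries.single 0 (A.subtype ⟨c⁻¹, hci⟩) : LaurentSeries L) *
          algebraMap L (LaurentSeries L) c = 1 := by
        rw [algebraMap_laurentSeries_eq_single]
        show (HahnSeries.single 0 c⁻¹ : LaurentSeries L) * HahnSeries.single 0 c = 1
        rw [HahnSeries.single_mul_single, inv_mul_cancel₀ hc, add_zero]
        rfl
      rw [this, one_mul]
    have h2 := congrArg (coeffMap π) h1
    rw [map_mul, coeffMap_single, hπ _ hnu, HahnSeries.single_eq_zero, zero_mul] at h2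
    exact ha (Subtype.ext h2.symm)

end Generic

/-! ### the two levels `(N; r)` and `N r` -/

section Level

open Fermat.Agent.S48.B.Defs.Model Fermat.Agent.S48.B.ES.DegreeBeta1
open Fermat.Agent.S48.B.Igusa.Saturate
open Fermat.Agent.S43.LG1.V.Branch Fermat.Agent.S43.LG1.V
open Fermat.Agent.S43.LG1.Ig.Tower Fermat.Agent.S43.LG1.Ig.TowerAlg
open Fermat.Agent.S43.LG1.Ig.TowerH Fermat.Agent.S43.LG1.Ig.OwMono
open Fermat.Agent.S43.LG1.C1.Seam Fermat.Agent.S43.LG1.C1.GaussPairX1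
open Fermat.Agent.S43.LG1.C1.GaussPairBridgeX1 Fermat.Agent.S43.LG1.C1.Z1X1

local notation "Kb" => AlgebraicClosure ℚ

attribute [local instance] algShortcut1 Fermat.Agent.S43.LG1.C1.TwoGaussX1.algFE1
attribute [local instance] towerAlgebra isScalarTower_tower

variable {r : ℕ} [hrF : Fact r.Prime] {N : ℕ} [NeZero N] [NeZero r] [hc : Fact (r.Coprime N)]
variable {A : ValuationSubring Kb}

/-- **`F1pC N r κ ≤ F1C (N r) κ`**: the reductions of the integral elements of level `(N; r)` are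
reductions of integral elements of level `N r` (saturation at level `N r`). -/
theorem F1pC_le_F1C_mul (hA : A.LiesOverPrime r) :
    F1pC N r (ResidueField ↥A) ≤ F1C (N * r) (ResidueField ↥A) := by
  refine IntermediateField.adjoin_le_iff.mpr ?_
  rintro _ ⟨y, hy, rfl⟩
  have h := coeffMap_mem_of_hasRep (Sat.hasRepBar (N * r) hA)
    (fun a ha => residue_eq_zero_of_not_isUnit a ha) (iR ↥A y) (by
      rw [coeffMap_subtype_iR]
      exact F1pBar_le_F1Bar_mul hc.out (coeffEmb_mem_laurentBaseChange Kb hy))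
  rwa [coeffMap_pi_iR'] at h

variable (hr : r.Prime) (hA : A.LiesOverPrime r) (hrN : ¬ r ∣ N)

theorem residue_kills (a : ↥A) (ha : ¬ IsUnit a) : residue ↥A a = 0 :=
  residue_eq_zero_of_not_isUnit a ha

include hr hrN in
/-- the first Gauss ring of `E''` is archimedean -/
theorem arch_V₁ : Arch (V₁ N A hA) :=
  arch_V1 hr hA hrN (V := V₁ N A hA) (isExt_V₁ hr hA hrN).comap

/-- a presentation of the inclusion `E'' ⊆ E'` is a `ℚ̄`-algebra map -/
theorem map_algebraMap_of_coe (ι : ↥(F1pBar N r) →+* ↥(F1Bar (N * r)))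
    (hι : ∀ x : ↥(F1pBar N r), ((ι x : ↥(F1Bar (N * r))) : LaurentSeries Kb) =
      (x : LaurentSeries Kb)) (c : Kb) :
    ι (algebraMap Kb ↥(F1pBar N r) c) = algebraMap Kb ↥(F1Bar (N * r)) c := by
  apply Subtype.ext
  rw [hι, IntermediateField.coe_algebraMap_apply, IntermediateField.coe_algebraMap_apply]

include hr hrN in
/-- **the Gauss ring of `E' = ℚ̄(X₁(N r))` restricts to the first Gauss ring of `E''`**, along any
presentation `ι` of the inclusion `E'' ⊆ E'`, concrete form -/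
theorem comap_gaussV_eq_V₁ (ι : ↥(F1pBar N r) →+* ↥(F1Bar (N * r)))
    (hι : ∀ x : ↥(F1pBar N r), ((ι x : ↥(F1Bar (N * r))) : LaurentSeries Kb) =
      (x : LaurentSeries Kb)) :
    (gaussV (N * r) hA).comap ι = V₁ N A hA :=
  OwMono.comap_eq (F1pBar_le_F1Bar_mul hc.out) (F1pC_le_F1C_mul hA) ι hι (hasRep1p hA)
    (Sat.hasRepBar (N * r) hA) (residue_kills (A := A))
    (Fermat.Agent.S34.ArchGauss.ne_top_of_liesOverPrime hrF.out A hA)
    (map_algebraMap_of_coe ι hι)
    (arch_V₁ hr hA hrN)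

/-- **`V' ∩ E'' = V1X1`**, along any presentation `ι` of the inclusion `E'' ⊆ E'` -/
theorem comap_gaussV_eq (ι : ↥(F1pBar N r) →+* ↥(F1Bar (N * r)))
    (hι : ∀ x : ↥(F1pBar N r), ((ι x : ↥(F1Bar (N * r))) : LaurentSeries Kb) =
      (x : LaurentSeries Kb)) :
    (gaussV (N * r) hA).comap ι = V1X1 hr hA hrN := by
  rw [comap_gaussV_eq_V₁ hr hA hrN ι hι, V1X1_eq]

include hr hrN in
/-- **`V' ∩ E'' = V₁`**, concrete form -/
theorem comap_gaussV_incl_V₁ :
    (gaussV (N * r) hA).comap (incl N r).toRingHom = V₁ N A hA :=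
  comap_gaussV_eq_V₁ hr hA hrN _ (fun x => coe_incl N r x)

/-- **`V' ∩ E'' = V1X1`: the Gauss ring of `E' = ℚ̄(X₁(N r))` restricts to the first Gauss ring of
`E'' = ℚ̄(X₁(N; r))`** -/
theorem comap_gaussV_incl :
    (gaussV (N * r) hA).comap (incl N r).toRingHom = V1X1 hr hA hrN := by
  rw [comap_gaussV_incl_V₁ hr hA hrN, V1X1_eq]

include hr hrN in
theorem incl_mem_gaussV_iff (x : ↥(F1pBar N r)) :
    incl N r x ∈ gaussV (N * r) hA ↔ x ∈ V₁ N A hA := by
  rw [← comap_gaussV_incl_V₁ hr hA hrN, ValuationSubring.mem_comap]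
  exact Iff.rfl

/-- **the two reductions agree, as `q`-series** -/
theorem coe_redGaussV_incl (x : ↥(V₁ N A hA))
    (hx : incl N r (x : ↥(F1pBar N r)) ∈ gaussV (N * r) hA) :
    ((redGaussV (N * r) hA ⟨incl N r (x : ↥(F1pBar N r)), hx⟩ :
        ↥(F1C (N * r) (ResidueField ↥A))) : LaurentSeries (ResidueField ↥A)) =
      ((red₁ hr hA hrN x : ↥(F1C N (ResidueField ↥A))) : LaurentSeries (ResidueField ↥A)) := by
  rw [coe_red₁]
  exact coe_redV_map (F1pBar_le_F1Bar_mul hc.out) (F1pC_le_F1C_mul hA) (incl N r).toRingHom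
    (fun x => coe_incl N r x) (hasRep1p hA) (Sat.hasRepBar (N * r) hA) x hx

/-! ### the branch `V_H` of `F_H` -/

/-- the inclusion `F_H ⊆ E'`, as a ring homomorphism -/
def jH (H : Subgroup (ZMod (N * r))ˣ) : ↥(FH N r H) →+* ↥(F1Bar (N * r)) :=
  (FH N r H).val.toRingHom

@[simp] theorem jH_apply (H : Subgroup (ZMod (N * r))ˣ) (x : ↥(FH N r H)) :
    jH H x = (x : ↥(F1Bar (N * r))) := rfl

theorem coe_jH_algebraMap (H : Subgroup (ZMod (N * r))ˣ) (x : ↥(F1pBar N r)) :
    ((jH H (algebraMap ↥(F1pBar N r) ↥(FH N r H) x) : ↥(F1Bar (N * r))) :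
      LaurentSeries Kb) = (x : LaurentSeries Kb) :=
  coe_algebraMap N r x

/-- **`V_H`**, the Gauss ring of `F_H` : the restriction of the Gauss ring of `E'` -/
def VH (hA : A.LiesOverPrime r) (H : Subgroup (ZMod (N * r))ˣ) : ValuationSubring ↥(FH N r H) :=
  (gaussV (N * r) hA).comap (jH H)

theorem mem_VH_iff (H : Subgroup (ZMod (N * r))ˣ) (x : ↥(FH N r H)) :
    x ∈ VH hA H ↔ (x : ↥(F1Bar (N * r))) ∈ gaussV (N * r) hA := by
  rw [VH, ValuationSubring.mem_comap]
  exact Iff.rfl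

/-- `V_H` in helper17's literal `(gaussV (N r) hA).comap (FH N r H).val` -/
theorem VH_eq_comap_val (H : Subgroup (ZMod (N * r))ˣ) :
    VH hA H = (gaussV (N * r) hA).comap
      ((FH N r H).val : ↥(FH N r H) →+* ↥(F1Bar (N * r))) := rfl

/-- **`ρ_H : V_H →+* κ((q))`**, the reduction of `V_H` (`redGaussV`, then the coercion) -/
def rhoH (hA : A.LiesOverPrime r) (H : Subgroup (ZMod (N * r))ˣ) :
    ↥(VH hA H) →+* LaurentSeries (ResidueField ↥A) :=
  rhoComap (Sat.hasRepBar (N * r) hA) (jH H)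

theorem rhoH_apply (H : Subgroup (ZMod (N * r))ˣ) (x : ↥(VH hA H)) :
    rhoH hA H x = ((redGaussV (N * r) hA ⟨((x : ↥(FH N r H)) : ↥(F1Bar (N * r))), x.2⟩ :
      ↥(F1C (N * r) (ResidueField ↥A))) : LaurentSeries (ResidueField ↥A)) := rfl

/-- the values of `ρ_H` lie in `κ(X₁(N r)) = F1C (N r) κ` -/
theorem rhoH_mem (H : Subgroup (ZMod (N * r))ˣ) (x : ↥(VH hA H)) :
    rhoH hA H x ∈ F1C (N * r) (ResidueField ↥A) := by
  rw [rhoH_apply]
  exact Subtype.property _

/-- **`hker`** : the kernel of `ρ_H` is the maximal ideal of `V_H` -/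
theorem hker (H : Subgroup (ZMod (N * r))ˣ) (x : ↥(VH hA H)) :
    rhoH hA H x = 0 ↔ (VH hA H).valuation (x : ↥(FH N r H)) < 1 :=
  rhoComap_eq_zero_iff (Sat.hasRepBar (N * r) hA) (jH H) x

include hr hrN in
/-- **`V_H ∩ E'' = V₁`**, concrete form -/
theorem comap_VH_V₁ (H : Subgroup (ZMod (N * r))ˣ) :
    (VH hA H).comap (algebraMap ↥(F1pBar N r) ↥(FH N r H)) = V₁ N A hA := by
  rw [VH, ValuationSubring.comap_comap]
  exact comap_gaussV_eq_V₁ hr hA hrN _ (fun x => coe_jH_algebraMap H x)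

/-- **`comap_eq` : `V_H ∩ E'' = V1X1`** -/
theorem comap_VH (H : Subgroup (ZMod (N * r))ˣ) :
    (VH hA H).comap (algebraMap ↥(F1pBar N r) ↥(FH N r H)) = V1X1 hr hA hrN := by
  rw [comap_VH_V₁ hr hA hrN H, V1X1_eq]

include hr hrN in
theorem algebraMap_mem_VH_iff (H : Subgroup (ZMod (N * r))ˣ) (x : ↥(F1pBar N r)) :
    algebraMap ↥(F1pBar N r) ↥(FH N r H) x ∈ VH hA H ↔ x ∈ V₁ N A hA := by
  rw [← comap_VH_V₁ hr hA hrN H, ValuationSubring.mem_comap]

/-- **`ρ_H` extends `red₁`, as `q`-series** -/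
theorem rhoH_algebraMap (H : Subgroup (ZMod (N * r))ˣ) (x : ↥(V₁ N A hA))
    (h : algebraMap ↥(F1pBar N r) ↥(FH N r H) (x : ↥(F1pBar N r)) ∈ VH hA H) :
    rhoH hA H ⟨algebraMap ↥(F1pBar N r) ↥(FH N r H) (x : ↥(F1pBar N r)), h⟩ =
      ((red₁ hr hA hrN x : ↥(F1C N (ResidueField ↥A))) : LaurentSeries (ResidueField ↥A)) := by
  rw [coe_red₁]
  exact rhoComap_comp (F1pBar_le_F1Bar_mul hc.out) (F1pC_le_F1C_mul hA) (hasRep1p hA)
    (Sat.hasRepBar (N * r) hA) (jH H) (algebraMap ↥(F1pBar N r) ↥(FH N r H))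
    (fun x => coe_jH_algebraMap H x) x h

/-! ### over helper18's first component `R1 X` -/

section OverR1

open Fermat.Agent.S37.Deuring.Core
open Fermat.Agent.S43.LG1.C1.CoreZX1Assembly Fermat.Agent.S43.LG1.Ig.RedUnique

variable {hr hA hrN}
variable [HasPrincipalDivisors Kb ↥(F1pBar N r)]
variable [HasPrincipalDivisors (ResidueField ↥A) ↥(F1C N (ResidueField ↥A))]
variable {gL gk : ℕ} {Hy : Hyp (gaussDatum1 N A hr hA hrN) gL gk}
variable [CharP (ResidueField ↥A) r]
variable (X : Inputs1 hr hA hrN Hy) (H : Subgroup (ZMod (N * r))ˣ)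

/-- **`hA₀` : `V_H ∩ E'' = (R1 X).O`** -/
theorem comap_VH_R1 :
    (VH hA H).comap (algebraMap ↥(F1pBar N r) ↥(FH N r H)) = (R1 X).toBranch.O := by
  rw [comap_VH hr hA hrN H]
  exact (R1_O X).symm

/-- **`hcompat` : `ρ_H` extends `(R1 X).red`** -/
theorem hcompat (a : ↥(R1 X).toBranch.O)
    (h : algebraMap ↥(F1pBar N r) ↥(FH N r H) (a : ↥(F1pBar N r)) ∈ VH hA H) :
    rhoH hA H ⟨algebraMap ↥(F1pBar N r) ↥(FH N r H) (a : ↥(F1pBar N r)), h⟩ =
      algebraMap ↥(F1C N (ResidueField ↥A)) (LaurentSeries (ResidueField ↥A))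
        ((R1 X).toBranch.red a) := by
  have ha : (a : ↥(F1pBar N r)) ∈ V₁ N A hA := (mem_R1_O_iff X _).mp a.2
  have h1 : (R1 X).toBranch.red a = red₁ hr hA hrN ⟨(a : ↥(F1pBar N r)), ha⟩ :=
    R1_red_eq X (a : ↥(F1pBar N r)) a.2 ha
  rw [h1]
  exact rhoH_algebraMap hr hA hrN H ⟨(a : ↥(F1pBar N r)), ha⟩ h

/-- `hcompat`, coercion form -/
theorem hcompat_coe (a : ↥(R1 X).toBranch.O)
    (h : algebraMap ↥(F1pBar N r) ↥(FH N r H) (a : ↥(F1pBar N r)) ∈ VH hA H) :
    rhoH hA H ⟨algebraMap ↥(F1pBar N r) ↥(FH N r H) (a : ↥(F1pBar N r)), h⟩ =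
      (((R1 X).toBranch.red a : ↥(F1C N (ResidueField ↥A))) :
        LaurentSeries (ResidueField ↥A)) :=
  hcompat X H a h

/-- **`hsurj` : `(R1 X).red` is onto `κ(X₁(N))`** -/
theorem hsurj : Function.Surjective (R1 X).toBranch.red := by
  intro y
  obtain ⟨x, rfl⟩ := red₁_surjective hr hA hrN y
  exact ⟨⟨(x : ↥(F1pBar N r)), (mem_R1_O_iff X _).mpr x.2⟩,
    R1_red_eq X (x : ↥(F1pBar N r)) _ x.2⟩

/-- the residue field of `V_H` inside `κ((q))` : helper3's `BranchUp.KUp` at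
`(R0, A', ρ') := ((R1 X).toBranch, V_H, ρ_H)` (the check that the binders fit, letter for letter) -/
abbrev KUpH : IntermediateField ↥(F1C N (ResidueField ↥A)) (LaurentSeries (ResidueField ↥A)) :=
  Fermat.Agent.S43.LG1.Ig.BranchUp.KUp (R1 X).toBranch (VH hA H) (rhoH hA H) (hker hA H)
    (comap_VH_R1 X H) (hcompat X H) (hsurj X)

end OverR1

end Level

end Fermat.Agent.S43.LG1.Ig.VH
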