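/-
PROJECT R (row 37 by S43), gate `LG1Hyp`, brick IG, file (M4) (helper17): **THE KUMMER COVER OF THE
NODAL DATUM OF THE BASE, GENERIC.**

`N0 : GNodalDatum A π F0 κ κ ι` the nodal datum of the base (`C1`), `F / F0` finite cyclic Kummer of
degree `m` (`σ`, `ζ`, `z`).  Over each of the two branches of `N0` a valuation subring `A_i` of `F`
with a reduction `ρ_i : A_i →+* R` into a field `R ⊇ κ` (`R = k((q))`) extending the reduction of
the base branch, an element `Z_i : A_i` with `(ρ_i Z_i) ^ m = θ_i ∈ κ`, and **(T)** at every node: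
`ord_{e_i} θ_i` is prime to `m`.  Then helper3's `BranchUp` (twice) gives a
`C2/Seam.KummerCover N0 K₁ K₂ F` whose Gauss rings are `A₁`, `A₂`.

* `transport` : the data of the second branch from the data of the first one and an automorphism
  `wF` of `F` extending the Atkin-Lehner automorphism `W` of `F0`, when
  `N0.R2 = smoothRedComap N0.R1 W` (`A₂ = A₁.comap wF`, `ρ₂ = ρ₁ ∘ wF`, `Z₂ = wF⁻¹ Z₁`, SAME `θ`);
* **`exists_kummerCover`**.
-/
import Mathlib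
import Fermat.Agent.S34.Generic.SmoothRedOfGeneric
import Fermat.Agent.S34.ArchComap
import Fermat.Agent.S43.LG1.Ig.BranchUp

set_option autoImplicit false
set_option linter.unusedSectionVars false

noncomputable section

namespace Fermat.Agent.S43.LG1.Ig.Cover

open AlgebraicCurve Fermat.Agent.S34.NodalDefs
open Fermat.Agent.S43.LG1.Ig.BranchUp
open Fermat.Agent.S43.LG1.C2.Seam

variable {L : Type*} [Field L] {k : Type*} [Field k] {A : ValuationSubring L} {π : A →+* k}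
variable {F0 : Type*} [Field F0] [Algebra L F0] {F : Type*} [Field F] [Algebra L F]
variable [Algebra F0 F] [IsScalarTower L F0 F] [FiniteDimensional F0 F]
variable {κ : Type*} [Field κ] [Algebra k κ] {R : Type*} [Field R] [Algebra κ R] [Algebra k R]
  [IsScalarTower k κ R]

/-! ### transport of the first branch along an extension of the Atkin-Lehner automorphism -/

section Transport

open Fermat.Agent.S34.Generic.SmoothRedOfGeneric

variable (R₁ R₂ : SmoothRed A π F0 κ) (W : F0 ≃ₐ[L] F0)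
  (hO : R₂.O = R₁.O.comap (W : F0 →+* F0))
  (hred : ∀ (x : R₂.O) (h : W (x : F0) ∈ R₁.O), R₂.red x = R₁.red ⟨W (x : F0), h⟩)
variable (A1 : ValuationSubring F) (ρ1 : A1 →+* R)
  (hker1 : ∀ x : A1, ρ1 x = 0 ↔ A1.valuation (x : F) < 1)
  (hA1 : A1.comap (algebraMap F0 F) = R₁.O)
  (hcompat1 : ∀ (a : R₁.O) (h : algebraMap F0 F (a : F0) ∈ A1),
    ρ1 ⟨algebraMap F0 F a, h⟩ = algebraMap κ R (R₁.red a))
  (hsurj1 : Function.Surjective R₁.red)
variable (wF : F ≃ₐ[L] F)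
  (hW : ∀ x : F0, wF (algebraMap F0 F x) = algebraMap F0 F (W x))

/-- the Gauss ring of the second branch upstairs: `wF⁻¹ A₁` -/
abbrev ringTw : ValuationSubring F := A1.comap (wF : F →+* F)

theorem mem_ringTw (x : F) : x ∈ ringTw A1 wF ↔ wF x ∈ A1 := Iff.rfl

/-- the reduction of the second branch upstairs: `ρ₁ ∘ wF` -/
def redTw : ringTw A1 wF →+* R := ρ1.comp (comapEquiv A1 wF : _ →+* _)

theorem redTw_apply (x : ringTw A1 wF) : redTw A1 ρ1 wF x = ρ1 ⟨wF (x : F), x.2⟩ := rfl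

include hker1 in
theorem hkerTw (x : ringTw A1 wF) :
    redTw A1 ρ1 wF x = 0 ↔ (ringTw A1 wF).valuation (x : F) < 1 := by
  rw [redTw_apply, hker1, ← ValuationSubring.mem_nonunits_iff, ← ValuationSubring.mem_nonunits_iff]
  exact (Fermat.Agent.S34.ArchComap.mem_comap_nonunits_iff A1 (wF : F →+* F) (x : F)).symm

include hO hA1 hW in
theorem comapTw : (ringTw A1 wF).comap (algebraMap F0 F) = R₂.O := by
  refine ValuationSubring.ext _ _ fun x => ?_
  rw [hO, ValuationSubring.mem_comap, ValuationSubring.mem_comap, mem_ringTw, ← hA1,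
    ValuationSubring.mem_comap]
  have h1 : (wF : F →+* F) (algebraMap F0 F x) = algebraMap F0 F (W x) := hW x
  rw [h1]

include hred hA1 hcompat1 hW in
theorem hcompatTw (a : R₂.O) (h : algebraMap F0 F (a : F0) ∈ ringTw A1 wF) :
    redTw A1 ρ1 wF ⟨algebraMap F0 F a, h⟩ = algebraMap κ R (R₂.red a) := by
  have h1 : algebraMap F0 F (W (a : F0)) ∈ A1 := by
    rw [← hW]
    exact h
  have h2 : W (a : F0) ∈ R₁.O := by
    rw [← hA1, ValuationSubring.mem_comap]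
    exact h1
  rw [redTw_apply, hred a h2, ← hcompat1 ⟨W (a : F0), h2⟩ h1]
  congr 1
  exact Subtype.ext (hW _)

include hO hred hsurj1 in
theorem hsurjTw : Function.Surjective R₂.red := by
  intro y
  obtain ⟨x, hx⟩ := hsurj1 y
  have hx' : W.symm (x : F0) ∈ R₂.O := by
    rw [hO, ValuationSubring.mem_comap]
    show W (W.symm (x : F0)) ∈ R₁.O
    rw [AlgEquiv.apply_symm_apply]
    exact x.2
  refine ⟨⟨W.symm (x : F0), hx'⟩, ?_⟩
  have h2 : W ((⟨W.symm (x : F0), hx'⟩ : R₂.O) : F0) ∈ R₁.O := by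
    show W (W.symm (x : F0)) ∈ R₁.O
    rw [AlgEquiv.apply_symm_apply]
    exact x.2
  rw [hred _ h2, ← hx]
  congr 1
  exact Subtype.ext (AlgEquiv.apply_symm_apply W _)

/-- the Kummer generator of the second branch: `wF⁻¹ Z₁` -/
def genTw (Z1 : A1) : ringTw A1 wF := (comapEquiv A1 wF).symm Z1

theorem redTw_genTw (Z1 : A1) : redTw A1 ρ1 wF (genTw A1 wF Z1) = ρ1 Z1 := by
  rw [redTw_apply]
  congr 1
  exact Subtype.ext (AlgEquiv.apply_symm_apply wF _)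

end Transport

/-! ### the cover -/

section Cover

variable {ι : Type*} (N0 : GNodalDatum A π F0 κ κ ι)
variable {m : ℕ} (hm : 0 < m) (hmk : (m : k) ≠ 0) (hfin : Module.finrank F0 F = m)
  (ζ : L) (hζ : IsPrimitiveRoot ζ m) (σ : F ≃ₐ[F0] F) (σ_pow : ∀ h : F, (σ ^ m) h = h)
  (fixed : ∀ h : F, σ h = h → ∃ h0 : F0, algebraMap F0 F h0 = h)
  (z : F) (z_ne : z ≠ 0) (σ_z : σ z = algebraMap L F ζ * z)
variable (A1 : ValuationSubring F) (ρ1 : A1 →+* R)
  (hker1 : ∀ x : A1, ρ1 x = 0 ↔ A1.valuation (x : F) < 1)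
  (hA1 : A1.comap (algebraMap F0 F) = N0.R1.O)
  (hcompat1 : ∀ (a : N0.R1.O) (h : algebraMap F0 F (a : F0) ∈ A1),
    ρ1 ⟨algebraMap F0 F a, h⟩ = algebraMap κ R (N0.R1.red a))
  (hsurj1 : Function.Surjective N0.R1.red)
  (Z1 : A1) (θ1 : κ) (hν1 : ρ1 Z1 ^ m = algebraMap κ R θ1)
variable (A2 : ValuationSubring F) (ρ2 : A2 →+* R)
  (hker2 : ∀ x : A2, ρ2 x = 0 ↔ A2.valuation (x : F) < 1)
  (hA2 : A2.comap (algebraMap F0 F) = N0.R2.O)
  (hcompat2 : ∀ (a : N0.R2.O) (h : algebraMap F0 F (a : F0) ∈ A2),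
    ρ2 ⟨algebraMap F0 F a, h⟩ = algebraMap κ R (N0.R2.red a))
  (hsurj2 : Function.Surjective N0.R2.red)
  (Z2 : A2) (θ2 : κ) (hν2 : ρ2 Z2 ^ m = algebraMap κ R θ2)
  (hroot : ∀ (c : L) (n : ℕ), 0 < n → ∃ d : L, d ^ n = c)

include hmk in
theorem natCast_ne_zero_of : (m : κ) ≠ 0 := by
  rw [← map_natCast (algebraMap k κ) m]
  exact (map_ne_zero (algebraMap k κ)).mpr hmk

include hm hmk hfin hζ σ_pow fixed z_ne σ_z hν1 hν2 hroot in
/-- **THE KUMMER COVER** of the nodal datum of the base, from (T) at every node of both branches. -/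
theorem exists_kummerCover [Nonempty ι]
    (hT1 : ∀ e, IsCoprime ((N0.e1 e).ord θ1) (m : ℤ))
    (hT2 : ∀ e, IsCoprime ((N0.e2 e).ord θ2) (m : ℤ))
    (x1 : GoodCoord N0.R1) (x2 : GoodCoord N0.R2)
    (unram1 : UnramOver N0.R1 F) (unram2 : UnramOver N0.R2 F) :
    ∃ Y : KummerCover N0 ↥(KUp N0.R1.toBranch A1 ρ1 hker1 hA1 hcompat1 hsurj1)
        ↥(KUp N0.R2.toBranch A2 ρ2 hker2 hA2 hcompat2 hsurj2) F,
      Y.U1.B.O = A1 ∧ Y.U2.B.O = A2 ∧ Y.m = m ∧ Y.σ = σ ∧ Y.z = z ∧ Y.ζ = ζ := by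
  classical
  obtain ⟨e0⟩ := ‹Nonempty ι›
  have hmκ : (m : κ) ≠ 0 := natCast_ne_zero_of (κ := κ) hmk
  have E1 := fun e => existsUnique_place_over N0.R1.toBranch A1 ρ1 hker1 hA1 hcompat1 hsurj1 hm hfin
    Z1 θ1 hν1 (N0.e1 e0) (hT1 e0) hmκ (N0.e1 e) (hT1 e)
  have E2 := fun e => existsUnique_place_over N0.R2.toBranch A2 ρ2 hker2 hA2 hcompat2 hsurj2 hm hfin
    Z2 θ2 hν2 (N0.e2 e0) (hT2 e0) hmκ (N0.e2 e) (hT2 e)
  refine ⟨{
    m := m
    hm := hmk
    ζ := ζ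
    hζ := hζ
    σ := σ
    σ_pow := σ_pow
    fixed := fixed
    z := z
    z_ne := z_ne
    σ_z := σ_z
    U1 := branchOver N0.R1.toBranch A1 ρ1 hker1 hA1 hcompat1 hsurj1 hroot hm hfin Z1 θ1 hν1
      (N0.e1 e0) (hT1 e0) σ
    U2 := branchOver N0.R2.toBranch A2 ρ2 hker2 hA2 hcompat2 hsurj2 hroot hm hfin Z2 θ2 hν2
      (N0.e2 e0) (hT2 e0) σ
    x1 := x1
    x2 := x2
    unram1 := unram1
    unram2 := unram2
    e1 := fun e => Classical.choose (E1 e)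
    e2 := fun e => Classical.choose (E2 e)
    e1_over := fun e => (Classical.choose_spec (E1 e)).1
    e2_over := fun e => (Classical.choose_spec (E2 e)).1
    e1_unique := fun e Q hQ => (Classical.choose_spec (E1 e)).2 Q hQ
    e2_unique := fun e Q hQ => (Classical.choose_spec (E2 e)).2 Q hQ }, rfl, rfl, rfl, rfl, rfl, rfl⟩

end Cover

/-! ### the cover, second branch by transport -/

section CoverTw

variable {ι : Type*} (N0 : GNodalDatum A π F0 κ κ ι)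
variable {m : ℕ} (hm : 0 < m) (hmk : (m : k) ≠ 0) (hfin : Module.finrank F0 F = m)
  (ζ : L) (hζ : IsPrimitiveRoot ζ m) (σ : F ≃ₐ[F0] F) (σ_pow : ∀ h : F, (σ ^ m) h = h)
  (fixed : ∀ h : F, σ h = h → ∃ h0 : F0, algebraMap F0 F h0 = h)
  (z : F) (z_ne : z ≠ 0) (σ_z : σ z = algebraMap L F ζ * z)
variable (A1 : ValuationSubring F) (ρ1 : A1 →+* R)
  (hker1 : ∀ x : A1, ρ1 x = 0 ↔ A1.valuation (x : F) < 1)
  (hA1 : A1.comap (algebraMap F0 F) = N0.R1.O)
  (hcompat1 : ∀ (a : N0.R1.O) (h : algebraMap F0 F (a : F0) ∈ A1),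
    ρ1 ⟨algebraMap F0 F a, h⟩ = algebraMap κ R (N0.R1.red a))
  (hsurj1 : Function.Surjective N0.R1.red)
  (Z1 : A1) (θ : κ) (hν1 : ρ1 Z1 ^ m = algebraMap κ R θ)
  (hroot : ∀ (c : L) (n : ℕ), 0 < n → ∃ d : L, d ^ n = c)
variable (W : F0 ≃ₐ[L] F0) (hO : N0.R2.O = N0.R1.O.comap (W : F0 →+* F0))
  (hred : ∀ (x : N0.R2.O) (h : W (x : F0) ∈ N0.R1.O), N0.R2.red x = N0.R1.red ⟨W (x : F0), h⟩)
  (wF : F ≃ₐ[L] F) (hW : ∀ x : F0, wF (algebraMap F0 F x) = algebraMap F0 F (W x))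

include hm hmk hfin hζ σ_pow fixed z_ne σ_z hν1 hroot in
/-- **THE KUMMER COVER, the second branch being the transport of the first one** along an
automorphism `wF` of `F` extending the Atkin-Lehner automorphism `W` of the base
(`N0.R2 = smoothRedComap N0.R1 W`): the Gauss rings are `A₁` and `wF⁻¹ A₁`, and (T) is asked for
THE SAME `θ` at the nodes `e1 e` and `e2 e`. -/
theorem exists_kummerCover_tw [Nonempty ι]
    (hT1 : ∀ e, IsCoprime ((N0.e1 e).ord θ) (m : ℤ))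
    (hT2 : ∀ e, IsCoprime ((N0.e2 e).ord θ) (m : ℤ))
    (x1 : GoodCoord N0.R1) (x2 : GoodCoord N0.R2)
    (unram1 : UnramOver N0.R1 F) (unram2 : UnramOver N0.R2 F) :
    ∃ Y : KummerCover N0 ↥(KUp N0.R1.toBranch A1 ρ1 hker1 hA1 hcompat1 hsurj1)
        ↥(KUp N0.R2.toBranch (ringTw A1 wF) (redTw A1 ρ1 wF) (hkerTw A1 ρ1 hker1 wF)
          (comapTw N0.R1 N0.R2 W hO A1 hA1 wF hW)
          (hcompatTw N0.R1 N0.R2 W hred A1 ρ1 hA1 hcompat1 wF hW)
          (hsurjTw N0.R1 N0.R2 W hO hred hsurj1)) F,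
      Y.U1.B.O = A1 ∧ Y.U2.B.O = ringTw A1 wF ∧ Y.m = m ∧ Y.σ = σ ∧ Y.z = z ∧ Y.ζ = ζ :=
  exists_kummerCover N0 hm hmk hfin ζ hζ σ σ_pow fixed z z_ne σ_z A1 ρ1 hker1 hA1 hcompat1 hsurj1
    Z1 θ hν1 (ringTw A1 wF) (redTw A1 ρ1 wF) (hkerTw A1 ρ1 hker1 wF)
    (comapTw N0.R1 N0.R2 W hO A1 hA1 wF hW)
    (hcompatTw N0.R1 N0.R2 W hred A1 ρ1 hA1 hcompat1 wF hW)
    (hsurjTw N0.R1 N0.R2 W hO hred hsurj1) (genTw A1 wF Z1) θ
    (by rw [redTw_genTw]; exact hν1) hroot hT1 hT2 x1 x2 unram1 unram2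

end CoverTw

end Fermat.Agent.S43.LG1.Ig.Cover
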