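/-
PROJECT R (row 37 by S43), gate `LG1Hyp`, brick IG, file (M4), the instance (helper17):
**THE KUMMER COVER `F_H / E''` OF THE NODAL DATUM `nodalC1 X Y` OF `E'' = ℚ̄(X₁(N; r))`**, with Gauss
rings helper4's `VH N r H hA` and its pull-back by the Fricke automorphism.

Hypothesis-first on the bricks which are being typed:
* (M2) `Ig/VH` : the reduction `ρH : VH →+* κ((q))`, its kernel, `VH ∩ E'' = (R1 X).O`, and the
  compatibility with the reduction of the base branch;
* (IG-X) `Ig/Gen` : `Z : VH`, `θ0 : F1C N κ`, `(ρH Z) ^ m = θ0`, `m = indexH N r H`;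
* (M1) `Ig/NodeT` : (T) at the two node places `Fr2X1 a`, `a` (`a ∈ Y.S`);
* (M3) `Ig/FrickeW1` : a Fricke automorphism `w` of `E'` extending `W1`;
* `C2/Inst/Coord` : the coordinates and the unramifiedness over the good discs.
-/
import Mathlib
import Fermat.Agent.S43.LG1.Ig.Cover
import Fermat.Agent.S43.LG1.H.Inst
import Fermat.Agent.S43.LG1.C1.CoreZX1Build

set_option autoImplicit false
set_option linter.unusedSectionVars false
set_option linter.style.haveILetI false
set_option synthInstance.maxHeartbeats 400000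

noncomputable section

namespace Fermat.Agent.S43.LG1.Ig.CoverInst

open AlgebraicCurve ModularCurve IsLocalRing
open Fermat.Agent.S34.NodalDefs Fermat.Agent.S37.Deuring.Core
open Fermat.Agent.S48.B.Defs.Model Fermat.Agent.S48.B.B1.Seams
open Fermat.Agent.S48.B.ES.DegreeBeta1
open Fermat.Agent.S43.LG1.OfFricke Fermat.Agent.S43.LG1.OfSeams
open Fermat.Agent.S43.LG1.C1.Seam Fermat.Agent.S43.LG1.C1.Z1X1
open Fermat.Agent.S43.LG1.C1.CoreZX1Assembly Fermat.Agent.S43.LG1.C1.CoreZX1Build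
open Fermat.Agent.S43.LG1.C2.Seam
open Fermat.Agent.S43.LG1.H.Gate Fermat.Agent.S43.LG1.H.Inst
open Fermat.Agent.S43.LG1.Ig.Tower Fermat.Agent.S43.LG1.Ig.TowerAlg Fermat.Agent.S43.LG1.Ig.TowerH
open Fermat.Agent.S43.LG1.Ig.BranchUp Fermat.Agent.S43.LG1.Ig.Cover

local notation "Kb" => AlgebraicClosure ℚ

attribute [local instance] Fermat.Agent.S43.LG1.Fricke.Seam.instNeZeroMul
attribute [local instance] towerAlgebra isScalarTower_tower
attribute [local instance] algShortcut1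

variable (N r : ℕ) [NeZero N] [NeZero r] [hc : Fact (r.Coprime N)] [hrF : Fact r.Prime]
variable (H : Subgroup (ZMod (N * r))ˣ) {A : ValuationSubring Kb}
variable (hr : r.Prime) (hA : A.LiesOverPrime r) (hrN : ¬ r ∣ N)

/-- the restriction of a Fricke automorphism to `F_H` extends the Atkin-Lehner automorphism of
`E''` as soon as the Fricke automorphism does -/
theorem wF_algebraMap (hH : H ≤ rPart N r) (w : F1Bar (N * r) ≃ₐ[Kb] F1Bar (N * r))
    (hw : IsFricke N r w)
    (hwW : ∀ x : ↥(F1pBar N r), w (TowerAlg.incl N r x) = TowerAlg.incl N r (W1 N r hr hrN x))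
    (x : ↥(F1pBar N r)) :
    wF (incl N r H) (range_incl N r H hH) (isRPart_of_le N r H hH) w hw
        (algebraMap ↥(F1pBar N r) ↥(FH N r H) x) =
      algebraMap ↥(F1pBar N r) ↥(FH N r H) (W1 N r hr hrN x) := by
  apply Fermat.Agent.S43.LG1.H.Restrict.injective_hom (incl N r H)
  rw [apply_wF]
  exact hwW x

/-! ### the cover -/

/-- shortcut instances (all propositions), as in `C1/CoreZX1Build` -/
local instance instPDBar1' (N : ℕ) [NeZero N] : HasPrincipalDivisors Kb ↥(F1Bar N) :=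
  Fermat.Agent.S48.B.Inj.Basics.hasPrincipalDivisors_L
    (Fermat.Agent.S43.LG1.C1.LevelMSurjX1.isFF_jgen1 N)

local instance instACk1' (A : ValuationSubring Kb) : IsAlgClosed (ResidueField ↥A) :=
  Fermat.Agent.S18.ResidueBasics.isAlgClosed_residueField A

variable {N r H hr hA hrN}
variable [HasPrincipalDivisors Kb ↥(F1pBar N r)]
variable [HasPrincipalDivisors (ResidueField ↥A) ↥(F1C N (ResidueField ↥A))]
variable {gL gk : ℕ} {Hh : Hyp (gaussDatum1 N A hr hA hrN) gL gk}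
variable [CharP (ResidueField ↥A) r]

/-- the reduction of the first component of the base is onto -/
theorem R1_red_surjective (X : Inputs1 hr hA hrN Hh) : Function.Surjective (R1 X).red := by
  intro y
  obtain ⟨g, hg⟩ := red_surjective1 (N := N) (A := A) hr hrN hA y
  exact ⟨⟨alpha1 N r Kb (g : ↥(F1Bar N)), X.α_mem g⟩, (X.red_α g).trans hg⟩

/-- `m = [F_H : E'']` is invertible in the residue field -/
theorem indexH_ne_zero (hr : r.Prime) (hrN : ¬ r ∣ N) (hr2 : 2 < r) (hH : H ≤ rPart N r) :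
    ((indexH N r H : ℕ) : ResidueField ↥A) ≠ 0 := by
  have hpos := indexH_pos N r H hr hrN hr2 hH
  have hmul := card_mul_indexH N r H hr hrN hH
  intro h0
  rw [CharP.cast_eq_zero_iff (ResidueField ↥A) r] at h0
  have hle : indexH N r H ≤ r - 1 := by
    rw [← hmul]
    exact Nat.le_mul_of_pos_left _ (Nat.pos_of_ne_zero (by
      intro hz
      rw [hz, zero_mul] at hmul
      omega))
  have := Nat.le_of_dvd hpos h0
  omega

/-- the second component of the nodal datum is the transport of the first one by `W1` -/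
theorem nodal_R2_O (X : Inputs1 hr hA hrN Hh) (Yc : NodesC1 X) :
    (nodalC1 X Yc).R2.O = (nodalC1 X Yc).R1.O.comap
      ((W1 N r hr hrN : ↥(F1pBar N r) ≃ₐ[Kb] ↥(F1pBar N r)) : ↥(F1pBar N r) →+* ↥(F1pBar N r)) :=
  Fermat.Agent.S34.Generic.SmoothRedOfGeneric.smoothRedComap_O (R1 X) (W1 N r hr hrN)

theorem nodal_R2_red (X : Inputs1 hr hA hrN Hh) (Yc : NodesC1 X) (x : (nodalC1 X Yc).R2.O)
    (h : W1 N r hr hrN (x : ↥(F1pBar N r)) ∈ (nodalC1 X Yc).R1.O) :
    (nodalC1 X Yc).R2.red x = (nodalC1 X Yc).R1.red ⟨W1 N r hr hrN (x : ↥(F1pBar N r)), h⟩ :=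
  Fermat.Agent.S34.Generic.SmoothRedOfGeneric.smoothRedComap_red (R1 X) (W1 N r hr hrN) x

section Main

variable [FiniteDimensional ↥(F1pBar N r) ↥(FH N r H)]
variable (X : Inputs1 hr hA hrN Hh) (Yc : NodesC1 X)
variable (ρH : ↥(VH N r H hA) →+* LaurentSeries (ResidueField ↥A))
  (hker : ∀ x : ↥(VH N r H hA), ρH x = 0 ↔ (VH N r H hA).valuation (x : ↥(FH N r H)) < 1)
  (hcomap : (VH N r H hA).comap (algebraMap ↥(F1pBar N r) ↥(FH N r H)) = (nodalC1 X Yc).R1.O)
  (hcompat : ∀ (a : (nodalC1 X Yc).R1.O)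
    (h : algebraMap ↥(F1pBar N r) ↥(FH N r H) (a : ↥(F1pBar N r)) ∈ VH N r H hA),
    ρH ⟨algebraMap ↥(F1pBar N r) ↥(FH N r H) a, h⟩ =
      algebraMap ↥(F1C N (ResidueField ↥A)) (LaurentSeries (ResidueField ↥A))
        ((nodalC1 X Yc).R1.red a))
variable (hH : H ≤ rPart N r) (w : F1Bar (N * r) ≃ₐ[Kb] F1Bar (N * r)) (hw : IsFricke N r w)
  (hwW : ∀ x : ↥(F1pBar N r), w (TowerAlg.incl N r x) = TowerAlg.incl N r (W1 N r hr hrN x))

/-- the residue function field of the first branch of `F_H` -/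
abbrev K1 : IntermediateField ↥(F1C N (ResidueField ↥A)) (LaurentSeries (ResidueField ↥A)) :=
  KUp (nodalC1 X Yc).R1.toBranch (VH N r H hA) ρH hker hcomap hcompat (R1_red_surjective X)

/-- the residue function field of the second branch of `F_H` -/
abbrev K2 : IntermediateField ↥(F1C N (ResidueField ↥A)) (LaurentSeries (ResidueField ↥A)) :=
  KUp (nodalC1 X Yc).R2.toBranch
    (ringTw (VH N r H hA) (wF (incl N r H) (range_incl N r H hH) (isRPart_of_le N r H hH) w hw))
    (redTw (VH N r H hA) ρH (wF (incl N r H) (range_incl N r H hH) (isRPart_of_le N r H hH) w hw))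
    (hkerTw (VH N r H hA) ρH hker _)
    (comapTw (nodalC1 X Yc).R1 (nodalC1 X Yc).R2 (W1 N r hr hrN) (nodal_R2_O X Yc)
      (VH N r H hA) hcomap _ (wF_algebraMap N r H hr hrN hH w hw hwW))
    (hcompatTw (nodalC1 X Yc).R1 (nodalC1 X Yc).R2 (W1 N r hr hrN) (nodal_R2_red X Yc)
      (VH N r H hA) ρH hcomap hcompat _ (wF_algebraMap N r H hr hrN hH w hw hwW))
    (hsurjTw (nodalC1 X Yc).R1 (nodalC1 X Yc).R2 (W1 N r hr hrN) (nodal_R2_O X Yc)
      (nodal_R2_red X Yc) (R1_red_surjective X))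

/-- instance shortcut: instance search does not see through the local algebra instances -/
theorem isIntegral_K1 :
    Algebra.IsIntegral ↥(F1C N (ResidueField ↥A)) ↥(K1 X Yc ρH hker hcomap hcompat) :=
  Fermat.Agent.S43.LG1.Ig.ResDegree.isIntegral_resField _ _ _ _ _ _ _

theorem isIntegral_K2 :
    Algebra.IsIntegral ↥(F1C N (ResidueField ↥A))
      ↥(K2 X Yc ρH hker hcomap hcompat hH w hw hwW) :=
  Fermat.Agent.S43.LG1.Ig.ResDegree.isIntegral_resField _ _ _ _ _ _ _

attribute [local instance] isIntegral_K1 isIntegral_K2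

set_option maxHeartbeats 3200000 in
include hr hrN in
/-- **THE KUMMER COVER `F_H / E''` OF THE NODAL DATUM OF `E''`**, with Gauss rings `VH` and its
pull-back by the Fricke automorphism (`hO1`, `hO2` of helper4's `H/WireC.principalPairH_of_cover`). -/
theorem exists_cover (hN : 5 ≤ N) (hr2 : 2 < r)
    (Z : ↥(VH N r H hA)) (θ0 : ↥(F1C N (ResidueField ↥A)))
    (hν : ρH Z ^ indexH N r H =
      algebraMap ↥(F1C N (ResidueField ↥A)) (LaurentSeries (ResidueField ↥A)) θ0)
    (hT1 : ∀ b : {b // b ∈ Yc.S},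
      IsCoprime ((Fr2X1 hr hA hrN b.1).ord θ0) (indexH N r H : ℤ))
    (hT2 : ∀ b : {b // b ∈ Yc.S}, IsCoprime ((b.1).ord θ0) (indexH N r H : ℤ))
    (x1 : GoodCoord (nodalC1 X Yc).R1) (x2 : GoodCoord (nodalC1 X Yc).R2)
    (unram1 : UnramOver (nodalC1 X Yc).R1 ↥(FH N r H))
    (unram2 : UnramOver (nodalC1 X Yc).R2 ↥(FH N r H)) :
    ∃ Y : KummerCover (nodalC1 X Yc) ↥(K1 X Yc ρH hker hcomap hcompat)
        ↥(K2 X Yc ρH hker hcomap hcompat hH w hw hwW) ↥(FH N r H),
      Y.U1.B.O = VH N r H hA ∧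
      Y.U2.B.O = pull (VH N r H hA)
        (wF (incl N r H) (range_incl N r H hH) (isRPart_of_le N r H hH) w hw) ∧
      Y.m = indexH N r H := by
  have hpos := indexH_pos N r H hr hrN hr2 hH
  haveI : NeZero ((indexH N r H : ℕ) : Kb) := ⟨Nat.cast_ne_zero.mpr hpos.ne'⟩
  obtain ⟨ζ, hζ⟩ := HasEnoughRootsOfUnity.exists_primitiveRoot Kb (indexH N r H)
  obtain ⟨d₀, -, -, hpow, hfix, z, hz, hσz⟩ := exists_kummerH N r H hr hrN hN hr2 hH ζ hζ
  haveI : Nonempty {b // b ∈ Yc.S} := by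
    obtain ⟨b, hb⟩ := Finset.card_pos.mp Yc.hcard
    exact ⟨⟨b, hb⟩⟩
  obtain ⟨Y, h1, h2, h3, -, -, -⟩ := exists_kummerCover_tw (nodalC1 X Yc) hpos
    (indexH_ne_zero (A := A) hr hrN hr2 hH) (finrank_FH N r H hr hrN hN hr2 hH) ζ hζ
    (restrictFH N r H d₀) hpow hfix z hz hσz (VH N r H hA) ρH hker hcomap hcompat
    (R1_red_surjective X) Z θ0 hν
    (fun c n hn => IsAlgClosed.exists_pow_nat_eq c hn)
    (W1 N r hr hrN) (nodal_R2_O X Yc) (nodal_R2_red X Yc)
    (wF (incl N r H) (range_incl N r H hH) (isRPart_of_le N r H hH) w hw)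
    (wF_algebraMap N r H hr hrN hH w hw hwW) hT1 hT2 x1 x2 unram1 unram2
  exact ⟨Y, h1, h2, h3⟩

end Main

end Fermat.Agent.S43.LG1.Ig.CoverInst
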