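/-
PROJECT R (row 37 by S43), gate `LG1Hyp`, brick IG, file (M6) of helper17's G-FINAL cut (helper12):
**(IG-8) THE RESIDUE FIELDS UPSTAIRS ARE FUNCTION FIELDS**, with the side hypotheses of
`C2/Final.principal_cover` on `K1`, `K2` and on the cover `F`.

GENERIC (`k` a field, `κ / k` a function field with coordinate `x`, `K / κ` finite):
* `map_adjoin_simple`, `adjoinEquiv k K x : k(x) ≃ₐ[k] k(x')`, `x' = algebraMap κ K x`;
* `isFF_up : IsFF k x → IsFF k x'` ; `isSeparable_up` : `κ / k(x)` and `K / κ` separable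
  `⟹ K / k(x')` separable;
* over an algebraically closed `k`: `deg_eq_one_up`, `hasPrincipalDivisors_up`,
  `exists_riemannHyp_up` (main's `S18/A/RiemannX1.exists_riemannHyp_of_sep`), and the bundle
  `exists_bundle_up`;
* characteristic zero (the cover `F_H / ℚ̄`): `isSeparable_of_charZero`, `exists_bundle_charZero`
  (input `∃ x, IsFF L x`, e.g. helper4's `H/CoreZ.exists_isFF`).

INSTANCE: `bundle_KUp` at helper3's `Ig/BranchUp.KUp = κ(ν)`, binders of `BranchUp` letter for
letter (`isSeparable_KUp`, `m` invertible in `κ`).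
-/
import Mathlib
import Fermat.Agent.S24.FF
import Fermat.Agent.S18.A.PrincipalDivisors
import Fermat.Agent.S18.A.Instances
import Fermat.Agent.S18.A.RiemannX1
import Fermat.Agent.S43.LG1.Ig.BranchUp

set_option autoImplicit false

noncomputable section

namespace Fermat.Agent.S43.LG1.Ig.ResFF

open AlgebraicCurve IntermediateField Fermat.Agent.S24.FF

/-! ### generic: a finite separable extension of a function field with a separating coordinate -/

section Generic

variable {k : Type*} [Field k] {κ : Type*} [Field κ] [Algebra k κ]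
  {K : Type*} [Field K] [Algebra k K] [Algebra κ K] [IsScalarTower k κ K]

/-- the image of `k(x)` in `K` is `k(x')`, `x'` the image of `x` -/
theorem map_adjoin_simple (x : κ) :
    (k⟮x⟯).map (IsScalarTower.toAlgHom k κ K) = k⟮algebraMap κ K x⟯ := by
  rw [adjoin_map, Set.image_singleton]
  rfl

variable (k K) in
/-- the identification of `k(x) ⊆ κ` with `k(x') ⊆ K` -/
def adjoinEquiv (x : κ) : ↥k⟮x⟯ ≃ₐ[k] ↥k⟮algebraMap κ K x⟯ :=
  (equivMap k⟮x⟯ (IsScalarTower.toAlgHom k κ K)).trans (equivOfEq (map_adjoin_simple x))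

theorem coe_adjoinEquiv (x : κ) (y : ↥k⟮x⟯) :
    ((adjoinEquiv k K x y : ↥k⟮algebraMap κ K x⟯) : K) = algebraMap κ K (y : κ) := rfl

theorem adjoinEquiv_comp (x : κ) :
    (algebraMap ↥k⟮algebraMap κ K x⟯ K).comp
        ((adjoinEquiv k K x).toRingEquiv : ↥k⟮x⟯ →+* ↥k⟮algebraMap κ K x⟯) =
      ((RingEquiv.refl K : K ≃+* K) : K →+* K).comp (algebraMap ↥k⟮x⟯ K) := by
  ext y
  rfl

/-- **a finite extension of a function field is a function field**, same coordinate -/
theorem isFF_up {x : κ} (hx : IsFF k x) [FiniteDimensional κ K] :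
    IsFF k (algebraMap κ K x) := by
  refine ⟨(transcendental_algebraMap_iff (algebraMap κ K).injective).mpr hx.transcendental, ?_⟩
  have := hx.finite
  have : Module.Finite ↥k⟮x⟯ K := Module.Finite.trans κ K
  exact Module.Finite.of_equiv_equiv (adjoinEquiv k K x).toRingEquiv (RingEquiv.refl K)
    (adjoinEquiv_comp x)

/-- **a finite separable extension of a function field with a separating coordinate has the same
separating coordinate** -/
theorem isSeparable_up {x : κ} (hsep : Algebra.IsSeparable ↥k⟮x⟯ κ) [Algebra.IsSeparable κ K] :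
    Algebra.IsSeparable ↥k⟮algebraMap κ K x⟯ K := by
  have : Algebra.IsSeparable ↥k⟮x⟯ K := Algebra.IsSeparable.trans ↥k⟮x⟯ κ K
  exact Algebra.IsSeparable.of_equiv_equiv (adjoinEquiv k K x).toRingEquiv (RingEquiv.refl K)
    (adjoinEquiv_comp x)

end Generic

/-! ### the consequences: principal divisors, degrees, Riemann's theorem -/

section Consequences

variable {k : Type*} [Field k] [IsAlgClosed k] {κ : Type*} [Field κ] [Algebra k κ]
  {K : Type*} [Field K] [Algebra k K] [Algebra κ K] [IsScalarTower k κ K]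
  [FiniteDimensional κ K] [Algebra.IsSeparable κ K]

omit [Algebra.IsSeparable κ K] in
/-- every place of `K` has degree one -/
theorem deg_eq_one_up {x : κ} (hx : IsFF k x) (Q : Place k K) : Q.deg = 1 :=
  Fermat.Agent.S18.A.Instances.deg_one (isFF_up (K := K) hx) Q

/-- `K` has principal divisors of degree zero -/
theorem hasPrincipalDivisors_up {x : κ} (hx : IsFF k x) (hsep : Algebra.IsSeparable ↥k⟮x⟯ κ) :
    HasPrincipalDivisors k K :=
  Fermat.Agent.S18.A.PrincipalDivisors.hasPrincipalDivisors (isFF_up (K := K) hx)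
    (isSeparable_up (K := K) hsep)

/-- **Riemann's theorem on `K`** -/
theorem exists_riemannHyp_up {x : κ} (hx : IsFF k x) (hsep : Algebra.IsSeparable ↥k⟮x⟯ κ) :
    ∃ g : ℕ, Fermat.Agent.S18.NonSpecial.RiemannHyp k K g := by
  have := hasPrincipalDivisors_up (K := K) hx hsep
  obtain ⟨g, hg, -⟩ := Fermat.Agent.S18.A.RiemannX1.exists_riemannHyp_of_sep
    (isFF_up (K := K) hx) (isSeparable_up (K := K) hsep)
  exact ⟨g, hg⟩

/-- the bundle consumed by `C2/Final` on a residue function field: `K / κ` finite separable, `κ` a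
function field over the algebraically closed `k` with separating coordinate `x`. -/
theorem exists_bundle_up {x : κ} (hx : IsFF k x) (hsep : Algebra.IsSeparable ↥k⟮x⟯ κ) :
    IsFF k (algebraMap κ K x) ∧ Algebra.IsSeparable ↥k⟮algebraMap κ K x⟯ K ∧
      HasPrincipalDivisors k K ∧ (∀ Q : Place k K, Q.deg = 1) ∧
      ∃ g : ℕ, Fermat.Agent.S18.NonSpecial.RiemannHyp k K g :=
  ⟨isFF_up hx, isSeparable_up hsep, hasPrincipalDivisors_up hx hsep, deg_eq_one_up hx,
    exists_riemannHyp_up hx hsep⟩

end Consequences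

/-! ### characteristic zero (the cover `F_H` over `ℚ̄`) -/

section CharZero

variable {L : Type*} [Field L] [IsAlgClosed L] [CharZero L] {F : Type*} [Field F] [Algebra L F]

omit [IsAlgClosed L] in
/-- in characteristic zero every coordinate is separating -/
theorem isSeparable_of_charZero {x : F} (hx : IsFF L x) : Algebra.IsSeparable ↥L⟮x⟯ F := by
  have := hx.finite
  have : CharZero ↥L⟮x⟯ := charZero_of_injective_algebraMap (algebraMap L ↥L⟮x⟯).injective
  infer_instance

/-- the bundle consumed by `C2/Final` on the cover: a function field over an algebraically closed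
field of characteristic zero -/
theorem exists_bundle_charZero (h : ∃ x : F, IsFF L x) :
    HasPrincipalDivisors L F ∧ (∀ P : Place L F, P.deg = 1) ∧
      ∃ g : ℕ, Fermat.Agent.S18.NonSpecial.RiemannHyp L F g := by
  obtain ⟨x, hx⟩ := h
  have hsep := isSeparable_of_charZero hx
  have hP : HasPrincipalDivisors L F :=
    Fermat.Agent.S18.A.PrincipalDivisors.hasPrincipalDivisors hx hsep
  obtain ⟨g, hg, -⟩ := Fermat.Agent.S18.A.RiemannX1.exists_riemannHyp_of_sep hx hsep
  exact ⟨hP, fun P => Fermat.Agent.S18.A.Instances.deg_one hx P, g, hg⟩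

end CharZero

/-! ### the instance: the residue field `KUp = κ(ν)` of helper3's `Ig/BranchUp` -/

section KUp

open Fermat.Agent.S34.NodalDefs Fermat.Agent.S43.LG1.Ig.ResDegree Fermat.Agent.S43.LG1.Ig.Unique
  Fermat.Agent.S43.LG1.Ig.BranchUp

variable {L : Type*} [Field L] {k : Type*} [Field k] [IsAlgClosed k] {A : ValuationSubring L}
  {π : A →+* k}
variable {F0 : Type*} [Field F0] [Algebra L F0] {F : Type*} [Field F] [Algebra L F]
variable [Algebra F0 F] [IsScalarTower L F0 F] [FiniteDimensional F0 F]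
variable {κ : Type*} [Field κ] [Algebra k κ] {R : Type*} [Field R] [Algebra κ R] [Algebra k R]
  [IsScalarTower k κ R]
variable (R0 : Branch A π F0 κ) (A' : ValuationSubring F) (ρ' : A' →+* R)
  (hker : ∀ x : A', ρ' x = 0 ↔ A'.valuation (x : F) < 1)
  (hA₀ : A'.comap (algebraMap F0 F) = R0.O)
  (hcompat : ∀ (a : R0.O) (h : algebraMap F0 F (a : F0) ∈ A'),
    ρ' ⟨algebraMap F0 F a, h⟩ = algebraMap κ R (R0.red a))
  (hsurj : Function.Surjective R0.red)
variable {m : ℕ} (hm : 0 < m) (hfin : Module.finrank F0 F = m)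
  (Z : A') (θ : κ) (hν : ρ' Z ^ m = algebraMap κ R θ)
  (Q : Place k κ) (hθ : IsCoprime (Q.ord θ) (m : ℤ))

include hm hfin hν hθ in
/-- **(IG-8)** : the residue field `KUp = κ(ν)` upstairs is a function field over `k` with the
separating coordinate of `κ`; it has principal divisors, places of degree one, and a genus. -/
theorem bundle_KUp (hmκ : (m : κ) ≠ 0) {x : κ} (hx : IsFF k x)
    (hsep : Algebra.IsSeparable ↥k⟮x⟯ κ) :
    IsFF k (algebraMap κ ↥(KUp R0 A' ρ' hker hA₀ hcompat hsurj) x) ∧
      Algebra.IsSeparable ↥k⟮algebraMap κ ↥(KUp R0 A' ρ' hker hA₀ hcompat hsurj) x⟯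
        ↥(KUp R0 A' ρ' hker hA₀ hcompat hsurj) ∧
      HasPrincipalDivisors k ↥(KUp R0 A' ρ' hker hA₀ hcompat hsurj) ∧
      (∀ Q' : Place k ↥(KUp R0 A' ρ' hker hA₀ hcompat hsurj), Q'.deg = 1) ∧
      ∃ g : ℕ, Fermat.Agent.S18.NonSpecial.RiemannHyp k
        ↥(KUp R0 A' ρ' hker hA₀ hcompat hsurj) g := by
  have := isSeparable_KUp R0 A' ρ' hker hA₀ hcompat hsurj hm hfin Z θ hν Q hθ hmκ
  exact exists_bundle_up hx hsep

end KUp

end Fermat.Agent.S43.LG1.Ig.ResFF
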