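/-
PROJECT R (row 37 by S43), gate G, IG assembly (helper4): **THE SEAM (C) ON helper3's `F_H` FROM THE
INPUTS OF helper17's `Ig/CoverInst.exists_cover`** : `exists_cover` (M4) ∘ `Ig/ResFF` (M6, helper12)
∘ `Ig/WireC1.principalPairH_C1`.

Inputs left (the section variables and binders of `CoverInst.exists_cover`, letter for letter):
`ρH hker hcomap hcompat` ((M2) `Ig/VH`), `w hw hwW` ((M3) `Ig/FrickeW1`), `Z θ0 hν` (`Ig/GenV`),
`hT1 hT2` ((M1) `Ig/NodeT`), `x1 x2 unram1 unram2` (`C2/Inst/Coord` + (M5)), and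
`hun` ((M5) `Ig/UnramAll.unram_FH`), `p ≠ r`.  (I1) on `F_H` is DERIVED (`hI1_of_cover`).

* `nu1`, `nu2` : the classes of `Z` and `wF⁻¹ Z` in the residue fields `K1`, `K2`, with
  `nu_i ^ m = θ0` ;
* `hI1_of_cover` : (I1) on `F_H` from helper3's `Unique.apply_mem_iff` ;
* **`principalPairH_cover`** : `CoreZ.PrincipalPairH (incl N r H) p A (VH N r H hA) (wF w)` =
  the hypothesis `hC` of `H/Inst.lg1HypAtH_inst_w` for one `A ∣ r`.
-/
import Fermat.Agent.S43.LG1.Ig.WireC1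
import Fermat.Agent.S43.LG1.Ig.CoverInst
import Fermat.Agent.S43.LG1.Ig.ResFF

set_option autoImplicit false
set_option linter.unusedSectionVars false
set_option linter.style.haveILetI false
set_option synthInstance.maxHeartbeats 400000

noncomputable section

namespace Fermat.Agent.S43.LG1.Ig.WireCover

open AlgebraicCurve ModularCurve IsLocalRing
open Fermat.Agent.S34.NodalDefs Fermat.Agent.S37.Deuring.Core
open Fermat.Agent.S18.NonSpecial
open Fermat.Agent.S48.B.Defs.Model Fermat.Agent.S48.B.B1.Seams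
open Fermat.Agent.S48.B.ES.DegreeBeta1
open Fermat.Agent.S43.LG1.OfFricke Fermat.Agent.S43.LG1.OfSeams Fermat.Agent.S43.LG1.OfSeamsR
open Fermat.Agent.S43.LG1.C1.Seam Fermat.Agent.S43.LG1.C1.Z1X1
open Fermat.Agent.S43.LG1.C1.CoreZX1Assembly Fermat.Agent.S43.LG1.C1.CoreZX1Build
open Fermat.Agent.S43.LG1.C2.Seam
open Fermat.Agent.S43.LG1.H.Gate Fermat.Agent.S43.LG1.H.Inst Fermat.Agent.S43.LG1.H.CoreZ
open Fermat.Agent.S43.LG1.V.Branch
open Fermat.Agent.S43.LG1.Ig.Tower Fermat.Agent.S43.LG1.Ig.TowerAlg Fermat.Agent.S43.LG1.Ig.TowerH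
open Fermat.Agent.S43.LG1.Ig.BranchUp Fermat.Agent.S43.LG1.Ig.Cover
open Fermat.Agent.S43.LG1.Ig.CoverInst

local notation "Kb" => AlgebraicClosure ℚ

attribute [local instance] Fermat.Agent.S43.LG1.Fricke.Seam.instNeZeroMul
attribute [local instance] towerAlgebra isScalarTower_tower
attribute [local instance] algShortcut1

/-- shortcut instance (a proposition), as in `C1/CoreZX1Build` -/
local instance instACk1'' (A : ValuationSubring Kb) : IsAlgClosed (ResidueField ↥A) :=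
  Fermat.Agent.S18.ResidueBasics.isAlgClosed_residueField A

variable {N r : ℕ} [NeZero N] [NeZero r] [hc : Fact (r.Coprime N)] [hrF : Fact r.Prime]
variable {H : Subgroup (ZMod (N * r))ˣ} {A : ValuationSubring Kb}
variable {hr : r.Prime} {hA : A.LiesOverPrime r} {hrN : ¬ r ∣ N}
variable [HasPrincipalDivisors Kb ↥(F1pBar N r)]
variable [HasPrincipalDivisors (ResidueField ↥A) ↥(F1C N (ResidueField ↥A))]
variable {gL gk : ℕ} {Hh : Hyp (gaussDatum1 N A hr hA hrN) gL gk}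
variable [CharP (ResidueField ↥A) r]

variable [FiniteDimensional ↥(F1pBar N r) ↥(FH N r H)]
variable (X : Inputs1 hr hA hrN Hh) (Yc : NodesC1 X)
variable (ρH : ↥(VH N r H hA) →+* LaurentSeries (ResidueField ↥A))
  (hker : ∀ x : ↥(VH N r H hA), ρH x = 0 ↔ (VH N r H hA).valuation (x : ↥(FH N r H)) < 1)
  (hcomap : (VH N r H hA).comap (algebraMap ↥(F1pBar N r) ↥(FH N r H)) = (nodalC1 X Yc).R1.O)
  (hcompat : ∀ (a : (nodalC1 X Yc).R1.O)
    (h : algebraMap ↥(F1pBar N r) ↥(FH N r H) (a : ↥(F1pBar N r)) ∈ VH N r H hA),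
    ρH ⟨algebraMap ↥(F1pBar N r) ↥(FH N r H) a, h⟩ =
      algebraMap ↥(F1C N (ResidueField ↥A)) (LaurentSeries (ResidueField ↥A))
        ((nodalC1 X Yc).R1.red a))
variable (hH : H ≤ rPart N r) (w : F1Bar (N * r) ≃ₐ[Kb] F1Bar (N * r)) (hw : IsFricke N r w)
  (hwW : ∀ x : ↥(F1pBar N r), w (TowerAlg.incl N r x) = TowerAlg.incl N r (W1 N r hr hrN x))

attribute [local instance] isIntegral_K1 isIntegral_K2

/-- the class of `Z` in the residue field of the first branch -/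
def nu1 (Z : ↥(VH N r H hA)) : ↥(K1 X Yc ρH hker hcomap hcompat) := ⟨ρH Z, ⟨Z, rfl⟩⟩

/-- the class of `wF⁻¹ Z` in the residue field of the second branch -/
def nu2 (Z : ↥(VH N r H hA)) : ↥(K2 X Yc ρH hker hcomap hcompat hH w hw hwW) :=
  ⟨ρH Z, ⟨genTw (VH N r H hA)
    (wF (incl N r H) (range_incl N r H hH) (isRPart_of_le N r H hH) w hw) Z,
    redTw_genTw (VH N r H hA) ρH _ Z⟩⟩

theorem nu1_pow (Z : ↥(VH N r H hA)) (θ0 : ↥(F1C N (ResidueField ↥A))) {m : ℕ}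
    (hν : ρH Z ^ m =
      algebraMap ↥(F1C N (ResidueField ↥A)) (LaurentSeries (ResidueField ↥A)) θ0) :
    nu1 X Yc ρH hker hcomap hcompat Z ^ m =
      algebraMap ↥(F1C N (ResidueField ↥A)) ↥(K1 X Yc ρH hker hcomap hcompat) θ0 :=
  Subtype.ext hν

theorem nu2_pow (Z : ↥(VH N r H hA)) (θ0 : ↥(F1C N (ResidueField ↥A))) {m : ℕ}
    (hν : ρH Z ^ m =
      algebraMap ↥(F1C N (ResidueField ↥A)) (LaurentSeries (ResidueField ↥A)) θ0) :
    nu2 X Yc ρH hker hcomap hcompat hH w hw hwW Z ^ m =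
      algebraMap ↥(F1C N (ResidueField ↥A))
        ↥(K2 X Yc ρH hker hcomap hcompat hH w hw hwW) θ0 :=
  Subtype.ext hν

include hr hrN hker hcomap hcompat hH in
/-- **(I1) ON `F_H`** : the diamonds of the `r`-part preserve `V_H` (helper3's `Unique.apply_mem_iff`:
`V_H` is the only valuation ring of `F_H` over `V_H ∩ E''`), from (T) at ONE node. -/
theorem hI1_of_cover (hN : 5 ≤ N) (hr2 : 2 < r)
    (Z : ↥(VH N r H hA)) (θ0 : ↥(F1C N (ResidueField ↥A)))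
    (hν : ρH Z ^ indexH N r H =
      algebraMap ↥(F1C N (ResidueField ↥A)) (LaurentSeries (ResidueField ↥A)) θ0)
    (b0 : {b // b ∈ Yc.S})
    (hT1 : IsCoprime ((Fr2X1 hr hA hrN b0.1).ord θ0) (indexH N r H : ℤ)) :
    ∀ d : (ZMod (N * r))ˣ, IsQPart N r d → ∀ x : ↥(FH N r H),
      diamondAut (N * r) Kb d (x : ↥(F1Bar (N * r))) ∈ gaussV (N * r) hA ↔
        (x : ↥(F1Bar (N * r))) ∈ gaussV (N * r) hA := by
  intro d hd x
  have hdr : d ∈ rPart N r := (mem_rPart_iff N r).mpr hd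
  have hpos := indexH_pos N r H hr hrN hr2 hH
  have hfin := finrank_FH N r H hr hrN hN hr2 hH
  exact Fermat.Agent.S43.LG1.Ig.Unique.apply_mem_iff (VH N r H hA) ρH hker hcomap
    (nodalC1 X Yc).R1.red hcompat hpos hfin Z θ0 hν ((nodalC1 X Yc).e1 b0) hT1
    (restrictFH N r H ⟨d, hdr⟩) x

set_option maxHeartbeats 3200000 in
include hr hrN hker hcomap hcompat hwW in
/-- **THE SEAM (C) ON `F_H`** from the inputs of `CoverInst.exists_cover` and `F_H / E''`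
unramified. -/
theorem principalPairH_cover (hN : 5 ≤ N) (hr2 : 2 < r)
    (Z : ↥(VH N r H hA)) (θ0 : ↥(F1C N (ResidueField ↥A)))
    (hν : ρH Z ^ indexH N r H =
      algebraMap ↥(F1C N (ResidueField ↥A)) (LaurentSeries (ResidueField ↥A)) θ0)
    (hT1 : ∀ b : {b // b ∈ Yc.S},
      IsCoprime ((Fr2X1 hr hA hrN b.1).ord θ0) (indexH N r H : ℤ))
    (hT2 : ∀ b : {b // b ∈ Yc.S}, IsCoprime ((b.1).ord θ0) (indexH N r H : ℤ))
    (x1 : GoodCoord (nodalC1 X Yc).R1) (x2 : GoodCoord (nodalC1 X Yc).R2)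
    (unram1 : UnramOver (nodalC1 X Yc).R1 ↥(FH N r H))
    (unram2 : UnramOver (nodalC1 X Yc).R2 ↥(FH N r H))
    (hun : ∀ P : Place Kb ↥(FH N r H), P.ramificationIndex ↥(F1pBar N r) = 1)
    {p : ℕ} (hp : p.Prime) (hpr : p ≠ r) :
    PrincipalPairH (incl N r H) p A (VH N r H hA)
      (wF (incl N r H) (range_incl N r H hH) (isRPart_of_le N r H hH) w hw) := by
  obtain ⟨Y, h1, h2, h3⟩ := exists_cover X Yc ρH hker hcomap hcompat hH w hw hwW hN hr2 Z θ0 hν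
    hT1 hT2 x1 x2 unram1 unram2
  have hpos := indexH_pos N r H hr hrN hr2 hH
  have hfin := finrank_FH N r H hr hrN hN hr2 hH
  have hmk : ((indexH N r H : ℕ) : ResidueField ↥A) ≠ 0 := indexH_ne_zero (A := A) hr hrN hr2 hH
  have hmκ : ((indexH N r H : ℕ) : ↥(F1C N (ResidueField ↥A))) ≠ 0 :=
    natCast_ne_zero_of (κ := ↥(F1C N (ResidueField ↥A))) hmk
  obtain ⟨b0, hb0⟩ := Finset.card_pos.mp Yc.hcard
  have hI1 := hI1_of_cover X Yc ρH hker hcomap hcompat hH hN hr2 Z θ0 hν ⟨b0, hb0⟩ (hT1 ⟨b0, hb0⟩)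
  -- the cover `F_H`
  obtain ⟨hPF, -, g', R'⟩ := Fermat.Agent.S43.LG1.Ig.ResFF.exists_bundle_charZero
    (L := Kb) (F := ↥(FH N r H)) (exists_isFF (incl N r H) (range_incl N r H hH))
  -- the two residue fields
  have hx := Fermat.Agent.S48.B.Red.Fibre1.isFF_jC₁ (igusaDegN N) hr hrN hA
  have hsep := Fermat.Agent.S48.B.Red.Fibre1.isSeparable_jC₁ (igusaDegN N) hr hrN hA
  obtain ⟨-, -, hP1, -, g1, RK1⟩ := Fermat.Agent.S43.LG1.Ig.ResFF.bundle_KUp
    (nodalC1 X Yc).R1.toBranch (VH N r H hA) ρH hker hcomap hcompat (R1_red_surjective X)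
    hpos hfin Z θ0 hν ((nodalC1 X Yc).e1 ⟨b0, hb0⟩) (hT1 ⟨b0, hb0⟩) hmκ hx hsep
  obtain ⟨-, -, hP2, -, g2, RK2⟩ := Fermat.Agent.S43.LG1.Ig.ResFF.bundle_KUp
    (nodalC1 X Yc).R2.toBranch
    (ringTw (VH N r H hA) (wF (incl N r H) (range_incl N r H hH) (isRPart_of_le N r H hH) w hw))
    (redTw (VH N r H hA) ρH (wF (incl N r H) (range_incl N r H hH) (isRPart_of_le N r H hH) w hw))
    (hkerTw (VH N r H hA) ρH hker _)
    (comapTw (nodalC1 X Yc).R1 (nodalC1 X Yc).R2 (W1 N r hr hrN) (nodal_R2_O X Yc)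
      (VH N r H hA) hcomap _ (wF_algebraMap N r H hr hrN hH w hw hwW))
    (hcompatTw (nodalC1 X Yc).R1 (nodalC1 X Yc).R2 (W1 N r hr hrN) (nodal_R2_red X Yc)
      (VH N r H hA) ρH hcomap hcompat _ (wF_algebraMap N r H hr hrN hH w hw hwW))
    (hsurjTw (nodalC1 X Yc).R1 (nodalC1 X Yc).R2 (W1 N r hr hrN) (nodal_R2_O X Yc)
      (nodal_R2_red X Yc) (R1_red_surjective X))
    hpos hfin (genTw (VH N r H hA) _ Z) θ0
    (by rw [redTw_genTw]; exact hν) ((nodalC1 X Yc).e2 ⟨b0, hb0⟩) (hT2 ⟨b0, hb0⟩) hmκ hx hsep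
  haveI := hPF
  haveI := hP1
  haveI := hP2
  refine Fermat.Agent.S43.LG1.Ig.WireC1.principalPairH_C1 X Yc H hH hI1 hw Y h1 h2 hp hpr R' RK1 RK2
    hun (ν1 := nu1 X Yc ρH hker hcomap hcompat Z) (θ1 := θ0) ?_ ?_
    (ν2 := nu2 X Yc ρH hker hcomap hcompat hH w hw hwW Z) (θ2 := θ0) ?_ ?_
  · rw [h3]
    exact nu1_pow X Yc ρH hker hcomap hcompat Z θ0 hν
  · intro j
    rw [h3]
    exact hT1 j
  · rw [h3]
    exact nu2_pow X Yc ρH hker hcomap hcompat hH w hw hwW Z θ0 hν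
  · intro j
    rw [h3]
    exact hT2 j

end Fermat.Agent.S43.LG1.Ig.WireCover
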