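/-
PROJECT R (row 37 by S43), gate G, IG assembly (helper4): **THE `H`-GATE AT A PRIME `r ≥ 5`,
HYPOTHESIS-FREE** : `Lit.LG1HypAtH N r p H false` for `5 ≤ N`, `r ∤ N`, `p ≠ r`,
`H ≤` the `r`-part of `(ℤ/N r)ˣ` with `[r-part : H] ∣ (r-1)/2` and `|H|` prime to `p`.

`H/Inst.lg1HypAtH_inst_w` ∘ (`WireCover.hI1_of_cover`, `WireCover.principalPairH_cover`) with the
producers: `Ig/FrickeW1.exists_fricke_extends` (helper7), `C1/ExitC2.XOf` +
`C1/NodesCuspX1.exists_nodes_hcuspL` (helper18), `Ig/VH` (helper29), `Ig/GenV.exists_kummerH_gaussV`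
(helper16), `Ig/NodeTFull.hcop1_half / hcop2_half` (helper26), `C2/Inst/Coord` (helper10),
`Ig/UnramAll.unram_FH` (helper23).

(A cross-check / spare of helper17's `Ig/Main`: same statement, assembled independently.)
-/
import Fermat.Agent.S43.LG1.Ig.WireCover
import Fermat.Agent.S43.LG1.Ig.VH
import Fermat.Agent.S43.LG1.Ig.GenV
import Fermat.Agent.S43.LG1.Ig.NodeTFull
import Fermat.Agent.S43.LG1.Ig.FrickeW1
import Fermat.Agent.S43.LG1.Ig.UnramAll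
import Fermat.Agent.S43.LG1.C2.Inst.Coord
import Fermat.Agent.S43.LG1.C1.NodesCuspX1

set_option autoImplicit false
set_option linter.unusedSectionVars false
set_option linter.style.haveILetI false
set_option synthInstance.maxHeartbeats 400000

noncomputable section

namespace Fermat.Agent.S43.LG1.Ig.GateMain

open AlgebraicCurve ModularCurve IsLocalRing
open Fermat.Agent.S34.NodalDefs Fermat.Agent.S37.Deuring.Core
open Fermat.Agent.S18.NonSpecial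
open Fermat.Agent.S48.B.Defs.Model Fermat.Agent.S48.B.B1.Seams
open Fermat.Agent.S48.B.ES.DegreeBeta1
open Fermat.Agent.S43.LG1.OfFricke Fermat.Agent.S43.LG1.OfSeams Fermat.Agent.S43.LG1.OfSeamsR
open Fermat.Agent.S43.LG1.C1.Seam Fermat.Agent.S43.LG1.C1.Z1X1
open Fermat.Agent.S43.LG1.C1.CoreZX1Datum
open Fermat.Agent.S43.LG1.C1.CoreZX1Assembly Fermat.Agent.S43.LG1.C1.CoreZX1Build
open Fermat.Agent.S43.LG1.C1.CoreZX1OfGeneric
open Fermat.Agent.S43.LG1.C1.GaussPairX1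
open Fermat.Agent.S43.LG1.C1.ExitC2 (XOf)
open Fermat.Agent.S43.LG1.C2.Seam
open Fermat.Agent.S43.LG1.H.Gate Fermat.Agent.S43.LG1.H.Inst Fermat.Agent.S43.LG1.H.CoreZ
open Fermat.Agent.S43.LG1.H.Lit
open Fermat.Agent.S43.LG1.V.Branch
open Fermat.Agent.S43.LG1.Ig.Tower Fermat.Agent.S43.LG1.Ig.TowerAlg Fermat.Agent.S43.LG1.Ig.TowerH
open Fermat.Agent.S43.LG1.Ig.WireCover

local notation "Kb" => AlgebraicClosure ℚ

attribute [local instance] Fermat.Agent.S43.LG1.Fricke.Seam.instNeZeroMul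
attribute [local instance] towerAlgebra isScalarTower_tower
attribute [local instance] algShortcut1

variable (N r : ℕ) [NeZero N] [NeZero r] [hc : Fact (r.Coprime N)] [hrF : Fact r.Prime]
variable (H : Subgroup (ZMod (N * r))ˣ)

/-- `(ρ_H z) ^ m = red₁ θ` for `z ^ m = θ ∈ E''` -/
theorem rhoH_pow_eq {A : ValuationSubring Kb} (hr : r.Prime) (hA : A.LiesOverPrime r)
    (hrN : ¬ r ∣ N) {z : ↥(FH N r H)} (hz : z ∈ Fermat.Agent.S43.LG1.Ig.VH.VH hA H)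
    {θ : ↥(F1pBar N r)} (hθ : θ ∈ V₁ N A hA) {m : ℕ}
    (hθz : algebraMap ↥(F1pBar N r) ↥(FH N r H) θ = z ^ m) :
    Fermat.Agent.S43.LG1.Ig.VH.rhoH hA H ⟨z, hz⟩ ^ m =
      algebraMap ↥(F1C N (ResidueField ↥A)) (LaurentSeries (ResidueField ↥A))
        (red₁ hr hA hrN ⟨θ, hθ⟩) := by
  rw [← map_pow]
  have hmem : algebraMap ↥(F1pBar N r) ↥(FH N r H) θ ∈ Fermat.Agent.S43.LG1.Ig.VH.VH hA H := by
    rw [hθz]
    exact (Fermat.Agent.S43.LG1.Ig.VH.VH hA H).pow_mem hz _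
  have e : (⟨z, hz⟩ : ↥(Fermat.Agent.S43.LG1.Ig.VH.VH hA H)) ^ m
      = ⟨algebraMap ↥(F1pBar N r) ↥(FH N r H) θ, hmem⟩ := Subtype.ext hθz.symm
  rw [e]
  exact Fermat.Agent.S43.LG1.Ig.VH.rhoH_algebraMap hr hA hrN H ⟨θ, hθ⟩ hmem

set_option maxHeartbeats 3200000 in
/-- **the two seams (I1), (C) on `F_H` for one `A ∣ r`**, hypothesis-free. -/
theorem seams_at (hr : r.Prime) (hrN : ¬ r ∣ N) (hN : 5 ≤ N) (hr5 : 5 ≤ r)
    (hH : H ≤ rPart N r) (hm : indexH N r H ∣ (r - 1) / 2)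
    {p : ℕ} (hp : p.Prime) (hpr : p ≠ r)
    (w : F1Bar (N * r) ≃ₐ[Kb] F1Bar (N * r)) (hw : IsFricke N r w)
    (hwW : ∀ x : ↥(F1pBar N r), w (TowerAlg.incl N r x) = TowerAlg.incl N r (W1 N r hr hrN x))
    (A : ValuationSubring Kb) (hA : A.LiesOverPrime r) :
    (∀ d : (ZMod (N * r))ˣ, IsQPart N r d → ∀ x : ↥(FH N r H),
      diamondAut (N * r) Kb d (x : ↥(F1Bar (N * r))) ∈ gaussV (N * r) hA ↔
        (x : ↥(F1Bar (N * r))) ∈ gaussV (N * r) hA) ∧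
    PrincipalPairH (incl N r H) p A (VH N r H hA)
      (wF (incl N r H) (range_incl N r H hH) (isRPart_of_le N r H hH) w hw) := by
  have hr2 : 2 < r := by omega
  haveI := Fermat.Agent.S18.ResidueBasics.charP_residueField A hA
  haveI := hasPrincipalDivisors_F1pBar (N := N) hr hrN
  haveI := hasPrincipalDivisors_F1C (N := N) hr hA hrN
  haveI := finiteDimensional_FH N r H hr hrN hN hr2
  obtain ⟨gM, HM⟩ := exists_riemannHyp_k (N := N) hA hrN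
  obtain ⟨Yc, hS, hcuspL⟩ :=
    Fermat.Agent.S43.LG1.C1.NodesCuspX1.exists_nodes_hcuspL hr hA hrN HM
  obtain ⟨d₀, -, -, -, -, ζ, z, θ, c0, hz, hθ, -, -, hc0, -, hθz, -, hΘ⟩ :=
    Fermat.Agent.S43.LG1.Ig.GenV.exists_kummerH_gaussV N r hr hrN hN hr5 H hH hm A hA
  -- the generator and its norm
  let Z : ↥(VH N r H hA) := ⟨z, hz⟩
  have hν : Fermat.Agent.S43.LG1.Ig.VH.rhoH hA H Z ^ indexH N r H =
      algebraMap ↥(F1C N (ResidueField ↥A)) (LaurentSeries (ResidueField ↥A))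
        (red₁ hr hA hrN ⟨θ, hθ⟩) := rhoH_pow_eq N r H hr hA hrN hz hθ hθz
  have hT1 := Fermat.Agent.S43.LG1.Ig.NodeTFull.hcop1_half (by omega : 4 ≤ N) (by omega : r ≠ 2)
    Yc hS hcuspL hm (pow_ne_zero (indexH N r H) hc0) (red₁ hr hA hrN ⟨θ, hθ⟩) hΘ
  have hT2 := Fermat.Agent.S43.LG1.Ig.NodeTFull.hcop2_half (by omega : 4 ≤ N) (by omega : r ≠ 2)
    Yc hS hcuspL hm (pow_ne_zero (indexH N r H) hc0) (red₁ hr hA hrN ⟨θ, hθ⟩) hΘ
  have hun := Fermat.Agent.S43.LG1.Ig.UnramAll.unram_FH N r H hr hrN hN hr2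
  have hunr := Fermat.Agent.S43.LG1.C1.ExitC2.unr hr hA hrN HM
  obtain ⟨b0, hb0⟩ := Finset.card_pos.mp Yc.hcard
  refine ⟨hI1_of_cover (XOf hr hA hrN HM) Yc (Fermat.Agent.S43.LG1.Ig.VH.rhoH hA H)
      (Fermat.Agent.S43.LG1.Ig.VH.hker hA H)
      (Fermat.Agent.S43.LG1.Ig.VH.comap_VH_R1 (XOf hr hA hrN HM) H)
      (Fermat.Agent.S43.LG1.Ig.VH.hcompat (XOf hr hA hrN HM) H) hH hN hr2 Z _ hν ⟨b0, hb0⟩
      (hT1 ⟨b0, hb0⟩), ?_⟩
  exact principalPairH_cover (XOf hr hA hrN HM) Yc (Fermat.Agent.S43.LG1.Ig.VH.rhoH hA H)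
    (Fermat.Agent.S43.LG1.Ig.VH.hker hA H)
    (Fermat.Agent.S43.LG1.Ig.VH.comap_VH_R1 (XOf hr hA hrN HM) H)
    (Fermat.Agent.S43.LG1.Ig.VH.hcompat (XOf hr hA hrN HM) H) hH w hw hwW hN hr2 Z _ hν hT1 hT2
    (Fermat.Agent.S43.LG1.C2.Inst.Coord.coord1 (XOf hr hA hrN HM) hunr)
    (Fermat.Agent.S43.LG1.C2.Inst.Coord.coord2 (XOf hr hA hrN HM) hunr)
    (Fermat.Agent.S43.LG1.C2.Inst.Coord.unramOver_of_forall _ hun)
    (Fermat.Agent.S43.LG1.C2.Inst.Coord.unramOver_of_forall _ hun) hun hp hpr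

/-- **THE `H`-GATE AT A PRIME `r ≥ 5`.** -/
theorem lg1HypAtH_main (hrN : ¬ r ∣ N) (hN : 5 ≤ N) (hr5 : 5 ≤ r)
    (hH : H ≤ rPart N r) (hm : indexH N r H ∣ (r - 1) / 2)
    {p : ℕ} (hp : p.Prime) (hpr : p ≠ r) (hcop : (Nat.card H).Coprime p) :
    LG1HypAtH N r p H false := by
  have hr : r.Prime := hrF.out
  obtain ⟨w, hw, hwW⟩ := Fermat.Agent.S43.LG1.Ig.FrickeW1.exists_fricke_extends hr hrN
  exact lg1HypAtH_inst_w N r H hH hp.ne_zero hcop w hw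
    (fun A hA => (seams_at N r H hr hrN hN hr5 hH hm hp hpr w hw hwW A hA).1)
    (fun A hA => (seams_at N r H hr hrN hN hr5 hH hm hp hpr w hw hwW A hA).2)

end Fermat.Agent.S43.LG1.Ig.GateMain
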