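/-
PROJECT R (row 37 by S43), gate G, the consumer exit (helper4): **THE `H`-GATE AT THE PRIME-TO-`p`
PART OF THE `r`-PART.**

For a prime `r ∤ N` and an odd prime `p`, `H' :=` the subgroup of order `t = (r-1) / p^{v_p(r-1)}` of
the cyclic `r`-part of `(ℤ/N r)ˣ` satisfies the three side conditions of `GateMain.lg1HypAtH_main`
(`H' ≤ rPart`, `[r-part : H'] = p^{v_p(r-1)} ∣ (r-1)/2`, `|H'| = t` prime to `p`) and all its
elements are killed by `t`, so it lies in every subgroup `H` of `(ℤ/N r)ˣ` which contains the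
elements of order prime to `p` (e.g. the kernel of a homomorphism to a `p`-group).

* `exists_primeToP_subgroup` ;
* **`exists_gate`** : `∃ H' ≤ rPart, (∀ d ∈ H', d ^ t = 1) ∧ t.Coprime p ∧ LG1HypAtH N r p H' false` ;
* **`lg1HypAtH_of_contains`** : `LG1HypAtH N r p H false` for every `H` containing the elements of the
  `r`-part killed by an integer prime to `p`.
-/
import Fermat.Agent.S43.LG1.Ig.GateMain

set_option autoImplicit false
set_option linter.unusedSectionVars false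

noncomputable section

namespace Fermat.Agent.S43.LG1.Ig.GateP

open Fermat.Agent.S43.LG1.H.Lit
open Fermat.Agent.S43.LG1.Ig.Tower Fermat.Agent.S43.LG1.Ig.TowerAlg Fermat.Agent.S43.LG1.Ig.TowerH
open Fermat.Agent.S43.LG1.Ig.GateMain

attribute [local instance] Fermat.Agent.S43.LG1.Fricke.Seam.instNeZeroMul

variable (N r : ℕ) [NeZero N] [NeZero r] [hc : Fact (r.Coprime N)]

/-- the prime-to-`p` part of the `r`-part, with the side conditions of the gate -/
theorem exists_primeToP_subgroup (hr : r.Prime) (hrN : ¬ r ∣ N) {p : ℕ} (hp : p.Prime)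
    (hp2 : p ≠ 2) :
    ∃ H' : Subgroup (ZMod (N * r))ˣ, H' ≤ rPart N r ∧ (Nat.card H').Coprime p ∧
      indexH N r H' ∣ (r - 1) / 2 ∧ (ordCompl[p] (r - 1)).Coprime p ∧
      ∀ d ∈ H', d ^ (ordCompl[p] (r - 1)) = 1 := by
  obtain ⟨d₀, hd₀, hord, -⟩ := exists_generator_rPart N r hr hrN
  have hr1 : r - 1 ≠ 0 := by
    have := hr.two_le
    omega
  have hat : ordProj[p] (r - 1) * ordCompl[p] (r - 1) = r - 1 :=
    Nat.ordProj_mul_ordCompl_eq_self (r - 1) p
  have ha0 : ordProj[p] (r - 1) ≠ 0 := (Nat.ordProj_pos (r - 1) p).ne'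
  have hadvd : ordProj[p] (r - 1) ∣ r - 1 := Nat.ordProj_dvd (r - 1) p
  have htcop : (ordCompl[p] (r - 1)).Coprime p := (Nat.coprime_ordCompl hp hr1).symm
  have hle : Subgroup.zpowers (d₀ ^ ordProj[p] (r - 1)) ≤ rPart N r := by
    rw [Subgroup.zpowers_le]
    exact (rPart N r).pow_mem hd₀ _
  have hcard : Nat.card (Subgroup.zpowers (d₀ ^ ordProj[p] (r - 1))) = ordCompl[p] (r - 1) := by
    rw [Nat.card_zpowers, orderOf_pow' d₀ ha0, hord, Nat.gcd_eq_right hadvd]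
  refine ⟨Subgroup.zpowers (d₀ ^ ordProj[p] (r - 1)), hle, ?_, ?_, htcop, ?_⟩
  · rw [hcard]
    exact htcop
  · have h1 := card_mul_indexH N r _ hr hrN hle
    rw [hcard] at h1
    have hpos : 0 < ordCompl[p] (r - 1) := Nat.ordCompl_pos p hr1
    have h2 : indexH N r (Subgroup.zpowers (d₀ ^ ordProj[p] (r - 1))) = ordProj[p] (r - 1) := by
      apply Nat.eq_of_mul_eq_mul_left hpos
      rw [h1, mul_comm, hat]
    rw [h2]
    rcases hr.eq_two_or_odd' with h | h
    · have h0 : (r - 1) / 2 = 0 := by rw [h]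
      rw [h0]
      exact dvd_zero _
    · obtain ⟨k, hk⟩ := h
      have h3 : r - 1 = 2 * ((r - 1) / 2) := by omega
      have h4 : (ordProj[p] (r - 1)).Coprime 2 :=
        Nat.Coprime.pow_left _ ((Nat.coprime_primes hp Nat.prime_two).mpr hp2)
      have hadvd' : ordProj[p] (r - 1) ∣ 2 * ((r - 1) / 2) := by
        rw [← h3]
        exact hadvd
      exact h4.dvd_of_dvd_mul_left hadvd'
  · intro d hd
    obtain ⟨k, rfl⟩ := Subgroup.mem_zpowers_iff.mp hd
    have h5 : (d₀ ^ ordProj[p] (r - 1)) ^ ordCompl[p] (r - 1) = 1 := by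
      rw [← pow_mul, hat, ← hord, pow_orderOf_eq_one]
    rw [← zpow_natCast, ← zpow_mul, mul_comm k, zpow_mul, zpow_natCast, h5, one_zpow]

variable [hrF : Fact r.Prime]

/-- **THE GATE AT THE PRIME-TO-`p` PART OF THE `r`-PART.** -/
theorem exists_gate (hrN : ¬ r ∣ N) (hN : 5 ≤ N) (hr5 : 5 ≤ r) {p : ℕ} (hp : p.Prime)
    (hp2 : p ≠ 2) (hpr : p ≠ r) :
    ∃ H' : Subgroup (ZMod (N * r))ˣ, H' ≤ rPart N r ∧ (ordCompl[p] (r - 1)).Coprime p ∧
      (∀ d ∈ H', d ^ (ordCompl[p] (r - 1)) = 1) ∧ LG1HypAtH N r p H' false := by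
  obtain ⟨H', hle, hcop, hm, htcop, hkill⟩ :=
    exists_primeToP_subgroup N r hrF.out hrN hp hp2
  exact ⟨H', hle, htcop, hkill, lg1HypAtH_main N r H' hrN hN hr5 hle hm hp hpr hcop⟩

/-- **THE GATE FOR EVERY `H` CONTAINING THE ELEMENTS OF THE `r`-PART OF ORDER PRIME TO `p`.** -/
theorem lg1HypAtH_of_contains (hrN : ¬ r ∣ N) (hN : 5 ≤ N) (hr5 : 5 ≤ r) {p : ℕ} (hp : p.Prime)
    (hp2 : p ≠ 2) (hpr : p ≠ r) (H : Subgroup (ZMod (N * r))ˣ)
    (hH : ∀ d ∈ rPart N r, ∀ k : ℕ, k.Coprime p → d ^ k = 1 → d ∈ H) :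
    LG1HypAtH N r p H false := by
  obtain ⟨H', hle, htcop, hkill, hG⟩ := exists_gate N r hrN hN hr5 hp hp2 hpr
  exact lg1HypAtH_mono (fun d hd => hH d (hle hd) _ htcop (hkill d hd)) hG

end Fermat.Agent.S43.LG1.Ig.GateP
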