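/-
PROJECT R (row 37 by S43), gate G / IG, brick IG-C (helper2): THE DIAMONDS OF THE `r`-PART ACT FREELY
ON THE CUSPS OF `X₁(N r)`.

`M = N * r`, `5 ≤ N`, `r` prime.  For `d ∈ (ℤ/M)ˣ` with `d ≡ 1 mod N`, `d ≠ 1`, and every place `P'` of
`F1Bar M = ℚ̄(X₁(M))` over `j = ∞`: `diamondAut M ℚ̄ d • P' ≠ P'`.

Route: main's dictionary of block B1 of PROJECT D: the poles of `j` are the pull-backs
`comap (L q)` of the `q`-adic valuation along the expansions `L q`, `q ∈ Q1 M = SL(2, ℤ) ⧸ ±Γ₁(M)`,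
and `q ↦ comap (L q)` induces a BIJECTION from the orbits of `T` onto the poles (`card_poles1`: it is
onto, constant on the orbits, and the two finite sets have the same number of elements).  The diamond
`⟨d⟩^*` is the slash by `σ_d ∈ Γ₀(M)` (main's `DiamondRep1`), i.e. the right translation
`g ↦ g σ⁻¹` on `Q1 M`.  A fixed place gives `g⁻¹ T ^ k g = ± γ σ`, `γ ∈ Γ₁(M)`: a UNIPOTENT element of
`Γ₀(M)` with lower right entry `≡ ± d`; `(e - 1)² = - b c ≡ 0 mod M` for a unipotent `[a, b; c, e]`,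
so `± d ≡ 1 mod r` and `(± 1 - 1)² ≡ 0 mod N`: the sign is `+` (`N ∤ 4`) and `d = 1`.
-/
import Mathlib
import Fermat.Agent.S48.B.B1.Main
import Fermat.Agent.S48.B.Hecke.DiamondDescent
import Fermat.Agent.S48.B.Hecke.SpecExport

set_option autoImplicit false

noncomputable section

namespace Fermat.Agent.S43.LG1.Ig.CuspFree

open Matrix ModularGroup CongruenceSubgroup Matrix.SpecialLinearGroup
open scoped MatrixGroups

/-! ### the arithmetic -/

/-- for a unipotent `u ∈ SL(2, ℤ)`: `(u₁₁ - 1)² = - u₀₁ u₁₀` -/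
theorem sq_sub_one_of_trace {u : SL(2, ℤ)}
    (htr : (u : Matrix (Fin 2) (Fin 2) ℤ).trace = 2) : (u 1 1 - 1) ^ 2 = -(u 0 1 * u 1 0) := by
  have hdet := u.det_coe
  rw [Matrix.det_fin_two] at hdet
  rw [Matrix.trace_fin_two] at htr
  have h00 : u 0 0 = 2 - u 1 1 := by linarith
  rw [h00] at hdet
  linear_combination (-1 : ℤ) * hdet

/-- the trace of a conjugate of a power of `T` -/
theorem trace_conj_T_zpow (g : SL(2, ℤ)) (k : ℤ) :
    ((g⁻¹ * T ^ k * g : SL(2, ℤ)) : Matrix (Fin 2) (Fin 2) ℤ).trace = 2 := by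
  rw [Matrix.SpecialLinearGroup.coe_mul, Matrix.SpecialLinearGroup.coe_mul, Matrix.trace_mul_cycle,
    ← Matrix.SpecialLinearGroup.coe_mul, mul_inv_cancel, Matrix.SpecialLinearGroup.coe_one,
    one_mul, coe_T_zpow, Matrix.trace_fin_two]
  simp

/-- **the finite computation**: a unipotent element of `SL(2, ℤ)` of the form `± γ σ`, `γ ∈ Γ₁(N r)`,
`σ ∈ Γ₀(N r)` with lower right entry `D ≡ 1 mod N`, forces `D ≡ 1 mod N r` when `N ∤ 4` -/
theorem int_modEq_one_of_unipotent {N r : ℕ} (hN : ¬ N ∣ 4) (hr : r.Prime) (hrN : ¬ r ∣ N)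
    {u h σ : SL(2, ℤ)} (htr : (u : Matrix (Fin 2) (Fin 2) ℤ).trace = 2) (hu : u = h * σ)
    (hσ : ((N * r : ℕ) : ℤ) ∣ σ 1 0) (hD : (N : ℤ) ∣ σ 1 1 - 1)
    (hh : h ∈ Gamma1 (N * r) ∨ -h ∈ Gamma1 (N * r)) :
    ((N * r : ℕ) : ℤ) ∣ σ 1 1 - 1 := by
  have hsq := sq_sub_one_of_trace htr
  -- the entries of `u = h σ`
  have h11 : u 1 1 = h 1 0 * σ 0 1 + h 1 1 * σ 1 1 := by
    rw [hu, Matrix.SpecialLinearGroup.coe_mul, Matrix.mul_apply, Fin.sum_univ_two]
  have h10 : u 1 0 = h 1 0 * σ 0 0 + h 1 1 * σ 1 0 := by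
    rw [hu, Matrix.SpecialLinearGroup.coe_mul, Matrix.mul_apply, Fin.sum_univ_two]
  -- `h ≡ s [1, *; 0, 1]`, `s = ± 1`
  obtain ⟨s, hs, hs10, hs11⟩ : ∃ s : ℤ, (s = 1 ∨ s = -1) ∧ ((N * r : ℕ) : ℤ) ∣ h 1 0 ∧
      ((N * r : ℕ) : ℤ) ∣ h 1 1 - s := by
    rcases hh with hh | hh
    · rw [Gamma1_mem] at hh
      refine ⟨1, Or.inl rfl, ?_, ?_⟩
      · exact (ZMod.intCast_zmod_eq_zero_iff_dvd _ _).mp hh.2.2
      · rw [← ZMod.intCast_zmod_eq_zero_iff_dvd]
        push_cast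
        rw [hh.2.1, sub_self]
    · rw [Gamma1_mem] at hh
      have e10 : (-h) 1 0 = -(h 1 0) := by
        rw [Matrix.SpecialLinearGroup.coe_neg]
        rfl
      have e11 : (-h) 1 1 = -(h 1 1) := by
        rw [Matrix.SpecialLinearGroup.coe_neg]
        rfl
      refine ⟨-1, Or.inr rfl, ?_, ?_⟩
      · have := (ZMod.intCast_zmod_eq_zero_iff_dvd _ _).mp hh.2.2
        rw [e10] at this
        exact (Int.dvd_neg).mp this
      · rw [← ZMod.intCast_zmod_eq_zero_iff_dvd]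
        have := hh.2.1
        rw [e11] at this
        push_cast at this ⊢
        linear_combination (-1 : ZMod (N * r)) * this
  set Mz : ℤ := ((N * r : ℕ) : ℤ) with hMz
  -- `M ∣ u₁₀` and `u₁₁ ≡ s D`
  have hu10 : Mz ∣ u 1 0 := by
    rw [h10]
    exact dvd_add (Dvd.dvd.mul_right hs10 _) (Dvd.dvd.mul_left hσ _)
  have hu11 : Mz ∣ u 1 1 - s * σ 1 1 := by
    have : u 1 1 - s * σ 1 1 = h 1 0 * σ 0 1 + (h 1 1 - s) * σ 1 1 := by rw [h11]; ring
    rw [this]
    exact dvd_add (Dvd.dvd.mul_right hs10 _) (Dvd.dvd.mul_right hs11 _)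
  -- `M ∣ (s D - 1)²`
  have hkey : Mz ∣ (s * σ 1 1 - 1) ^ 2 := by
    have h1 : Mz ∣ (u 1 1 - 1) ^ 2 := by
      rw [hsq]
      exact (Dvd.dvd.mul_left hu10 _).neg_right
    have h2 : (s * σ 1 1 - 1) ^ 2 = (u 1 1 - 1) ^ 2 -
        (u 1 1 - s * σ 1 1) * ((u 1 1 - 1) + (s * σ 1 1 - 1)) := by ring
    rw [h2]
    exact dvd_sub h1 (Dvd.dvd.mul_right hu11 _)
  have hNM : (N : ℤ) ∣ Mz := by
    rw [hMz]
    push_cast
    exact Dvd.intro _ rfl
  have hrM : (r : ℤ) ∣ Mz := by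
    rw [hMz]
    push_cast
    exact Dvd.intro_left _ rfl
  -- the sign is `+`
  have hs1 : s = 1 := by
    rcases hs with hs | hs
    · exact hs
    · exfalso
      apply hN
      have h1 : (N : ℤ) ∣ (s * σ 1 1 - 1) ^ 2 := hNM.trans hkey
      have h2 : (s * σ 1 1 - 1) ^ 2 = 4 + (σ 1 1 - 1) * (σ 1 1 + 3) := by
        rw [hs]
        ring
      rw [h2] at h1
      have h3 : (N : ℤ) ∣ 4 := (Int.dvd_add_left (Dvd.dvd.mul_right hD _)).mp h1
      exact_mod_cast h3
  rw [hs1, one_mul] at hkey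
  -- `r ∣ D - 1`
  have hrD : (r : ℤ) ∣ σ 1 1 - 1 :=
    Int.Prime.dvd_pow' hr (hrM.trans hkey)
  -- coprimality
  have hcop : IsCoprime (N : ℤ) (r : ℤ) := by
    rw [Int.isCoprime_iff_gcd_eq_one, Int.gcd_natCast_natCast]
    exact (Nat.Coprime.symm ((Nat.Prime.coprime_iff_not_dvd hr).mpr hrN))
  rw [hMz]
  push_cast
  exact hcop.mul_dvd hD hrD

/-! ### the count: injectivity from surjectivity and equal cardinalities -/

/-- if a map `c` on `Q` is constant on the classes of `r`, the "places" `P` inject into the values of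
`c`, every place is a value of `c`, and there are as many places as classes, then `c` SEPARATES the
classes -/
theorem rel_of_eq_of_card {Q P V : Type*} [Finite Q] [Finite P] (r : Setoid Q) (c : Q → V)
    (hsame : ∀ q q', r q q' → c q = c q') (val : P → V) (hval : Function.Injective val)
    (hall : ∀ p, ∃ q, val p = c q) (hcard : Nat.card P = Nat.card (Quotient r))
    {q q' : Q} (h : c q = c q') : r q q' := by
  classical
  let f : Quotient r → V := Quotient.lift c hsame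
  choose qv hqv using hall
  let g : P → Quotient r := fun p => Quotient.mk r (qv p)
  have hfg : ∀ p, f (g p) = val p := fun p => (hqv p).symm
  have hg : Function.Injective g := by
    intro p p' hpp
    apply hval
    rw [← hfg, ← hfg, hpp]
  have hgb : Function.Bijective g :=
    (Nat.bijective_iff_injective_and_card g).mpr ⟨hg, hcard⟩
  obtain ⟨p, hp⟩ := hgb.2 (Quotient.mk r q)
  obtain ⟨p', hp'⟩ := hgb.2 (Quotient.mk r q')
  have h1 : val p = val p' := by
    rw [← hfg, ← hfg, hp, hp']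
    exact h
  have h2 : p = p' := hval h1
  rw [h2, hp'] at hp
  exact Quotient.exact hp.symm

/-! ### the dictionary of block B1 of PROJECT D at the cusps -/

section Dict

open UpperHalfPlane hiding I
open AlgebraicCurve ModularCurve ModularForm
open Fermat.Agent.S24 Fermat.Agent.S24.FF Fermat.Agent.S24.OrbitDefs
open Fermat.Agent.S48.B.Defs.Model Fermat.Agent.S48.B.Defs.Spec
open Fermat.Agent.S48.B.B1.Seams Fermat.Agent.S48.B.B1.RepAll1 Fermat.Agent.S48.B.B1.RepHom1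
open Fermat.Agent.S48.B.B1 Fermat.Agent.S48.B.Hecke.PhiDiamond
open scoped ModularForm

local notation "Kb" => AlgebraicClosure ℚ

local notation "ι₀" => Fermat.Agent.S24.OrbitDefs.ι

variable (M : ℕ) [NeZero M]

/-- the representation homomorphism of main -/
abbrev toR : F1Bar M →+* repField1 M := toRepField1 M ι₀ (Main.repLe M)

/-- the expansion at the cusp `q ∈ Q1 M = SL(2, ℤ) ⧸ ±Γ₁(M)` -/
abbrev Lc (q : Q1 M) : F1Bar M →+* LaurentSeries ℂ := Orbits1Cusp.L M (toR M) q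

/-- the pull-back of the ring of power series along the expansion at `q` -/
def cv (q : Q1 M) : ValuationSubring (F1Bar M) := v.valuationSubring.comap (Lc M q)

theorem mem_cv (q : Q1 M) (f : F1Bar M) : f ∈ cv M q ↔ v (Lc M q f) ≤ 1 := by
  unfold cv
  rw [ValuationSubring.mem_comap, Valuation.mem_valuationSubring_iff]

theorem htoR (f : F1Bar M) : ((toR M f : repField1 M) : LaurentSeries ℂ) =
    ModularCurve.coeffMap ι₀ (f : LaurentSeries Kb) := rfl

/-- every pole of `j` is the pull-back of the `q`-adic valuation along some `L q` -/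
theorem exists_eq_cv (w : Place Kb (F1Bar M)) (hw : jgen1 M ∉ w.toValuationSubring) :
    ∃ q, w.toValuationSubring = cv M q := by
  have hdeg := Main.deg1 M
  have hx := hdeg.1
  let _ : Fintype (Q1 M) := Fintype.ofFinite _
  have hcard : Fintype.card (Q1 M) = Module.finrank (IntermediateField.adjoin Kb {jgen1 M})
      (F1Bar M) := by
    rw [hdeg.2, Nat.card_eq_fintype_card]
  have hM0 : 0 < M := Nat.pos_of_ne_zero (NeZero.ne M)
  exact LemmaA.exists_place_eq_comap_inv v.valuationSubring (Lc M) hx hcard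
    (Lmap1Sep.injective_L_of (Main.wpForms M) (Main.repLe M))
    (fun q q' c => by
      rw [Orbits1Cusp.L_algebraMap M _ (htoR M), Orbits1Cusp.L_algebraMap M _ (htoR M)])
    (fun q q' => by rw [Orbits1Cusp.L_jgen1 M _ (htoR M), Orbits1Cusp.L_jgen1 M _ (htoR M)])
    (fun q c => (Valuation.mem_valuationSubring_iff _ _).mpr
      (Orbits1Cusp.v_L_algebraMap_le M _ (htoR M) q c))
    (fun q => OrbitsCusp.mem_nonunits_of_v_eq_exp hM0
      (Orbits1Cusp.v_L_jgen1_inv M _ (htoR M) q)) w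
    ((Hurwitz.inv_mem_nonunits_iff hx w).mpr hw)

/-- the pull-back is constant on the orbits of `T` -/
theorem cv_eq_of_orbitRel {q q' : Q1 M}
    (h : MulAction.orbitRel (Subgroup.zpowers (ModularGroup.T : SL(2, ℤ))) (Q1 M) q q') :
    cv M q = cv M q' := by
  have hsame : ∀ q : Q1 M, cv M ((ModularGroup.T : SL(2, ℤ)) • q) = cv M q :=
    fun q => Orbits1Cusp.comap_L_T_smul M (toR M) q
  have hsameZ : ∀ (k : ℤ) (q : Q1 M), cv M ((ModularGroup.T : SL(2, ℤ)) ^ k • q) = cv M q := by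
    intro k
    induction k using Int.induction_on with
    | zero => intro q; simp
    | succ i ih => intro q; rw [_root_.zpow_add_one, mul_smul, ih, hsame]
    | pred i ih =>
      intro q
      rw [_root_.zpow_sub_one, mul_smul, ih]
      have := hsame ((ModularGroup.T : SL(2, ℤ))⁻¹ • q)
      rw [smul_inv_smul] at this
      exact this.symm
  rw [MulAction.orbitRel_apply] at h
  obtain ⟨⟨g, hg⟩, rfl⟩ := h
  obtain ⟨k, rfl⟩ := Subgroup.mem_zpowers_iff.mp hg
  exact hsameZ k q'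

/-- **the pull-backs separate the orbits of `T`** (main's count `card_poles1`, read backwards) -/
theorem orbitRel_of_cv_eq {q q' : Q1 M} (h : cv M q = cv M q') :
    MulAction.orbitRel (Subgroup.zpowers (ModularGroup.T : SL(2, ℤ))) (Q1 M) q q' := by
  have hcard := Orbits1Cusp.card_poles_of_repLe M (Main.repLe M)
    (Lmap1Sep.injective_L_of (Main.wpForms M) (Main.repLe M)) (Main.deg1 M)
  have hfin : Finite {w : Place Kb (F1Bar M) // jgen1 M ∉ w.toValuationSubring} := by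
    have := Hurwitz.finite_inv_zeros (Main.deg1 M).1
    exact Finite.of_equiv _ (Equiv.subtypeEquivRight fun w =>
      (Hurwitz.inv_mem_nonunits_iff (Main.deg1 M).1 w))
  refine rel_of_eq_of_card (MulAction.orbitRel (Subgroup.zpowers (ModularGroup.T : SL(2, ℤ)))
    (Q1 M)) (cv M) (fun q q' hqq => cv_eq_of_orbitRel M hqq)
    (fun w : {w : Place Kb (F1Bar M) // jgen1 M ∉ w.toValuationSubring} => w.1.toValuationSubring)
    ?_ (fun w => exists_eq_cv M w.1 w.2) hcard h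
  intro w w' hww
  exact Subtype.ext (Place.ext hww)

/-- **the diamond automorphisms on the expansions**: `⟨d⁻¹⟩^*` is the right translation by `σ_d⁻¹`
on `Q1 M` -/
theorem Lc_diamondAut (d : (ZMod M)ˣ) (σ : SL(2, ℤ)) (hσ : IsSigma M σ (d : ZMod M)) (q : Q1 M)
    (f : F1Bar M) :
    Lc M q (diamondAut M Kb d⁻¹ f) =
      Lc M ((Quotient.out q * σ⁻¹ : SL(2, ℤ)) : Q1 M) f := by
  have hrep : DiamondRep1 M ι₀ :=
    Fermat.Agent.S48.B.Hecke.DiamondDescent.diamondRep1_of ι₀ (Main.diamondAn M)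
      (Main.diamondExists M)
  obtain ⟨k, a, b, h⟩ := (toR M f).2
  have h' := hrep d σ hσ f k a b ⟨h.ha, h.hb, h.hb0, h.eq⟩
  have h'' : Seams.IsRepOf1 M ((toR M (diamondAut M Kb d⁻¹ f) : repField1 M) : LaurentSeries ℂ) k
      (a ∣[k] σ) (b ∣[k] σ) := ⟨h'.ha, h'.hb, h'.hb0, h'.eq⟩
  have e1 : Lc M q (diamondAut M Kb d⁻¹ f) =
      Orbits1Cusp.Λrep1 M (Quotient.out q)⁻¹ (toR M (diamondAut M Kb d⁻¹ f)) := rfl
  have e2 : Lc M ((Quotient.out q * σ⁻¹ : SL(2, ℤ)) : Q1 M) f =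
      Orbits1Cusp.Λrep1 M (σ * (Quotient.out q)⁻¹) (toR M f) := by
    show Lq (PG1 M) (Orbits1Cusp.Λ M (toR M)) _ f = _
    rw [Lq_mk (Orbits1Cusp.Λ_mul_left M (toR M)), _root_.mul_inv_rev, inv_inv]
    rfl
  rw [e1, e2, Orbits1Cusp.Λrep1_eq_div M _ _ h'', Orbits1Cusp.Λrep1_eq_div M _ _ h,
    SlashAction.slash_mul, SlashAction.slash_mul]

/-- **a pole fixed by a diamond automorphism gives a unipotent relation** in `Γ₀(M)` -/
theorem exists_unipotent_of_fixed (d : (ZMod M)ˣ) (σ : SL(2, ℤ)) (hσ : IsSigma M σ (d : ZMod M))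
    (w : Place Kb (F1Bar M)) (hw : jgen1 M ∉ w.toValuationSubring)
    (hfix : diamondAut M Kb d⁻¹ • w = w) :
    ∃ (g : SL(2, ℤ)) (k : ℤ) (h : SL(2, ℤ)), h ∈ PG1 M ∧
      g⁻¹ * ModularGroup.T ^ k * g = h * σ := by
  obtain ⟨q, hq⟩ := exists_eq_cv M w hw
  -- the diamond preserves the valuation ring of `w`
  have h1 : ∀ f : F1Bar M, diamondAut M Kb d⁻¹ f ∈ w.toValuationSubring ↔
      f ∈ w.toValuationSubring := by
    intro f
    conv_lhs => rw [← hfix, Place.smul_toValuationSubring,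
      ValuationSubring.mem_pointwise_smul_iff_inv_smul_mem]
    rw [AlgEquiv.smul_def, AlgEquiv.aut_inv, AlgEquiv.symm_apply_apply]
  -- so the cusps `q` and `q σ⁻¹` have the same valuation ring
  have h2 : cv M ((Quotient.out q * σ⁻¹ : SL(2, ℤ)) : Q1 M) = cv M q := by
    ext f
    rw [mem_cv, ← Lc_diamondAut M d σ hσ q f, ← mem_cv, ← hq]
    exact h1 f
  -- hence they are in the same orbit of `T`
  have h3 := orbitRel_of_cv_eq M h2
  rw [MulAction.orbitRel_apply] at h3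
  obtain ⟨⟨t, ht⟩, h4⟩ := h3
  obtain ⟨k, rfl⟩ := Subgroup.mem_zpowers_iff.mp ht
  have h5 : ((ModularGroup.T ^ k * Quotient.out q : SL(2, ℤ)) : Q1 M) =
      ((Quotient.out q * σ⁻¹ : SL(2, ℤ)) : Q1 M) := by
    have h6 : (ModularGroup.T : SL(2, ℤ)) ^ k • q =
        ((Quotient.out q * σ⁻¹ : SL(2, ℤ)) : Q1 M) := h4
    rw [← h6]
    conv_rhs => rw [← QuotientGroup.out_eq' q]
    rfl
  have h7 := QuotientGroup.eq.mp h5
  refine ⟨Quotient.out q, -k, _, h7, ?_⟩
  rw [_root_.zpow_neg]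
  group

end Dict

/-! ### the theorem -/

section Main

open AlgebraicCurve ModularCurve
open Fermat.Agent.S24 Fermat.Agent.S24.FF
open Fermat.Agent.S48.B.Defs.Model Fermat.Agent.S48.B.Defs.Spec
open Fermat.Agent.S48.B.B1.Seams Fermat.Agent.S48.B.B1
open Fermat.Agent.S48.B.Hecke.Gamma1Cosets Fermat.Agent.S48.B.Hecke.SpecExport

local notation "Kb" => AlgebraicClosure ℚ

variable {N r : ℕ} [NeZero (N * r)]

/-- **the diamonds of the `r`-part act freely on the cusps of `X₁(N r)`**, integral form of the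
congruence `d ≡ 1 mod N` -/
theorem diamondAut_smul_ne_of_int (hN : ¬ N ∣ 4) (hr : r.Prime) (hrN : ¬ r ∣ N)
    (d : (ZMod (N * r))ˣ) (hd : d ≠ 1)
    (hd1 : ∀ D : ℤ, ((D : ℤ) : ZMod (N * r)) = (d : ZMod (N * r)) → (N : ℤ) ∣ D - 1)
    (w : Place Kb (F1Bar (N * r))) (hw : jgen1 (N * r) ∉ w.toValuationSubring) :
    diamondAut (N * r) Kb d • w ≠ w := by
  intro hfix
  -- `σ` with lower right entry `d⁻¹`
  obtain ⟨s, hs⟩ := chi_surjective (N * r) d⁻¹
  have hσ : IsSigma (N * r) (s : SL(2, ℤ)) ((d⁻¹ : (ZMod (N * r))ˣ) : ZMod (N * r)) := by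
    have := isSigma_coe s
    rwa [hs] at this
  have hfix' : diamondAut (N * r) Kb (d⁻¹)⁻¹ • w = w := by rwa [inv_inv]
  obtain ⟨g, k, h, hh, hrel⟩ := exists_unipotent_of_fixed (N * r) d⁻¹ (s : SL(2, ℤ)) hσ w hw hfix'
  -- the congruence `d⁻¹ ≡ 1 mod N` in integral form
  have hD : (N : ℤ) ∣ (s : SL(2, ℤ)) 1 1 - 1 := by
    -- `σ₁₁ ≡ d⁻¹`, and `D := σ₀₀ ≡ d`
    have hdet := (s : SL(2, ℤ)).det_coe
    rw [Matrix.det_fin_two] at hdet
    have h00 : (((s : SL(2, ℤ)) 0 0 : ℤ) : ZMod (N * r)) = (d : ZMod (N * r)) := by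
      have h1 : (((s : SL(2, ℤ)) 0 0 : ℤ) : ZMod (N * r)) *
          ((d⁻¹ : (ZMod (N * r))ˣ) : ZMod (N * r)) = 1 := by
        have h2 := congrArg (Int.cast : ℤ → ZMod (N * r)) hdet
        push_cast at h2
        rw [hσ.1, hσ.2, mul_zero, sub_zero] at h2
        exact h2
      calc (((s : SL(2, ℤ)) 0 0 : ℤ) : ZMod (N * r))
          = (((s : SL(2, ℤ)) 0 0 : ℤ) : ZMod (N * r)) *
              (((d⁻¹ : (ZMod (N * r))ˣ) : ZMod (N * r)) * (d : ZMod (N * r))) := by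
            rw [Units.inv_mul, mul_one]
        _ = (d : ZMod (N * r)) := by rw [← mul_assoc, h1, one_mul]
    have hN00 := hd1 _ h00
    have hN10 : (N : ℤ) ∣ (s : SL(2, ℤ)) 1 0 := by
      have : ((N * r : ℕ) : ℤ) ∣ (s : SL(2, ℤ)) 1 0 :=
        (ZMod.intCast_zmod_eq_zero_iff_dvd _ _).mp hσ.1
      refine Dvd.dvd.trans ?_ this
      push_cast
      exact Dvd.intro _ rfl
    -- `σ₁₁ - 1 = σ₁₁ (1 - σ₀₀) + σ₀₁ σ₁₀` modulo the determinant
    have e : (s : SL(2, ℤ)) 1 1 - 1 = -((s : SL(2, ℤ)) 1 1 * ((s : SL(2, ℤ)) 0 0 - 1)) +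
        (s : SL(2, ℤ)) 0 1 * (s : SL(2, ℤ)) 1 0 := by linear_combination hdet
    rw [e]
    exact dvd_add (Dvd.dvd.mul_left hN00 _).neg_right (Dvd.dvd.mul_left hN10 _)
  have hkey := int_modEq_one_of_unipotent hN hr hrN (trace_conj_T_zpow g k) hrel
    ((ZMod.intCast_zmod_eq_zero_iff_dvd _ _).mp hσ.1) hD
    ((Fermat.Agent.S48.B.B1.Count1.Index.mem_PG1_iff (N * r) h).mp hh)
  -- `d⁻¹ = 1`
  apply hd
  have h1 : ((d⁻¹ : (ZMod (N * r))ˣ) : ZMod (N * r)) = 1 := by
    rw [← hσ.2]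
    have := (ZMod.intCast_zmod_eq_zero_iff_dvd _ _).mpr hkey
    push_cast at this
    exact sub_eq_zero.mp this
  have h2 : (d⁻¹ : (ZMod (N * r))ˣ) = 1 := Units.ext h1
  exact inv_eq_one.mp h2

/-- **IG-C**: the diamonds `⟨d⟩`, `d ≡ 1 mod N`, `d ≠ 1`, have no fixed point among the places of
`X₁(N r)` over `j = ∞` (`N ∤ 4`, e.g. `5 ≤ N`; `r ∤ N` prime) -/
theorem diamondAut_smul_ne (hN : ¬ N ∣ 4) (hr : r.Prime) (hrN : ¬ r ∣ N)
    (d : (ZMod (N * r))ˣ) (hd : d ≠ 1)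
    (hd1 : ZMod.unitsMap (Nat.dvd_mul_right N r) d = 1)
    (w : Place Kb (F1Bar (N * r))) (hw : w.ord (jgen1 (N * r)) < 0) :
    diamondAut (N * r) Kb d • w ≠ w := by
  have hx := (Main.deg1 (N * r)).1
  refine diamondAut_smul_ne_of_int hN hr hrN d hd ?_ w ?_
  · intro D hD
    have h1 : (ZMod.castHom (Nat.dvd_mul_right N r) (ZMod N)) (d : ZMod (N * r)) = 1 := by
      have := congrArg (fun u : (ZMod N)ˣ => (u : ZMod N)) hd1
      simpa [ZMod.unitsMap] using this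
    rw [← hD, map_intCast] at h1
    rw [← ZMod.intCast_zmod_eq_zero_iff_dvd]
    push_cast
    rw [h1, sub_self]
  · rw [Hurwitz.not_mem_iff, ← Ord.ord_neg_iff w hx.ne_zero]
    exact hw

/-- the same with `5 ≤ N` -/
theorem diamondAut_smul_ne_of_five_le (hN : 5 ≤ N) (hr : r.Prime) (hrN : ¬ r ∣ N)
    (d : (ZMod (N * r))ˣ) (hd : d ≠ 1)
    (hd1 : ZMod.unitsMap (Nat.dvd_mul_right N r) d = 1)
    (w : Place Kb (F1Bar (N * r))) (hw : w.ord (jgen1 (N * r)) < 0) :
    diamondAut (N * r) Kb d • w ≠ w :=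
  diamondAut_smul_ne (fun h => by have := Nat.le_of_dvd (by norm_num) h; omega) hr hrN d hd hd1 w hw

/-- the same for the action of `SemilinearAut` on the places -/
theorem ofAlgAut_diamondAut_smul_ne (hN : 5 ≤ N) (hr : r.Prime) (hrN : ¬ r ∣ N)
    (d : (ZMod (N * r))ˣ) (hd : d ≠ 1)
    (hd1 : ZMod.unitsMap (Nat.dvd_mul_right N r) d = 1)
    (w : Place Kb (F1Bar (N * r))) (hw : w.ord (jgen1 (N * r)) < 0) :
    SemilinearAut.ofAlgAut (diamondAut (N * r) Kb d) • w ≠ w := by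
  intro h
  refine diamondAut_smul_ne_of_five_le hN hr hrN d hd hd1 w hw ?_
  have h1 : SemilinearAut.ofAlgAut (diamondAut (N * r) Kb d) • w =
      diamondAut (N * r) Kb d • w := by
    apply Place.ext
    ext x
    rw [SemilinearAut.smul_toValuationSubring, Place.smul_toValuationSubring,
      ValuationSubring.mem_pointwise_smul_iff_inv_smul_mem,
      ValuationSubring.mem_pointwise_smul_iff_inv_smul_mem, ← map_inv,
      SemilinearAut.ofAlgAut_smul]
    rfl
  rw [← h1]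
  exact h

end Main

end Fermat.Agent.S43.LG1.Ig.CuspFree
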