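import Mathlib
import Fermat.Agent.S43.LG1.C1.LevelSurjGen
import Fermat.Agent.S43.LG1.C1.LevelMSurjX1
import Fermat.Agent.S48.B.B1.Main

/-!
# PROJECT R (row 37 by S43), gate G2* / LG1Hyp, node IG, brick IG-E (helper15)

**`6 ∣ ε`: the elliptic points of `X₁(N)`, `N ≥ 4`, in every characteristic `r ∤ N`.**

* `dvd_ord_red` (ANY Gauss datum with Deuring's hypotheses): if every zero of `u` upstairs has order
  divisible by `e`, so has every zero of `G.red u` downstairs (`LevelSurjGen.mapDomain_zeroDiv_u`: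
  the divisor of zeros downstairs is the push-forward of the divisor of zeros upstairs);
* `card_orbit_ST_eq_three`, `card_orbit_S_eq_two` : `S T` and `S` act freely on
  `SL(2,ℤ) ⧸ ±Γ₁(N)` for `N ≥ 4`, `N ≥ 3`;
* `ord_jgen1_eq_three`, `ord_jgen1_sub_1728_eq_two` : on `ℚ̄(X₁(N))` every zero of `j` has order
  EXACTLY `3` (`N ≥ 4`) and every zero of `j - 1728` has order EXACTLY `2` (`N ≥ 3`);
* `ord_map_jgen1_eq_three`, `ord_map_jgen1_sub_1728_eq_two` : the same for `σ j`, `σ` any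
  automorphism of `ℚ̄(X₁(N))` over `ℚ̄` (in the application `σ = w_N`, `σ j = j(q^N)`);
* `six_dvd_eps` : the arithmetic `6 ∣ 2 a + 3 b` from `3 ∣ a`, `2 ∣ b`, and its form for a Gauss
  datum: `6 ∣ 2 ord_Q (ū) + 3 ord_Q (ū - 1728)` at every place `Q` which is not a pole of `ū`.
-/

set_option autoImplicit false
set_option linter.unusedSectionVars false

noncomputable section

namespace Fermat.Agent.S43.LG1.Ig.Ell

/-! ### The arithmetic -/

theorem six_dvd_of_dvd {a b : ℤ} (ha : (3 : ℤ) ∣ a) (hb : (2 : ℤ) ∣ b) :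
    (6 : ℤ) ∣ 2 * a + 3 * b := by
  obtain ⟨a', rfl⟩ := ha
  obtain ⟨b', rfl⟩ := hb
  exact ⟨a' + b', by ring⟩

/-! ### The transfer of divisibility of zero orders along a Gauss datum -/

section Gen

open AlgebraicCurve IntermediateField
open Fermat.Agent.S18.NonSpecial Fermat.Agent.S37.Deuring.Core Fermat.Agent.S34.LevelMSurj
open Fermat.Agent.S18.A Fermat.Agent.S24.FF
open Fermat.Agent.S43.LG1.C1

universe u u' w w'

variable {L : Type w} [Field L] [IsAlgClosed L] {k : Type w'} [Field k] [IsAlgClosed k]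
variable {A : ValuationSubring L} {π : A →+* k}
variable {FL : Type u} [Field FL] [Algebra L FL] {Fk : Type u'} [Field Fk] [Algebra k Fk]
variable {G : GaussDatum A π FL Fk} {gL gk : ℕ}
variable [HasPrincipalDivisors L FL] [HasPrincipalDivisors k Fk] [Infinite k]

variable (H : Hyp G gL gk) (u : G.O)
variable (hu : IsFF L ((u : G.O) : FL)) (hsep : Algebra.IsSeparable L⟮((u : G.O) : FL)⟯ FL)
variable (hk : IsFF k (G.red u)) (hsepk : Algebra.IsSeparable k⟮G.red u⟯ Fk)
variable (hdeg : Module.finrank L⟮((u : G.O) : FL)⟯ FL ≤ Module.finrank k⟮G.red u⟯ Fk)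

/-- a push-forward of a divisor all of whose coefficients are divisible by `e` has the same
property -/
theorem dvd_mapDomain_apply {α β : Type*} (f : α → β) (D : α →₀ ℤ) (e : ℤ)
    (hD : ∀ a, e ∣ D a) (b : β) : e ∣ Finsupp.mapDomain f D b := by
  classical
  rw [Finsupp.mapDomain, Finsupp.sum_apply]
  refine Finset.dvd_sum fun a _ => ?_
  show e ∣ (Finsupp.single (f a) (D a)) b
  rw [Finsupp.single_apply]
  split_ifs
  · exact hD a
  · exact dvd_zero e

include H hu hsep hk hsepk hdeg in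
/-- **the zero orders downstairs are divisible by `e` as soon as the zero orders upstairs are** -/
theorem dvd_ord_red (e : ℕ)
    (he : ∀ P : Place L FL, 0 < P.ord ((u : G.O) : FL) → (e : ℤ) ∣ P.ord ((u : G.O) : FL))
    (Q : Place k Fk) (hQ : 0 < Q.ord (G.red u)) : (e : ℤ) ∣ Q.ord (G.red u) := by
  have h1 := LevelSurjGen.mapDomain_zeroDiv_u H u hu hsep hk hsepk hdeg
  have h2 : (e : ℤ) ∣ Finsupp.mapDomain (placeMap H) (FibreSep.zeroDiv hu hsep) Q := by
    refine dvd_mapDomain_apply _ _ _ (fun P => ?_) Q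
    rw [FibreSep.zeroDiv_apply]
    rcases le_or_gt (P.ord ((u : G.O) : FL)) 0 with h | h
    · rw [max_eq_right h]
      exact dvd_zero _
    · rw [max_eq_left h.le]
      exact he P h
  rw [h1, FibreSep.zeroDiv_apply, max_eq_left hQ.le] at h2
  exact h2

/-! #### translation of the variable by a constant -/

section SubConst

variable {K : Type*} [Field K] {F : Type*} [Field F] [Algebra K F]

/-- `K(x - c) = K(x)` -/
theorem adjoin_sub_const (x : F) (c : K) : K⟮x - algebraMap K F c⟯ = K⟮x⟯ := by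
  apply le_antisymm
  · rw [IntermediateField.adjoin_simple_le_iff]
    exact sub_mem (IntermediateField.mem_adjoin_simple_self K x) (K⟮x⟯.algebraMap_mem c)
  · rw [IntermediateField.adjoin_simple_le_iff]
    have h : x = (x - algebraMap K F c) + algebraMap K F c := by ring
    have h2 : (x - algebraMap K F c) + algebraMap K F c ∈ K⟮x - algebraMap K F c⟯ :=
      add_mem (IntermediateField.mem_adjoin_simple_self K _)
        (K⟮x - algebraMap K F c⟯.algebraMap_mem c)
    rwa [← h] at h2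

theorem isFF_sub_const {x : F} (hx : IsFF K x) (c : K) : IsFF K (x - algebraMap K F c) := by
  refine ⟨?_, ?_⟩
  · intro halg
    apply hx.transcendental
    have h : x = (x - algebraMap K F c) + algebraMap K F c := by ring
    rw [h]
    exact halg.add (isAlgebraic_algebraMap c)
  · rw [adjoin_sub_const]
    exact hx.finite

theorem isSeparable_sub_const {x : F} (hsep : Algebra.IsSeparable K⟮x⟯ F) (c : K) :
    Algebra.IsSeparable K⟮x - algebraMap K F c⟯ F := by
  rw [adjoin_sub_const]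
  exact hsep

theorem finrank_sub_const (x : F) (c : K) :
    Module.finrank K⟮x - algebraMap K F c⟯ F = Module.finrank K⟮x⟯ F := by
  rw [adjoin_sub_const]

/-- a place which is not a pole of `x` is not a pole of `x - c` -/
theorem ord_sub_const_nonneg (Q : Place K F) {x : F} (c : K) (hx : x - algebraMap K F c ≠ 0)
    (hQ : x = 0 ∨ 0 ≤ Q.ord x) : 0 ≤ Q.ord (x - algebraMap K F c) := by
  rw [Fermat.Agent.S24.Ord.ord_nonneg_iff Q hx]
  have h1 : Q.adicValuation x ≤ 1 := Q.adicValuation_le_one_iff.mpr hQ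
  have h2 : Q.adicValuation (algebraMap K F c) ≤ 1 :=
    Q.adicValuation_le_one_iff.mpr (Or.inr (by rw [Fermat.Agent.S24.Ord.ord_algebraMap]))
  exact Q.adicValuation.map_sub_le h1 h2

end SubConst

/-- `u - a` for a constant `a ∈ A`, in the Gauss ring -/
def subConst (u : G.O) (a : A) : G.O := u - G.const a

theorem coe_subConst (a : A) :
    ((subConst u a : G.O) : FL) = ((u : G.O) : FL) - algebraMap L FL (a : L) := rfl

theorem red_subConst (a : A) : G.red (subConst u a) = G.red u - algebraMap k Fk (π a) := by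
  rw [subConst, map_sub]
  congr 1
  exact G.red_algebraMap a

include H hu hsep hk hsepk hdeg in
/-- `dvd_ord_red` for `u - a` -/
theorem dvd_ord_red_subConst (a : A) (e : ℕ)
    (he : ∀ P : Place L FL, 0 < P.ord (((u : G.O) : FL) - algebraMap L FL (a : L)) →
      (e : ℤ) ∣ P.ord (((u : G.O) : FL) - algebraMap L FL (a : L)))
    (Q : Place k Fk) (hQ : 0 < Q.ord (G.red u - algebraMap k Fk (π a))) :
    (e : ℤ) ∣ Q.ord (G.red u - algebraMap k Fk (π a)) := by
  have h := dvd_ord_red H (subConst u a)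
    (by rw [coe_subConst]; exact isFF_sub_const hu _)
    (by rw [coe_subConst]; exact isSeparable_sub_const hsep _)
    (by rw [red_subConst]; exact isFF_sub_const hk _)
    (by rw [red_subConst]; exact isSeparable_sub_const hsepk _)
    (by rw [coe_subConst, red_subConst, finrank_sub_const, finrank_sub_const]; exact hdeg) e
    (by rw [coe_subConst]; exact he) Q (by rw [red_subConst]; exact hQ)
  rwa [red_subConst] at h

include H hu hsep hk hsepk hdeg in
/-- **`6 ∣ ε`, for a Gauss datum**: if upstairs every zero of `u` has order divisible by `3` and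
every zero of `u - a` has order divisible by `2`, then downstairs
`6 ∣ 2 ord_Q (ū) + 3 ord_Q (ū - ā)` at every place `Q` which is not a pole of `ū`. -/
theorem six_dvd_eps (a : A)
    (h3 : ∀ P : Place L FL, 0 < P.ord ((u : G.O) : FL) → (3 : ℤ) ∣ P.ord ((u : G.O) : FL))
    (h2 : ∀ P : Place L FL, 0 < P.ord (((u : G.O) : FL) - algebraMap L FL (a : L)) →
      (2 : ℤ) ∣ P.ord (((u : G.O) : FL) - algebraMap L FL (a : L)))
    (Q : Place k Fk) (hQ : 0 ≤ Q.ord (G.red u)) :
    (6 : ℤ) ∣ 2 * Q.ord (G.red u) + 3 * Q.ord (G.red u - algebraMap k Fk (π a)) := by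
  have hne : G.red u - algebraMap k Fk (π a) ≠ 0 := by
    intro h0
    exact hk.transcendental (by
      rw [sub_eq_zero.mp h0]
      exact isAlgebraic_algebraMap _)
  have hQ' : 0 ≤ Q.ord (G.red u - algebraMap k Fk (π a)) :=
    ord_sub_const_nonneg Q (π a) hne (Or.inr hQ)
  apply six_dvd_of_dvd
  · rcases hQ.lt_or_eq with hpos | h0
    · exact dvd_ord_red H u hu hsep hk hsepk hdeg 3 (by exact_mod_cast h3) Q hpos
    · rw [← h0]
      exact dvd_zero _
  · rcases hQ'.lt_or_eq with hpos | h0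
    · exact dvd_ord_red_subConst H u hu hsep hk hsepk hdeg a 2 (by exact_mod_cast h2) Q hpos
    · rw [← h0]
      exact dvd_zero _

end Gen

/-! ### The elliptic points of `X₁(N)` in characteristic zero -/

section Char0

open UpperHalfPlane CongruenceSubgroup ModularCurve AlgebraicCurve MulAction WithZero Module
open IntermediateField ModularGroup
open Fermat.Agent.S24
open Fermat.Agent.S24.RepHom (HolHom)
open Fermat.Agent.S24.FF
open Fermat.Agent.S24.OrbitDefs (tay)
open Fermat.Agent.S24.Taylor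
open Fermat.Agent.LevelOne.JBasic
open Fermat.Agent.S18.C
open Fermat.Agent.S48.B.Defs.Model Fermat.Agent.S48.B.B1.Seams Fermat.Agent.S48.B.B1.RepHom1
open Fermat.Agent.S48.B.B1.RepAll1 Fermat.Agent.S48.B.B1.Orbits1Abs
open Fermat.Agent.S48.B.B1.Lmap1J Fermat.Agent.S48.B.B1.Lmap1Taylor
open Fermat.Agent.S48.B.B1
open scoped MatrixGroups Manifold

variable (M : ℕ) [NeZero M]

local notation "Kb" => AlgebraicClosure ℚ

local notation "ι₀" => Fermat.Agent.S24.OrbitDefs.ι

/-- an orbit of a cyclic group whose generator moves the point has at least two elements -/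
theorem card_orbit_ne_one {G X : Type*} [Group G] [MulAction G X] (d : G) (q : X)
    (hq : d • q ≠ q) : Nat.card (orbit (Subgroup.zpowers d) q) ≠ 1 := by
  intro h1
  obtain ⟨hss, -⟩ := Nat.card_eq_one_iff_unique.mp h1
  have hmem1 : q ∈ orbit (Subgroup.zpowers d) q := mem_orbit_self q
  have hmem2 : d • q ∈ orbit (Subgroup.zpowers d) q :=
    ⟨⟨d, Subgroup.mem_zpowers d⟩, rfl⟩
  have := hss.elim (⟨d • q, hmem2⟩ : orbit (Subgroup.zpowers d) q) ⟨q, hmem1⟩
  exact hq (congrArg Subtype.val this)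

/-- **`S T` acts freely on `SL(2,ℤ) ⧸ ±Γ₁(M)`, `M ≥ 4`**: all orbits have three elements -/
theorem card_orbit_ST_eq_three (hM : 4 ≤ M) (q : Q1 M) :
    Nat.card (orbit (Subgroup.zpowers (S * T : SL(2, ℤ))) q) = 3 := by
  have hdvd := Orbits1PtGlue.card_orbit_ST_dvd M q
  have hne := card_orbit_ne_one (S * T : SL(2, ℤ)) q (Count1.Free.ST_smul_ne M hM q)
  rcases (Nat.dvd_prime Nat.prime_three).mp hdvd with h | h
  · exact absurd h hne
  · exact h

/-- **`S` acts freely on `SL(2,ℤ) ⧸ ±Γ₁(M)`, `M ≥ 3`**: all orbits have two elements -/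
theorem card_orbit_S_eq_two (hM : 3 ≤ M) (q : Q1 M) :
    Nat.card (orbit (Subgroup.zpowers (S : SL(2, ℤ))) q) = 2 := by
  have hdvd := Orbits1PtGlue.card_orbit_S_dvd M q
  have hne := card_orbit_ne_one (S : SL(2, ℤ)) q (Count1.Free.S_smul_ne M hM q)
  rcases (Nat.dvd_prime Nat.prime_two).mp hdvd with h | h
  · exact absurd h hne
  · exact h

/-- **every zero of `j` on `X₁(M)`, `M ≥ 4`, has order exactly `3`** (nonunit form) -/
theorem ord_jgen1_eq_three_of_mem (hM : 4 ≤ M) (v : Place Kb (F1Bar M))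
    (hv : jgen1 M - algebraMap Kb _ 0 ∈ v.toValuationSubring.nonunits) :
    v.ord (jgen1 M - algebraMap Kb _ 0) = 3 := by
  have hle := Main.repLe M
  have hdeg := Main.deg1 M
  have hsep := Lmap1Sep.sepTay_of (Main.wpForms M) (Main.repLe M)
  have hτ : jFun rho = ι₀ 0 := by
    rw [jFun_rho, map_zero]
  obtain ⟨q, hq⟩ := Ram1.ord_eq_card_orbit_of1 M (tay rho) (fun γ => slashP1_mdiff M γ)
    Orbits1PtAlt.hPc_mdiff ι₀ (toRepField1 M ι₀ hle) (toRepField1_algebraMap M ι₀ hle)
    hdeg.1 hdeg.2 (hsep _) (Orbits1PtAlt.hLx_tay M _ hle _) 0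
    (S * T : SL(2, ℤ)) 3 (by norm_num)
    (fun γ => by
      rw [Orbits1PtAlt.hm_tay M _ hle _ 0 hτ γ, if_pos jFun_rho])
    (Orbits1PtAlt.hsame_tay M _ (S * T) ST_smul_rho)
    (fun q => Orbits1PtGlue.card_orbit_ST_dvd M q)
    (fun q g _ => Orbits1PtGlue.three_dvd_card_orbit_ST_mul M q _ (fun hfix =>
      three_dvd_log_v_Lmap1_tay _ (Orbits1PtGlue.conj_ST_mem M q hfix) g)) v hv
  rw [hq, card_orbit_ST_eq_three M hM q]
  rfl

/-- **every zero of `j - 1728` on `X₁(M)`, `M ≥ 3`, has order exactly `2`** (nonunit form) -/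
theorem ord_jgen1_sub_1728_eq_two_of_mem (hM : 3 ≤ M) (v : Place Kb (F1Bar M))
    (hv : jgen1 M - algebraMap Kb _ 1728 ∈ v.toValuationSubring.nonunits) :
    v.ord (jgen1 M - algebraMap Kb _ 1728) = 2 := by
  have hle := Main.repLe M
  have hdeg := Main.deg1 M
  have hsep := Lmap1Sep.sepTay_of (Main.wpForms M) (Main.repLe M)
  have hτ : jFun UpperHalfPlane.I = ι₀ 1728 := by
    rw [jFun_I, map_ofNat]
  have hτ0 : jFun UpperHalfPlane.I ≠ 0 := by
    rw [jFun_I]; norm_num
  obtain ⟨q, hq⟩ := Ram1.ord_eq_card_orbit_of1 M (tay UpperHalfPlane.I)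
    (fun γ => slashP1_mdiff M γ)
    Orbits1PtAlt.hPc_mdiff ι₀ (toRepField1 M ι₀ hle) (toRepField1_algebraMap M ι₀ hle)
    hdeg.1 hdeg.2 (hsep _) (Orbits1PtAlt.hLx_tay M _ hle _) 1728
    (S : SL(2, ℤ)) 2 (by norm_num)
    (fun γ => by
      rw [Orbits1PtAlt.hm_tay M _ hle _ 1728 hτ γ, if_neg hτ0, if_pos jFun_I])
    (Orbits1PtAlt.hsame_tay M _ S LmapTaylor.S_smul_I)
    (fun q => Orbits1PtGlue.card_orbit_S_dvd M q)
    (fun q g _ => Orbits1PtGlue.two_dvd_card_orbit_S_mul M q _ (fun hfix =>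
      two_dvd_log_v_Lmap1_tay _ (Orbits1PtGlue.conj_S_mem M q hfix) g)) v hv
  rw [hq, card_orbit_S_eq_two M hM q]
  rfl

/-- **every zero of `j` on `X₁(M)`, `M ≥ 4`, has order exactly `3`** -/
theorem ord_jgen1_eq_three (hM : 4 ≤ M) (v : Place Kb (F1Bar M)) (hv : 0 < v.ord (jgen1 M)) :
    v.ord (jgen1 M) = 3 := by
  have hne : jgen1 M ≠ 0 := by
    have := Ram1.jgen1_sub_ne_zero M (Main.deg1 M) 0
    rwa [map_zero, sub_zero] at this
  have h := ord_jgen1_eq_three_of_mem M hM v (by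
    rw [map_zero, sub_zero, Fermat.Agent.S18.A.FibreSep.mem_nonunits_iff,
      ← Fermat.Agent.S24.Ord.ord_pos_iff v hne]
    exact hv)
  rwa [map_zero, sub_zero] at h

/-- **every zero of `j - 1728` on `X₁(M)`, `M ≥ 3`, has order exactly `2`** -/
theorem ord_jgen1_sub_1728_eq_two (hM : 3 ≤ M) (v : Place Kb (F1Bar M))
    (hv : 0 < v.ord (jgen1 M - algebraMap Kb _ 1728)) :
    v.ord (jgen1 M - algebraMap Kb _ 1728) = 2 :=
  ord_jgen1_sub_1728_eq_two_of_mem M hM v (by
    rw [Fermat.Agent.S18.A.FibreSep.mem_nonunits_iff,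
      ← Fermat.Agent.S24.Ord.ord_pos_iff v (Ram1.jgen1_sub_ne_zero M (Main.deg1 M) 1728)]
    exact hv)

/-- the order of `σ x` at `v` is the order of `x` at `σ⁻¹ v` -/
theorem ord_map_eq {K F : Type*} [Field K] [Field F] [Algebra K F] (σ : F ≃ₐ[K] F)
    (v : Place K F) (x : F) : v.ord (σ x) = (σ⁻¹ • v).ord x := by
  have h := Place.ord_smul σ (σ⁻¹ • v) x
  rwa [smul_inv_smul] at h

/-- **the same for `σ j`, `σ` any automorphism of `ℚ̄(X₁(M))`** (`σ = w_M`: `σ j = j(q^M)`) -/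
theorem ord_map_jgen1_eq_three (hM : 4 ≤ M) (σ : F1Bar M ≃ₐ[Kb] F1Bar M)
    (v : Place Kb (F1Bar M)) (hv : 0 < v.ord (σ (jgen1 M))) : v.ord (σ (jgen1 M)) = 3 := by
  rw [ord_map_eq] at hv ⊢
  exact ord_jgen1_eq_three M hM _ hv

theorem ord_map_jgen1_sub_1728_eq_two (hM : 3 ≤ M) (σ : F1Bar M ≃ₐ[Kb] F1Bar M)
    (v : Place Kb (F1Bar M)) (hv : 0 < v.ord (σ (jgen1 M) - algebraMap Kb _ 1728)) :
    v.ord (σ (jgen1 M) - algebraMap Kb _ 1728) = 2 := by
  have h : σ (jgen1 M) - algebraMap Kb _ 1728 = σ (jgen1 M - algebraMap Kb _ 1728) := by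
    rw [map_sub, σ.commutes]
  rw [h, ord_map_eq] at hv ⊢
  exact ord_jgen1_sub_1728_eq_two M hM _ hv

end Char0

/-! ### `X₁(N)` in characteristic `r ∤ N` -/

section X1

open AlgebraicCurve ModularCurve IsLocalRing IntermediateField
open Fermat.Agent.S18.NonSpecial Fermat.Agent.S37.Deuring.Core
open Fermat.Agent.S48.B.Defs.Model
open Fermat.Agent.S48.B.B1.Seams (jgen1)
open Fermat.Agent.S48.B.Red.Seams (jC IgusaDeg)
open Fermat.Agent.S48.B.Red.Bases1
open Fermat.Agent.S43.LG1.C1.LevelMSurjX1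

local notation "Kb" => AlgebraicClosure ℚ

set_option synthInstance.maxHeartbeats 400000

attribute [local instance] Fermat.Agent.S43.LG1.C1.LevelMSurjX1.algKappa

/-- the residue field of a valuation ring of `ℚ̄` is algebraically closed (hence infinite) -/
local instance isAlgClosedRes (A : ValuationSubring Kb) : IsAlgClosed (ResidueField ↥A) :=
  Fermat.Agent.S18.ResidueBasics.isAlgClosed_residueField A

variable {r : ℕ} {N : ℕ} [NeZero N] {A : ValuationSubring Kb}
variable (h : IgusaDeg N) (hr : r.Prime) (hrN : ¬ r ∣ N) (hA : A.LiesOverPrime r)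
variable {gL gk : ℕ}
variable [HasPrincipalDivisors Kb ↥(F1Bar N)]
variable [HasPrincipalDivisors (ResidueField ↥A) ↥(F1C N (ResidueField ↥A))]
variable (H : Hyp (gaussDatumIgusa h hr hrN hA) gL gk)

include H in
/-- **`6 ∣ ε` for `j̄` on `κ(X₁(N))`, `N ≥ 4`, `r ∤ N`**: at every place `Q` of `κ(X₁(N))` which is
not a cusp, `6 ∣ 2 ord_Q (j̄) + 3 ord_Q (j̄ - 1728)`. -/
theorem six_dvd_eps_jC (hN : 4 ≤ N)
    (Q : Place (ResidueField ↥A) ↥(F1C N (ResidueField ↥A)))
    (hQ : 0 ≤ Q.ord (jC N (ResidueField ↥A))) :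
    (6 : ℤ) ∣ 2 * Q.ord (jC N (ResidueField ↥A)) +
      3 * Q.ord (jC N (ResidueField ↥A) - algebraMap (ResidueField ↥A) _ 1728) := by
  have h1728 : algebraMap Kb ↥(F1Bar N) (((1728 : ↥A) : ↥A) : Kb) = algebraMap Kb _ 1728 := rfl
  have hπ : residue ↥A (1728 : ↥A) = 1728 := map_ofNat _ _
  have key := six_dvd_eps H (jO1 h hr hrN hA) (isFF_jgen1 N) (isSeparable_jgen1 N)
    (isFF_red_jO1 h hr hrN hA) (isSeparable_red_jO1 h hr hrN hA) (finrank_le_red_jO1 h hr hrN hA)
    (1728 : ↥A)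
    (fun P hP => by
      rw [coe_jO1] at hP ⊢
      rw [ord_jgen1_eq_three N hN P hP])
    (fun P hP => by
      rw [coe_jO1, h1728] at hP ⊢
      rw [ord_jgen1_sub_1728_eq_two N (by omega) P hP])
    Q (by rw [red_jO1]; exact hQ)
  rwa [red_jO1, hπ] at key

include H in
/-- **the same for `σ̄ j̄`, `σ̄` any automorphism of `κ(X₁(N))` over `κ`** (`σ̄` = the reduction of
`w_N`: `σ̄ j̄ = j̄(q^N)`) -/
theorem six_dvd_eps_map_jC (hN : 4 ≤ N)
    (σ : ↥(F1C N (ResidueField ↥A)) ≃ₐ[ResidueField ↥A] ↥(F1C N (ResidueField ↥A)))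
    (Q : Place (ResidueField ↥A) ↥(F1C N (ResidueField ↥A)))
    (hQ : 0 ≤ Q.ord (σ (jC N (ResidueField ↥A)))) :
    (6 : ℤ) ∣ 2 * Q.ord (σ (jC N (ResidueField ↥A))) +
      3 * Q.ord (σ (jC N (ResidueField ↥A)) - algebraMap (ResidueField ↥A) _ 1728) := by
  have h2 : σ (jC N (ResidueField ↥A)) - algebraMap (ResidueField ↥A) _ 1728 =
      σ (jC N (ResidueField ↥A) - algebraMap (ResidueField ↥A) _ 1728) := by
    rw [map_sub, σ.commutes]
  rw [h2, ord_map_eq, ord_map_eq] at *
  exact six_dvd_eps_jC h hr hrN hA H hN _ hQ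

end X1

end Fermat.Agent.S43.LG1.Ig.Ell

end
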