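import Mathlib
import Fermat.Agent.S43.LG1.Ig.Ell
import Fermat.Agent.S43.LG1.Wr.Main
import Fermat.Agent.S48.B.Red.Unique1
import Fermat.Agent.S48.B.Red.Diamond1.Final
import Fermat.Prelude.Thm_ModularCurve_coeffMap_qExpand

/-!
# PROJECT R (row 37 by S43), gate G2* / LG1Hyp, node IG, brick IG-E, THE PLUG (helper15)

**`6 ∣ ε` for `j̄(q^N)` on `κ(X₁(N))`** : the consumer (`Ig/NodeOrd.isCoprime_ord_theta0`) wants

  `h6 : (6 : ℤ) ∣ 2 * b.ord jS + 3 * b.ord (jS - 1728)`,   `(jS : κ((q))) = qExpand κ N (jqModC κ)`,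

at every place `b` of `F1C N κ` which is not a pole of `jS`.  `Ig/Ell.six_dvd_eps_map_jC` gives it
for `σ̄ (jC N κ)`, `σ̄` ANY `κ`-automorphism of `F1C N κ`.  Here `σ̄` is produced: the reduction of
the Fricke involution `w_N` of `ℚ̄(X₁(N))`.

* GENERIC (`Unique1` vocabulary) `aeval_div_mem`, `comap_inv_smul_of_apply_mem`,
  **`smul_eq_of_apply_mem`** : an `L`-automorphism `δ` of `FL` with `δ x ∈ G.O` and `red (δ x)`
  transcendental preserves the Gauss ring (`x` a variable with transcendental reduction at which the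
  Gauss ring is the unique extension of its contraction to `L(x)`);
* `wN N : F1Bar N ≃ₐ[ℚ̄] F1Bar N` (helper16's `Wr/Main.hasFricke 1 N`, transported along
  `1 * N = N`), `jN N` (the element with expansion `j(q^N)`), `wN_jgen1 : wN (jgen1 N) = jN`,
  `wN_jN`;
* `jN_mem_O`, `red_jN`, `jS`, `coe_jS`, `transcendental_jS`;
* `wN_smul_O : wN • G.O = G.O`, `wbar := Unique1.redAut .. wN`, **`wbar_jC : w̄ (jC N κ) = jS`**;
* **`six_dvd_eps_jS`** : `h6` in the literal of `NodeOrd`, and `six_dvd_eps_of_coe` for ANY element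
  of `F1C N κ` with the expansion `qExpand κ N (jqModC κ)`.
-/

set_option autoImplicit false
set_option linter.unusedSectionVars false

noncomputable section

namespace Fermat.Agent.S43.LG1.Ig.EllPlug

/-! ### GENERIC: automorphisms moving the variable inside the Gauss ring -/

section Gen

open Polynomial IntermediateField
open Fermat.Agent.S37.Deuring.Core Fermat.Agent.S37.Deuring.GaussLemmas
open Fermat.Agent.S48.B.Val Fermat.Agent.S48.B.Red
open scoped Pointwise

variable {L : Type*} [Field L] {k : Type*} [Field k]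
variable {A : ValuationSubring L} {π : A →+* k}
variable {FL : Type*} [Field FL] [Algebra L FL] {Fk : Type*} [Field Fk] [Algebra k Fk]
variable (G : GaussDatum A π FL Fk)

/-- **the Gauss ring of `L(z)` does not depend on `z`** among the elements of `G.O` with
transcendental reduction: if `(p / q)(x) ∈ G.O` then `(p / q)(y) ∈ G.O`. -/
theorem aeval_div_mem (x y : G.O) (hx : Transcendental k (G.red x))
    (hy : Transcendental k (G.red y)) (p q : L[X])
    (h : aeval (x : FL) p / aeval (x : FL) q ∈ G.O) :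
    aeval (y : FL) p / aeval (y : FL) q ∈ G.O := by
  by_cases hq : q = 0
  · rw [hq, map_zero, div_zero]
    exact G.O.zero_mem
  obtain ⟨c₀, hc₀, Q, hQ, hQπ⟩ := exists_scale_one (A := A) (π := π) q hq
  -- `Q(x)`, `Q(y)` are units of `O`
  have hredQx : G.red (evalO G x Q) ≠ 0 := by
    rw [red_evalO]
    exact fun h0 => hQπ ((transcendental_iff.1 hx) _ h0)
  have hredQy : G.red (evalO G y Q) ≠ 0 := by
    rw [red_evalO]
    exact fun h0 => hQπ ((transcendental_iff.1 hy) _ h0)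
  have hcoeQx : ((evalO G x Q : G.O) : FL) = algebraMap L FL c₀ * aeval (x : FL) q := by
    rw [coe_evalO, hQ, map_mul, aeval_C]
  have hcoeQy : ((evalO G y Q : G.O) : FL) = algebraMap L FL c₀ * aeval (y : FL) q := by
    rw [coe_evalO, hQ, map_mul, aeval_C]
  have hqx : aeval (x : FL) q ≠ 0 := fun h0 =>
    hq ((transcendental_iff.1 (transcendental_of_red G x hx)) q h0)
  have hqy : aeval (y : FL) q ≠ 0 := fun h0 =>
    hq ((transcendental_iff.1 (transcendental_of_red G y hy)) q h0)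
  have hc₀' : algebraMap L FL c₀ ≠ 0 := (_root_.map_ne_zero _).mpr hc₀
  -- numerator at `x`
  have hnum : aeval (x : FL) (C c₀ * p) =
      aeval (x : FL) p / aeval (x : FL) q * ((evalO G x Q : G.O) : FL) := by
    rw [hcoeQx, map_mul, aeval_C]
    field_simp
  have hnum_mem : aeval (x : FL) (C c₀ * p) ∈ G.O := by
    rw [hnum]
    exact G.O.mul_mem _ _ h (SetLike.coe_mem _)
  obtain ⟨P, hP⟩ := Unique1.exists_map_eq_of_aeval_mem G x hx (C c₀ * p) hnum_mem
  -- at `y`
  obtain ⟨u, hu⟩ := Unique1.isUnit_of_red_ne_zero G hredQy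
  have h1 : aeval (y : FL) p / aeval (y : FL) q =
      ((evalO G y P : G.O) : FL) * (((u⁻¹ : G.Oˣ) : G.O) : FL) := by
    have h2 : ((u : G.O) : FL) * (((u⁻¹ : G.Oˣ) : G.O) : FL) = 1 := by
      rw [← MulMemClass.coe_mul, u.mul_inv]
      rfl
    rw [hu, hcoeQy] at h2
    have h3 : (((u⁻¹ : G.Oˣ) : G.O) : FL) = (algebraMap L FL c₀ * aeval (y : FL) q)⁻¹ :=
      (inv_eq_of_mul_eq_one_right h2).symm
    rw [h3, coe_evalO, hP, map_mul, aeval_C]
    field_simp
  rw [h1]
  exact G.O.mul_mem _ _ (SetLike.coe_mem _) (SetLike.coe_mem _)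

/-- the contraction of `δ⁻¹ • G.O` to `L(x)` is that of `G.O` -/
theorem comap_inv_smul_of_apply_mem (x : G.O) (hx : Transcendental k (G.red x))
    (δ : FL ≃ₐ[L] FL) (hδx : δ (x : FL) ∈ G.O)
    (hy : Transcendental k (G.red ⟨δ (x : FL), hδx⟩)) :
    (δ⁻¹ • G.O).comap (algebraMap L⟮(x : FL)⟯ FL) = G.O.comap (algebraMap L⟮(x : FL)⟯ FL) := by
  ext c
  rw [ValuationSubring.mem_comap, ValuationSubring.mem_comap,
    ValuationSubring.mem_pointwise_smul_iff_inv_smul_mem, inv_inv, AlgEquiv.smul_def]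
  obtain ⟨p, q, hpq⟩ := (mem_adjoin_simple_iff L (c : FL)).1 c.2
  have hc : algebraMap L⟮(x : FL)⟯ FL c = aeval (x : FL) p / aeval (x : FL) q := hpq
  have hδc : δ (algebraMap L⟮(x : FL)⟯ FL c) =
      aeval (δ (x : FL)) p / aeval (δ (x : FL)) q := by
    rw [hc, map_div₀, ← AlgEquiv.coe_toAlgHom, ← aeval_algHom_apply, ← aeval_algHom_apply]
  rw [hδc, hc]
  constructor
  · intro h
    exact aeval_div_mem G ⟨δ (x : FL), hδx⟩ x hy hx p q h
  · intro h
    exact aeval_div_mem G x ⟨δ (x : FL), hδx⟩ hx hy p q h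

/-- **an automorphism moving the variable inside the Gauss ring, with transcendental reduction,
preserves the Gauss ring** (the uniqueness basis `(t, hcard, ht)` at `x` as in `Unique1`). -/
theorem smul_eq_of_apply_mem (x : G.O) (hx : Transcendental k (G.red x))
    [FiniteDimensional L⟮(x : FL)⟯ FL] {ι : Type*} [Fintype ι] (t : ι → G.O)
    (hcard : Fintype.card ι = Module.finrank L⟮(x : FL)⟯ FL)
    (ht : LinearIndependent k⟮G.red x⟯ (fun i => G.red (t i)))
    (δ : FL ≃ₐ[L] FL) (hδx : δ (x : FL) ∈ G.O)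
    (hy : Transcendental k (G.red ⟨δ (x : FL), hδx⟩)) : δ • G.O = G.O := by
  have h1 : δ⁻¹ • G.O = G.O :=
    Unique1.eq_of_basis G x hx t hcard ht _ (comap_inv_smul_of_apply_mem G x hx δ hδx hy)
  conv_lhs => rw [← h1]
  rw [smul_inv_smul]

end Gen

/-! ### The Fricke involution `w_N` of `ℚ̄(X₁(N))` -/

section WN

open AlgebraicCurve ModularCurve IntermediateField
open Fermat.Agent.S48.B.Defs.Model
open Fermat.Agent.S48.B.B1.Seams (jgen1)
open Fermat.Agent.S43.LG1.Fricke.Seam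

local notation "Kb" => AlgebraicClosure ℚ

theorem F1Bar_congr {M M' : ℕ} [NeZero M] [NeZero M'] (h : M = M') : F1Bar M = F1Bar M' := by
  subst h
  rfl

theorem qExpand_congr {R : Type*} [CommRing R] {M M' : ℕ} [NeZero M] [NeZero M'] (h : M = M')
    (x : LaurentSeries R) : qExpand R M x = qExpand R M' x := by
  subst h
  rfl

variable (N : ℕ) [NeZero N]

def jN : F1Bar N :=
  ⟨coeffEmb Kb (qExpand ℚ N jq), coeffEmb_mem_laurentBaseChange Kb (jqd_mem_F1 N (dvd_refl N))⟩

theorem coe_jN : ((jN N : F1Bar N) : LaurentSeries Kb) = coeffEmb Kb (qExpand ℚ N jq) := rfl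

theorem coe_jgen1 : ((jgen1 N : F1Bar N) : LaurentSeries Kb) = coeffEmb Kb jq :=
  Fermat.Agent.S24.DegreeAlg.coe_jgen N


theorem coe_equivOfEq_symm {F E : Type*} [Field F] [Field E] [Algebra F E]
    {S T : IntermediateField F E} (h : S = T) (a : T) :
    (((IntermediateField.equivOfEq h).symm a : S) : E) = (a : E) := rfl

theorem exists_wN :
    ∃ w : F1Bar N ≃ₐ[Kb] F1Bar N, w (jgen1 N) = jN N ∧ w (jN N) = jgen1 N := by
  have : NeZero (1 * N) := ⟨by rw [one_mul]; exact NeZero.ne N⟩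
  obtain ⟨w, hswap, -, -⟩ := Fermat.Agent.S43.LG1.Wr.Main.hasFricke 1 N (Nat.coprime_one_left N)
  have hE : F1Bar (1 * N) = F1Bar N := F1Bar_congr (one_mul N)
  have hy : (((IntermediateField.equivOfEq hE).symm (jN N) : F1Bar (1 * N)) : LaurentSeries Kb) =
      coeffEmb Kb (qExpand ℚ (1 * N) jq) := by
    rw [coe_equivOfEq_symm hE, coe_jN, qExpand_congr (one_mul N)]
  have hy' : (((IntermediateField.equivOfEq hE).symm (jgen1 N) : F1Bar (1 * N)) :
      LaurentSeries Kb) = coeffEmb Kb (qExpand ℚ 1 jq) := by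
    rw [coe_equivOfEq_symm hE, coe_jgen1, qExpand_one_apply]
  obtain ⟨h1, h2⟩ := hswap _ _ hy hy'
  refine ⟨((IntermediateField.equivOfEq hE).symm.trans w).trans (IntermediateField.equivOfEq hE),
    ?_, ?_⟩
  · rw [AlgEquiv.trans_apply, AlgEquiv.trans_apply, h2, AlgEquiv.apply_symm_apply]
  · rw [AlgEquiv.trans_apply, AlgEquiv.trans_apply, h1, AlgEquiv.apply_symm_apply]


def wN : F1Bar N ≃ₐ[Kb] F1Bar N := (exists_wN N).choose

theorem wN_jgen1 : wN N (jgen1 N) = jN N := (exists_wN N).choose_spec.1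

theorem wN_jN : wN N (jN N) = jgen1 N := (exists_wN N).choose_spec.2

section Red

open IsLocalRing Polynomial
open scoped Pointwise
open Fermat.Agent.S37.Deuring.Core
open Fermat.Agent.S48.B.Red.GaussG Fermat.Agent.S48.B.Red.Gauss1
open Fermat.Agent.S48.B.Red.Seams (jC IgusaDeg)
open Fermat.Agent.S48.B.Red.Bases1


set_option synthInstance.maxHeartbeats 400000

variable {N}
variable {r : ℕ} {A : ValuationSubring Kb}

theorem coeffMap_intCast_jN_mem :
    coeffMap (Int.castRingHom ℚ) (qExpand ℤ N (jqModC ℤ)) ∈ F1 N := by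
  rw [ModularCurve.coeffMap_qExpand, coeffMap_jqModC, jqModC_rat]
  exact jqd_mem_F1 N (dvd_refl N)

variable (N) (A)

/-- `j(q^N)` as an integral element -/
def jNI : ↥(intRing A (residue ↥A) (F1 N) (F1C N (ResidueField ↥A))) :=
  intLift A (residue ↥A) N (qExpand ℤ N (jqModC ℤ)) coeffMap_intCast_jN_mem

theorem toFL_jNI :
    toFL A (residue ↥A) (F1 N) (F1C N (ResidueField ↥A)) (jNI N A) = jN N := by
  apply Subtype.ext
  rw [jNI, coe_toFL_intLift, ModularCurve.coeffMap_qExpand, coeffMap_jqModC, jqModC_rat, coe_jN]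

/-- **`j̄(q^N)` as an element of `κ(X₁(N))`** -/
def jS : ↥(F1C N (ResidueField ↥A)) :=
  red A (residue ↥A) (F1 N) (F1C N (ResidueField ↥A)) (jNI N A)

theorem coe_jS : ((jS N A : ↥(F1C N (ResidueField ↥A))) : LaurentSeries (ResidueField ↥A)) =
    qExpand (ResidueField ↥A) N (jqModC (ResidueField ↥A)) := by
  rw [jS, jNI, coe_red_intLift, ModularCurve.coeffMap_qExpand, coeffMap_jqModC]


variable {N} {A}
variable (h : IgusaDeg N) (hr : r.Prime) (hrN : ¬ r ∣ N) (hA : A.LiesOverPrime r)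

theorem jN_mem_O : jN N ∈ (gaussDatumIgusa h hr hrN hA).O := by
  rw [← toFL_jNI N A]
  exact toFL_mem_OwV (hasRep_of_igusa h hr hrN hA) _

/-- **the reduction of `j(q^N)` is `j̄(q^N)`** -/
theorem red_jN :
    (gaussDatumIgusa h hr hrN hA).red ⟨jN N, jN_mem_O h hr hrN hA⟩ = jS N A := by
  have h1 : (⟨jN N, jN_mem_O h hr hrN hA⟩ : ↥(gaussDatumIgusa h hr hrN hA).O) =
      ⟨toFL A (residue ↥A) (F1 N) (F1C N (ResidueField ↥A)) (jNI N A),
        toFL_mem_OwV (hasRep_of_igusa h hr hrN hA) _⟩ :=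
    Subtype.ext (toFL_jNI N A).symm
  rw [h1]
  exact redV_toFL (hasRep_of_igusa h hr hrN hA) _

variable (N) (A) in
/-- `j̄(q^N)` is transcendental over `κ` -/
theorem transcendental_jS : Transcendental (ResidueField ↥A) (jS N A) := by
  rw [transcendental_iff]
  intro p hp
  apply transcendental_iff.mp
    (Fermat.Agent.S28.ThetaAdjoin.transcendental_jqModC (ResidueField ↥A)) p
  have h1 := congrArg (F1C N (ResidueField ↥A)).val hp
  rw [← Polynomial.aeval_algHom_apply, map_zero] at h1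
  have h2 : (F1C N (ResidueField ↥A)).val (jS N A) =
      qExpand (ResidueField ↥A) N (jqModC (ResidueField ↥A)) := coe_jS N A
  rw [h2] at h1
  have hcomp : (qExpand (ResidueField ↥A) N).comp
      (algebraMap (ResidueField ↥A) (LaurentSeries (ResidueField ↥A))) =
      algebraMap (ResidueField ↥A) (LaurentSeries (ResidueField ↥A)) := by
    refine RingHom.ext fun c => ?_
    rw [RingHom.comp_apply, LaurentSeries.algebraMap_apply]
    exact qExpand_C N c
  apply qExpand_injective (R := ResidueField ↥A) N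
  rw [map_zero, ← h1, aeval_def, aeval_def, Polynomial.hom_eval₂, hcomp]


/-- **`w_N` preserves the Gauss ring of `ℚ̄(X₁(N))` at `A ∣ r`, `r ∤ N`** -/
theorem wN_smul_O :
    wN N • (gaussDatumIgusa h hr hrN hA).O = (gaussDatumIgusa h hr hrN hA).O := by
  obtain ⟨n, u, bL, bk, -, hbk⟩ := exists_basis_O_igusa h hr hrN hA
  have : FiniteDimensional Kb⟮jgen1 N⟯ (F1Bar N) := (Fermat.Agent.S48.B.B1.Main.deg1 N).1.finite
  have hx : Transcendental (ResidueField ↥A)
      ((gaussDatumIgusa h hr hrN hA).red ⟨jgen1 N, jgen1_mem_O_igusa h hr hrN hA⟩) := by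
    rw [red_jgen1_igusa h hr hrN hA]
    exact Fermat.Agent.S48.B.Inj.Basics.transcendental_jC
      (Fermat.Agent.S48.B.Red.Seams.jqModC_mem_F1C N (ResidueField ↥A))
  have ht : LinearIndependent
      (ResidueField ↥A)⟮(gaussDatumIgusa h hr hrN hA).red
        ⟨jgen1 N, jgen1_mem_O_igusa h hr hrN hA⟩⟯
      (fun i => (gaussDatumIgusa h hr hrN hA).red (u i)) := by
    rw [red_jgen1_igusa h hr hrN hA]
    have h2 : (fun i => (gaussDatumIgusa h hr hrN hA).red (u i)) = ⇑bk :=
      funext fun i => (hbk i).symm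
    rw [h2]
    exact bk.linearIndependent
  have hδx : wN N (jgen1 N) ∈ (gaussDatumIgusa h hr hrN hA).O := by
    rw [wN_jgen1]
    exact jN_mem_O h hr hrN hA
  refine smul_eq_of_apply_mem (gaussDatumIgusa h hr hrN hA)
    ⟨jgen1 N, jgen1_mem_O_igusa h hr hrN hA⟩ hx u ?_ ht (wN N) hδx ?_
  · rw [Module.finrank_eq_card_basis bL]
  · have h3 : (⟨wN N (jgen1 N), hδx⟩ : ↥(gaussDatumIgusa h hr hrN hA).O) =
        ⟨jN N, jN_mem_O h hr hrN hA⟩ := Subtype.ext (wN_jgen1 N)
    rw [h3, red_jN h hr hrN hA]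
    exact transcendental_jS N A

/-- **the reduction `w̄_N` of the Fricke involution**, an automorphism of `κ(X₁(N))` over `κ` -/
def wbar : ↥(F1C N (ResidueField ↥A)) ≃ₐ[ResidueField ↥A] ↥(F1C N (ResidueField ↥A)) :=
  Fermat.Agent.S48.B.Red.Unique1.redAut (red_surjective_igusa h hr hrN hA) (wN N)
    (wN_smul_O h hr hrN hA)

/-- `red (w_N x) = w̄_N (red x)` -/
theorem wbar_red (x : ↥(gaussDatumIgusa h hr hrN hA).O) :
    wbar h hr hrN hA ((gaussDatumIgusa h hr hrN hA).red x) =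
      (gaussDatumIgusa h hr hrN hA).red
        (Fermat.Agent.S48.B.Red.Unique1.mapO (wN N) (wN_smul_O h hr hrN hA) x) :=
  Fermat.Agent.S48.B.Red.Unique1.redAut_red (red_surjective_igusa h hr hrN hA) (wN N)
    (wN_smul_O h hr hrN hA) x

/-- **`w̄_N (j̄) = j̄(q^N)`** -/
theorem wbar_jC : wbar h hr hrN hA (jC N (ResidueField ↥A)) = jS N A := by
  rw [← red_jgen1_igusa h hr hrN hA, wbar_red]
  have h3 : Fermat.Agent.S48.B.Red.Unique1.mapO (wN N) (wN_smul_O h hr hrN hA)
      ⟨jgen1 N, jgen1_mem_O_igusa h hr hrN hA⟩ = ⟨jN N, jN_mem_O h hr hrN hA⟩ :=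
    Subtype.ext (wN_jgen1 N)
  rw [h3, red_jN h hr hrN hA]

/-! ### `6 ∣ ε` for `j̄(q^N)` -/

open AlgebraicCurve Fermat.Agent.S18.NonSpecial

attribute [local instance] Fermat.Agent.S43.LG1.C1.LevelMSurjX1.algKappa

variable {gL gk : ℕ}
variable [HasPrincipalDivisors Kb ↥(F1Bar N)]
variable [HasPrincipalDivisors (ResidueField ↥A) ↥(F1C N (ResidueField ↥A))]
variable (H : Hyp (gaussDatumIgusa h hr hrN hA) gL gk)

include H in
/-- **`6 ∣ ε` for `j̄(q^N)` on `κ(X₁(N))`, `N ≥ 4`, `r ∤ N`** (constants through `algebraMap`) -/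
theorem six_dvd_eps_jS' (hN : 4 ≤ N)
    (b : Place (ResidueField ↥A) ↥(F1C N (ResidueField ↥A)))
    (hb : 0 ≤ b.ord (jS N A)) :
    (6 : ℤ) ∣ 2 * b.ord (jS N A) +
      3 * b.ord (jS N A - algebraMap (ResidueField ↥A) _ 1728) := by
  have key := Fermat.Agent.S43.LG1.Ig.Ell.six_dvd_eps_map_jC h hr hrN hA H hN
    (wbar h hr hrN hA) b (by rw [wbar_jC]; exact hb)
  rwa [wbar_jC] at key

include H in
/-- **`h6` IN THE LITERAL OF `Ig/NodeOrd.isCoprime_ord_theta0`**: at every place `b` of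
`κ(X₁(N))` which is not a pole of `j̄(q^N)`. -/
theorem six_dvd_eps_jS (hN : 4 ≤ N)
    (b : Place (ResidueField ↥A) ↥(F1C N (ResidueField ↥A)))
    (hb : 0 ≤ b.ord (jS N A)) :
    (6 : ℤ) ∣ 2 * b.ord (jS N A) + 3 * b.ord (jS N A - 1728) := by
  have key := six_dvd_eps_jS' h hr hrN hA H hN b hb
  rwa [map_ofNat] at key

include H in
/-- the same for ANY element of `κ(X₁(N))` with the expansion `j̄(q^N)` -/
theorem six_dvd_eps_of_coe (hN : 4 ≤ N)
    (jS' : ↥(F1C N (ResidueField ↥A)))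
    (hj : ((jS' : ↥(F1C N (ResidueField ↥A))) : LaurentSeries (ResidueField ↥A)) =
      qExpand (ResidueField ↥A) N (jqModC (ResidueField ↥A)))
    (b : Place (ResidueField ↥A) ↥(F1C N (ResidueField ↥A)))
    (hb : 0 ≤ b.ord jS') :
    (6 : ℤ) ∣ 2 * b.ord jS' + 3 * b.ord (jS' - 1728) := by
  have h1 : jS' = jS N A := Subtype.ext (hj.trans (coe_jS N A).symm)
  subst h1
  exact six_dvd_eps_jS h hr hrN hA H hN b hb

end Red

end WN

end Fermat.Agent.S43.LG1.Ig.EllPlug

end
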