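import Mathlib
import Fermat.Agent.S43.LG1.Ig.EllPlug
import Fermat.Agent.S28.IntegralChain
import Fermat.Agent.S28.ModPolyPrime
import Fermat.Agent.S19.MovingLemma

/-!
# PROJECT R (row 37 by S43), gate G2* / LG1Hyp, node IG, brick IG-E, THE SIDE CONDITION (helper15)

`Ig/EllPlug.six_dvd_eps_of_coe` gives `h6` at the places `b` of `κ(X₁(N))` with `0 ≤ b.ord jS`,
`jS = j̄(q^N)`.  The consumers know their places OFF THE POLES OF `j̄(q)` (`b ∉ P0`).  Here:

**the poles of `j̄(q^N)` are among the poles of `j̄(q)`**, in every characteristic: `j(q^N)` is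
integral over `ℤ[j(q)]` inside `ℤ((q))` (main's prime chain `S28/IntegralChain` + the prime-level
modular equation `S28/ModPolyPrime`), the relation reduces coefficientwise, and valuation rings are
integrally closed.

* `isIntegral_jN_int`, `exists_rel_jN`, `rel_jS` ;
* `isIntegral_of_rel_mem` (generic: a monic integer relation `Φ(x, y) = 0`, `y` in a valuation ring
  `V`, gives `x ∈ V`) ;
* **`ord_jS_nonneg : 0 ≤ b.ord (jC N κ) → 0 ≤ b.ord (jS N A)`**, `ord_nonneg_of_coe` ;
* **`six_dvd_eps_of_ord_jC`** : `h6` in the literal of `Ig/NodeOrd` at every place which is not a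
  pole of `j̄(q)`.
-/

set_option autoImplicit false
set_option linter.unusedSectionVars false

noncomputable section

namespace Fermat.Agent.S43.LG1.Ig.EllCusp

open ModularCurve Fermat.Agent.S28.IntegralChain

/-! ### The modular relation -/

/-- **`j(q^N)` is integral over `ℤ[j(q)]`** inside `ℤ((q))` -/
theorem isIntegral_jN_int (N : ℕ) [NeZero N] :
    IsIntegral (Subring.closure ({jqModC ℤ} : Set (LaurentSeries ℤ)))
      (qExpand ℤ N (jqModC ℤ)) :=
  isIntegral_qExpand_int (fun p hp _ => HasIntRel.of_aeval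
    (Fermat.Agent.S28.ModPolyPrime.exists_monic_eval₂_eq_zero p hp)) N

/-- the monic integer relation between `j(q^N)` and `j(q)`, over any commutative ring -/
theorem exists_rel_jN (N : ℕ) [NeZero N] :
    ∃ Φ : Polynomial (Polynomial ℤ), Φ.Monic ∧ ∀ (R : Type) [CommRing R],
      Rel Φ (qExpand R N (jqModC R)) (jqModC R) := by
  obtain ⟨Φ, hm, hΦ⟩ := exists_rel_of_isIntegral (isIntegral_jN_int N)
  refine ⟨Φ, hm, fun R _ => ?_⟩
  have h1 := hΦ.map (coeffMap (Int.castRingHom R))
  rwa [ModularCurve.coeffMap_qExpand, coeffMap_jqModC] at h1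

/-! ### Valuation rings -/

/-- a monic integer relation `Φ(x, y) = 0` with `y` in a valuation ring `V` puts `x` in `V` -/
theorem mem_of_rel {F : Type*} [Field F] (V : ValuationSubring F)
    {Φ : Polynomial (Polynomial ℤ)} (hΦ : Φ.Monic) {x y : F} (h : Rel Φ x y) (hy : y ∈ V) :
    x ∈ V := by
  have hint : IsIntegral (Subring.closure ({y} : Set F)) x := isIntegral_of_rel hΦ h
  have hle : Subring.closure ({y} : Set F) ≤ V.toSubring := by
    rw [Subring.closure_le]
    intro z hz
    rw [Set.mem_singleton_iff] at hz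
    rw [hz]
    exact hy
  -- integrality over the larger subring `V`
  obtain ⟨P, hP, hPx⟩ := hint
  have hintV : IsIntegral V.toSubring x := by
    refine ⟨P.map (Subring.inclusion hle), hP.map _, ?_⟩
    rw [Polynomial.eval₂_map]
    exact hPx
  have hic : IsIntegrallyClosed V := inferInstance
  have hx : IsIntegral V x := hintV
  obtain ⟨z, hz⟩ := (IsIntegrallyClosed.isIntegral_iff (R := V) (K := F)).mp hx
  rw [← hz]
  exact z.2

/-! ### The poles of `j̄(q^N)` -/

section X1

open AlgebraicCurve IsLocalRing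
open Fermat.Agent.S48.B.Defs.Model
open Fermat.Agent.S48.B.Red.Seams (jC IgusaDeg)
open Fermat.Agent.S48.B.Red.Bases1
open Fermat.Agent.S37.Deuring.Core
open Fermat.Agent.S43.LG1.Ig.EllPlug

local notation "Kb" => AlgebraicClosure ℚ

set_option synthInstance.maxHeartbeats 400000

attribute [local instance] Fermat.Agent.S43.LG1.C1.LevelMSurjX1.algKappa

variable {N : ℕ} [NeZero N] {k : Type} [Field k]

/-- the relation inside `κ(X₁(N))` -/
theorem rel_of_coe {Φ : Polynomial (Polynomial ℤ)}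
    (hΦ : Rel Φ (qExpand k N (jqModC k)) (jqModC k)) (jS' : ↥(F1C N k))
    (hj : ((jS' : ↥(F1C N k)) : LaurentSeries k) = qExpand k N (jqModC k)) :
    Rel Φ jS' (jC N k) := by
  refine Rel.of_map ((F1C N k).val : ↥(F1C N k) →+* LaurentSeries k)
    (F1C N k).val.injective ?_
  have h1 : ((F1C N k).val : ↥(F1C N k) →+* LaurentSeries k) jS' = qExpand k N (jqModC k) := hj
  have h2 : ((F1C N k).val : ↥(F1C N k) →+* LaurentSeries k) (jC N k) = jqModC k := rfl
  rw [h1, h2]
  exact hΦ

/-- **the poles of any element with the expansion `j̄(q^N)` are among the poles of `j̄(q)`**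
(any field `k`) -/
theorem ord_nonneg_of_coe (jS' : ↥(F1C N k))
    (hj : ((jS' : ↥(F1C N k)) : LaurentSeries k) = qExpand k N (jqModC k))
    (b : Place k ↥(F1C N k)) (hb : 0 ≤ b.ord (jC N k)) : 0 ≤ b.ord jS' := by
  obtain ⟨Φ, hm, hΦ⟩ := exists_rel_jN N
  have hrel := rel_of_coe (hΦ k) jS' hj
  by_cases h0 : jS' = 0
  · rw [h0, Place.ord_zero]
  have hjC0 : jC N k ≠ 0 := by
    intro h
    have h1 : jqModC k = 0 := congrArg (fun x : ↥(F1C N k) => (x : LaurentSeries k)) h
    apply Fermat.Agent.S28.ThetaAdjoin.transcendental_jqModC k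
    rw [h1]
    exact isAlgebraic_zero
  have hy : jC N k ∈ b.toValuationSubring :=
    (Fermat.Agent.S19.MovingLemma.mem_iff_ord_nonneg b hjC0).mpr hb
  exact (Fermat.Agent.S19.MovingLemma.mem_iff_ord_nonneg b h0).mp
    (mem_of_rel b.toValuationSubring hm hrel hy)

/-! ### `h6` off the poles of `j̄(q)` -/

variable {r : ℕ} {A : ValuationSubring Kb}
variable (h : IgusaDeg N) (hr : r.Prime) (hrN : ¬ r ∣ N) (hA : A.LiesOverPrime r)
variable {gL gk : ℕ}
variable [HasPrincipalDivisors Kb ↥(F1Bar N)]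
variable [HasPrincipalDivisors (ResidueField ↥A) ↥(F1C N (ResidueField ↥A))]
variable (H : Hyp (gaussDatumIgusa h hr hrN hA) gL gk)

/-- `j̄(q^N)` has no pole off the poles of `j̄(q)` -/
theorem ord_jS_nonneg (b : Place (ResidueField ↥A) ↥(F1C N (ResidueField ↥A)))
    (hb : 0 ≤ b.ord (jC N (ResidueField ↥A))) : 0 ≤ b.ord (jS N A) :=
  ord_nonneg_of_coe (jS N A) (coe_jS N A) b hb

include H in
/-- **`h6` IN THE LITERAL OF `Ig/NodeOrd` / `Ig/NodeT`, AT EVERY PLACE WHICH IS NOT A POLE OF
`j̄(q)`** (`N ≥ 4`, `r ∤ N`): for any `jS'` with the expansion `j̄(q^N)`. -/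
theorem six_dvd_eps_of_ord_jC (hN : 4 ≤ N) (jS' : ↥(F1C N (ResidueField ↥A)))
    (hj : ((jS' : ↥(F1C N (ResidueField ↥A))) : LaurentSeries (ResidueField ↥A)) =
      qExpand (ResidueField ↥A) N (jqModC (ResidueField ↥A)))
    (b : Place (ResidueField ↥A) ↥(F1C N (ResidueField ↥A)))
    (hb : 0 ≤ b.ord (jC N (ResidueField ↥A))) :
    (6 : ℤ) ∣ 2 * b.ord jS' + 3 * b.ord (jS' - 1728) :=
  six_dvd_eps_of_coe h hr hrN hA H hN jS' hj b (ord_nonneg_of_coe jS' hj b hb)

end X1

end Fermat.Agent.S43.LG1.Ig.EllCusp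

end
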