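import Mathlib
import Fermat.Prelude.Def_AlgebraicCurve_DivisorClassGroup
import Fermat.Prelude.Def_AlgebraicCurve_DivisorPushPull
import Fermat.Agent.S37.Hecke.Tower

/-!
# PROJECT R (row 37 by S43), gate G2* / LG1Hyp, node IG, brick IG-S (helper17)

**A free Galois action on a fibre means that the fibre is unramified.**  `F' / F` a finite Galois
extension of function fields over an algebraically closed field `K` of characteristic zero, `w` a
place of `F'`.  If no nontrivial element of `Gal(F'/F)` fixes `w`, then `e(w | F) = 1` (and the same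
for every place with the same restriction).

Proof: `σ ↦ σ • w` is an injection of `Gal(F'/F)` into the fibre of `w ∩ F`, so the fibre has at
least `[F' : F]` points, while `∑_{w'} e(w' | F) = [F' : F]` (main's `S37/Hecke/Tower.sum_fiber`).
No transitivity is needed.

* `restrict_smul` : the Galois group preserves the fibres;
* `card_le_card_fiber_of_free` : `[F' : F] ≤ #fibre`;
* `ramificationIndex_eq_one_of_card` : a fibre with `[F' : F]` points is unramified;
* **`ramificationIndex_eq_one_of_free`**;
* `dvd_ord_of_unram` : for `θ : F` and `Z : F'` with `Z ^ m = θ`, an unramified place `w` gives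
  `m ∣ ord_{w ∩ F} θ`.
-/

set_option autoImplicit false
set_option linter.unusedSectionVars false

noncomputable section

namespace Fermat.Agent.S43.LG1.Ig.GaloisUnram

open AlgebraicCurve Fermat.Agent.S24.FF

universe u u' w

variable {K : Type w} {F : Type u} {F' : Type u'} [Field K] [Field F] [Field F']
  [Algebra K F] [Algebra K F'] [Algebra F F'] [IsScalarTower K F F']

/-- an `F`-automorphism of `F'` as a `K`-automorphism -/
abbrev toK (σ : F' ≃ₐ[F] F') : F' ≃ₐ[K] F' := σ.restrictScalars K

theorem toK_apply (σ : F' ≃ₐ[F] F') (x : F') : toK (K := K) σ x = σ x := rfl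

theorem toK_mul (σ τ : F' ≃ₐ[F] F') : toK (K := K) (σ * τ) = toK σ * toK τ := rfl

theorem toK_one : toK (K := K) (1 : F' ≃ₐ[F] F') = 1 := rfl

theorem toK_inv_apply (σ : F' ≃ₐ[F] F') (x : F') : (toK (K := K) σ)⁻¹ x = σ.symm x := rfl

/-- the Galois group preserves the fibres of `F' / F` -/
theorem restrict_smul [Algebra.IsIntegral F F'] (σ : F' ≃ₐ[F] F') (w : Place K F') :
    (toK (K := K) σ • w).restrict F = w.restrict F := by
  apply Place.ext
  ext f
  rw [Place.restrict_toValuationSubring, Place.restrict_toValuationSubring,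
    ValuationSubring.mem_comap, ValuationSubring.mem_comap, Place.smul_toValuationSubring,
    ValuationSubring.mem_pointwise_smul_iff_inv_smul_mem, AlgEquiv.smul_def, toK_inv_apply,
    AlgEquiv.commutes]

variable [IsAlgClosed K] [CharZero K] [FiniteDimensional F F'] [HasPrincipalDivisors K F']

/-- **a free orbit fills the fibre**: `[F' : F] ≤ #fibre` -/
theorem card_le_card_fiber_of_free [IsGalois F F'] (w : Place K F')
    (hfree : ∀ σ : F' ≃ₐ[F] F', toK (K := K) σ • w = w → σ = 1) :
    Module.finrank F F' ≤ ((w.restrict F).fiber F').card := by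
  classical
  rw [← IsGalois.card_aut_eq_finrank F F', Nat.card_eq_fintype_card, ← Finset.card_univ]
  refine Finset.card_le_card_of_injOn (fun σ : F' ≃ₐ[F] F' => toK (K := K) σ • w) ?_ ?_
  · intro σ _
    exact Place.mem_fiber.mpr (restrict_smul σ w)
  · intro σ _ τ _ h
    replace h : toK (K := K) σ • w = toK (K := K) τ • w := h
    have h1 : toK (K := K) (τ⁻¹ * σ) • w = w := by
      rw [toK_mul, mul_smul]
      change toK (K := K) τ⁻¹ • (toK (K := K) σ • w) = w
      rw [h, ← mul_smul, ← toK_mul, inv_mul_cancel, toK_one, one_smul]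
    have h2 := hfree _ h1
    exact (inv_mul_eq_one.mp h2).symm

/-- **a full fibre is unramified** -/
theorem ramificationIndex_eq_one_of_card {x : F} (hx : IsFF K x) {x' : F'} (hx' : IsFF K x')
    (v : Place K F) (hcard : Module.finrank F F' ≤ (v.fiber F').card) (w : Place K F')
    (hw : w.restrict F = v) : w.ramificationIndex F = 1 := by
  classical
  have hsum := Fermat.Agent.S37.Hecke.Tower.sum_fiber hx hx' v
  have hmem : w ∈ v.fiber F' := Place.mem_fiber.mpr hw
  by_contra hne
  have hpos := w.ramificationIndex_pos (F := F)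
  have h2 : 2 ≤ w.ramificationIndex F := by omega
  have h1 : ((v.fiber F').card : ℤ) + 1 ≤ ∑ w' ∈ v.fiber F', (w'.ramificationIndex F : ℤ) := by
    rw [← Finset.add_sum_erase _ _ hmem, Finset.card_eq_sum_ones, Nat.cast_sum,
      ← Finset.add_sum_erase _ _ hmem]
    have h3 : ∑ w' ∈ (v.fiber F').erase w, ((1 : ℕ) : ℤ)
        ≤ ∑ w' ∈ (v.fiber F').erase w, (w'.ramificationIndex F : ℤ) := by
      refine Finset.sum_le_sum fun w' _ => ?_
      have := w'.ramificationIndex_pos (F := F)
      simp only [Nat.cast_one]
      omega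
    have h4 : (2 : ℤ) ≤ (w.ramificationIndex F : ℤ) := by exact_mod_cast h2
    simp only [Nat.cast_one] at h3 ⊢
    linarith
  rw [hsum] at h1
  have : (Module.finrank F F' : ℤ) ≤ ((v.fiber F').card : ℤ) := by exact_mod_cast hcard
  omega

/-- **A free Galois action on a fibre means that the fibre is unramified.** -/
theorem ramificationIndex_eq_one_of_free [IsGalois F F'] {x : F} (hx : IsFF K x) {x' : F'}
    (hx' : IsFF K x') (w : Place K F')
    (hfree : ∀ σ : F' ≃ₐ[F] F', toK (K := K) σ • w = w → σ = 1) :
    w.ramificationIndex F = 1 :=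
  ramificationIndex_eq_one_of_card hx hx' (w.restrict F) (card_le_card_fiber_of_free w hfree) w rfl

omit [IsAlgClosed K] [CharZero K] [FiniteDimensional F F'] [HasPrincipalDivisors K F'] in
/-- at an unramified place, the order of an `m`-th power downstairs is divisible by `m` -/
theorem dvd_ord_of_unram [Algebra.IsIntegral F F'] (w : Place K F')
    (he : w.ramificationIndex F = 1) {m : ℕ} {θ : F} {Z : F'}
    (hZ : Z ^ m = algebraMap F F' θ) : (m : ℤ) ∣ (w.restrict F).ord θ := by
  have h := w.ord_restrict (F := F) θ
  rw [he, Nat.cast_one, one_mul, ← hZ, ← zpow_natCast, w.ord_zpow] at h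
  exact ⟨w.ord Z, h.symm⟩

end Fermat.Agent.S43.LG1.Ig.GaloisUnram

end
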