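/-
PROJECT R (row 37 by S43), gate G, IG assembly (M7) (helper4): **THE TWO `SpecEquiv.Compat` OF AN
INERTIA ELEMENT ON A KUMMER COVER** (the hypothesis `hT` of `LG1/H/WireC.principalPairH_of_cover`,
= the inputs `T1 T2` of helper10's `C2/Final.principal_cover`).

Generic in the cover.  `g` a semilinear automorphism of `F / L` inducing `g0` on `F0`, an INERTIA
element for `(A, π)` (`hA`, `hpi`), `V` the first Gauss ring with `g V = V` and trivial residual
action (`htriv`), `w δ` automorphisms of `F / L` with `g w = w δ g`, `g δ = δ g`, `w δ = δ⁻¹ w`,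
`δ V = V`, second Gauss ring `w⁻¹ V`.

* `mem_iff_of_mem_inertia`, `residue_of_mem_inertia` : `hA`, `hpi` for `s ∈ A.inertiaSubgroupIn ℚ`
  and `π = residue A` ;
* `compat_one` : branch 1, `τ₁ = 1` ;
* `smul_mem_pull_iff` : `g` preserves `w⁻¹ V` ;
* `compat_two` : branch 2, `τ₂` = the residual action of `δ⁻¹` (hypothesis `hδred`) ;
* `red_pow` , `exists_tau_of_pow` : for a `BranchOver` with Kummer automorphism `σ` and `δ⁻¹ = σ ^ j`
  on `F`, `τ₂ := σbar ^ j` ;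
* **`exists_compat`** : the two `Compat` for a `KummerCover`.
-/
import Mathlib
import Fermat.Agent.S43.LG1.C2.SpecEquiv
import Fermat.Agent.S43.LG1.OfFricke
import Fermat.Agent.S37.Equivariance.GaussEquiv

set_option autoImplicit false
set_option linter.unusedSectionVars false

noncomputable section

namespace Fermat.Agent.S43.LG1.Ig.Inertia

open AlgebraicCurve Fermat.Agent.S34.NodalDefs
open Fermat.Agent.S43.LG1.C2.Seam Fermat.Agent.S43.LG1.C2.SpecEquiv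
open Fermat.Agent.S43.LG1.OfFricke

/-! ### `hA`, `hpi` for an inertia element -/

section Base

open Fermat.Agent.S37.Equivariance.GaussEquiv

variable {L : Type*} [Field L] [Algebra ℚ L] (A : ValuationSubring L)

theorem apply_mem_of_mem_decomposition (g : A.decompositionSubgroup ℚ) {c : L} (hc : c ∈ A) :
    (g : L ≃ₐ[ℚ] L) c ∈ A := by
  have h := (compat A g).coe ⟨c, hc⟩
  rw [← h]
  exact Subtype.coe_prop _

/-- an element of the inertia group preserves `A` -/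
theorem mem_iff_of_mem_inertia {s : L ≃ₐ[ℚ] L} (hs : s ∈ A.inertiaSubgroupIn ℚ) (c : L) :
    s c ∈ A ↔ c ∈ A := by
  obtain ⟨g, rfl, -⟩ := exists_of_mem_inertiaSubgroupIn A hs
  constructor
  · intro h
    have h1 := apply_mem_of_mem_decomposition A g⁻¹ h
    have h2 : ((g⁻¹ : A.decompositionSubgroup ℚ) : L ≃ₐ[ℚ] L) ((g : L ≃ₐ[ℚ] L) c) = c := by
      show (g : L ≃ₐ[ℚ] L)⁻¹ ((g : L ≃ₐ[ℚ] L) c) = c
      exact AlgEquiv.symm_apply_apply _ c
    rwa [h2] at h1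
  · exact apply_mem_of_mem_decomposition A g

/-- an element of the inertia group acts trivially on the residue field -/
theorem residue_of_mem_inertia {s : L ≃ₐ[ℚ] L} (hs : s ∈ A.inertiaSubgroupIn ℚ) (c : A)
    (h : s (c : L) ∈ A) :
    IsLocalRing.residue A ⟨s (c : L), h⟩ = IsLocalRing.residue A c := by
  obtain ⟨g, rfl, hg⟩ := exists_of_mem_inertiaSubgroupIn A hs
  have hc := compat A g
  have h1 : (⟨(g : L ≃ₐ[ℚ] L) (c : L), h⟩ : A)
      = MulSemiringAction.toRingEquiv (A.decompositionSubgroup ℚ) A g c :=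
    Subtype.ext (hc.coe c).symm
  rw [h1, hc.res, hg]
  rfl

end Base

/-! ### The two branches, generic -/

variable {L : Type*} [Field L] {k : Type*} [Field k] {A : ValuationSubring L} {π : A →+* k}
variable {F0 : Type*} [Field F0] [Algebra L F0] {F : Type*} [Field F] [Algebra L F]
variable [Algebra F0 F] [IsScalarTower L F0 F] [Algebra.IsIntegral F0 F]

section OneBranch

variable {κ : Type*} [Field κ] [Algebra k κ] {K : Type*} [Field K] [Algebra k K]
variable [Algebra κ K] [IsScalarTower k κ K] [Algebra.IsIntegral κ K]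
variable {R0 : SmoothRed A π F0 κ} {B : Branch A π F K} {g : SemilinearAut L F}
  {g0 : SemilinearAut L F0}

/-- two elements of the Gauss ring congruent modulo its maximal ideal have the same reduction -/
theorem red_eq_of_sub_mem_nonunits (B : Branch A π F K) (x y : B.O)
    (h : (x : F) - (y : F) ∈ B.O.nonunits) : B.red x = B.red y := by
  have h2 : ¬ IsUnit (x - y) := by
    intro hunit
    have h3 : (x - y : B.O) ∈ nonunits B.O := (B.O.coe_mem_nonunits_iff).mp h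
    exact h3 hunit
  have h4 := (B.red_eq_zero_iff (x - y)).mpr h2
  rwa [map_sub, sub_eq_zero] at h4

/-- **branch 1**: `τ₁ = 1` -/
theorem compat_one (hgg0 : ∀ x : F0, g • algebraMap F0 F x = algebraMap F0 F (g0 • x))
    (hA : ∀ c : L, SemilinearAut.baseAut g c ∈ A ↔ c ∈ A)
    (hpi : ∀ (c : A) (h : SemilinearAut.baseAut g (c : L) ∈ A),
      π ⟨SemilinearAut.baseAut g (c : L), h⟩ = π c)
    (hgO : ∀ y : F, g • y ∈ B.O ↔ y ∈ B.O)
    (htriv : ∀ y ∈ B.O, g • y - y ∈ B.O.nonunits)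
    (hr0 : ∀ P0 : Place L F0, R0.r (g0⁻¹ • P0) = R0.r P0) :
    Compat R0 B g g0 (AlgEquiv.refl : K ≃ₐ[k] K) where
  hgg0 := hgg0
  hA := hA
  hpi := hpi
  hτ _ := rfl
  hgO := hgO
  hred y h := red_eq_of_sub_mem_nonunits B ⟨g • (y : F), h⟩ y (htriv y y.2)
  hr0 := hr0

variable (w δ : F ≃ₐ[L] F)
  (hgw : ∀ x : F, g • w x = w (δ (g • x)))
  (hgδ : ∀ x : F, g • δ x = δ (g • x))
  (hwδ : ∀ x : F, w (δ x) = δ.symm (w x))
  {V : ValuationSubring F}
  (htriv : ∀ x ∈ V, g • x - x ∈ V.nonunits) (hδV : ∀ x : F, δ x ∈ V ↔ x ∈ V)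
  (hgV : ∀ y : F, g • y ∈ V ↔ y ∈ V)

include hgw hgδ hwδ hδV hgV in
/-- `g` preserves the second Gauss ring `w⁻¹ V` -/
theorem smul_mem_pull_iff (y : F) : g • y ∈ pull V w ↔ y ∈ pull V w := by
  rw [mem_pull, mem_pull, w_smul g w δ hgw hgδ, hgV, w_symm w δ hwδ, hδV]

include hgw hgδ hwδ htriv hδV hgV in
/-- **branch 2**: `τ₂` = the residual action of `δ⁻¹` -/
theorem compat_two (hO : B.O = pull V w)
    (hgg0 : ∀ x : F0, g • algebraMap F0 F x = algebraMap F0 F (g0 • x))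
    (hA : ∀ c : L, SemilinearAut.baseAut g c ∈ A ↔ c ∈ A)
    (hpi : ∀ (c : A) (h : SemilinearAut.baseAut g (c : L) ∈ A),
      π ⟨SemilinearAut.baseAut g (c : L), h⟩ = π c)
    (τ : K ≃ₐ[k] K) (hτ : ∀ c : κ, τ (algebraMap κ K c) = algebraMap κ K c)
    (hδred : ∀ (y : B.O) (h : δ.symm (y : F) ∈ B.O), B.red ⟨δ.symm (y : F), h⟩ = τ (B.red y))
    (hr0 : ∀ P0 : Place L F0, R0.r (g0⁻¹ • P0) = R0.r P0) :
    Compat R0 B g g0 τ where
  hgg0 := hgg0
  hA := hA
  hpi := hpi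
  hτ := hτ
  hgO y := by
    have hmem : ∀ x : F, x ∈ B.O ↔ x ∈ pull V w := fun x => by rw [hO]
    rw [hmem, hmem]
    exact smul_mem_pull_iff w δ hgw hgδ hwδ hδV hgV y
  hred y h := by
    have hmem : ∀ x : F, x ∈ B.O ↔ x ∈ pull V w := fun x => by rw [hO]
    have hnon : ∀ x : F, x ∈ (pull V w).nonunits → x ∈ B.O.nonunits := fun x hx => by
      rw [hO]
      exact hx
    have hy : (y : F) ∈ pull V w := (hmem _).mp y.2
    have h1 := htw_pull g w δ hgw hgδ hwδ htriv hδV (y : F) hy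
    rw [SemilinearAut.ofAlgAut_smul] at h1
    have hδy : δ.symm (y : F) ∈ B.O :=
      (hmem _).mpr ((symm_mem_pull_iff w δ hwδ hδV (y : F)).mpr hy)
    rw [← hδred y hδy]
    exact red_eq_of_sub_mem_nonunits B ⟨g • (y : F), h⟩ ⟨δ.symm (y : F), hδy⟩ (hnon _ h1)
  hr0 := hr0

/-! ### the residual action of a power of the Kummer automorphism -/

section Pow

variable {R0' : Branch A π F0 κ} {σ : F ≃ₐ[F0] F} (U : BranchOver (F := F) R0' σ K)

theorem pow_succ_apply (j : ℕ) (h : F) : (σ ^ (j + 1)) h = σ ((σ ^ j) h) := by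
  rw [pow_succ', AlgEquiv.mul_apply]

/-- the powers of `σ` preserve the Gauss ring -/
theorem pow_mem_iff (j : ℕ) (h : F) : (σ ^ j) h ∈ U.B.O ↔ h ∈ U.B.O := by
  induction j with
  | zero => rw [pow_zero, AlgEquiv.one_apply]
  | succ j ih => rw [pow_succ_apply, U.σ_mem, ih]

/-- the reduction of a power of `σ` is the power of `σbar` -/
theorem red_pow (j : ℕ) (h : U.B.O) (hm : (σ ^ j) (h : F) ∈ U.B.O) :
    U.B.red ⟨(σ ^ j) (h : F), hm⟩ = (U.σbar ^ j) (U.B.red h) := by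
  induction j with
  | zero =>
    have e0 : (σ ^ 0) (h : F) = (h : F) := by
      rw [pow_zero, AlgEquiv.one_apply]
    have e : (⟨(σ ^ 0) (h : F), hm⟩ : U.B.O) = h := Subtype.ext e0
    rw [e, pow_zero, AlgEquiv.one_apply]
  | succ j ih =>
    have hm' : (σ ^ j) (h : F) ∈ U.B.O := (pow_mem_iff U j _).mpr h.2
    have e : (⟨(σ ^ (j + 1)) (h : F), hm⟩ : U.B.O)
        = ⟨σ ((⟨(σ ^ j) (h : F), hm'⟩ : U.B.O) : F), (U.σ_mem _).2 hm'⟩ :=
      Subtype.ext (pow_succ_apply j _)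
    rw [e, U.red_σ, ih hm', pow_succ', AlgEquiv.mul_apply]

/-- **`τ := σbar ^ j`** : the residual action of `σ ^ j`, as an automorphism over `k` fixing `κ` -/
theorem exists_tau_of_pow (j : ℕ) :
    ∃ τ : K ≃ₐ[k] K, (∀ c : κ, τ (algebraMap κ K c) = algebraMap κ K c) ∧
      ∀ (h : U.B.O) (hm : (σ ^ j) (h : F) ∈ U.B.O),
        U.B.red ⟨(σ ^ j) (h : F), hm⟩ = τ (U.B.red h) :=
  ⟨(U.σbar ^ j).restrictScalars k, fun c => (U.σbar ^ j).commutes c, fun h hm => red_pow U j h hm⟩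

end Pow

end OneBranch

/-! ### the Kummer cover -/

section Cover

variable {κ1 : Type*} [Field κ1] [Algebra k κ1] {κ2 : Type*} [Field κ2] [Algebra k κ2]
variable {K1 : Type*} [Field K1] [Algebra k K1] [Algebra κ1 K1] [IsScalarTower k κ1 K1]
  [Algebra.IsIntegral κ1 K1]
variable {K2 : Type*} [Field K2] [Algebra k K2] [Algebra κ2 K2] [IsScalarTower k κ2 K2]
  [Algebra.IsIntegral κ2 K2]
variable {ι : Type*} {N0 : GNodalDatum A π F0 κ1 κ2 ι}

/-- **THE TWO `Compat` OF AN INERTIA ELEMENT ON A KUMMER COVER** with Gauss rings `V`, `w⁻¹ V`: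
`τ₁ = 1`, `τ₂ = σbar₂ ^ j` where `δ⁻¹ = σ ^ j` on `F`. -/
theorem exists_compat (Y : KummerCover N0 K1 K2 F) {V : ValuationSubring F} (w δ : F ≃ₐ[L] F)
    (hO1 : Y.U1.B.O = V) (hO2 : Y.U2.B.O = pull V w)
    (g : SemilinearAut L F) (g0 : SemilinearAut L F0)
    (hgg0 : ∀ x : F0, g • algebraMap F0 F x = algebraMap F0 F (g0 • x))
    (hA : ∀ c : L, SemilinearAut.baseAut g c ∈ A ↔ c ∈ A)
    (hpi : ∀ (c : A) (h : SemilinearAut.baseAut g (c : L) ∈ A),
      π ⟨SemilinearAut.baseAut g (c : L), h⟩ = π c)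
    (hgw : ∀ x : F, g • w x = w (δ (g • x)))
    (hgδ : ∀ x : F, g • δ x = δ (g • x))
    (hwδ : ∀ x : F, w (δ x) = δ.symm (w x))
    (htriv : ∀ x ∈ V, g • x - x ∈ V.nonunits) (hδV : ∀ x : F, δ x ∈ V ↔ x ∈ V)
    (hgV : ∀ y : F, g • y ∈ V ↔ y ∈ V)
    (j : ℕ) (hδσ : ∀ y : F, δ.symm y = (Y.σ ^ j) y)
    (hr1 : ∀ P0 : Place L F0, N0.R1.r (g0⁻¹ • P0) = N0.R1.r P0)
    (hr2 : ∀ P0 : Place L F0, N0.R2.r (g0⁻¹ • P0) = N0.R2.r P0) :
    ∃ (τ1 : K1 ≃ₐ[k] K1) (τ2 : K2 ≃ₐ[k] K2),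
      Compat N0.R1 Y.U1.B g g0 τ1 ∧ Compat N0.R2 Y.U2.B g g0 τ2 := by
  obtain ⟨τ2, hτ2, hred2⟩ := exists_tau_of_pow Y.U2 j
  refine ⟨AlgEquiv.refl, τ2, ?_, ?_⟩
  · have hmem : ∀ x : F, x ∈ Y.U1.B.O ↔ x ∈ V := fun x => by rw [hO1]
    have hnon : ∀ x : F, x ∈ V.nonunits → x ∈ Y.U1.B.O.nonunits := fun x hx => by
      rw [hO1]
      exact hx
    refine compat_one hgg0 hA hpi (fun y => ?_) (fun y hy => ?_) hr1
    · rw [hmem, hmem]
      exact hgV y
    · exact hnon _ (htriv y ((hmem y).mp hy))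
  · refine compat_two w δ hgw hgδ hwδ htriv hδV hgV hO2 hgg0 hA hpi τ2 hτ2 (fun y h => ?_) hr2
    have h' : (Y.σ ^ j) (y : F) ∈ Y.U2.B.O := by
      rw [← hδσ]
      exact h
    have e : (⟨δ.symm (y : F), h⟩ : Y.U2.B.O) = ⟨(Y.σ ^ j) (y : F), h'⟩ := Subtype.ext (hδσ _)
    rw [e]
    exact hred2 y h'

end Cover

end Fermat.Agent.S43.LG1.Ig.Inertia
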