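/-
PROJECT R (row 37 by S43), gate G, IG assembly (M7), instance (helper4): **THE TWO
`SpecEquiv.Compat` OF EVERY INERTIA ELEMENT ON A KUMMER COVER OF `F_H`** = the hypothesis `hT` of
`LG1/H/WireC.principalPairH_of_cover` (inputs `T1 T2` of `C2/Final.principal_cover` /
`C2/Exit.principal_cover_of_genus`), from the generic `Ig/Inertia.exists_compat`.

PART A (abstract presentation `ι : F →ₐ[ℚ̄] E'` of `F_H`, as in `LG1/H/Gate`):
* `baseAut_eq` : a semilinear `g` of `F` inducing `s` on `ι(F)` has base automorphism `s` ;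
* `smul_mem_iff` : such a `g` preserves a Gauss branch `V` (clause 1 of `IsGaussBranchH`) ;
* **`exists_compat_F`** : for `s` in the inertia group of `A`, `d` its diamond, `Y` a Kummer cover
  with Gauss rings `V`, `(wF w)⁻¹ V`, `g0` with `hgg0`, `(δF d)⁻¹ = Y.σ ^ j`, `hr1 hr2`.

PART B (helper3's `F_H = ↥(FH N q H)` over `E'' = ↥(F1pBar N q)`):
* `smul_algebraMap_FH` : `hgg0` for `g0 := arithmeticGalois (F1p N q) s` ;
* `exists_pow_of_fixed` (generic) : an automorphism `σ` of finite order of `F / F0` with fixed field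
  `F0` generates `Gal(F / F0)` ; `exists_pow_sigma` : `(δF d)⁻¹ = Y.σ ^ j` for EVERY Kummer cover `Y`
  of `F_H / E''` and every `d` in the `q`-part ;
* **`exists_compat_FH`** : the literal `hT`, for ANY Kummer cover `Y` of a nodal datum of `E''` with
  Gauss rings `V_H`, `(wF w)⁻¹ V_H`, the inertia invariance of the two partial specialisation maps
  in the literal of `C1/CoreZX1Datum.X1Datum.r1_smul / r2_smul`.
-/
import Fermat.Agent.S43.LG1.Ig.Inertia
import Fermat.Agent.S43.LG1.H.Inst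
import Fermat.Agent.S43.LG1.H.Diamond

set_option autoImplicit false
set_option linter.unusedSectionVars false
set_option synthInstance.maxHeartbeats 400000

noncomputable section

namespace Fermat.Agent.S43.LG1.Ig.InertiaH

open AlgebraicCurve AlgebraicCurve.SemilinearAut ModularCurve IsLocalRing
open Fermat.Agent.S48.B.Defs.Model Fermat.Agent.S48.B.ES.DegreeBeta1
open Fermat.Agent.S34.NodalDefs
open Fermat.Agent.S43.LG1.OfFricke Fermat.Agent.S43.LG1.Instance
open Fermat.Agent.S43.LG1.Fricke.Seam Fermat.Agent.S43.LG1.OfSeams Fermat.Agent.S43.LG1.OfSeamsR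
open Fermat.Agent.S43.LG1.H.Restrict Fermat.Agent.S43.LG1.H.Gate
open Fermat.Agent.S43.LG1.C2.Seam Fermat.Agent.S43.LG1.C2.SpecEquiv
open Fermat.Agent.S43.LG1.Ig.Inertia

local notation "Kb" => AlgebraicClosure ℚ

attribute [local instance] Fermat.Agent.S43.LG1.Fricke.Seam.instNeZeroMul

/-! ### PART A : the abstract presentation -/

section Pres

variable {N q : ℕ} [NeZero N] [NeZero q]
variable {H : Subgroup (ZMod (N * q))ˣ}
variable {F : Type} [Field F] [Algebra Kb F] (ι : F →ₐ[Kb] F1Bar (N * q))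
variable (hι : ∀ x : F1Bar (N * q), x ∈ ι.range ↔ ∀ d ∈ H, diamondAut (N * q) Kb d x = x)
variable (hHq : ∀ d ∈ H, IsRPart N q d)

/-- a semilinear automorphism of `F` inducing `s` on `ι(F)` has base automorphism `s` -/
theorem baseAut_eq {s : Kb ≃ₐ[ℚ] Kb} {g : SemilinearAut Kb F}
    (hg : ∀ x : F, ι (g • x) = arithmeticGalois (F1 (N * q)) s • ι x) (c : Kb) :
    baseAut g c = s c := by
  have h1 := hg (algebraMap Kb F c)
  rw [SemilinearAut.smul_algebraMap, AlgHom.commutes, AlgHom.commutes,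
    SemilinearAut.smul_algebraMap] at h1
  exact (algebraMap Kb (F1Bar (N * q))).injective h1

/-- a semilinear automorphism of `F` inducing an inertia element preserves the Gauss branch -/
theorem smul_mem_iff {A : ValuationSubring Kb} {V : ValuationSubring F}
    (hV : IsGaussBranchH ι A V) {s : Kb ≃ₐ[ℚ] Kb} (hs : s ∈ A.inertiaSubgroupIn ℚ)
    {g : SemilinearAut Kb F}
    (hg : ∀ x : F, ι (g • x) = arithmeticGalois (F1 (N * q)) s • ι x) (y : F) :
    g • y ∈ V ↔ y ∈ V := by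
  constructor
  · intro h
    have h1 : ι y = arithmeticGalois (F1 (N * q)) s⁻¹ • ι (g • y) := by
      rw [hg, map_inv, inv_smul_smul]
    have h2 := hV.1 s⁻¹ (inv_mem hs) (g • y) h y h1
    have h3 := V.add_mem _ _ (V.nonunits_le h2) h
    rwa [sub_add_cancel] at h3
  · intro h
    have h2 := hV.1 s hs y h (g • y) (hg y)
    have h3 := V.add_mem _ _ (V.nonunits_le h2) h
    rwa [sub_add_cancel] at h3

variable {k : Type*} [Field k]
variable {F0 : Type*} [Field F0] [Algebra Kb F0]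
variable [Algebra F0 F] [IsScalarTower Kb F0 F] [Algebra.IsIntegral F0 F]
variable {κ1 : Type*} [Field κ1] {κ2 : Type*} [Field κ2]
variable {K1 : Type*} [Field K1] {K2 : Type*} [Field K2]
variable {ι' : Type*}

variable {ι hι}

/-- **the two `Compat` on a Kummer cover of `F`**, for `s` in the inertia group of `A` and `d` its
diamond. -/
theorem exists_compat_F {A : ValuationSubring Kb}
    [Algebra (ResidueField A) κ1] [Algebra (ResidueField A) κ2]
    [Algebra (ResidueField A) K1] [Algebra κ1 K1] [IsScalarTower (ResidueField A) κ1 K1]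
    [Algebra.IsIntegral κ1 K1]
    [Algebra (ResidueField A) K2] [Algebra κ2 K2] [IsScalarTower (ResidueField A) κ2 K2]
    [Algebra.IsIntegral κ2 K2]
    {N0 : GNodalDatum A (residue A) F0 κ1 κ2 ι'}
    {V : ValuationSubring F} (hV : IsGaussBranchH ι A V)
    {w : F1Bar (N * q) ≃ₐ[Kb] F1Bar (N * q)} (hw : IsFricke N q w)
    {s : Kb ≃ₐ[ℚ] Kb} (hs : s ∈ A.inertiaSubgroupIn ℚ) {d : (ZMod (N * q))ˣ}
    (hd : IsInertiaDiamond N q s d)
    {g : SemilinearAut Kb F}
    (hg : ∀ x : F, ι (g • x) = arithmeticGalois (F1 (N * q)) s • ι x)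
    (Y : KummerCover N0 K1 K2 F) (hO1 : Y.U1.B.O = V)
    (hO2 : Y.U2.B.O = pull V (wF ι hι hHq w hw))
    (g0 : SemilinearAut Kb F0)
    (hgg0 : ∀ x : F0, g • algebraMap F0 F x = algebraMap F0 F (g0 • x))
    (j : ℕ) (hδσ : ∀ y : F, (δF ι hι d).symm y = (Y.σ ^ j) y)
    (hr1 : ∀ P0 : Place Kb F0, N0.R1.r (g0⁻¹ • P0) = N0.R1.r P0)
    (hr2 : ∀ P0 : Place Kb F0, N0.R2.r (g0⁻¹ • P0) = N0.R2.r P0) :
    ∃ (τ1 : K1 ≃ₐ[ResidueField A] K1) (τ2 : K2 ≃ₐ[ResidueField A] K2),
      Compat N0.R1 Y.U1.B g g0 τ1 ∧ Compat N0.R2 Y.U2.B g g0 τ2 := by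
  have hD : IsDiamondAut (N * q) Kb d (diamondAut (N * q) Kb d) :=
    Fermat.Agent.S48.B.B1.Main.isDiamondAut_diamondAut (N * q) Kb d
  have hbase : ∀ c : Kb, baseAut g c = s c := baseAut_eq ι hg
  have hA : ∀ c : Kb, baseAut g c ∈ A ↔ c ∈ A := fun c => by
    rw [hbase]
    exact mem_iff_of_mem_inertia A hs c
  have hpi : ∀ (c : A) (h : baseAut g (c : Kb) ∈ A),
      residue A ⟨baseAut g (c : Kb), h⟩ = residue A c := fun c h => by
    have h' : s (c : Kb) ∈ A := by rw [← hbase]; exact h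
    have e : (⟨baseAut g (c : Kb), h⟩ : A) = ⟨s (c : Kb), h'⟩ := Subtype.ext (hbase _)
    rw [e]
    exact residue_of_mem_inertia A hs c h'
  have hgw : ∀ x : F, g • wF ι hι hHq w hw x = wF ι hι hHq w hw (δF ι hι d (g • x)) := by
    intro x
    apply injective_hom ι
    rw [hg, apply_wF, apply_wF, apply_δF, hg]
    exact hw.2.2 s d _ hD hd.2 hd.1 (ι x)
  have hgδ : ∀ x : F, g • δF ι hι d x = δF ι hι d (g • x) := by
    intro x
    apply injective_hom ι
    rw [hg, apply_δF, apply_δF, hg]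
    exact gal_dia (N * q) s d (ι x)
  have hwδ : ∀ x : F, wF ι hι hHq w hw (δF ι hι d x)
      = (δF ι hι d).symm (wF ι hι hHq w hw x) := by
    intro x
    apply injective_hom ι
    rw [apply_wF, apply_δF]
    have h1 : ι ((δF ι hι d).symm (wF ι hι hHq w hw x))
        = (diamondAut (N * q) Kb d).symm (ι (wF ι hι hHq w hw x)) :=
      apply_restrictAlg_symm ι _ _ _
    rw [h1, apply_wF]
    exact hw.2.1 d _ hD hd.2 (ι x)
  have htriv : ∀ x ∈ V, g • x - x ∈ V.nonunits := fun x hx => hV.1 s hs x hx _ (hg x)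
  have hδV : ∀ x : F, δF ι hι d x ∈ V ↔ x ∈ V := fun x =>
    hV.2.1 d hd.2 x _ (apply_δF ι hι d x)
  exact exists_compat Y (wF ι hι hHq w hw) (δF ι hι d) hO1 hO2 g g0 hgg0 hA hpi hgw hgδ hwδ
    htriv hδV (smul_mem_iff ι hV hs hg) j hδσ hr1 hr2

end Pres

/-! ### PART B : helper3's `F_H` -/

section Inst

open Fermat.Agent.S43.LG1.H.Inst Fermat.Agent.S43.LG1.H.Diamond
open Fermat.Agent.S43.LG1.V.Branch
open Fermat.Agent.S43.LG1.Ig.Tower Fermat.Agent.S43.LG1.Ig.TowerAlg Fermat.Agent.S43.LG1.Ig.TowerH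

attribute [local instance] towerAlgebra isScalarTower_tower

variable (N q : ℕ) [NeZero N] [NeZero q] [hc : Fact (q.Coprime N)]
variable (H : Subgroup (ZMod (N * q))ˣ)

/-- **`hgg0`** : a semilinear automorphism of `F_H` inducing `s` restricts to the arithmetic
Galois action of `s` on `E''` -/
theorem smul_algebraMap_FH {s : Kb ≃ₐ[ℚ] Kb} {g : SemilinearAut Kb ↥(FH N q H)}
    (hg : ∀ x : ↥(FH N q H), incl N q H (g • x) = arithmeticGalois (F1 (N * q)) s • incl N q H x)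
    (x : ↥(F1pBar N q)) :
    g • algebraMap ↥(F1pBar N q) ↥(FH N q H) x
      = algebraMap ↥(F1pBar N q) ↥(FH N q H) (arithmeticGalois (F1p N q) s • x) := by
  apply Subtype.ext
  have h1 := hg (algebraMap ↥(F1pBar N q) ↥(FH N q H) x)
  rw [incl_apply, incl_apply] at h1
  rw [h1, coe_algebraMap_FH, coe_algebraMap_FH]
  apply Subtype.ext
  rw [coe_arithmeticGalois_smul, coe_algebraMap, coe_algebraMap, coe_arithmeticGalois_smul]

/-- an automorphism of finite order with fixed field the base generates the Galois group -/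
theorem exists_pow_of_fixed {F0 F : Type*} [Field F0] [Field F] [Algebra F0 F]
    [FiniteDimensional F0 F] (σ τ : F ≃ₐ[F0] F) {m : ℕ} (hm : m ≠ 0)
    (hpow : ∀ h : F, (σ ^ m) h = h)
    (hfix : ∀ h : F, σ h = h → ∃ h0 : F0, algebraMap F0 F h0 = h) : ∃ j : ℕ, τ = σ ^ j := by
  have h1 : IntermediateField.fixedField (Subgroup.zpowers σ) = ⊥ := by
    rw [eq_bot_iff]
    intro x hx
    rw [IntermediateField.mem_bot]
    obtain ⟨y, hy⟩ := hfix x (hx ⟨σ, Subgroup.mem_zpowers σ⟩)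
    exact ⟨y, hy⟩
  have h2 : Subgroup.zpowers σ = ⊤ := by
    rw [← IntermediateField.fixingSubgroup_fixedField (Subgroup.zpowers σ), h1,
      IntermediateField.fixingSubgroup_bot]
  have h3 : τ ∈ Subgroup.zpowers σ := by
    rw [h2]
    exact Subgroup.mem_top τ
  have hfin : IsOfFinOrder σ := by
    rw [isOfFinOrder_iff_pow_eq_one]
    exact ⟨m, Nat.pos_of_ne_zero hm, AlgEquiv.ext hpow⟩
  obtain ⟨j, hj⟩ := (hfin.mem_powers_iff_mem_zpowers).mpr h3
  exact ⟨j, hj.symm⟩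

/-- **`(δF d)⁻¹ = Y.σ ^ j`** for every Kummer cover of `F_H / E''` and every `d` of the `q`-part -/
theorem exists_pow_sigma (hH : H ≤ rPart N q) [FiniteDimensional ↥(F1pBar N q) ↥(FH N q H)]
    {k : Type*} [Field k] {A : ValuationSubring Kb} {π : A →+* k}
    {κ1 : Type*} [Field κ1] [Algebra k κ1] {κ2 : Type*} [Field κ2] [Algebra k κ2]
    {K1 : Type*} [Field K1] [Algebra k K1] [Algebra κ1 K1] [IsScalarTower k κ1 K1]
    [Algebra.IsIntegral κ1 K1]
    {K2 : Type*} [Field K2] [Algebra k K2] [Algebra κ2 K2] [IsScalarTower k κ2 K2]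
    [Algebra.IsIntegral κ2 K2] {ι' : Type*}
    {N0 : GNodalDatum A π ↥(F1pBar N q) κ1 κ2 ι'}
    (Y : KummerCover N0 K1 K2 ↥(FH N q H)) {d : (ZMod (N * q))ˣ} (hd : d ∈ rPart N q) :
    ∃ j : ℕ, ∀ y : ↥(FH N q H),
      (δF (incl N q H) (range_incl N q H hH) d).symm y = (Y.σ ^ j) y := by
  have hm0 : Y.m ≠ 0 := by
    intro h0
    apply Y.hm
    rw [h0, Nat.cast_zero]
  obtain ⟨j, hj⟩ := exists_pow_of_fixed Y.σ (restrictFH N q H (⟨d, hd⟩ : rPart N q)⁻¹) hm0
    Y.σ_pow Y.fixed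
  refine ⟨j, fun y => ?_⟩
  rw [← hj]
  apply Subtype.ext
  rw [coe_restrictFH]
  have h2 : incl N q H ((δF (incl N q H) (range_incl N q H hH) d).symm y)
      = (diamondAut (N * q) Kb d).symm (incl N q H y) :=
    apply_restrictAlg_symm (incl N q H) _ _ _
  rw [incl_apply, incl_apply] at h2
  rw [h2, dia_symm_apply]
  rfl

variable [hq : Fact q.Prime] {A : ValuationSubring Kb}
variable {κ1 : Type*} [Field κ1] {κ2 : Type*} [Field κ2]
variable {K1 : Type*} [Field K1] {K2 : Type*} [Field K2]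
variable {ι' : Type*}

/-- **THE LITERAL `hT` OF `WireC.principalPairH_of_cover` AT helper3's `F_H`** : for a Kummer cover
`Y` of a nodal datum of `E''` with Gauss rings `V_H` and `(wF w)⁻¹ V_H`. -/
theorem exists_compat_FH (hH : H ≤ rPart N q) (hA : A.LiesOverPrime q)
    (hI1 : ∀ d : (ZMod (N * q))ˣ, IsQPart N q d → ∀ x : ↥(FH N q H),
      diamondAut (N * q) Kb d (x : ↥(F1Bar (N * q))) ∈ gaussV (N * q) hA ↔
        (x : ↥(F1Bar (N * q))) ∈ gaussV (N * q) hA)
    {w : F1Bar (N * q) ≃ₐ[Kb] F1Bar (N * q)} (hw : IsFricke N q w)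
    [FiniteDimensional ↥(F1pBar N q) ↥(FH N q H)]
    [Algebra (ResidueField A) κ1] [Algebra (ResidueField A) κ2]
    [Algebra (ResidueField A) K1] [Algebra κ1 K1] [IsScalarTower (ResidueField A) κ1 K1]
    [Algebra.IsIntegral κ1 K1]
    [Algebra (ResidueField A) K2] [Algebra κ2 K2] [IsScalarTower (ResidueField A) κ2 K2]
    [Algebra.IsIntegral κ2 K2]
    {N0 : GNodalDatum A (residue A) ↥(F1pBar N q) κ1 κ2 ι'}
    (Y : KummerCover N0 K1 K2 ↥(FH N q H)) (hO1 : Y.U1.B.O = VH N q H hA)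
    (hO2 : Y.U2.B.O = pull (VH N q H hA)
      (wF (incl N q H) (range_incl N q H hH) (isRPart_of_le N q H hH) w hw))
    (hr1 : ∀ σ ∈ A.inertiaSubgroupIn ℚ, ∀ P : Place Kb ↥(F1pBar N q),
      N0.R1.r (arithmeticGalois (F1p N q) σ • P) = N0.R1.r P)
    (hr2 : ∀ σ ∈ A.inertiaSubgroupIn ℚ, ∀ P : Place Kb ↥(F1pBar N q),
      N0.R2.r (arithmeticGalois (F1p N q) σ • P) = N0.R2.r P) :
    ∀ s ∈ A.inertiaSubgroupIn ℚ, ∀ g : SemilinearAut Kb ↥(FH N q H),
      (∀ x : ↥(FH N q H),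
        incl N q H (g • x) = arithmeticGalois (F1 (N * q)) s • incl N q H x) →
      ∃ (g0 : SemilinearAut Kb ↥(F1pBar N q)) (τ1 : K1 ≃ₐ[ResidueField A] K1)
        (τ2 : K2 ≃ₐ[ResidueField A] K2),
        Compat N0.R1 Y.U1.B g g0 τ1 ∧ Compat N0.R2 Y.U2.B g g0 τ2 := by
  intro s hs g hg
  obtain ⟨d, hd⟩ := exists_inertiaDiamond (N := N) hq.out.pos hc.out.symm s
  have hdr : d ∈ rPart N q := (mem_rPart_iff N q).mpr hd.2
  obtain ⟨j, hj⟩ := exists_pow_sigma N q H hH Y hdr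
  have hinv : ∀ P : Place Kb ↥(F1pBar N q),
      (arithmeticGalois (F1p N q) s)⁻¹ • P = arithmeticGalois (F1p N q) s⁻¹ • P := fun P => by
    rw [map_inv]
  obtain ⟨τ1, τ2, T1, T2⟩ := exists_compat_F (isRPart_of_le N q H hH)
    (isGaussBranchH_VH N q H hA hI1) hw hs hd hg Y hO1 hO2
    (arithmeticGalois (F1p N q) s) (smul_algebraMap_FH N q H hg) j
    hj
    (fun P => by rw [hinv]; exact hr1 s⁻¹ (inv_mem hs) P)
    (fun P => by rw [hinv]; exact hr2 s⁻¹ (inv_mem hs) P)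
  exact ⟨_, τ1, τ2, T1, T2⟩

end Inst

end Fermat.Agent.S43.LG1.Ig.InertiaH
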