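/-
# IG (iv), generic half: Kummer independence at a place + full residue degree ⇒ unique extension

* `linearIndependent_pow_of_valuation` : if the values of `ν, ν², …, ν^(n-1)` avoid the value group
  of the small field, then `1, ν, …, ν^(n-1)` are linearly independent over it;
* `linearIndependent_pow_of_ord` : for a place `Q` of `F` and `θ : F` with `ord_Q θ` prime to `n`
  (e.g. a simple zero), every `ν` with `ν ^ n = θ` in a field extension has
  `1, ν, …, ν^(n-1)` linearly independent over `F` (no parity hypothesis on `n`);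
* `irreducible_X_pow_sub_C_of_ord` : hence `X ^ n - C θ` is irreducible;
* `resIndep_pow`, `unique_of_resIndep_pow`, `apply_mem_iff_of_resIndep_pow` : a valuation subring
  `A'` of `K'` (`[K' : K] = n`) whose residue ring contains `n` independent powers of the
  reduction of one element over the residue field of `A' ∩ K` is the only valuation subring of
  `K'` with that contraction, hence is stable under every `K`-automorphism of `K'`.
-/
import Mathlib
import Fermat.Prelude.Def_AlgebraicCurve_DivisorClassGroup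
import Fermat.Prelude.Def_AlgebraicCurve_DivisorPushPull
import Fermat.Agent.S48.B.Val.Unique
import Fermat.Agent.S48.B.Val.Decomp

set_option autoImplicit false

noncomputable section

namespace Fermat.Agent.S43.LG1.Ig.KummerUnique

open Polynomial

section Indep

variable {F R : Type*} [Field F] [Field R] [Algebra F R]

/-- two terms of a Kummer combination have different values -/
theorem valuation_term_ne (B : ValuationSubring R) {n : ℕ} {ν : R} (hν0 : ν ≠ 0)
    (h : ∀ m : ℕ, 0 < m → m < n → ∀ c : F, c ≠ 0 →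
      B.valuation (ν ^ m) ≠ B.valuation (algebraMap F R c))
    {c : Fin n → F} {i j : Fin n} (hij : i < j) (hi : c i ≠ 0) (hj : c j ≠ 0) :
    B.valuation (algebraMap F R (c i) * ν ^ (i : ℕ)) ≠
      B.valuation (algebraMap F R (c j) * ν ^ (j : ℕ)) := by
  intro heq
  have hij' : (i : ℕ) < (j : ℕ) := hij
  have hm : 0 < (j : ℕ) - (i : ℕ) := Nat.sub_pos_of_lt hij'
  have hmn : (j : ℕ) - (i : ℕ) < n := lt_of_le_of_lt (Nat.sub_le _ _) j.2
  refine h _ hm hmn (c i / c j) (div_ne_zero hi hj) ?_
  have hνi : B.valuation (ν ^ (i : ℕ)) ≠ 0 := (Valuation.ne_zero_iff _).2 (pow_ne_zero _ hν0)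
  have hcj : B.valuation (algebraMap F R (c j)) ≠ 0 :=
    (Valuation.ne_zero_iff _).2 (by simpa using hj)
  have hsplit : ν ^ (j : ℕ) = ν ^ ((j : ℕ) - (i : ℕ)) * ν ^ (i : ℕ) := by
    rw [← pow_add, Nat.sub_add_cancel hij'.le]
  rw [hsplit, map_mul, map_mul, map_mul, ← mul_assoc] at heq
  have h1 := mul_right_cancel₀ hνi heq
  rw [map_div₀, map_div₀, h1, mul_comm, mul_div_assoc, div_self hcj, mul_one]

/-- **Independence from values.** If no `ν ^ m`, `0 < m < n`, has the value of an element of the
small field, the first `n` powers of `ν` are linearly independent over it. -/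
theorem linearIndependent_pow_of_valuation (B : ValuationSubring R) {n : ℕ} {ν : R} (hν0 : ν ≠ 0)
    (h : ∀ m : ℕ, 0 < m → m < n → ∀ c : F, c ≠ 0 →
      B.valuation (ν ^ m) ≠ B.valuation (algebraMap F R c)) :
    LinearIndependent F (fun i : Fin n => ν ^ (i : ℕ)) := by
  classical
  rw [Fintype.linearIndependent_iff]
  intro c hc
  by_contra hne
  rw [not_forall] at hne
  obtain ⟨i₀, hi₀⟩ := hne
  set t : Fin n → R := fun i => algebraMap F R (c i) * ν ^ (i : ℕ) with ht
  set s : Finset (Fin n) := Finset.univ.filter fun i => c i ≠ 0 with hs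
  have hi₀s : i₀ ∈ s := by simp [hs, hi₀]
  have hsum : ∑ i ∈ s, t i = 0 := by
    rw [← hc, hs, Finset.sum_filter]
    refine Finset.sum_congr rfl fun i _ => ?_
    by_cases hci : c i = 0
    · simp [hci]
    · simp [hci, ht, Algebra.smul_def]
  obtain ⟨j, hjs, hjmax⟩ := Finset.exists_max_image s (fun i => B.valuation (t i)) ⟨i₀, hi₀s⟩
  have hcj : c j ≠ 0 := by simpa [hs] using hjs
  have htj : t j ≠ 0 := by
    simp only [ht]
    exact mul_ne_zero (by simpa using hcj) (pow_ne_zero _ hν0)
  have hv : B.valuation (∑ i ∈ s, t i) = B.valuation (t j) := by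
    refine Valuation.map_sum_eq_of_lt _ hjs fun i hi => ?_
    rw [Finset.mem_sdiff, Finset.mem_singleton] at hi
    obtain ⟨his, hij⟩ := hi
    have hci : c i ≠ 0 := by simpa [hs] using his
    refine lt_of_le_of_ne (hjmax i his) ?_
    rcases lt_or_gt_of_ne hij with hlt | hgt
    · exact valuation_term_ne B hν0 h hlt hci hcj
    · exact (valuation_term_ne B hν0 h hgt hcj hci).symm
  rw [hsum, map_zero] at hv
  exact (Valuation.ne_zero_iff _).2 htj hv.symm

end Indep

section PlaceOrd

open AlgebraicCurve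

variable {k F R : Type*} [Field k] [Field F] [Algebra k F] [Field R] [Algebra F R]

/-- an element whose image is a unit of an extension of the valuation ring of a place has
order zero -/
theorem ord_eq_zero_of_valuation_eq_one (Q : Place k F) (B : ValuationSubring R)
    (hB : B.comap (algebraMap F R) = Q.toValuationSubring) {u : F}
    (hu : B.valuation (algebraMap F R u) = 1) : Q.ord u = 0 := by
  have hu0 : u ≠ 0 := by
    rintro rfl
    rw [map_zero, map_zero] at hu
    exact zero_ne_one hu
  have h1 : u ∈ Q.toValuationSubring := by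
    rw [← hB, ValuationSubring.mem_comap, ← B.valuation_le_one_iff, hu]
  have h2 : u⁻¹ ∈ Q.toValuationSubring := by
    rw [← hB, ValuationSubring.mem_comap, ← B.valuation_le_one_iff, map_inv₀, map_inv₀, hu,
      inv_one]
  have hunit : IsUnit (⟨u, h1⟩ : Q.toValuationSubring) := by
    rw [isUnit_iff_exists_inv]
    exact ⟨⟨u⁻¹, h2⟩, Subtype.ext (mul_inv_cancel₀ hu0)⟩
  exact Q.ord_coe_unit hunit.unit

/-- the values of `ν, …, ν ^ (n - 1)` avoid the value group of `F`, for every extension of the
place -/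
theorem valuation_pow_ne_of_ord (Q : Place k F) {n : ℕ} {θ : F} (hθ0 : θ ≠ 0)
    (hθ : IsCoprime (Q.ord θ) (n : ℤ)) {ν : R} (hν : ν ^ n = algebraMap F R θ)
    (B : ValuationSubring R) (hB : B.comap (algebraMap F R) = Q.toValuationSubring)
    (m : ℕ) (hm : 0 < m) (hmn : m < n) (c : F) (hc : c ≠ 0) :
    B.valuation (ν ^ m) ≠ B.valuation (algebraMap F R c) := by
  intro heq
  -- raise to the `n`-th power
  have h1 : B.valuation (algebraMap F R (θ ^ m / c ^ n)) = 1 := by
    have hcn : B.valuation (algebraMap F R (c ^ n)) ≠ 0 :=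
      (Valuation.ne_zero_iff _).2 (by simpa using pow_ne_zero n hc)
    rw [map_div₀, map_div₀, div_eq_one_iff_eq hcn, map_pow, ← hν, ← pow_mul, mul_comm n m, pow_mul,
      map_pow, heq, ← map_pow, ← map_pow]
  have h2 := ord_eq_zero_of_valuation_eq_one Q B hB h1
  rw [div_eq_mul_inv, Q.ord_mul (pow_ne_zero _ hθ0) (inv_ne_zero (pow_ne_zero _ hc)), Q.ord_inv,
    ← zpow_natCast, ← zpow_natCast, Q.ord_zpow, Q.ord_zpow] at h2
  have h3 : (n : ℤ) ∣ (m : ℤ) * Q.ord θ := ⟨Q.ord c, by linarith⟩
  have h4 : (n : ℤ) ∣ (m : ℤ) := hθ.symm.dvd_of_dvd_mul_right h3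
  have h5 : n ∣ m := Int.natCast_dvd_natCast.1 h4
  exact absurd (Nat.le_of_dvd hm h5) (not_le.2 hmn)

/-- if `ν = 0` then `n = 1` -/
theorem eq_one_of_zero (Q : Place k F) {n : ℕ} (hn : 0 < n) {θ : F}
    (hθ : IsCoprime (Q.ord θ) (n : ℤ)) {ν : R} (hν : ν ^ n = algebraMap F R θ) (hν0 : ν = 0) :
    n = 1 := by
  have hθ0 : θ = 0 := by
    have : algebraMap F R θ = 0 := by rw [← hν, hν0, zero_pow hn.ne']
    exact (map_eq_zero _).1 this
  rw [hθ0, Q.ord_zero, isCoprime_zero_left, Int.isUnit_iff] at hθ
  omega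

/-- `θ ≠ 0` when `ν ≠ 0` -/
theorem ne_zero_of_ne_zero {n : ℕ} {θ : F} {ν : R} (hν : ν ^ n = algebraMap F R θ)
    (hν0 : ν ≠ 0) : θ ≠ 0 := by
  rintro rfl
  rw [map_zero] at hν
  exact pow_ne_zero n hν0 hν

/-- **Kummer independence at a place.** If `ord_Q θ` is prime to `n` and `ν ^ n = θ`, then
`1, ν, …, ν ^ (n - 1)` are linearly independent over `F`. -/
theorem linearIndependent_pow_of_ord (Q : Place k F) {n : ℕ} (hn : 0 < n) {θ : F}
    (hθ : IsCoprime (Q.ord θ) (n : ℤ)) {ν : R} (hν : ν ^ n = algebraMap F R θ) :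
    LinearIndependent F (fun i : Fin n => ν ^ (i : ℕ)) := by
  by_cases hν0 : ν = 0
  · -- then `θ = 0`, `n = 1`
    have hn1 : n = 1 := eq_one_of_zero Q hn hθ hν hν0
    subst hn1
    rw [Fintype.linearIndependent_iff]
    intro c hc i
    have hi : i = 0 := Subsingleton.elim _ _
    subst hi
    simpa using hc
  obtain ⟨B, hB⟩ := Fermat.Agent.S48.B.Val.Decomp.exists_comap_eq (algebraMap F R)
    Q.toValuationSubring
  exact linearIndependent_pow_of_valuation B hν0
    (valuation_pow_ne_of_ord Q (ne_zero_of_ne_zero hν hν0) hθ hν B hB)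

/-- **Kummer irreducibility at a place** (no parity hypothesis on `n`). -/
theorem irreducible_X_pow_sub_C_of_ord (Q : Place k F) {n : ℕ} (hn : 0 < n) {θ : F}
    (hθ : IsCoprime (Q.ord θ) (n : ℤ)) : Irreducible (X ^ n - C θ : F[X]) := by
  set P : F[X] := X ^ n - C θ with hP
  have hmonic : P.Monic := monic_X_pow_sub_C θ hn.ne'
  have hdeg : P.natDegree = n := natDegree_X_pow_sub_C
  have hdeg0 : P.degree ≠ 0 := by
    rw [degree_eq_natDegree hmonic.ne_zero, hdeg]
    exact_mod_cast hn.ne'
  obtain ⟨ν, hroot⟩ : ∃ ν : P.SplittingField, eval₂ (algebraMap F P.SplittingField) ν P = 0 := by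
    have hsp := SplittingField.splits P
    have hdeg' : (P.map (algebraMap F P.SplittingField)).degree ≠ 0 := by
      rwa [degree_map]
    obtain ⟨ν, hν⟩ := hsp.exists_eval_eq_zero hdeg'
    exact ⟨ν, by rwa [eval_map] at hν⟩
  have hν : ν ^ n = algebraMap F P.SplittingField θ := by
    have : eval₂ (algebraMap F P.SplittingField) ν (X ^ n - C θ) = 0 := hroot
    simpa only [eval₂_sub, eval₂_pow, eval₂_X, eval₂_C, sub_eq_zero] using this
  have hli := linearIndependent_pow_of_ord Q hn hθ hν
  have hint : IsIntegral F ν := ⟨P, hmonic, hroot⟩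
  have hdvd : minpoly F ν ∣ P := minpoly.dvd F ν (by rw [aeval_def]; exact hroot)
  -- the degree of the minimal polynomial is at least `n`
  have hle : n ≤ (minpoly F ν).natDegree := by
    by_contra hlt
    rw [not_le] at hlt
    -- `ν ^ d` is a combination of smaller powers
    set d := (minpoly F ν).natDegree with hd
    have hzero : aeval ν (minpoly F ν) = 0 := minpoly.aeval F ν
    rw [aeval_eq_sum_range] at hzero
    rw [Fintype.linearIndependent_iff] at hli
    have := hli (fun i : Fin n => (minpoly F ν).coeff (i : ℕ)) (by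
      rw [← hzero, Fin.sum_univ_eq_sum_range
        (fun i => (minpoly F ν).coeff i • ν ^ i) n]
      refine (Finset.sum_subset ?_ ?_).symm
      · intro i hi
        rw [Finset.mem_range] at hi ⊢
        omega
      · intro i _ hi
        rw [Finset.mem_range, not_lt] at hi
        rw [coeff_eq_zero_of_natDegree_lt (by omega), zero_smul]) ⟨d, hlt⟩
    have hlead : (minpoly F ν).coeff d = 1 := (minpoly.monic hint).coeff_natDegree
    rw [hlead] at this
    exact one_ne_zero this
  have heq : P = minpoly F ν :=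
    eq_of_monic_of_dvd_of_natDegree_le (minpoly.monic hint) hmonic hdvd (by rw [hdeg]; exact hle)
  rw [heq]
  exact minpoly.irreducible hint

/-! ### Total ramification: the extension of the place is unique -/

/-- membership in an extension of the valuation ring of `Q`, read off the coordinates in the
Kummer basis: it does not depend on the extension -/
theorem mem_iff_of_ord (Q : Place k F) {n : ℕ} (hn : 0 < n) {θ : F}
    (hθ : IsCoprime (Q.ord θ) (n : ℤ)) {ν : R} (hν : ν ^ n = algebraMap F R θ)
    (B : ValuationSubring R) (hB : B.comap (algebraMap F R) = Q.toValuationSubring)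
    (c : Fin n → F) :
    (∑ i, algebraMap F R (c i) * ν ^ (i : ℕ)) ∈ B ↔
      ∀ i : Fin n, c i ^ n * θ ^ (i : ℕ) ∈ Q.toValuationSubring := by
  classical
  -- a term lies in `B` iff its `n`-th power does
  have hterm : ∀ i : Fin n, algebraMap F R (c i) * ν ^ (i : ℕ) ∈ B ↔
      c i ^ n * θ ^ (i : ℕ) ∈ Q.toValuationSubring := by
    intro i
    rw [← hB, ValuationSubring.mem_comap, ← B.valuation_le_one_iff, ← B.valuation_le_one_iff]
    have hpow : algebraMap F R (c i ^ n * θ ^ (i : ℕ)) =
        (algebraMap F R (c i) * ν ^ (i : ℕ)) ^ n := by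
      rw [map_mul, map_pow, map_pow, ← hν, mul_pow, ← pow_mul, ← pow_mul, mul_comm n (i : ℕ)]
    rw [hpow, map_pow]
    exact (pow_le_one_iff_of_nonneg zero_le hn.ne').symm
  constructor
  · intro hx i
    rw [← hterm]
    by_cases hν0 : ν = 0
    · have hn1 : n = 1 := eq_one_of_zero Q hn hθ hν hν0
      subst hn1
      have hi : i = 0 := Subsingleton.elim _ _
      subst hi
      simpa using hx
    by_cases hci : c i = 0
    · rw [hci, map_zero, zero_mul]
      exact B.zero_mem
    set t : Fin n → R := fun j => algebraMap F R (c j) * ν ^ (j : ℕ) with ht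
    set s : Finset (Fin n) := Finset.univ.filter fun j => c j ≠ 0 with hs
    have his : i ∈ s := by simp [hs, hci]
    have hsum : ∑ j ∈ s, t j = ∑ j, t j := by
      rw [hs, Finset.sum_filter]
      refine Finset.sum_congr rfl fun j _ => ?_
      by_cases hcj : c j = 0
      · simp [hcj, ht]
      · simp [hcj]
    obtain ⟨j, hjs, hjmax⟩ := Finset.exists_max_image s (fun j => B.valuation (t j)) ⟨i, his⟩
    have hcj : c j ≠ 0 := by simpa [hs] using hjs
    have hh := valuation_pow_ne_of_ord Q (ne_zero_of_ne_zero hν hν0) hθ hν B hB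
    have hv : B.valuation (∑ l ∈ s, t l) = B.valuation (t j) := by
      refine Valuation.map_sum_eq_of_lt _ hjs fun l hl => ?_
      rw [Finset.mem_sdiff, Finset.mem_singleton] at hl
      obtain ⟨hls, hlj⟩ := hl
      have hcl : c l ≠ 0 := by simpa [hs] using hls
      refine lt_of_le_of_ne (hjmax l hls) ?_
      rcases lt_or_gt_of_ne hlj with hlt | hgt
      · exact valuation_term_ne B hν0 hh hlt hcl hcj
      · exact (valuation_term_ne B hν0 hh hgt hcj hcl).symm
    rw [← B.valuation_le_one_iff]
    refine le_trans (hjmax i his) ?_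
    rw [← hv, hsum, B.valuation_le_one_iff]
    exact hx
  · intro h
    exact B.toSubring.sum_mem fun i _ => (hterm i).2 (h i)

/-- **Total ramification ⇒ unique extension** (valuation subrings). -/
theorem eq_of_comap_eq_of_ord [FiniteDimensional F R] (Q : Place k F) {n : ℕ} (hn : 0 < n)
    {θ : F} (hθ : IsCoprime (Q.ord θ) (n : ℤ)) {ν : R} (hν : ν ^ n = algebraMap F R θ)
    (hfin : Module.finrank F R = n) (B₁ B₂ : ValuationSubring R)
    (h₁ : B₁.comap (algebraMap F R) = Q.toValuationSubring)
    (h₂ : B₂.comap (algebraMap F R) = Q.toValuationSubring) : B₁ = B₂ := by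
  have hli := linearIndependent_pow_of_ord Q hn hθ hν
  have : Nonempty (Fin n) := ⟨⟨0, hn⟩⟩
  set b := basisOfLinearIndependentOfCardEqFinrank hli (by rw [Fintype.card_fin, hfin]) with hb
  have hrepr : ∀ x : R, x = ∑ i, algebraMap F R (b.repr x i) * ν ^ (i : ℕ) := by
    intro x
    conv_lhs => rw [← b.sum_repr x]
    refine Finset.sum_congr rfl fun i _ => ?_
    rw [hb, coe_basisOfLinearIndependentOfCardEqFinrank, Algebra.smul_def]
  ext x
  rw [hrepr x]
  exact (mem_iff_of_ord Q hn hθ hν B₁ h₁ _).trans (mem_iff_of_ord Q hn hθ hν B₂ h₂ _).symm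

/-- **Total ramification ⇒ one place above** (STRONG (I2) at a zero of order prime to `n`). -/
theorem place_eq_of_restrict_eq [Algebra k R] [IsScalarTower k F R] [FiniteDimensional F R]
    (Q : Place k F) {n : ℕ} (hn : 0 < n) {θ : F} (hθ : IsCoprime (Q.ord θ) (n : ℤ)) {ν : R}
    (hν : ν ^ n = algebraMap F R θ) (hfin : Module.finrank F R = n) (Q₁ Q₂ : Place k R)
    (h₁ : Q₁.restrict F = Q) (h₂ : Q₂.restrict F = Q) : Q₁ = Q₂ := by
  refine Place.ext (eq_of_comap_eq_of_ord Q hn hθ hν hfin _ _ ?_ ?_)
  · rw [← h₁]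
    rfl
  · rw [← h₂]
    rfl

end PlaceOrd

section Unique

open Fermat.Agent.S48.B.Val.Unique

variable {K K' : Type*} [Field K] [Field K'] [Algebra K K']

/-- **Independent residue powers give a residually independent family.** `ρ'` is the reduction of
`A'` (kernel = the non-units), `ρ₀` the reduction of `A' ∩ K` into a field `κ₀`, compatible with
`ρ'` through an algebra structure on the target. -/
theorem resIndep_pow (A' : ValuationSubring K') {R κ₀ : Type*} [CommRing R] [Field κ₀]
    [Algebra κ₀ R] (ρ' : A' →+* R)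
    (hker : ∀ x : A', ρ' x = 0 ↔ A'.valuation (x : K') < 1)
    (ρ₀ : A'.comap (algebraMap K K') →+* κ₀)
    (hcompat : ∀ a : A'.comap (algebraMap K K'),
      ρ' ⟨algebraMap K K' a, ValuationSubring.mem_comap.1 a.2⟩ = algebraMap κ₀ R (ρ₀ a))
    {n : ℕ} (μ : A')
    (hli : LinearIndependent κ₀ (fun i : Fin n => ρ' μ ^ (i : ℕ))) :
    ResIndep (K := K) A' (fun i : Fin n => (μ : K') ^ (i : ℕ)) := by
  classical
  refine ⟨fun i => A'.pow_mem μ.2 _, fun s c hc hlt i hi => ?_⟩
  -- the coefficients as elements of `A' ∩ K`, extended by zero off `s`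
  set c' : Fin n → A'.comap (algebraMap K K') := fun j =>
    if hj : j ∈ s then ⟨c j, ValuationSubring.mem_comap.2 (hc j hj)⟩ else 0 with hc'
  have hc's : ∀ j ∈ s, ((c' j : A'.comap (algebraMap K K')) : K) = c j := by
    intro j hj
    simp only [hc', dif_pos hj]
  have hc'ns : ∀ j, j ∉ s → c' j = 0 := by
    intro j hj
    simp only [hc', dif_neg hj]
  set e : A'.comap (algebraMap K K') → A' := fun a =>
    ⟨algebraMap K K' a, ValuationSubring.mem_comap.1 a.2⟩ with he
  -- the combination as an element of `A'`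
  set z : A' := ∑ j, e (c' j) * μ ^ (j : ℕ) with hz
  have hzval : (z : K') = ∑ j ∈ s, algebraMap K K' (c j) * (μ : K') ^ (j : ℕ) := by
    have h1 : (z : K') = ∑ j, algebraMap K K' (c' j) * (μ : K') ^ (j : ℕ) := by
      rw [hz]
      exact map_sum A'.subtype _ _
    rw [h1, ← Finset.sum_subset (Finset.subset_univ s)]
    · refine Finset.sum_congr rfl fun j hj => ?_
      rw [hc's j hj]
    · intro j _ hj
      rw [hc'ns j hj]
      simp
  -- its reduction vanishes
  have hzero : ρ' z = 0 := by
    rw [hker, hzval]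
    exact hlt
  -- hence all reduced coefficients vanish
  have hsum : ∑ j : Fin n, ρ₀ (c' j) • ρ' μ ^ (j : ℕ) = 0 := by
    rw [← hzero, hz, map_sum]
    refine Finset.sum_congr rfl fun j _ => ?_
    rw [map_mul, map_pow, Algebra.smul_def, ← hcompat]
  have hall := Fintype.linearIndependent_iff.1 hli (fun j => ρ₀ (c' j)) hsum i
  -- so the coefficient is a non-unit
  have h2 : ρ' (e (c' i)) = 0 := by
    rw [he, hcompat, hall, map_zero]
  have h3 := (hker _).1 h2
  rw [he] at h3
  simpa only [hc's i hi] using h3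

variable [FiniteDimensional K K']

/-- **Full residue degree through one Kummer element ⇒ unique extension.** -/
theorem unique_of_resIndep_pow (A' : ValuationSubring K') {R κ₀ : Type*} [CommRing R] [Field κ₀]
    [Algebra κ₀ R] (ρ' : A' →+* R)
    (hker : ∀ x : A', ρ' x = 0 ↔ A'.valuation (x : K') < 1)
    (ρ₀ : A'.comap (algebraMap K K') →+* κ₀)
    (hcompat : ∀ a : A'.comap (algebraMap K K'),
      ρ' ⟨algebraMap K K' a, ValuationSubring.mem_comap.1 a.2⟩ = algebraMap κ₀ R (ρ₀ a))
    {n : ℕ} (hn : Module.finrank K K' = n) (μ : A')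
    (hli : LinearIndependent κ₀ (fun i : Fin n => ρ' μ ^ (i : ℕ)))
    (A'' : ValuationSubring K')
    (hA'' : A''.comap (algebraMap K K') = A'.comap (algebraMap K K')) : A'' = A' :=
  eq_of_resIndep hA'' (resIndep_pow A' ρ' hker ρ₀ hcompat μ hli) (by rw [Fintype.card_fin, hn])

/-- **… hence stability under every automorphism over the small field.** -/
theorem apply_mem_iff_of_resIndep_pow (A' : ValuationSubring K') {R κ₀ : Type*} [CommRing R]
    [Field κ₀] [Algebra κ₀ R] (ρ' : A' →+* R)
    (hker : ∀ x : A', ρ' x = 0 ↔ A'.valuation (x : K') < 1)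
    (ρ₀ : A'.comap (algebraMap K K') →+* κ₀)
    (hcompat : ∀ a : A'.comap (algebraMap K K'),
      ρ' ⟨algebraMap K K' a, ValuationSubring.mem_comap.1 a.2⟩ = algebraMap κ₀ R (ρ₀ a))
    {n : ℕ} (hn : Module.finrank K K' = n) (μ : A')
    (hli : LinearIndependent κ₀ (fun i : Fin n => ρ' μ ^ (i : ℕ)))
    (σ : K' ≃ₐ[K] K') (x : K') : σ x ∈ A' ↔ x ∈ A' := by
  have h := unique_of_resIndep_pow A' ρ' hker ρ₀ hcompat hn μ hli
    (A'.comap (σ : K' →+* K')) (by
      ext a
      simp only [ValuationSubring.mem_comap]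
      rw [show ((σ : K' →+* K') (algebraMap K K' a)) = algebraMap K K' a from σ.commutes a])
  have h' : σ x ∈ A' ↔ x ∈ A'.comap (σ : K' →+* K') := Iff.rfl
  rw [h', h]

end Unique

end Fermat.Agent.S43.LG1.Ig.KummerUnique
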