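/-
PROJECT R (row 37 by S43), gate G, brick IG, item (4b) IG-R of helper17's cut (helper10): THE COVER
`E' = ℚ̄(X₁(N r))` OF `E'' = ℚ̄(X₁(N; r))` IS UNRAMIFIED AT EVERY FINITE PLACE.

GENERIC PART (`K` any field, function fields `FN ⊆ F0 ⊆ F ⊆ F'` over `K`):

* `ramificationIndex_eq_one_of_ord_eq_one` : a function of `F0` of order `1` at `w` forces `e(w | F0) = 1`;
* `ramificationIndex_eq_one_of_ord_le` : if `ord_w x ≤ ord_{w ∩ FN} x` and the latter is positive then
  `e(w | FN) = 1`;
* `ramificationIndex_eq_one_up` : `e(w | FN) = 1 ⟹ e(w | F0) = 1` (a uniformizer downstairs);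
* `ramificationIndex_eq_one_down` : `e(w' | F0) = 1 ⟹ e(w' ∩ F | F0) = 1` (the same uniformizer).

INSTANCE: `v'` a place of `F1Bar (N r)` at which `j` is finite, with value `a`.  By main's
`S48/B/B1/Main.ram1 (N r)`, `ord_{v'} (j - a)` is `1`, `≤ 3`, `≤ 2` according to `a ≠ 0, 1728`, `a = 0`,
`a = 1728`; at level `N` the order of `j - a` at the place below is `≥ 1`, `= 3`, `= 2` (the last two are
helper15's exactness lemmas of `Ig/Ell`, here two NAMED HYPOTHESES `Exact0 N`, `Exact1728 N`).  Hence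
`e(v' | F1Bar N) = 1` and `e(v' | F1pBar N r) = 1`: `unram_finite`.
-/
import Mathlib
import Fermat.Prelude.Def_AlgebraicCurve_DivisorPushPull
import Fermat.Agent.S43.LG1.Ig.TowerAlg

set_option autoImplicit false
set_option linter.unusedSectionVars false

noncomputable section

namespace Fermat.Agent.S43.LG1.Ig.UnramFinite

open AlgebraicCurve

/-! ### the generic part -/

section Generic

variable {K : Type*} [Field K]

/-- a uniformizer -/
theorem exists_unif {F : Type*} [Field F] [Algebra K F] (v : Place K F) :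
    ∃ t : F, t ≠ 0 ∧ v.ord t = 1 := by
  obtain ⟨ϖ, hϖ⟩ := IsDiscreteValuationRing.exists_irreducible v.toValuationSubring
  refine ⟨(ϖ : F), ?_, v.ord_coe_irreducible hϖ⟩
  simpa [ne_eq, ZeroMemClass.coe_eq_zero] using hϖ.ne_zero

variable {F0 : Type*} [Field F0] [Algebra K F0] {F' : Type*} [Field F'] [Algebra K F']
  [Algebra F0 F'] [IsScalarTower K F0 F'] [Algebra.IsIntegral F0 F']

/-- a function of `F0` of order `1` at `w` forces `e(w | F0) = 1` -/
theorem ramificationIndex_eq_one_of_ord_eq_one (w : Place K F') {t : F0}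
    (ht : w.ord (algebraMap F0 F' t) = 1) : w.ramificationIndex F0 = 1 := by
  have ht0 : t ≠ 0 := by
    rintro rfl
    rw [map_zero, Place.ord_zero] at ht
    exact zero_ne_one ht
  have hdvd := w.ramificationIndex_dvd_ord (F := F0) ht0
  rw [ht] at hdvd
  have hpos := w.ramificationIndex_pos (F := F0)
  have h1 : (w.ramificationIndex F0 : ℤ) ≤ 1 := Int.le_of_dvd one_pos hdvd
  omega

/-- if the order upstairs is at most the (positive) order downstairs, the place is unramified -/
theorem ramificationIndex_eq_one_of_ord_le (w : Place K F') {x : F0}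
    (hpos : 0 < (w.restrict F0).ord x)
    (hle : w.ord (algebraMap F0 F' x) ≤ (w.restrict F0).ord x) : w.ramificationIndex F0 = 1 := by
  have h1 := w.ord_restrict (F := F0) x
  have hepos := w.ramificationIndex_pos (F := F0)
  rw [h1] at hle
  by_contra hne
  have h2 : (2 : ℤ) ≤ (w.ramificationIndex F0 : ℤ) := by omega
  nlinarith

section Up

variable {FN : Type*} [Field FN] [Algebra K FN] [Algebra FN F0] [Algebra FN F']
  [IsScalarTower FN F0 F'] [IsScalarTower K FN F'] [Algebra.IsIntegral FN F']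

/-- **going up in the base**: unramified over the smaller field implies unramified over the larger -/
theorem ramificationIndex_eq_one_up (w : Place K F') (h : w.ramificationIndex FN = 1) :
    w.ramificationIndex F0 = 1 := by
  obtain ⟨t, -, ht⟩ := exists_unif (w.restrict FN)
  have h1 := w.ord_restrict (F := FN) t
  rw [h, ht, Nat.cast_one, mul_one, IsScalarTower.algebraMap_apply FN F0 F'] at h1
  exact ramificationIndex_eq_one_of_ord_eq_one w h1

end Up

section Down

variable {F : Type*} [Field F] [Algebra K F] [Algebra F0 F] [Algebra F F']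
  [IsScalarTower F0 F F'] [IsScalarTower K F F'] [IsScalarTower K F0 F] [Algebra.IsIntegral F F']
  [Algebra.IsIntegral F0 F]

/-- **going down in the cover**: if `w'` is unramified over `F0` then so is its restriction to any
intermediate field -/
theorem ramificationIndex_eq_one_down (w' : Place K F') (h : w'.ramificationIndex F0 = 1) :
    (w'.restrict F).ramificationIndex F0 = 1 := by
  obtain ⟨t, -, ht⟩ := exists_unif (w'.restrict F0)
  have h1 := w'.ord_restrict (F := F0) t
  rw [h, ht, Nat.cast_one, mul_one, IsScalarTower.algebraMap_apply F0 F F'] at h1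
  have h2 := w'.ord_restrict (F := F) (algebraMap F0 F t)
  rw [h1] at h2
  -- `1 = e(w' | F) * ord`, so `ord = 1`
  have hepos := w'.ramificationIndex_pos (F := F)
  have h3 : ((w'.restrict F).ord (algebraMap F0 F t)) = 1 := by
    have hdvd : ((w'.restrict F).ord (algebraMap F0 F t)) ∣ 1 := ⟨_, by rw [mul_comm]; exact h2⟩
    have hnn : 0 ≤ (w'.restrict F).ord (algebraMap F0 F t) := by
      by_contra hneg
      push Not at hneg
      have : (w'.ramificationIndex F : ℤ) * (w'.restrict F).ord (algebraMap F0 F t) < 0 :=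
        mul_neg_of_pos_of_neg (by exact_mod_cast hepos) hneg
      omega
    exact Int.eq_one_of_dvd_one hnn hdvd
  exact ramificationIndex_eq_one_of_ord_eq_one _ h3

end Down

end Generic

/-! ### the instance -/

section Instance

open ModularCurve IntermediateField
open Fermat.Agent.S48.B.Defs.Model Fermat.Agent.S48.B.B1 Fermat.Agent.S48.B.B1.Seams
open Fermat.Agent.S48.B.B1.Seams2 Fermat.Agent.S48.B.ES.DegreeBeta1
open Fermat.Agent.S43.LG1.Ig.Tower Fermat.Agent.S43.LG1.Ig.TowerAlg

local notation "Kb" => AlgebraicClosure ℚ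

variable (N r : ℕ) [NeZero N] [NeZero r]

/-- helper15's exactness over `j = 0` at level `N` (`Ig/Ell`), as a named hypothesis -/
def Exact0 : Prop :=
  ∀ v : Place Kb (F1Bar N), v.adicValuation (jgen1 N - algebraMap Kb _ 0) < 1 →
    v.ord (jgen1 N - algebraMap Kb _ 0) = 3

/-- helper15's exactness over `j = 1728` at level `N` (`Ig/Ell`), as a named hypothesis -/
def Exact1728 : Prop :=
  ∀ v : Place Kb (F1Bar N), v.adicValuation (jgen1 N - algebraMap Kb _ 1728) < 1 →
    v.ord (jgen1 N - algebraMap Kb _ 1728) = 2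

variable [hc : Fact (r.Coprime N)]

attribute [local instance] towerAlgebra

/-- `E'' = ℚ̄(X₁(N; r))` over `ℚ̄(X₁(N))`, along `α` (use as a local instance; it is C1's `algFE1`) -/
@[reducible] def algN0 : Algebra ↥(F1Bar N) ↥(F1pBar N r) := (alpha1 N r Kb).toRingHom.toAlgebra

/-- `E' = ℚ̄(X₁(N r))` over `ℚ̄(X₁(N))` (use as a local instance) -/
@[reducible] def algN1 : Algebra ↥(F1Bar N) ↥(F1Bar (N * r)) :=
  ((incl N r).comp (alpha1 N r Kb)).toRingHom.toAlgebra

attribute [local instance] algN0 algN1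

theorem isScalarTower_N01 : IsScalarTower ↥(F1Bar N) ↥(F1pBar N r) ↥(F1Bar (N * r)) :=
  IsScalarTower.of_algebraMap_eq fun _ => rfl

theorem isScalarTower_KbN1 : IsScalarTower Kb ↥(F1Bar N) ↥(F1Bar (N * r)) :=
  IsScalarTower.of_algebraMap_eq fun c => (((incl N r).comp (alpha1 N r Kb)).commutes c).symm

theorem isScalarTower_KbN0 : IsScalarTower Kb ↥(F1Bar N) ↥(F1pBar N r) :=
  IsScalarTower.of_algebraMap_eq fun c => ((alpha1 N r Kb).commutes c).symm

theorem coe_algebraMap_N1 (x : ↥(F1Bar N)) :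
    ((algebraMap ↥(F1Bar N) ↥(F1Bar (N * r)) x : ↥(F1Bar (N * r))) : LaurentSeries Kb) =
      (x : LaurentSeries Kb) := by
  show ((incl N r (alpha1 N r Kb x) : ↥(F1Bar (N * r))) : LaurentSeries Kb) = _
  rw [coe_incl, coe_alpha1]

/-- `j` of level `N` is `j` of level `N r` -/
theorem algebraMap_jgen1_sub (a : Kb) :
    algebraMap ↥(F1Bar N) ↥(F1Bar (N * r)) (jgen1 N - algebraMap Kb _ a) =
      jgen1 (N * r) - algebraMap Kb _ a := by
  haveI := isScalarTower_KbN1 N r
  rw [map_sub, ← IsScalarTower.algebraMap_apply]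
  have h : algebraMap ↥(F1Bar N) ↥(F1Bar (N * r)) (jgen1 N) = jgen1 (N * r) := by
    apply Subtype.ext
    rw [coe_algebraMap_N1, Fermat.Agent.S48.B.ES.DegreeBridge1.coe_jgen1,
      Fermat.Agent.S48.B.ES.DegreeBridge1.coe_jgen1]
  rw [h]

theorem finite_N0 (hr : r.Prime) (hrN : ¬ r ∣ N) : Module.Finite ↥(F1Bar N) ↥(F1pBar N r) := by
  have h : Module.finrank ↥(F1Bar N) ↥(F1pBar N r) = r + 1 :=
    Fermat.Agent.S48.B.ES.DegreeBridge1.finrankAlong_alpha1_of_seams hr hrN (Main.deg1 N)
      (Main.deg1p N r)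
  exact Module.finite_of_finrank_pos (by rw [h]; omega)

/-- **`E' / E''` is unramified at every finite place** (`j` regular), modulo the exactness of the
ramification over `j = 0, 1728` at level `N` -/
theorem unram_finite (hr : r.Prime) (hrN : ¬ r ∣ N) (hN : 5 ≤ N) (hr2 : 2 < r)
    (h0 : Exact0 N) (h1728 : Exact1728 N) (v' : Place Kb (F1Bar (N * r)))
    (hfin : v'.adicValuation (jgen1 (N * r)) ≤ 1) :
    v'.ramificationIndex ↥(F1pBar N r) = 1 := by
  haveI := isScalarTower_tower N r
  haveI := isScalarTower_N01 N r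
  haveI := isScalarTower_KbN1 N r
  haveI := isScalarTower_KbN0 N r
  haveI := finite_N0 N r hr hrN
  haveI := finiteDimensional_tower N r hr hrN hN hr2
  haveI : Algebra.IsIntegral ↥(F1Bar N) ↥(F1pBar N r) := Algebra.IsIntegral.of_finite _ _
  haveI : Algebra.IsIntegral ↥(F1pBar N r) ↥(F1Bar (N * r)) := Algebra.IsIntegral.of_finite _ _
  haveI : Algebra.IsIntegral ↥(F1Bar N) ↥(F1Bar (N * r)) :=
    Algebra.IsIntegral.trans (A := ↥(F1pBar N r))
  -- the value of `j` at `v'`
  obtain ⟨a, ha⟩ := Fermat.Agent.S24.Ord.exists_sub_lt_one (Main.deg1 (N * r)).1 v' hfin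
  set x : ↥(F1Bar N) := jgen1 N - algebraMap Kb _ a with hx
  have hx0 : x ≠ 0 := Ram1.jgen1_sub_ne_zero N (Main.deg1 N) a
  have hmap : algebraMap ↥(F1Bar N) ↥(F1Bar (N * r)) x = jgen1 (N * r) - algebraMap Kb _ a :=
    algebraMap_jgen1_sub N r a
  have hx'0 : jgen1 (N * r) - algebraMap Kb (↥(F1Bar (N * r))) a ≠ 0 :=
    Ram1.jgen1_sub_ne_zero (N * r) (Main.deg1 (N * r)) a
  have hd' : 0 < v'.ord (algebraMap ↥(F1Bar N) ↥(F1Bar (N * r)) x) := by
    rw [hmap]
    exact (Fermat.Agent.S24.Ord.ord_pos_iff v' hx'0).mpr ha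
  have hres := v'.ord_restrict (F := ↥(F1Bar N)) x
  have hepos := v'.ramificationIndex_pos (F := ↥(F1Bar N))
  have hd : 0 < (v'.restrict ↥(F1Bar N)).ord x := by
    by_contra hcon
    push Not at hcon
    have : (v'.ramificationIndex ↥(F1Bar N) : ℤ) * (v'.restrict ↥(F1Bar N)).ord x ≤ 0 :=
      mul_nonpos_of_nonneg_of_nonpos (by positivity) hcon
    omega
  have hdval : (v'.restrict ↥(F1Bar N)).adicValuation x < 1 :=
    (Fermat.Agent.S24.Ord.ord_pos_iff _ hx0).mp hd
  obtain ⟨r0, r1728, rgen, -⟩ := Main.ram1 (N * r)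
  have hN1 : v'.ramificationIndex ↥(F1Bar N) = 1 := by
    refine ramificationIndex_eq_one_of_ord_le v' hd ?_
    rw [hmap]
    by_cases ha0 : a = 0
    · subst ha0
      rw [h0 _ hdval]
      exact r0 v' ha
    by_cases ha1 : a = 1728
    · subst ha1
      rw [h1728 _ hdval]
      exact r1728 v' ha
    · rw [rgen a ha0 ha1 v' ha]
      omega
  exact ramificationIndex_eq_one_up (FN := ↥(F1Bar N)) v' hN1

end Instance

end Fermat.Agent.S43.LG1.Ig.UnramFinite

end
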