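/-
PROJECT R (row 37 by S43), gate G, brick IG, item (M5) = (IG-6) of helper17's final cut (helper23):
**`E' = ℚ̄(X₁(N r))` IS UNRAMIFIED OVER `E'' = ℚ̄(X₁(N; r))` AT EVERY PLACE, AND SO IS EVERY
INTERMEDIATE FIELD `F_H`** (`5 ≤ N`, `r > 2` prime, `r ∤ N`).

* `exact0`, `exact1728` : helper10's two named hypotheses `UnramFinite.Exact0 N`, `Exact1728 N` are
  helper15's exactness theorems of `Ig/Ell`;
* `sigmaHom_bijective` : the diamonds of the `r`-part are ALL the `E''`-automorphisms of `E'`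
  (helper3's `TowerH`: injective, and both sides have `r - 1` elements);
* `unram_cusp` : at a pole of `j`, helper2's `CuspFree` (no nontrivial diamond of the `r`-part fixes
  a cusp) + helper17's `GaloisUnram.ramificationIndex_eq_one_of_free`;
* `unram_finite` : at the other places, helper10's `UnramFinite.unram_finite`;
* **`unram_top`** : `∀ w : Place ℚ̄ E', e(w | E'') = 1`;
* **`unram_FH`** : `∀ P : Place ℚ̄ F_H, e(P | E'') = 1`, for EVERY subgroup `H` of `(ℤ/N r)ˣ`
  (helper9's `LiftPlace` gives a place of `E'` over `P`, then `ramificationIndex_eq_one_down`);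
* `dvd_ord_of_pow_eq`, `dvd_ord_of_pow_eq_FH` : `m ∣ ord_Q θ` at every place `Q` of `E''` for `θ : E''`
  an `m`-th power in `E'`, resp. in `F_H` (the hypothesis `hdvd` of the Kummer genus count).
-/
import Mathlib
import Fermat.Agent.S18.GaussFromHBar
import Fermat.Agent.S48.B.ES.RelPic1
import Fermat.Agent.S43.LG1.Ig.TowerH
import Fermat.Agent.S43.LG1.Ig.UnramFinite
import Fermat.Agent.S43.LG1.Ig.GaloisUnram
import Fermat.Agent.S43.LG1.Ig.CuspFree
import Fermat.Agent.S43.LG1.Ig.Ell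
import Fermat.Agent.S43.LG1.C2.LiftPlace

set_option autoImplicit false
set_option linter.unusedSectionVars false
set_option linter.style.haveILetI false
set_option synthInstance.maxHeartbeats 400000

noncomputable section

namespace Fermat.Agent.S43.LG1.Ig.UnramAll

open AlgebraicCurve ModularCurve IntermediateField
open Fermat.Agent.S48.B.Defs.Model Fermat.Agent.S48.B.B1 Fermat.Agent.S48.B.B1.Seams
open Fermat.Agent.S48.B.B1.Seams2 Fermat.Agent.S48.B.ES.DegreeBeta1
open Fermat.Agent.S43.LG1.Ig.Tower Fermat.Agent.S43.LG1.Ig.TowerAlg Fermat.Agent.S43.LG1.Ig.TowerH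

local notation "Kb" => AlgebraicClosure ℚ

/-! ### helper10's two named hypotheses are helper15's theorems -/

section Exact

variable (N : ℕ) [NeZero N]

/-- every zero of `j` on `X₁(N)` has order exactly `3` (`4 ≤ N`) -/
theorem exact0 (hN : 4 ≤ N) : UnramFinite.Exact0 N := by
  intro v hv
  refine Ell.ord_jgen1_eq_three_of_mem N hN v ?_
  rw [Fermat.Agent.S18.A.FibreSep.mem_nonunits_iff]
  exact hv

/-- every zero of `j - 1728` on `X₁(N)` has order exactly `2` (`3 ≤ N`) -/
theorem exact1728 (hN : 3 ≤ N) : UnramFinite.Exact1728 N := by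
  intro v hv
  refine Ell.ord_jgen1_sub_1728_eq_two_of_mem N hN v ?_
  rw [Fermat.Agent.S18.A.FibreSep.mem_nonunits_iff]
  exact hv

end Exact

variable (N r : ℕ) [NeZero N] [NeZero r] [hc : Fact (r.Coprime N)]

attribute [local instance] towerAlgebra isScalarTower_tower

/-! ### the Galois group of `E' / E''` is the `r`-part -/

/-- **the diamonds of the `r`-part are all the `E''`-automorphisms of `E'`** -/
theorem sigmaHom_bijective (hr : r.Prime) (hrN : ¬ r ∣ N) (hN : 5 ≤ N) (hr2 : 2 < r) :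
    Function.Bijective (sigmaHom N r) := by
  haveI := finiteDimensional_tower N r hr hrN hN hr2
  haveI := isGalois_tower N r hr hrN hN hr2
  rw [Nat.bijective_iff_injective_and_card]
  refine ⟨sigmaHom_injective N r (by omega), ?_⟩
  rw [card_rPart N r hr hrN, IsGalois.card_aut_eq_finrank, finrank_tower N r hr hrN hN]

/-- the diamond of an element of the `r`-part, as a `ℚ̄`-automorphism -/
theorem toK_sigmaHom (d : rPart N r) :
    GaloisUnram.toK (K := Kb) (sigmaHom N r d) = diamondAut (N * r) Kb (d : (ZMod (N * r))ˣ) :=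
  AlgEquiv.ext fun _ => rfl

/-- the `r`-part in the form of helper2's `CuspFree` -/
theorem unitsMap_eq_one_of_mem {d : (ZMod (N * r))ˣ} (hd : d ∈ rPart N r) :
    ZMod.unitsMap (Nat.dvd_mul_right N r) d = 1 := by
  rw [mem_rPart_iff, ZMod.natCast_val] at hd
  apply Units.ext
  rw [Units.val_one, ← hd]
  rfl

/-! ### the cusps -/

/-- **`E' / E''` is unramified at the poles of `j`** -/
theorem unram_cusp (hr : r.Prime) (hrN : ¬ r ∣ N) (hN : 5 ≤ N) (hr2 : 2 < r)
    (w : Place Kb ↥(F1Bar (N * r))) (hw : w.ord (jgen1 (N * r)) < 0) :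
    w.ramificationIndex ↥(F1pBar N r) = 1 := by
  haveI := finiteDimensional_tower N r hr hrN hN hr2
  haveI := isGalois_tower N r hr hrN hN hr2
  haveI : HasPrincipalDivisors Kb ↥(F1Bar (N * r)) :=
    Fermat.Agent.S18.GaussFromHBar.hasPrincipalDivisors_of_isFF (Main.deg1 (N * r)).1
  refine GaloisUnram.ramificationIndex_eq_one_of_free
    (Fermat.Agent.S48.B.ES.RelPic1.isFF_jgen1p hr hrN (Main.deg1 N) (Main.deg1p N r))
    (Main.deg1 (N * r)).1 w ?_
  intro σ hσ
  obtain ⟨d, rfl⟩ := (sigmaHom_bijective N r hr hrN hN hr2).2 σ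
  by_contra hne
  have hd : (d : (ZMod (N * r))ˣ) ≠ 1 := by
    intro h
    apply hne
    have h1 : d = 1 := Subtype.ext h
    rw [h1, map_one]
  refine CuspFree.diamondAut_smul_ne_of_five_le hN hr hrN (d : (ZMod (N * r))ˣ) hd
    (unitsMap_eq_one_of_mem N r d.2) w hw ?_
  rw [← toK_sigmaHom]
  exact hσ

/-! ### all the places of `E'` -/

/-- **`E' = ℚ̄(X₁(N r))` is unramified over `E'' = ℚ̄(X₁(N; r))` at every place** -/
theorem unram_top (hr : r.Prime) (hrN : ¬ r ∣ N) (hN : 5 ≤ N) (hr2 : 2 < r)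
    (w : Place Kb ↥(F1Bar (N * r))) : w.ramificationIndex ↥(F1pBar N r) = 1 := by
  by_cases h : w.adicValuation (jgen1 (N * r)) ≤ 1
  · exact UnramFinite.unram_finite N r hr hrN hN hr2 (exact0 N (by omega)) (exact1728 N (by omega))
      w h
  · refine unram_cusp N r hr hrN hN hr2 w ?_
    rw [Fermat.Agent.S24.Ord.ord_neg_iff w (Main.deg1 (N * r)).1.ne_zero]
    exact not_le.mp h

/-! ### the intermediate fields `F_H` -/

variable (H : Subgroup (ZMod (N * r))ˣ)

/-- the tower `ℚ̄ ⊆ F_H ⊆ E'` -/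
theorem isScalarTower_Kb_FH_top : IsScalarTower Kb ↥(FH N r H) ↥(F1Bar (N * r)) :=
  IsScalarTower.of_algebraMap_eq fun _ => rfl

/-- **(IG-6): every intermediate field `F_H` of `E' / E''` is unramified over `E''` at every
place** -/
theorem unram_FH (hr : r.Prime) (hrN : ¬ r ∣ N) (hN : 5 ≤ N) (hr2 : 2 < r)
    (P : Place Kb ↥(FH N r H)) : P.ramificationIndex ↥(F1pBar N r) = 1 := by
  haveI := finiteDimensional_tower N r hr hrN hN hr2
  haveI := finiteDimensional_FH N r H hr hrN hN hr2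
  haveI : FiniteDimensional ↥(FH N r H) ↥(F1Bar (N * r)) :=
    IntermediateField.finiteDimensional_right (FH N r H)
  haveI : Algebra.IsIntegral ↥(FH N r H) ↥(F1Bar (N * r)) := Algebra.IsIntegral.of_finite _ _
  haveI : Algebra.IsIntegral ↥(F1pBar N r) ↥(FH N r H) := Algebra.IsIntegral.of_finite _ _
  haveI := isScalarTower_Kb_FH_top N r H
  obtain ⟨w', hw'⟩ := Fermat.Agent.S43.LG1.C2.LiftPlace.exists_place_over_of_charZero
    (L := Kb) (F0 := ↥(FH N r H)) (F := ↥(F1Bar (N * r))) P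
  rw [← hw']
  exact UnramFinite.ramificationIndex_eq_one_down (F0 := ↥(F1pBar N r)) (F := ↥(FH N r H)) w'
    (unram_top N r hr hrN hN hr2 w')

/-! ### the divisibility consumed by the Kummer genus count -/

/-- an element of `E''` which is an `m`-th power in `E'` has order divisible by `m` at every place
of `E''` -/
theorem dvd_ord_of_pow_eq (hr : r.Prime) (hrN : ¬ r ∣ N) (hN : 5 ≤ N) (hr2 : 2 < r)
    {m : ℕ} {θ : ↥(F1pBar N r)} {Z : ↥(F1Bar (N * r))}
    (hZ : Z ^ m = algebraMap ↥(F1pBar N r) ↥(F1Bar (N * r)) θ) (Q : Place Kb ↥(F1pBar N r)) :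
    (m : ℤ) ∣ Q.ord θ := by
  haveI := finiteDimensional_tower N r hr hrN hN hr2
  haveI : Algebra.IsIntegral ↥(F1pBar N r) ↥(F1Bar (N * r)) := Algebra.IsIntegral.of_finite _ _
  obtain ⟨w, hw⟩ := Fermat.Agent.S43.LG1.C2.LiftPlace.exists_place_over_of_charZero
    (L := Kb) (F0 := ↥(F1pBar N r)) (F := ↥(F1Bar (N * r))) Q
  rw [← hw]
  exact GaloisUnram.dvd_ord_of_unram w (unram_top N r hr hrN hN hr2 w) hZ

/-- the same for an `m`-th power in `F_H` -/
theorem dvd_ord_of_pow_eq_FH (hr : r.Prime) (hrN : ¬ r ∣ N) (hN : 5 ≤ N) (hr2 : 2 < r)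
    {m : ℕ} {θ : ↥(F1pBar N r)} {Z : ↥(FH N r H)}
    (hZ : Z ^ m = algebraMap ↥(F1pBar N r) ↥(FH N r H) θ) (Q : Place Kb ↥(F1pBar N r)) :
    (m : ℤ) ∣ Q.ord θ := by
  refine dvd_ord_of_pow_eq N r hr hrN hN hr2 (Z := (Z : ↥(F1Bar (N * r)))) ?_ Q
  have h := congrArg (Subtype.val : ↥(FH N r H) → ↥(F1Bar (N * r))) hZ
  rw [coe_algebraMap_FH] at h
  rw [← h]
  rfl

end Fermat.Agent.S43.LG1.Ig.UnramAll

end
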