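/-
PROJECT R (row 37 by S43), gate G, IG assembly (helper4): **THE SEAM (C) ON helper3's `F_H` IN
DIVISOR LANGUAGE FROM A KUMMER COVER, THE INERTIA HYPOTHESES AND THE COUNT DISCHARGED.**

`C2/Exit.principal_cover_of_genus` (helper9 ∘ helper10) at `F := ↥(FH N q H)`, `F0 := ↥(F1pBar N q)`
with `T1 T2` produced for EVERY inertia element by `Ig/InertiaH.exists_compat_FH`, the one-units
reduced by `H/WireC.exists_red_eq_one`, `hrootL` by `IsAlgClosed ℚ̄`, `hπ` by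
`IsLocalRing.residue_surjective`.

* **`principalPairH_FH`** : `CoreZ.PrincipalPairH (incl N q H) p A (VH N q H hA) (wF w)`, i.e. the
  hypothesis `hC` of `H/Inst.lg1HypAtH_inst_w` for one `A ∣ q`.
-/
import Fermat.Agent.S43.LG1.Ig.InertiaH
import Fermat.Agent.S43.LG1.H.WireC
import Fermat.Agent.S43.LG1.C2.Exit

set_option autoImplicit false
set_option linter.unusedSectionVars false
set_option synthInstance.maxHeartbeats 400000

noncomputable section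

namespace Fermat.Agent.S43.LG1.Ig.WireH

open AlgebraicCurve AlgebraicCurve.SemilinearAut ModularCurve IsLocalRing
open Fermat.Agent.S48.B.Defs.Model Fermat.Agent.S48.B.ES.DegreeBeta1
open Fermat.Agent.S34.NodalDefs
open Fermat.Agent.S18.NonSpecial Fermat.Agent.S18.CoreDefs
open Fermat.Agent.S43.LG1.OfFricke Fermat.Agent.S43.LG1.Instance
open Fermat.Agent.S43.LG1.Fricke.Seam Fermat.Agent.S43.LG1.OfSeams Fermat.Agent.S43.LG1.OfSeamsR
open Fermat.Agent.S43.LG1.H.Gate Fermat.Agent.S43.LG1.H.CoreZ Fermat.Agent.S43.LG1.H.Lit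
open Fermat.Agent.S43.LG1.H.Inst Fermat.Agent.S43.LG1.H.WireC
open Fermat.Agent.S43.LG1.V.Branch
open Fermat.Agent.S43.LG1.C2.Seam Fermat.Agent.S43.LG1.C2.SpecEquiv
open Fermat.Agent.S43.LG1.Ig.Tower Fermat.Agent.S43.LG1.Ig.TowerAlg Fermat.Agent.S43.LG1.Ig.TowerH
open Fermat.Agent.S43.LG1.Ig.InertiaH

local notation "Kb" => AlgebraicClosure ℚ

attribute [local instance] Fermat.Agent.S43.LG1.Fricke.Seam.instNeZeroMul
attribute [local instance] towerAlgebra isScalarTower_tower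

variable (N q : ℕ) [NeZero N] [NeZero q] [hc : Fact (q.Coprime N)]
variable (H : Subgroup (ZMod (N * q))ˣ)
variable [hq : Fact q.Prime] {A : ValuationSubring Kb}
variable {κ1 : Type*} [Field κ1] {κ2 : Type*} [Field κ2]
variable {K1 : Type*} [Field K1] {K2 : Type*} [Field K2]
variable {ι' : Type*}

/-- **THE SEAM (C) ON `F_H` IN DIVISOR LANGUAGE**, from a Kummer cover `Y` of a nodal datum of
`E''` whose Gauss rings are `V_H`, `(wF w)⁻¹ V_H`. -/
theorem principalPairH_FH (hH : H ≤ rPart N q) (hA : A.LiesOverPrime q)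
    (hI1 : ∀ d : (ZMod (N * q))ˣ, IsQPart N q d → ∀ x : ↥(FH N q H),
      diamondAut (N * q) Kb d (x : ↥(F1Bar (N * q))) ∈ gaussV (N * q) hA ↔
        (x : ↥(F1Bar (N * q))) ∈ gaussV (N * q) hA)
    {w : F1Bar (N * q) ≃ₐ[Kb] F1Bar (N * q)} (hw : IsFricke N q w)
    [FiniteDimensional ↥(F1pBar N q) ↥(FH N q H)]
    [Algebra (ResidueField A) κ1] [Algebra (ResidueField A) κ2]
    [Algebra (ResidueField A) K1] [Algebra κ1 K1] [IsScalarTower (ResidueField A) κ1 K1]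
    [Algebra.IsIntegral κ1 K1]
    [Algebra (ResidueField A) K2] [Algebra κ2 K2] [IsScalarTower (ResidueField A) κ2 K2]
    [Algebra.IsIntegral κ2 K2]
    [HasPrincipalDivisors Kb ↥(F1pBar N q)] [HasPrincipalDivisors Kb ↥(FH N q H)]
    [HasPrincipalDivisors (ResidueField A) κ1] [HasPrincipalDivisors (ResidueField A) κ2]
    [HasPrincipalDivisors (ResidueField A) K1] [HasPrincipalDivisors (ResidueField A) K2]
    [Fintype ι'] [Nonempty ι']
    {N0 : GNodalDatum A (residue A) ↥(F1pBar N q) κ1 κ2 ι'}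
    (Y : KummerCover N0 K1 K2 ↥(FH N q H)) (hO1 : Y.U1.B.O = VH N q H hA)
    (hO2 : Y.U2.B.O = pull (VH N q H hA)
      (wF (incl N q H) (range_incl N q H hH) (isRPart_of_le N q H hH) w hw))
    (hr1 : ∀ σ ∈ A.inertiaSubgroupIn ℚ, ∀ P : Place Kb ↥(F1pBar N q),
      N0.R1.r (arithmeticGalois (F1p N q) σ • P) = N0.R1.r P)
    (hr2 : ∀ σ ∈ A.inertiaSubgroupIn ℚ, ∀ P : Place Kb ↥(F1pBar N q),
      N0.R2.r (arithmeticGalois (F1p N q) σ • P) = N0.R2.r P)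
    (hadmfin : ∀ T1 T2, N0.Adm T1 T2 → T1.Finite ∧ T2.Finite)
    (hinj1 : Function.Injective N0.e1) (hinj2 : Function.Injective N0.e2)
    {p : ℕ} (hpk : (p : ResidueField A) ≠ 0)
    {g' g0 gk g1 g2 : ℕ} (R0 : RiemannHyp Kb ↥(F1pBar N q) g0)
    (R' : RiemannHyp Kb ↥(FH N q H) g')
    (Rκ1 : RiemannHyp (ResidueField A) κ1 gk) (Rκ2 : RiemannHyp (ResidueField A) κ2 gk)
    (RK1 : RiemannHyp (ResidueField A) K1 g1) (RK2 : RiemannHyp (ResidueField A) K2 g2)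
    (hun : ∀ P : Place Kb ↥(FH N q H), P.ramificationIndex ↥(F1pBar N q) = 1)
    {ν1 : K1} {θ1 : κ1} (hν1 : ν1 ^ Y.m = algebraMap κ1 K1 θ1)
    (hcop1 : ∀ j, IsCoprime ((N0.e1 j).ord θ1) (Y.m : ℤ))
    {ν2 : K2} {θ2 : κ2} (hν2 : ν2 ^ Y.m = algebraMap κ2 K2 θ2)
    (hcop2 : ∀ j, IsCoprime ((N0.e2 j).ord θ2) (Y.m : ℤ))
    (hNC : (g0 : ℤ) + 1 ≤ gk + gk + Fintype.card ι')
    (Pstar : Place Kb ↥(F1pBar N q)) (Qstar : Place (ResidueField A) κ1)
    (hQstar : Qstar ∈ N0.R1.good) (hstar : N0.R1.r Pstar = some Qstar) :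
    PrincipalPairH (incl N q H) p A (VH N q H hA)
      (wF (incl N q H) (range_incl N q H hH) (isRPart_of_le N q H hH) w hw) := by
  intro s hs g hg n u D _ h1 h2 hD0 hD
  obtain ⟨g0', τ1, τ2, T1, T2⟩ :=
    exists_compat_FH N q H hH hA hI1 hw Y hO1 hO2 hr1 hr2 s hs g hg
  rw [← hO1] at h1
  rw [← hO2] at h2
  obtain ⟨hu1, hred1⟩ := exists_red_eq_one Y.U1.B h1
  obtain ⟨hu2, hred2⟩ := exists_red_eq_one Y.U2.B h2
  have hnk : ((p ^ n : ℕ) : ResidueField A) ≠ 0 := by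
    rw [Nat.cast_pow]
    exact pow_ne_zero n hpk
  have hm0 : Y.m ≠ 0 := by
    intro h0
    apply Y.hm
    rw [h0, Nat.cast_zero]
  have hrootL : ∀ a : Kb, ∃ b : Kb, b ^ Y.m = a := fun a =>
    IsAlgClosed.exists_pow_nat_eq a (Nat.pos_of_ne_zero hm0)
  exact Fermat.Agent.S43.LG1.C2.Exit.principal_cover_of_genus Y hrootL hadmfin hinj1 hinj2
    residue_surjective (p ^ n) hnk R0 R' Rκ1 Rκ2 RK1 RK2 hun hν1 hcop1 hν2 hcop2 hNC
    Pstar Qstar hQstar hstar g g0' τ1 τ2 T1 T2 hu1 hu2 hred1 hred2 D hD0 hD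

end Fermat.Agent.S43.LG1.Ig.WireH
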