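/-
PROJECT R (row 37 by S43), gate G, IG assembly (helper4): **THE SEAM (C) ON helper3's `F_H` FROM A
KUMMER COVER OF THE NODAL DATUM OF C1**, every C1-side binder of `Ig/WireH.principalPairH_FH`
discharged by helper18's `C1/ExitC2` at `N0 := nodalC1 X Yc`.

What is left: the cover `Y` with its Gauss rings `V_H`, `(wF w)⁻¹ V_H` ((M4) `Ig/CoverInst`), (I1) on `F_H`, Riemann's theorem on `F_H`, `K1`, `K2` ((M6) `Ig/ResFF`),
`F_H / E''` unramified ((M5) `Ig/UnramAll`), and (T) at the nodes ((M1) `Ig/NodeT`).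

* **`principalPairH_C1`**.
-/
import Fermat.Agent.S43.LG1.Ig.WireH
import Fermat.Agent.S43.LG1.C1.ExitC2

set_option autoImplicit false
set_option linter.unusedSectionVars false
set_option synthInstance.maxHeartbeats 400000

noncomputable section

namespace Fermat.Agent.S43.LG1.Ig.WireC1

open AlgebraicCurve AlgebraicCurve.SemilinearAut ModularCurve IsLocalRing
open Fermat.Agent.S48.B.Defs.Model Fermat.Agent.S48.B.ES.DegreeBeta1
open Fermat.Agent.S34.NodalDefs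
open Fermat.Agent.S37.Deuring.Core
open Fermat.Agent.S18.NonSpecial Fermat.Agent.S18.CoreDefs
open Fermat.Agent.S43.LG1.OfFricke Fermat.Agent.S43.LG1.Instance
open Fermat.Agent.S43.LG1.Fricke.Seam Fermat.Agent.S43.LG1.OfSeams Fermat.Agent.S43.LG1.OfSeamsR
open Fermat.Agent.S43.LG1.H.Gate Fermat.Agent.S43.LG1.H.CoreZ
open Fermat.Agent.S43.LG1.H.Inst
open Fermat.Agent.S43.LG1.V.Branch
open Fermat.Agent.S43.LG1.C2.Seam
open Fermat.Agent.S43.LG1.Ig.Tower Fermat.Agent.S43.LG1.Ig.TowerAlg Fermat.Agent.S43.LG1.Ig.TowerH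
open Fermat.Agent.S43.LG1.C1.Seam Fermat.Agent.S43.LG1.C1.CoreZX1Assembly
open Fermat.Agent.S43.LG1.C1.CoreZX1Build

local notation "Kb" => AlgebraicClosure ℚ

attribute [local instance] Fermat.Agent.S43.LG1.Fricke.Seam.instNeZeroMul
attribute [local instance] towerAlgebra isScalarTower_tower
attribute [local instance] algShortcut1

variable {q : ℕ} [hq : Fact q.Prime] {N : ℕ} [NeZero N] {A : ValuationSubring Kb} [NeZero q]
variable [hc : Fact (q.Coprime N)]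
variable {hr : q.Prime} {hA : A.LiesOverPrime q} {hrN : ¬ q ∣ N}
variable [HasPrincipalDivisors Kb ↥(F1pBar N q)]
variable [HasPrincipalDivisors (ResidueField ↥A) ↥(F1C N (ResidueField ↥A))]
variable {gL gk : ℕ} {Hy : Hyp (gaussDatum1 N A hr hA hrN) gL gk}
variable [CharP (ResidueField ↥A) q]
variable {K1 : Type*} [Field K1] {K2 : Type*} [Field K2]

/-- **THE SEAM (C) ON `F_H` FROM A KUMMER COVER OF THE NODAL DATUM OF C1.** -/
theorem principalPairH_C1 (X : Inputs1 hr hA hrN Hy) (Yc : NodesC1 X)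
    (H : Subgroup (ZMod (N * q))ˣ) (hH : H ≤ rPart N q)
    (hI1 : ∀ d : (ZMod (N * q))ˣ, IsQPart N q d → ∀ x : ↥(FH N q H),
      diamondAut (N * q) Kb d (x : ↥(F1Bar (N * q))) ∈ gaussV (N * q) hA ↔
        (x : ↥(F1Bar (N * q))) ∈ gaussV (N * q) hA)
    {w : F1Bar (N * q) ≃ₐ[Kb] F1Bar (N * q)} (hw : IsFricke N q w)
    [FiniteDimensional ↥(F1pBar N q) ↥(FH N q H)]
    [Algebra (ResidueField A) K1] [Algebra ↥(F1C N (ResidueField ↥A)) K1]
    [IsScalarTower (ResidueField A) ↥(F1C N (ResidueField ↥A)) K1]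
    [Algebra.IsIntegral ↥(F1C N (ResidueField ↥A)) K1]
    [Algebra (ResidueField A) K2] [Algebra ↥(F1C N (ResidueField ↥A)) K2]
    [IsScalarTower (ResidueField A) ↥(F1C N (ResidueField ↥A)) K2]
    [Algebra.IsIntegral ↥(F1C N (ResidueField ↥A)) K2]
    [HasPrincipalDivisors Kb ↥(FH N q H)]
    [HasPrincipalDivisors (ResidueField A) K1] [HasPrincipalDivisors (ResidueField A) K2]
    (Y : KummerCover (nodalC1 X Yc) K1 K2 ↥(FH N q H)) (hO1 : Y.U1.B.O = VH N q H hA)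
    (hO2 : Y.U2.B.O = pull (VH N q H hA)
      (wF (incl N q H) (range_incl N q H hH) (isRPart_of_le N q H hH) w hw))
    {p : ℕ} (hp : p.Prime) (hpq : p ≠ q)
    {g' g1 g2 : ℕ} (R' : RiemannHyp Kb ↥(FH N q H) g')
    (RK1 : RiemannHyp (ResidueField A) K1 g1) (RK2 : RiemannHyp (ResidueField A) K2 g2)
    (hun : ∀ P : Place Kb ↥(FH N q H), P.ramificationIndex ↥(F1pBar N q) = 1)
    {ν1 : K1} {θ1 : ↥(F1C N (ResidueField ↥A))}
    (hν1 : ν1 ^ Y.m = algebraMap ↥(F1C N (ResidueField ↥A)) K1 θ1)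
    (hcop1 : ∀ j : {b // b ∈ Yc.S}, IsCoprime (((nodalC1 X Yc).e1 j).ord θ1) (Y.m : ℤ))
    {ν2 : K2} {θ2 : ↥(F1C N (ResidueField ↥A))}
    (hν2 : ν2 ^ Y.m = algebraMap ↥(F1C N (ResidueField ↥A)) K2 θ2)
    (hcop2 : ∀ j : {b // b ∈ Yc.S}, IsCoprime (((nodalC1 X Yc).e2 j).ord θ2) (Y.m : ℤ)) :
    PrincipalPairH (incl N q H) p A (VH N q H hA)
      (wF (incl N q H) (range_incl N q H hH) (isRPart_of_le N q H hH) w hw) := by
  have : Nonempty {b // b ∈ Yc.S} := Fermat.Agent.S43.LG1.C1.ExitC2.nonempty_nodes X Yc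
  obtain ⟨Pstar, Qstar, hQstar, hstar⟩ := Fermat.Agent.S43.LG1.C1.ExitC2.exists_star X Yc
  have hpk : (p : ResidueField A) ≠ 0 := by
    have h := Fermat.Agent.S43.LG1.C1.ExitC2.natCast_ne_zero (A := A) hp hpq 1
    rwa [pow_one] at h
  exact Fermat.Agent.S43.LG1.Ig.WireH.principalPairH_FH N q H hH hA hI1 hw Y hO1 hO2
    (Fermat.Agent.S43.LG1.C1.ExitC2.r1_smul X Yc) (Fermat.Agent.S43.LG1.C1.ExitC2.r2_smul X Yc)
    (Fermat.Agent.S43.LG1.C1.ExitC2.adm_finite X Yc)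
    (Fermat.Agent.S43.LG1.C1.ExitC2.e1_injective X Yc)
    (Fermat.Agent.S43.LG1.C1.ExitC2.e2_injective X Yc) hpk
    (Fermat.Agent.S43.LG1.C1.ExitC2.riemannL X Yc) R'
    (Fermat.Agent.S43.LG1.C1.ExitC2.riemannK X) (Fermat.Agent.S43.LG1.C1.ExitC2.riemannK X)
    RK1 RK2 hun hν1 hcop1 hν2 hcop2 (Fermat.Agent.S43.LG1.C1.ExitC2.hNC_card X Yc)
    Pstar Qstar hQstar hstar

end Fermat.Agent.S43.LG1.Ig.WireC1
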